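/-
S13 project (lead): contracts for `FreyPackage.frey_reducible_hasCofixedLine`.

`V := E(ℚ̄)[p]` for the Frey curve `E`; `N` a Galois-stable line.  The contracts are:
* (T)  `TorsionRankStatement`   : `dim_{𝔽_p} V = 2`;
* (B)  `GlobalStatement`        : a normal open subgroup of `G_ℚ` containing the inertia groups at all
        primes `ℓ ≠ p` (all places) and at ONE place over `p` is everything (Minkowski);
* (D1) `UnipotentAtTwoStatement`: inertia at `2` acts unipotently on `V`;
* (D2) `NoFixedPointStatement`  : `V^{G_ℚ} = 0` (no rational point of order `p`; 2-adic argument);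
* (E)  `LocalAtPStatement`      : at some place over `p`, inertia acts trivially on `N` or on `V/N`;
* (C)  is statement S05 (`V` is unramified at odd `ℓ ≠ p`).
-/
import Mathlib
import Fermat.Prelude.Def_FLTPrelim_FreyPackage
import Fermat.Prelude.Def_FLTPrelim_GaloisRep
import Fermat.Prelude.Def_FLTPrelim_Ramification
import Fermat.Prelude.Def_FLTPrelim_CofixedLine

set_option autoImplicit false

open WeierstrassCurve WeierstrassCurve.Affine WeierstrassCurve.Affine.Point

namespace Fermat.Agent.Lib.S13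

/-- `ℚ̄`. -/
abbrev Qbar : Type := AlgebraicClosure ℚ

/-- `G_ℚ`. -/
abbrev GQ : Type := Qbar ≃ₐ[ℚ] Qbar

/-- The `p`-torsion of the Frey curve over `ℚ̄` (the module of the frozen statement). -/
abbrev FreyV (P : FreyPackage) : Type :=
  Submodule.torsionBy ℤ (P.freyCurve⁄Qbar).Point P.p

/-- (T): `E(ℚ̄)[p]` has dimension two over `𝔽_p`. -/
def TorsionRankStatement : Prop :=
  ∀ P : FreyPackage, Module.finrank (ZMod P.p) (FreyV P) = 2

/-- (B): Minkowski. A normal open subgroup of `G_ℚ` that contains every inertia group at every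
prime `ℓ ≠ p` and the inertia group of one place over `p` is the whole group. -/
def GlobalStatement : Prop :=
  ∀ (p : ℕ), p.Prime → ∀ H : Subgroup GQ, H.Normal →
    (∃ L : IntermediateField ℚ Qbar, FiniteDimensional ℚ L ∧ L.fixingSubgroup ≤ H) →
    (∀ ℓ : ℕ, ℓ.Prime → ℓ ≠ p → ∀ A : ValuationSubring Qbar, A.LiesOverPrime ℓ →
      A.inertiaSubgroupIn ℚ ≤ H) →
    (∃ A : ValuationSubring Qbar, A.LiesOverPrime p ∧ A.inertiaSubgroupIn ℚ ≤ H) →
    H = ⊤

/-- (D1): inertia at `2` acts unipotently on `E[p]`: `(σ - 1)² = 0`. -/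
def UnipotentAtTwoStatement : Prop :=
  ∀ (P : FreyPackage) (A : ValuationSubring Qbar), A.LiesOverPrime 2 →
    ∀ σ ∈ A.inertiaSubgroupIn ℚ, ∀ x : FreyV P, σ • (σ • x - x) = σ • x - x

/-- (D2): the Frey curve has no rational point of order `p`. -/
def NoFixedPointStatement : Prop :=
  ∀ (P : FreyPackage) (x : FreyV P), (∀ σ : GQ, σ • x = x) → x = 0

/-- (E): local analysis at `p`. For a Galois-stable line `N` there is a place over `p` whose inertia
group acts trivially on `N` or on `V/N`. -/
def LocalAtPStatement : Prop :=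
  ∀ P : FreyPackage, Module.finrank (ZMod P.p) (FreyV P) = 2 →
    ∀ N : Submodule (ZMod P.p) (FreyV P), IsGaloisStable ℚ N → N ≠ ⊥ → N ≠ ⊤ →
      ∃ A : ValuationSubring Qbar, A.LiesOverPrime P.p ∧
        ((∀ σ ∈ A.inertiaSubgroupIn ℚ, ∀ n ∈ N, σ • n = n) ∨
          (∀ σ ∈ A.inertiaSubgroupIn ℚ, ∀ x : FreyV P, σ • x - x ∈ N))

/-- (C): statement S05 in the shape used by the assembly. -/
def UnramifiedOddStatement : Prop :=
  ∀ (P : FreyPackage) {q : ℕ}, q.Prime → q ≠ 2 → q ≠ P.p → P.GaloisRepUnramifiedAt q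

/-- (O): the action on `V` factors through a finite level. -/
def OpenKernelStatement : Prop :=
  ∀ P : FreyPackage, Module.finrank (ZMod P.p) (FreyV P) = 2 →
    ∃ L : IntermediateField ℚ Qbar, FiniteDimensional ℚ L ∧
      ∀ σ ∈ L.fixingSubgroup, ∀ x : FreyV P, σ • x = x

end Fermat.Agent.Lib.S13
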