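/-
S13 project (lead): assembly of `FreyPackage.frey_reducible_hasCofixedLine` from the contracts of
`Fermat.Agent.Lib.S13.Defs`.
-/
import Mathlib
import Fermat.Agent.Lib.S13.Defs

set_option autoImplicit false

open WeierstrassCurve WeierstrassCurve.Affine WeierstrassCurve.Affine.Point

namespace Fermat.Agent.Lib.S13

section LinAlg

variable {K V : Type*} [Field K] [AddCommGroup V] [Module K V]

/-- An endomorphism `f` of a plane with `f² = 0` preserving a line `N` kills `N` and maps into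
`N`. -/
theorem lead_s13_sq_zero_line (f : V →ₗ[K] V) (hV : Module.finrank K V = 2)
    (N : Submodule K V) (hN0 : N ≠ ⊥) (hN1 : N ≠ ⊤)
    (hfN : ∀ n ∈ N, f n ∈ N) (hff : ∀ x, f (f x) = 0) :
    (∀ n ∈ N, f n = 0) ∧ (∀ x, f x ∈ N) := by
  have : FiniteDimensional K V := Module.finite_of_finrank_pos (by omega)
  have hN2 : Module.finrank K N < 2 := hV ▸ Submodule.finrank_lt hN1
  have hN3 : Module.finrank K N ≠ 0 := fun h => hN0 (Submodule.finrank_eq_zero.1 h)
  have hN : Module.finrank K N = 1 := by omega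
  obtain ⟨n₀, hn₀, hn₀0⟩ := Submodule.exists_mem_ne_zero_of_ne_bot hN0
  have hgen : ∀ w : N, ∃ c : K, c • (⟨n₀, hn₀⟩ : N) = w :=
    (finrank_eq_one_iff_of_nonzero' (⟨n₀, hn₀⟩ : N)
      (fun h => hn₀0 (congrArg Subtype.val h))).1 hN
  have hkill : ∀ n ∈ N, f n = 0 := by
    obtain ⟨c, hc⟩ := hgen ⟨f n₀, hfN n₀ hn₀⟩
    have hc' : c • n₀ = f n₀ := congrArg Subtype.val hc
    have h0 : f n₀ = 0 := by
      have h1 : f (f n₀) = 0 := hff n₀
      rw [← hc', map_smul, ← hc', smul_smul] at h1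
      rcases smul_eq_zero.1 h1 with h | h
      · have : c = 0 := by simpa using h
        rw [← hc', this, zero_smul]
      · exact absurd h hn₀0
    intro n hn
    obtain ⟨d, hd⟩ := hgen ⟨n, hn⟩
    have hd' : d • n₀ = n := congrArg Subtype.val hd
    rw [← hd', map_smul, h0, smul_zero]
  refine ⟨hkill, ?_⟩
  by_cases hf : f = 0
  · intro x; rw [hf]; exact N.zero_mem
  · have hle : N ≤ LinearMap.ker f := fun n hn => LinearMap.mem_ker.2 (hkill n hn)
    have hker : LinearMap.ker f ≠ ⊤ := fun h => hf (LinearMap.ker_eq_top.1 h)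
    have hk2 : Module.finrank K (LinearMap.ker f) < 2 :=
      hV ▸ Submodule.finrank_lt hker
    have hk1 : Module.finrank K N ≤ Module.finrank K (LinearMap.ker f) :=
      Submodule.finrank_mono hle
    have heq : N = LinearMap.ker f := Submodule.eq_of_le_of_finrank_eq hle (by omega)
    intro x
    rw [heq]
    exact LinearMap.mem_ker.2 (hff x)

end LinAlg

/-- The `ZMod p`-linear endomorphism `x ↦ σ • x - x` of `V`. -/
noncomputable def lead_s13_sigmaSubOne (P : FreyPackage) (σ : GQ) :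
    FreyV P →ₗ[ZMod P.p] FreyV P :=
  AddMonoidHom.toZModLinearMap P.p
    ((DistribSMul.toAddMonoidHom (FreyV P) σ) - AddMonoidHom.id _)

theorem lead_s13_sigmaSubOne_apply (P : FreyPackage) (σ : GQ) (x : FreyV P) :
    lead_s13_sigmaSubOne P σ x = σ • x - x := rfl

/-- `H1`: the elements of `G_ℚ` fixing `N` pointwise. -/
def lead_s13_H1 (P : FreyPackage) (N : Submodule (ZMod P.p) (FreyV P)) : Subgroup GQ where
  carrier := {σ | ∀ n ∈ N, σ • n = n}
  one_mem' := fun n _ => one_smul _ n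
  mul_mem' := fun {a b} ha hb n hn => by rw [mul_smul, hb n hn, ha n hn]
  inv_mem' := fun {a} ha n hn => by
    rw [inv_smul_eq_iff]; exact (ha n hn).symm

/-- `H2`: the elements of `G_ℚ` acting trivially on `V/N`. -/
def lead_s13_H2 (P : FreyPackage) (N : Submodule (ZMod P.p) (FreyV P)) : Subgroup GQ where
  carrier := {σ | ∀ x : FreyV P, σ • x - x ∈ N}
  one_mem' := fun x => by simp
  mul_mem' := fun {a b} ha hb x => by
    have : (a * b) • x - x = (a • (b • x) - b • x) + (b • x - x) := by rw [mul_smul]; abel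
    rw [this]; exact N.add_mem (ha _) (hb _)
  inv_mem' := fun {a} ha x => by
    have : a⁻¹ • x - x = -(a • (a⁻¹ • x) - a⁻¹ • x) := by rw [smul_inv_smul]; abel
    rw [this]; exact N.neg_mem (ha _)

theorem lead_s13_mem_H1 (P : FreyPackage) (N : Submodule (ZMod P.p) (FreyV P)) (σ : GQ) :
    σ ∈ lead_s13_H1 P N ↔ ∀ n ∈ N, σ • n = n := Iff.rfl

theorem lead_s13_mem_H2 (P : FreyPackage) (N : Submodule (ZMod P.p) (FreyV P)) (σ : GQ) :
    σ ∈ lead_s13_H2 P N ↔ ∀ x : FreyV P, σ • x - x ∈ N := Iff.rfl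

theorem lead_s13_H1_normal (P : FreyPackage) (N : Submodule (ZMod P.p) (FreyV P))
    (hNs : IsGaloisStable ℚ N) : (lead_s13_H1 P N).Normal := by
  refine ⟨fun g hg h n hn => ?_⟩
  have h1 : h⁻¹ • n ∈ N := hNs h⁻¹ n hn
  rw [mul_smul, mul_smul, hg _ h1, smul_inv_smul]

theorem lead_s13_H2_normal (P : FreyPackage) (N : Submodule (ZMod P.p) (FreyV P))
    (hNs : IsGaloisStable ℚ N) : (lead_s13_H2 P N).Normal := by
  refine ⟨fun g hg h x => ?_⟩
  have h1 : g • (h⁻¹ • x) - h⁻¹ • x ∈ N := hg (h⁻¹ • x)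
  have h2 : (h * g * h⁻¹) • x - x = h • (g • (h⁻¹ • x) - h⁻¹ • x) := by
    rw [mul_smul, mul_smul, smul_sub, smul_inv_smul]
  rw [h2]
  exact hNs h _ h1

/-- Assembly of S13 from the contracts. -/
theorem s13_of_contracts
    (hT : TorsionRankStatement) (hB : GlobalStatement) (hD1 : UnipotentAtTwoStatement)
    (hD2 : NoFixedPointStatement) (hE : LocalAtPStatement) (hC : UnramifiedOddStatement)
    (hO : OpenKernelStatement)
    (P : FreyPackage)
    (hred : ¬ GaloisRepIsIrreducible (K := Qbar) ℚ P.freyCurve P.p) :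
    HasGaloisStableCofixedLine (K := Qbar) ℚ P.freyCurve P.p := by
  have : Fact P.p.Prime := ⟨P.pp⟩
  have hV : Module.finrank (ZMod P.p) (FreyV P) = 2 := hT P
  have : Nontrivial (FreyV P) :=
    Module.nontrivial_of_finrank_pos (R := ZMod P.p) (by omega)
  -- the stable line
  obtain ⟨N, hNs, hN0, hN1⟩ : ∃ N : Submodule (ZMod P.p) (FreyV P),
      IsGaloisStable ℚ N ∧ N ≠ ⊥ ∧ N ≠ ⊤ := by
    by_contra hcon
    push Not at hcon
    apply hred
    refine ⟨inferInstance, fun N hN => ?_⟩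
    by_contra h
    push Not at h
    exact h.2 (hcon N hN h.1)
  -- open kernel
  obtain ⟨L, hLfin, hL⟩ := hO P hV
  have hL1 : L.fixingSubgroup ≤ lead_s13_H1 P N := fun σ hσ n _ => hL σ hσ n
  have hL2 : L.fixingSubgroup ≤ lead_s13_H2 P N := fun σ hσ x => by
    rw [hL σ hσ x, sub_self]; exact N.zero_mem
  -- inertia away from p
  have hI : ∀ ℓ : ℕ, ℓ.Prime → ℓ ≠ P.p → ∀ A : ValuationSubring Qbar, A.LiesOverPrime ℓ →
      ∀ σ ∈ A.inertiaSubgroupIn ℚ, (∀ n ∈ N, σ • n = n) ∧ (∀ x : FreyV P, σ • x - x ∈ N) := by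
    intro ℓ hℓ hℓp A hA σ hσ
    by_cases h2 : ℓ = 2
    · subst h2
      have hu := hD1 P A hA σ hσ
      have := lead_s13_sq_zero_line (lead_s13_sigmaSubOne P σ) hV N hN0 hN1
        (fun n hn => by
          rw [lead_s13_sigmaSubOne_apply]
          exact N.sub_mem (hNs σ n hn) hn)
        (fun x => by
          rw [lead_s13_sigmaSubOne_apply, lead_s13_sigmaSubOne_apply, hu x, sub_self])
      refine ⟨fun n hn => ?_, fun x => ?_⟩
      · have := this.1 n hn
        rw [lead_s13_sigmaSubOne_apply, sub_eq_zero] at this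
        exact this
      · have := this.2 x
        rw [lead_s13_sigmaSubOne_apply] at this
        exact this
    · have hfix := hC P hℓ h2 hℓp A hA σ hσ
      refine ⟨fun n _ => hfix n, fun x => ?_⟩
      have e : σ • x = x := hfix x
      rw [e, sub_self]; exact N.zero_mem
  -- local at p
  obtain ⟨A, hA, hcase⟩ := hE P hV N hNs hN0 hN1
  rcases hcase with h1 | h2
  · -- H1 = ⊤: contradiction with (D2)
    exfalso
    have htop : lead_s13_H1 P N = ⊤ :=
      hB P.p P.pp (lead_s13_H1 P N) (lead_s13_H1_normal P N hNs) ⟨L, hLfin, hL1⟩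
        (fun ℓ hℓ hℓp A' hA' σ hσ => (hI ℓ hℓ hℓp A' hA' σ hσ).1) ⟨A, hA, fun σ hσ => h1 σ hσ⟩
    obtain ⟨n₀, hn₀, hn₀0⟩ := Submodule.exists_mem_ne_zero_of_ne_bot hN0
    refine hn₀0 (hD2 P n₀ fun σ => ?_)
    have : σ ∈ lead_s13_H1 P N := htop ▸ Subgroup.mem_top σ
    exact this n₀ hn₀
  · have htop : lead_s13_H2 P N = ⊤ :=
      hB P.p P.pp (lead_s13_H2 P N) (lead_s13_H2_normal P N hNs) ⟨L, hLfin, hL2⟩
        (fun ℓ hℓ hℓp A' hA' σ hσ => (hI ℓ hℓ hℓp A' hA' σ hσ).2) ⟨A, hA, fun σ hσ => h2 σ hσ⟩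
    refine ⟨N, hNs, hN0, hN1, fun σ x => ?_⟩
    have : σ ∈ lead_s13_H2 P N := htop ▸ Subgroup.mem_top σ
    exact this x

end Fermat.Agent.Lib.S13
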