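/-
S13 project, stream (D), piece (D-K) (helper9): the kernel of reduction of an ARBITRARY integral
Weierstrass model has no torsion prime to the residue characteristic.

Setting: `L` a field with a valuation `v : Valuation L Γ₀` (multiplicative notation), `W` a
Weierstrass curve over `L` with `v aᵢ ≤ 1` for `i = 1, 2, 3, 4, 6`.  The kernel of reduction
consists of the origin and of the points with `1 < v x`.

This generalises helper7's `Lib/S05/KernelTorsion.lean` (which assumed `a₁ = a₃ = 0`).  In the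
coordinates `t = X/Y`, `s = 1/Y` the curve is
`s = t³ + a₂t²s + a₄ts² + a₆s³ - a₁ts - a₃s²`; for two kernel points with `v t ≤ r < 1` the chord
(or tangent) `s = αt + β` has `v α ≤ r²`, `v β ≤ r³`, and `t(P + Q) ≡ t(P) + t(Q)` modulo `r²`.
By induction `t(n • P) ≡ n t(P)` modulo `(v t(P))²`, so `n • P = 0` forces `v n < 1`.

Main results: `h9k_add_est`, `h9k_ker_add`, `h9k_nsmul_est`, `h9k_smul_ne_zero`,
`h9k_eq_zero_of_nsmul`, `h9k_kernel`.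
-/
import Mathlib

set_option autoImplicit false

namespace Fermat.Agent.Lib.S13

section core

variable {L : Type*} [Field L] {Γ₀ : Type*} [LinearOrderedCommGroupWithZero Γ₀]
  (v : Valuation L Γ₀)

theorem h9k_est_mul {x y : L} {a b : Γ₀} (hx : v x ≤ a) (hy : v y ≤ b) : v (x * y) ≤ a * b := by
  rw [map_mul]; exact mul_le_mul' hx hy

theorem h9k_est_int_mul {x y : L} {c : Γ₀} (hx : v x ≤ 1) (hy : v y ≤ c) : v (x * y) ≤ c := by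
  simpa using h9k_est_mul v hx hy

theorem h9k_est_mul_int {x y : L} {c : Γ₀} (hx : v x ≤ c) (hy : v y ≤ 1) : v (x * y) ≤ c := by
  simpa using h9k_est_mul v hx hy

theorem h9k_est_pow {x : L} {a : Γ₀} (hx : v x ≤ a) (n : ℕ) : v (x ^ n) ≤ a ^ n := by
  rw [map_pow]; exact pow_le_pow_left₀ zero_le hx n

theorem h9k_natCast_le_one (n : ℕ) : v (n : L) ≤ 1 := by
  induction n with
  | zero => simp
  | succ k ih =>
    push_cast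
    exact v.map_add_le ih (by simp)

theorem h9k_sum_aux {X1 X2 X3 u1 u2 u3 ν : L} (hν : ν ≠ 0) (h1 : u1 ≠ 0) (h2 : u2 ≠ 0)
    (h3 : u3 ≠ 0) :
    X3 / (ν * u3) + X1 / (ν * u1) + X2 / (ν * u2)
      = -((1 / ν) * (-(X1 * u2 * u3 + u1 * X2 * u3 + u1 * u2 * X3))) / (u1 * u2 * u3) := by
  field_simp
  ring

/-- The unified core estimate: `X1, X2, X3` are the three roots of
`X³ + a₂X² + a₄X + a₆ - (ℓX + ν)² - a₁X(ℓX + ν) - a₃(ℓX + ν)`. -/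
theorem h9k_core {a₁ a₂ a₃ a₄ a₆ X1 X2 X3 ℓ ν : L} {r : Γ₀}
    (hr : r < 1) (h1 : v a₁ ≤ 1) (h2 : v a₂ ≤ 1) (h3 : v a₃ ≤ 1) (h4 : v a₄ ≤ 1) (h6 : v a₆ ≤ 1)
    (V2 : a₂ = ℓ ^ 2 + a₁ * ℓ - (X1 + X2 + X3))
    (V4 : a₄ = 2 * ℓ * ν + a₁ * ν + a₃ * ℓ + (X1 * X2 + X1 * X3 + X2 * X3))
    (V6 : a₆ = ν ^ 2 + a₃ * ν - X1 * X2 * X3)
    (hν : ν ≠ 0) (hY1 : ℓ * X1 + ν ≠ 0) (hY2 : ℓ * X2 + ν ≠ 0)
    (hα : v ℓ ≤ r ^ 2 * v ν)
    (ht1 : v (X1 / (ℓ * X1 + ν)) ≤ r) (ht2 : v (X2 / (ℓ * X2 + ν)) ≤ r)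
    (hs1 : v (1 / (ℓ * X1 + ν)) ≤ r ^ 3) :
    ℓ * X3 + ν ≠ 0 ∧ 1 < v X3 ∧ v (X3 / (ℓ * X3 + ν)) ≤ r ∧ v (1 / (ℓ * X3 + ν)) ≤ r ^ 3 ∧
      v (X3 / (ℓ * X3 + ν) + X1 / (ℓ * X1 + ν) + X2 / (ℓ * X2 + ν)) ≤ r ^ 2 := by
  have hr1 : r ≤ 1 := le_of_lt hr
  have hr3 : r ^ 3 ≤ r := pow_le_of_le_one zero_le hr1 (by norm_num)
  have hr32 : r ^ 3 ≤ r ^ 2 := pow_le_pow_of_le_one zero_le hr1 (by norm_num)
  have hr2 : r ^ 2 ≤ r := pow_le_of_le_one zero_le hr1 (by norm_num)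
  have hr2lt : r ^ 2 < 1 := pow_lt_one₀ zero_le hr (by norm_num)
  have hr3lt : r ^ 3 < 1 := pow_lt_one₀ zero_le hr (by norm_num)
  have hvν : v ν ≠ 0 := (Valuation.ne_zero_iff v).mpr hν
  -- the slope of the line in the (t,s)-plane
  obtain ⟨α, hαdef⟩ : ∃ α : L, ℓ = -α * ν := ⟨-ℓ / ν, by field_simp⟩
  have hvα : v α ≤ r ^ 2 := by
    have : v ℓ = v α * v ν := by rw [hαdef, map_mul, Valuation.map_neg]
    rw [this] at hα
    exact le_of_mul_le_mul_right hα (zero_lt_iff.mpr hvν)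
  have hvα1 : v α < 1 := lt_of_le_of_lt hvα hr2lt
  have hvα1' : v α ≤ 1 := le_of_lt hvα1
  -- A3
  have hA3 : (ℓ * X1 + ν) * (ℓ * X2 + ν) * (ℓ * X3 + ν)
      = ν ^ 3 * (1 + (a₂ * α + a₄ * α ^ 2 + a₆ * α ^ 3)) := by
    rw [V2, V4, V6, hαdef]; ring
  have hvA3 : v (1 + (a₂ * α + a₄ * α ^ 2 + a₆ * α ^ 3)) = 1 := by
    apply Valuation.map_one_add_of_lt
    refine v.map_add_lt (v.map_add_lt ?_ ?_) ?_
    · exact lt_of_le_of_lt (h9k_est_int_mul v h2 le_rfl) hvα1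
    · refine lt_of_le_of_lt (h9k_est_int_mul v h4 le_rfl) ?_
      rw [map_pow]; exact pow_lt_one₀ zero_le hvα1 (by norm_num)
    · refine lt_of_le_of_lt (h9k_est_int_mul v h6 le_rfl) ?_
      rw [map_pow]; exact pow_lt_one₀ zero_le hvα1 (by norm_num)
  have hA3ne : (1 + (a₂ * α + a₄ * α ^ 2 + a₆ * α ^ 3)) ≠ 0 := by
    intro h; rw [h, map_zero] at hvA3; exact zero_ne_one hvA3
  have hY3 : ℓ * X3 + ν ≠ 0 := by
    intro h
    rw [h, mul_zero] at hA3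
    exact (mul_ne_zero (pow_ne_zero 3 hν) hA3ne) hA3.symm
  -- β = 1/ν
  have hf : ∀ X : L, ℓ * X + ν = ν * (1 - α * X) := by
    intro X; rw [hαdef]; ring
  have hu : ∀ X : L, ℓ * X + ν ≠ 0 → 1 - α * X ≠ 0 := by
    intro X hX h0
    apply hX
    rw [hf, h0, mul_zero]
  have hu1 := hu X1 hY1
  have hu2 := hu X2 hY2
  have hu3 := hu X3 hY3
  have hβ : 1 / ν = 1 / (ℓ * X1 + ν) - α * (X1 / (ℓ * X1 + ν)) := by
    rw [hf]
    field_simp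
  have hvβ : v (1 / ν) ≤ r ^ 3 := by
    rw [hβ]
    refine v.map_sub_le hs1 ?_
    calc v (α * (X1 / (ℓ * X1 + ν))) ≤ r ^ 2 * r := h9k_est_mul v hvα ht1
      _ = r ^ 3 := (pow_succ r 2).symm
  -- the sum of the three t-values
  have hA3' : 1 + (a₂ * α + a₄ * α ^ 2 + a₆ * α ^ 3)
      = (1 - α * X1) * (1 - α * X2) * (1 - α * X3) := by
    rw [V2, V4, V6, hαdef]; ring
  have hB : (a₂ + 2 * a₄ * α + 3 * a₆ * α ^ 2) - ν * (a₁ * α + a₃ * α ^ 2)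
      = -(X1 * (1 - α * X2) * (1 - α * X3) + (1 - α * X1) * X2 * (1 - α * X3)
          + (1 - α * X1) * (1 - α * X2) * X3) := by
    rw [V2, V4, V6, hαdef]; ring
  have hsum : X3 / (ℓ * X3 + ν) + X1 / (ℓ * X1 + ν) + X2 / (ℓ * X2 + ν)
      = -((1 / ν) * ((a₂ + 2 * a₄ * α + 3 * a₆ * α ^ 2) - ν * (a₁ * α + a₃ * α ^ 2)))
        / (1 + (a₂ * α + a₄ * α ^ 2 + a₆ * α ^ 3)) := by
    rw [hf, hf, hf, hA3', hB]
    exact h9k_sum_aux hν hu1 hu2 hu3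
  have hsum' : (1 / ν) * ((a₂ + 2 * a₄ * α + 3 * a₆ * α ^ 2) - ν * (a₁ * α + a₃ * α ^ 2))
      = (1 / ν) * (a₂ + 2 * a₄ * α + 3 * a₆ * α ^ 2) - (a₁ * α + a₃ * α ^ 2) := by
    field_simp
  have h2le : v (2 : L) ≤ 1 := by simpa using h9k_natCast_le_one v 2
  have h3le : v (3 : L) ≤ 1 := by simpa using h9k_natCast_le_one v 3
  have hvsum : v (X3 / (ℓ * X3 + ν) + X1 / (ℓ * X1 + ν) + X2 / (ℓ * X2 + ν)) ≤ r ^ 2 := by
    rw [hsum, map_div₀, hvA3, div_one, Valuation.map_neg, hsum']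
    refine v.map_sub_le ?_ ?_
    · refine le_trans (h9k_est_mul_int v hvβ ?_) hr32
      refine v.map_add_le (v.map_add_le h2 ?_) ?_
      · exact h9k_est_mul_int v (h9k_est_int_mul v h2le h4) hvα1'
      · refine h9k_est_mul_int v (h9k_est_int_mul v h3le h6) ?_
        rw [map_pow]; exact pow_le_one₀ zero_le hvα1'
    · refine v.map_add_le (h9k_est_int_mul v h1 hvα) (h9k_est_int_mul v h3 ?_)
      rw [map_pow]
      calc v α ^ 2 ≤ v α := pow_le_of_le_one zero_le hvα1' (by norm_num)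
        _ ≤ r ^ 2 := hvα
  -- v t3 ≤ r
  have hvt3 : v (X3 / (ℓ * X3 + ν)) ≤ r := by
    have : X3 / (ℓ * X3 + ν) = (X3 / (ℓ * X3 + ν) + X1 / (ℓ * X1 + ν) + X2 / (ℓ * X2 + ν))
        - X1 / (ℓ * X1 + ν) - X2 / (ℓ * X2 + ν) := by ring
    rw [this]
    exact v.map_sub_le (v.map_sub_le (le_trans hvsum hr2) ht1) ht2
  -- v s3 ≤ r^3
  have hs3 : 1 / (ℓ * X3 + ν) = α * (X3 / (ℓ * X3 + ν)) + 1 / ν := by
    rw [hf]
    field_simp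
    ring
  have hvs3' : v (1 / (ℓ * X3 + ν)) ≤ r ^ 3 := by
    rw [hs3]
    refine v.map_add_le (g := r ^ 3) ?_ hvβ
    calc v (α * (X3 / (ℓ * X3 + ν))) ≤ r ^ 2 * r := h9k_est_mul v hvα hvt3
      _ = r ^ 3 := (pow_succ r 2).symm
  have hvs3 : v (1 / (ℓ * X3 + ν)) < 1 := lt_of_le_of_lt hvs3' hr3lt
  refine ⟨hY3, ?_, hvt3, hvs3', hvsum⟩
  have hvY3 : 1 < v (ℓ * X3 + ν) := by
    rw [map_div₀, map_one] at hvs3
    have h0 : 0 < v (ℓ * X3 + ν) := zero_lt_iff.mpr ((Valuation.ne_zero_iff v).mpr hY3)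
    rwa [div_lt_one₀ h0] at hvs3
  -- the equation for the third point
  have hE3 : (ℓ * X3 + ν) * ((ℓ * X3 + ν) + (a₁ * X3 + a₃))
      = X3 ^ 3 + a₂ * X3 ^ 2 + a₄ * X3 + a₆ := by
    rw [V2, V4, V6]; ring
  by_contra hcon
  rw [not_lt] at hcon
  have hle : v ((ℓ * X3 + ν) * ((ℓ * X3 + ν) + (a₁ * X3 + a₃))) ≤ 1 := by
    rw [hE3]
    refine v.map_add_le (v.map_add_le (v.map_add_le ?_ ?_) ?_) h6
    · rw [map_pow]; exact pow_le_one₀ zero_le hcon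
    · refine h9k_est_int_mul v h2 ?_
      rw [map_pow]; exact pow_le_one₀ zero_le hcon
    · exact h9k_est_int_mul v h4 hcon
  have hsmall : v (a₁ * X3 + a₃) < v (ℓ * X3 + ν) :=
    lt_of_le_of_lt (v.map_add_le (h9k_est_int_mul v h1 hcon) h3) hvY3
  rw [map_mul, v.map_add_eq_of_lt_left hsmall] at hle
  have : 1 < v (ℓ * X3 + ν) * v (ℓ * X3 + ν) := one_lt_mul_of_lt_of_le' hvY3 (le_of_lt hvY3)
  exact absurd hle (not_le.mpr this)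

end core

section ker

variable {L : Type*} [Field L] {Γ₀ : Type*} [LinearOrderedCommGroupWithZero Γ₀]
  (v : Valuation L Γ₀)

/-- The right-hand side of the Weierstrass equation at a point with `1 < v X`. -/
theorem h9k_vRHS {a₂ a₄ a₆ X : L} (h2 : v a₂ ≤ 1) (h4 : v a₄ ≤ 1) (h6 : v a₆ ≤ 1)
    (hX : 1 < v X) : v (X ^ 3 + a₂ * X ^ 2 + a₄ * X + a₆) = v X ^ 3 := by
  have e1 : v (a₂ * X ^ 2) < v (X ^ 3) := by
    rw [map_mul, map_pow, map_pow]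
    calc v a₂ * v X ^ 2 ≤ 1 * v X ^ 2 := mul_le_mul_left h2 _
      _ = v X ^ 2 := one_mul _
      _ < v X ^ 3 := pow_lt_pow_right₀ hX (by norm_num)
  have e2 : v (a₄ * X) < v (X ^ 3) := by
    rw [map_mul, map_pow]
    calc v a₄ * v X ≤ 1 * v X := mul_le_mul_left h4 _
      _ = v X ^ 1 := by rw [one_mul, pow_one]
      _ < v X ^ 3 := pow_lt_pow_right₀ hX (by norm_num)
  have e3 : v a₆ < v (X ^ 3) := by
    rw [map_pow]
    exact lt_of_le_of_lt h6 (one_lt_pow₀ hX (by norm_num))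
  have s1 : v (X ^ 3 + a₂ * X ^ 2) = v (X ^ 3) := v.map_add_eq_of_lt_left e1
  have s2 : v (X ^ 3 + a₂ * X ^ 2 + a₄ * X) = v (X ^ 3) := by
    rw [v.map_add_eq_of_lt_left (by rw [s1]; exact e2), s1]
  have s3 : v (X ^ 3 + a₂ * X ^ 2 + a₄ * X + a₆) = v (X ^ 3) := by
    rw [v.map_add_eq_of_lt_left (by rw [s2]; exact e3), s2]
  rw [s3, map_pow]

theorem h9k_vX_lt_vY {a₁ a₂ a₃ a₄ a₆ X Y : L} (h1 : v a₁ ≤ 1) (h2 : v a₂ ≤ 1) (h3 : v a₃ ≤ 1)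
    (h4 : v a₄ ≤ 1) (h6 : v a₆ ≤ 1)
    (hE : Y * (Y + (a₁ * X + a₃)) = X ^ 3 + a₂ * X ^ 2 + a₄ * X + a₆) (hX : 1 < v X) :
    v X < v Y := by
  have hR := h9k_vRHS v h2 h4 h6 hX
  by_contra hcon
  rw [not_lt] at hcon
  have hX0 : (0 : Γ₀) < v X := lt_trans zero_lt_one hX
  have h5 : v (a₁ * X + a₃) ≤ v X :=
    v.map_add_le (h9k_est_int_mul v h1 le_rfl) (le_trans h3 (le_of_lt hX))
  have h7 : v (Y * (Y + (a₁ * X + a₃))) ≤ v X * v X :=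
    h9k_est_mul v hcon (v.map_add_le hcon h5)
  rw [hE, hR] at h7
  have h8 : v X * v X < v X ^ 3 := by
    rw [← sq]; exact pow_lt_pow_right₀ hX (by norm_num)
  exact absurd h7 (not_le.mpr h8)

theorem h9k_one_lt_vY {a₁ a₂ a₃ a₄ a₆ X Y : L} (h1 : v a₁ ≤ 1) (h2 : v a₂ ≤ 1) (h3 : v a₃ ≤ 1)
    (h4 : v a₄ ≤ 1) (h6 : v a₆ ≤ 1)
    (hE : Y * (Y + (a₁ * X + a₃)) = X ^ 3 + a₂ * X ^ 2 + a₄ * X + a₆) (hX : 1 < v X) :
    1 < v Y := lt_trans hX (h9k_vX_lt_vY v h1 h2 h3 h4 h6 hE hX)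

theorem h9k_vY_sq {a₁ a₂ a₃ a₄ a₆ X Y : L} (h1 : v a₁ ≤ 1) (h2 : v a₂ ≤ 1) (h3 : v a₃ ≤ 1)
    (h4 : v a₄ ≤ 1) (h6 : v a₆ ≤ 1)
    (hE : Y * (Y + (a₁ * X + a₃)) = X ^ 3 + a₂ * X ^ 2 + a₄ * X + a₆) (hX : 1 < v X) :
    v Y ^ 2 = v X ^ 3 := by
  have hR := h9k_vRHS v h2 h4 h6 hX
  have hXY := h9k_vX_lt_vY v h1 h2 h3 h4 h6 hE hX
  have h5 : v (a₁ * X + a₃) < v Y :=
    lt_of_le_of_lt (v.map_add_le (h9k_est_int_mul v h1 le_rfl) (le_trans h3 (le_of_lt hX))) hXY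
  have := congrArg v hE
  rw [map_mul, v.map_add_eq_of_lt_left h5, hR] at this
  rw [sq]; exact this

/-- `v (1/Y) = v (X/Y) ^ 3` for a kernel point. -/
theorem h9k_vs_eq {a₁ a₂ a₃ a₄ a₆ X Y : L} (h1 : v a₁ ≤ 1) (h2 : v a₂ ≤ 1) (h3 : v a₃ ≤ 1)
    (h4 : v a₄ ≤ 1) (h6 : v a₆ ≤ 1)
    (hE : Y * (Y + (a₁ * X + a₃)) = X ^ 3 + a₂ * X ^ 2 + a₄ * X + a₆) (hX : 1 < v X) :
    v (1 / Y) = v (X / Y) ^ 3 := by
  have h := h9k_vY_sq v h1 h2 h3 h4 h6 hE hX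
  have hY : 1 < v Y := h9k_one_lt_vY v h1 h2 h3 h4 h6 hE hX
  have hY0 : v Y ≠ 0 := ne_of_gt (lt_trans zero_lt_one hY)
  rw [map_div₀, map_div₀, map_one, div_pow, ← h]
  field_simp

theorem h9k_vt_lt_one {a₁ a₂ a₃ a₄ a₆ X Y : L} (h1 : v a₁ ≤ 1) (h2 : v a₂ ≤ 1) (h3 : v a₃ ≤ 1)
    (h4 : v a₄ ≤ 1) (h6 : v a₆ ≤ 1)
    (hE : Y * (Y + (a₁ * X + a₃)) = X ^ 3 + a₂ * X ^ 2 + a₄ * X + a₆) (hX : 1 < v X) :
    v (X / Y) < 1 := by
  have hY : 1 < v Y := h9k_one_lt_vY v h1 h2 h3 h4 h6 hE hX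
  have hY0 : 0 < v Y := lt_trans zero_lt_one hY
  rw [map_div₀, div_lt_one₀ hY0]
  exact h9k_vX_lt_vY v h1 h2 h3 h4 h6 hE hX

/-- kernel facts bundled: `Y ≠ 0`, `v (1/Y) ≤ r^3`. -/
theorem h9k_ker_facts {a₁ a₂ a₃ a₄ a₆ X Y : L} {r : Γ₀} (hr : r < 1)
    (h1 : v a₁ ≤ 1) (h2 : v a₂ ≤ 1) (h3 : v a₃ ≤ 1) (h4 : v a₄ ≤ 1) (h6 : v a₆ ≤ 1)
    (hE : Y * (Y + (a₁ * X + a₃)) = X ^ 3 + a₂ * X ^ 2 + a₄ * X + a₆) (hX : 1 < v X)
    (ht : v (X / Y) ≤ r) :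
    Y ≠ 0 ∧ v (1 / Y) ≤ r ^ 3 ∧ v (1 / Y) ≤ r ^ 2 ∧ v (1 / Y) ≤ r := by
  have hY : 1 < v Y := h9k_one_lt_vY v h1 h2 h3 h4 h6 hE hX
  have hY0 : Y ≠ 0 := by
    intro h; rw [h, map_zero] at hY; exact absurd hY (not_lt.mpr zero_le)
  have hs : v (1 / Y) ≤ r ^ 3 := by
    rw [h9k_vs_eq v h1 h2 h3 h4 h6 hE hX]
    exact pow_le_pow_left₀ zero_le ht 3
  exact ⟨hY0, hs, le_trans hs (pow_le_pow_of_le_one zero_le (le_of_lt hr) (by norm_num)),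
    le_trans hs (pow_le_of_le_one zero_le (le_of_lt hr) (by norm_num))⟩

end ker

section alpha

variable {L : Type*} [Field L] {Γ₀ : Type*} [LinearOrderedCommGroupWithZero Γ₀]
  (v : Valuation L Γ₀)

/-- The curve equation in the coordinates `t = X/Y`, `s = 1/Y`. -/
theorem h9k_ts_eq {a₁ a₂ a₃ a₄ a₆ X Y : L} (hY : Y ≠ 0)
    (hE : Y * (Y + (a₁ * X + a₃)) = X ^ 3 + a₂ * X ^ 2 + a₄ * X + a₆) :
    1 / Y = (X / Y) ^ 3 + a₂ * (X / Y) ^ 2 * (1 / Y) + a₄ * (X / Y) * (1 / Y) ^ 2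
      + a₆ * (1 / Y) ^ 3 - a₁ * (X / Y) * (1 / Y) - a₃ * (1 / Y) ^ 2 := by
  field_simp
  linear_combination hE

/-- Difference-quotient estimate in the `(t,s)`-plane. -/
theorem h9k_chord_ts {a₁ a₂ a₃ a₄ a₆ t1 t2 s1 s2 : L} {r : Γ₀} (hr : r < 1)
    (h1 : v a₁ ≤ 1) (h2 : v a₂ ≤ 1) (h3 : v a₃ ≤ 1) (h4 : v a₄ ≤ 1) (h6 : v a₆ ≤ 1)
    (C1 : s1 = t1 ^ 3 + a₂ * t1 ^ 2 * s1 + a₄ * t1 * s1 ^ 2 + a₆ * s1 ^ 3
      - a₁ * t1 * s1 - a₃ * s1 ^ 2)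
    (C2 : s2 = t2 ^ 3 + a₂ * t2 ^ 2 * s2 + a₄ * t2 * s2 ^ 2 + a₆ * s2 ^ 3
      - a₁ * t2 * s2 - a₃ * s2 ^ 2)
    (ht1 : v t1 ≤ r) (ht2 : v t2 ≤ r) (hs1 : v s1 ≤ r ^ 2) (hs2 : v s2 ≤ r ^ 2) :
    v (s2 - s1) ≤ r ^ 2 * v (t2 - t1) := by
  have hrr : r * r = r ^ 2 := (sq r).symm
  have hr1 : r ≤ 1 := le_of_lt hr
  have hr2 : r ^ 2 ≤ 1 := pow_le_one₀ zero_le hr1
  have hr2r : r ^ 2 ≤ r := pow_le_of_le_one zero_le hr1 (by norm_num)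
  have hs1r : v s1 ≤ r := le_trans hs1 hr2r
  have hs2r : v s2 ≤ r := le_trans hs2 hr2r
  have hs1' : v s1 ≤ 1 := le_trans hs1 hr2
  have hs2' : v s2 ≤ 1 := le_trans hs2 hr2
  have ht1' : v t1 ≤ 1 := le_trans ht1 hr1
  have ht2' : v t2 ≤ 1 := le_trans ht2 hr1
  have key : (s2 - s1) * (1 - (a₂ * t1 ^ 2 + a₄ * (t1 * (s1 + s2))
        + a₆ * (s1 ^ 2 + s1 * s2 + s2 ^ 2) - a₁ * t1 - a₃ * (s1 + s2)))
      = (t2 - t1) * (t2 ^ 2 + t1 * t2 + t1 ^ 2 + a₂ * ((t1 + t2) * s2) + a₄ * s2 ^ 2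
          - a₁ * s2) := by
    linear_combination C2 - C1
  have e_t1sq : v (t1 ^ 2) ≤ r ^ 2 := by rw [map_pow]; exact pow_le_pow_left₀ zero_le ht1 2
  have e_t2sq : v (t2 ^ 2) ≤ r ^ 2 := by rw [map_pow]; exact pow_le_pow_left₀ zero_le ht2 2
  have e_s1sq : v (s1 ^ 2) ≤ r := by
    rw [sq]; exact h9k_est_int_mul v hs1' hs1r
  have e_s2sq : v (s2 ^ 2) ≤ r := by
    rw [sq]; exact h9k_est_int_mul v hs2' hs2r
  have e_s2sq' : v (s2 ^ 2) ≤ r ^ 2 := by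
    rw [sq]; exact h9k_est_int_mul v hs2' hs2
  have e_t1t2 : v (t1 * t2) ≤ r ^ 2 := hrr ▸ h9k_est_mul v ht1 ht2
  have e_s1s2 : v (s1 * s2) ≤ r := h9k_est_int_mul v hs1' hs2r
  have hD : v (1 - (a₂ * t1 ^ 2 + a₄ * (t1 * (s1 + s2))
        + a₆ * (s1 ^ 2 + s1 * s2 + s2 ^ 2) - a₁ * t1 - a₃ * (s1 + s2))) = 1 := by
    apply Valuation.map_one_sub_of_lt
    refine lt_of_le_of_lt (v.map_sub_le (g := r) (v.map_sub_le
      (v.map_add_le (v.map_add_le ?_ ?_) ?_) ?_) ?_) hr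
    · exact h9k_est_int_mul v h2 (le_trans e_t1sq hr2r)
    · refine h9k_est_int_mul v h4 ?_
      exact h9k_est_int_mul v ht1' (v.map_add_le hs1r hs2r)
    · exact h9k_est_int_mul v h6 (v.map_add_le (v.map_add_le e_s1sq e_s1s2) e_s2sq)
    · exact h9k_est_int_mul v h1 ht1
    · exact h9k_est_int_mul v h3 (v.map_add_le hs1r hs2r)
  have hN : v (t2 ^ 2 + t1 * t2 + t1 ^ 2 + a₂ * ((t1 + t2) * s2) + a₄ * s2 ^ 2
      - a₁ * s2) ≤ r ^ 2 := by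
    refine v.map_sub_le (v.map_add_le (v.map_add_le
      (v.map_add_le (v.map_add_le e_t2sq e_t1t2) e_t1sq) ?_) ?_) ?_
    · refine h9k_est_int_mul v h2 ?_
      exact h9k_est_int_mul v (v.map_add_le ht1' ht2') hs2
    · exact h9k_est_int_mul v h4 e_s2sq'
    · exact h9k_est_int_mul v h1 hs2
  have := congrArg v key
  rw [map_mul, map_mul, hD, mul_one] at this
  rw [this, mul_comm]
  exact mul_le_mul_left hN _

/-- The chord case: the intercept is nonzero and the slope of the `(t,s)`-line is small. -/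
theorem h9k_chord_alpha {a₁ a₂ a₃ a₄ a₆ X1 Y1 X2 Y2 : L} {r : Γ₀} (hr : r < 1)
    (h1 : v a₁ ≤ 1) (h2 : v a₂ ≤ 1) (h3 : v a₃ ≤ 1) (h4 : v a₄ ≤ 1) (h6 : v a₆ ≤ 1)
    (hE1 : Y1 * (Y1 + (a₁ * X1 + a₃)) = X1 ^ 3 + a₂ * X1 ^ 2 + a₄ * X1 + a₆)
    (hE2 : Y2 * (Y2 + (a₁ * X2 + a₃)) = X2 ^ 3 + a₂ * X2 ^ 2 + a₄ * X2 + a₆)
    (hY1 : Y1 ≠ 0) (hY2 : Y2 ≠ 0) (hX : X1 ≠ X2)
    (ht1 : v (X1 / Y1) ≤ r) (ht2 : v (X2 / Y2) ≤ r)
    (hs1 : v (1 / Y1) ≤ r ^ 2) (hs2 : v (1 / Y2) ≤ r ^ 2) :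
    Y1 - (Y1 - Y2) / (X1 - X2) * X1 ≠ 0 ∧
      v ((Y1 - Y2) / (X1 - X2)) ≤ r ^ 2 * v (Y1 - (Y1 - Y2) / (X1 - X2) * X1) := by
  have hX' : X1 - X2 ≠ 0 := sub_ne_zero.mpr hX
  have hvX' : v (X1 - X2) ≠ 0 := (Valuation.ne_zero_iff v).mpr hX'
  have hvY12 : v (Y1 * Y2) ≠ 0 := (Valuation.ne_zero_iff v).mpr (mul_ne_zero hY1 hY2)
  have main := h9k_chord_ts v hr h1 h2 h3 h4 h6 (h9k_ts_eq hY1 hE1) (h9k_ts_eq hY2 hE2)
    ht1 ht2 hs1 hs2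
  have es : 1 / Y2 - 1 / Y1 = (Y1 - Y2) / (Y1 * Y2) := by field_simp
  have et : X2 / Y2 - X1 / Y1 = (X2 * Y1 - X1 * Y2) / (Y1 * Y2) := by field_simp
  rw [es, et, map_div₀, map_div₀, ← mul_div_assoc] at main
  have main' : v (Y1 - Y2) ≤ r ^ 2 * v (X2 * Y1 - X1 * Y2) := by
    have := mul_le_mul_left main (v (Y1 * Y2))
    rwa [div_mul_cancel₀ _ hvY12, div_mul_cancel₀ _ hvY12] at this
  have eν : (Y1 - (Y1 - Y2) / (X1 - X2) * X1) * (X1 - X2) = -(X2 * Y1 - X1 * Y2) := by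
    field_simp
    ring
  have hvν : v (Y1 - (Y1 - Y2) / (X1 - X2) * X1) * v (X1 - X2) = v (X2 * Y1 - X1 * Y2) := by
    rw [← map_mul, eν, Valuation.map_neg]
  constructor
  · intro h0
    rw [h0, map_zero, zero_mul] at hvν
    rw [← hvν, mul_zero] at main'
    have hY : Y1 - Y2 = 0 := (Valuation.zero_iff v).mp (le_antisymm main' zero_le)
    have hXY : X2 * Y1 - X1 * Y2 = 0 := (Valuation.zero_iff v).mp hvν.symm
    have hY' : Y1 = Y2 := sub_eq_zero.mp hY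
    rw [hY'] at hXY
    have : (X2 - X1) * Y2 = 0 := by linear_combination hXY
    rcases mul_eq_zero.mp this with h | h
    · exact hX (sub_eq_zero.mp h).symm
    · exact hY2 h
  · rw [map_div₀]
    rw [← hvν] at main'
    rw [div_le_iff₀ (zero_lt_iff.mpr hvX')]
    calc v (Y1 - Y2) ≤ r ^ 2 * (v (Y1 - (Y1 - Y2) / (X1 - X2) * X1) * v (X1 - X2)) := main'
      _ = r ^ 2 * v (Y1 - (Y1 - Y2) / (X1 - X2) * X1) * v (X1 - X2) := (mul_assoc _ _ _).symm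

/-- The tangent case (`d` is the denominator `2Y + a₁X + a₃` of the slope). -/
theorem h9k_tangent_alpha {a₁ a₂ a₃ a₄ a₆ X Y d : L} {r : Γ₀} (hr : r < 1)
    (h1 : v a₁ ≤ 1) (h2 : v a₂ ≤ 1) (h3 : v a₃ ≤ 1) (h4 : v a₄ ≤ 1) (h6 : v a₆ ≤ 1)
    (hE : Y * (Y + (a₁ * X + a₃)) = X ^ 3 + a₂ * X ^ 2 + a₄ * X + a₆)
    (hY : Y ≠ 0) (hd : d = 2 * Y + a₁ * X + a₃) (hd0 : d ≠ 0)
    (ht : v (X / Y) ≤ r) (hs : v (1 / Y) ≤ r ^ 2) :
    Y - (3 * X ^ 2 + 2 * a₂ * X + a₄ - a₁ * Y) / d * X ≠ 0 ∧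
      v ((3 * X ^ 2 + 2 * a₂ * X + a₄ - a₁ * Y) / d)
        ≤ r ^ 2 * v (Y - (3 * X ^ 2 + 2 * a₂ * X + a₄ - a₁ * Y) / d * X) := by
  have hrr : r * r = r ^ 2 := (sq r).symm
  have hr1 : r ≤ 1 := le_of_lt hr
  have hr2 : r ^ 2 ≤ 1 := pow_le_one₀ zero_le hr1
  have hr2r : r ^ 2 ≤ r := pow_le_of_le_one zero_le hr1 (by norm_num)
  have hsr : v (1 / Y) ≤ r := le_trans hs hr2r
  have hs' : v (1 / Y) ≤ 1 := le_trans hs hr2
  have ht' : v (X / Y) ≤ 1 := le_trans ht hr1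
  have h2le : v (2 : L) ≤ 1 := by simpa using h9k_natCast_le_one v 2
  have h3le : v (3 : L) ≤ 1 := by simpa using h9k_natCast_le_one v 3
  have e_tsq : v ((X / Y) ^ 2) ≤ r ^ 2 := by rw [map_pow]; exact pow_le_pow_left₀ zero_le ht 2
  have e_ssq : v ((1 / Y) ^ 2) ≤ r ^ 2 := by rw [sq]; exact h9k_est_int_mul v hs' hs
  have e_ts : v ((X / Y) * (1 / Y)) ≤ r ^ 2 := h9k_est_int_mul v ht' hs
  have hvd : v d ≠ 0 := (Valuation.ne_zero_iff v).mpr hd0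
  have hvY2 : v (Y ^ 2) ≠ 0 := (Valuation.ne_zero_iff v).mpr (pow_ne_zero 2 hY)
  have hN : v (3 * (X / Y) ^ 2 + 2 * a₂ * ((X / Y) * (1 / Y)) + a₄ * (1 / Y) ^ 2
      - a₁ * (1 / Y)) ≤ r ^ 2 := by
    refine v.map_sub_le (v.map_add_le (v.map_add_le ?_ ?_) ?_) ?_
    · exact h9k_est_int_mul v h3le e_tsq
    · exact h9k_est_int_mul v (h9k_est_int_mul v h2le h2) e_ts
    · exact h9k_est_int_mul v h4 e_ssq
    · exact h9k_est_int_mul v h1 hs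
  have hD : v (1 - (a₂ * (X / Y) ^ 2 + 2 * a₄ * ((X / Y) * (1 / Y)) + 3 * a₆ * (1 / Y) ^ 2
      - a₁ * (X / Y) - 2 * a₃ * (1 / Y))) = 1 := by
    apply Valuation.map_one_sub_of_lt
    refine lt_of_le_of_lt (v.map_sub_le (g := r) (v.map_sub_le
      (v.map_add_le (v.map_add_le ?_ ?_) ?_) ?_) ?_) hr
    · exact h9k_est_int_mul v h2 (le_trans e_tsq hr2r)
    · exact h9k_est_int_mul v (h9k_est_int_mul v h2le h4) (le_trans e_ts hr2r)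
    · exact h9k_est_int_mul v (h9k_est_int_mul v h3le h6) (le_trans e_ssq hr2r)
    · exact h9k_est_int_mul v h1 ht
    · exact h9k_est_int_mul v (h9k_est_int_mul v h2le h3) hsr
  have eℓ : (3 * X ^ 2 + 2 * a₂ * X + a₄ - a₁ * Y) / d * d
      = (3 * (X / Y) ^ 2 + 2 * a₂ * ((X / Y) * (1 / Y)) + a₄ * (1 / Y) ^ 2
          - a₁ * (1 / Y)) * Y ^ 2 := by
    field_simp
  have eν : (Y - (3 * X ^ 2 + 2 * a₂ * X + a₄ - a₁ * Y) / d * X) * d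
      = -((1 - (a₂ * (X / Y) ^ 2 + 2 * a₄ * ((X / Y) * (1 / Y)) + 3 * a₆ * (1 / Y) ^ 2
          - a₁ * (X / Y) - 2 * a₃ * (1 / Y))) * Y ^ 2) := by
    field_simp
    rw [hd]
    linear_combination 3 * hE
  have hvℓ := congrArg v eℓ
  have hvν := congrArg v eν
  rw [map_mul, map_mul] at hvℓ
  rw [map_mul, Valuation.map_neg, map_mul, hD, one_mul] at hvν
  constructor
  · intro h0
    rw [h0, map_zero, zero_mul] at hvν
    exact hvY2 hvν.symm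
  · have : v ((3 * X ^ 2 + 2 * a₂ * X + a₄ - a₁ * Y) / d) * v d
        ≤ r ^ 2 * v (Y - (3 * X ^ 2 + 2 * a₂ * X + a₄ - a₁ * Y) / d * X) * v d := by
      rw [hvℓ, mul_assoc (r ^ 2), hvν]
      exact mul_le_mul_left hN _
    exact le_of_mul_le_mul_right this (zero_lt_iff.mpr hvd)

end alpha

section final

variable {L : Type*} [Field L] {Γ₀ : Type*} [LinearOrderedCommGroupWithZero Γ₀]
  (v : Valuation L Γ₀)

/-- Passing from the third intersection point `(X3, Yl)` of the line to the sum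
`(X3, -Yl - a₁X3 - a₃)`. -/
theorem h9k_flip {a₁ a₃ X3 Yl T : L} {r : Γ₀} (hr : r < 1) (h1 : v a₁ ≤ 1) (h3 : v a₃ ≤ 1)
    (hYl : Yl ≠ 0) (ht3 : v (X3 / Yl) ≤ r) (hs3 : v (1 / Yl) ≤ r ^ 3)
    (hsum : v (X3 / Yl + T) ≤ r ^ 2) :
    v (X3 / (-Yl - a₁ * X3 - a₃) - T) ≤ r ^ 2 := by
  have hr1 : r ≤ 1 := le_of_lt hr
  have hr3r : r ^ 3 ≤ r := pow_le_of_le_one zero_le hr1 (by norm_num)
  have hu : v (a₁ * (X3 / Yl) + a₃ * (1 / Yl)) ≤ r :=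
    v.map_add_le (h9k_est_int_mul v h1 ht3) (h9k_est_int_mul v h3 (le_trans hs3 hr3r))
  have hden : -Yl - a₁ * X3 - a₃ = -(Yl * (1 + (a₁ * (X3 / Yl) + a₃ * (1 / Yl)))) := by
    field_simp
    ring
  obtain ⟨u, hudef⟩ : ∃ u : L, u = a₁ * (X3 / Yl) + a₃ * (1 / Yl) := ⟨_, rfl⟩
  rw [← hudef] at hu hden
  have hU : v (1 + u) = 1 := v.map_one_add_of_lt (lt_of_le_of_lt hu hr)
  have hUne : 1 + u ≠ 0 := by
    intro h; rw [h, map_zero] at hU; exact zero_ne_one hU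
  have key : X3 / (-Yl - a₁ * X3 - a₃) - T
      = -(X3 / Yl + T) + (X3 / Yl) * u / (1 + u) := by
    rw [hden]
    field_simp
    ring
  rw [key]
  refine v.map_add_le ?_ ?_
  · rw [Valuation.map_neg]; exact hsum
  · rw [map_div₀, hU, div_one, sq]
    exact h9k_est_mul v ht3 hu

/-- `t(-P) ≡ -t(P)` modulo `r²`. -/
theorem h9k_neg_est {a₁ a₃ X Y : L} {r : Γ₀} (hr : r < 1) (h1 : v a₁ ≤ 1) (h3 : v a₃ ≤ 1)
    (hY : Y ≠ 0) (ht : v (X / Y) ≤ r) (hs : v (1 / Y) ≤ r ^ 3) :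
    v (X / (-Y - a₁ * X - a₃) + X / Y) ≤ r ^ 2 := by
  have h := h9k_flip v hr h1 h3 hY ht hs (T := -(X / Y)) (by simp)
  simpa using h

/-- The chord case, final form. -/
theorem h9k_chord_final {a₁ a₂ a₃ a₄ a₆ X1 Y1 X2 Y2 ℓ X3 Y3 : L} {r : Γ₀} (hr : r < 1)
    (h1 : v a₁ ≤ 1) (h2 : v a₂ ≤ 1) (h3 : v a₃ ≤ 1) (h4 : v a₄ ≤ 1) (h6 : v a₆ ≤ 1)
    (hE1 : Y1 * (Y1 + (a₁ * X1 + a₃)) = X1 ^ 3 + a₂ * X1 ^ 2 + a₄ * X1 + a₆)
    (hE2 : Y2 * (Y2 + (a₁ * X2 + a₃)) = X2 ^ 3 + a₂ * X2 ^ 2 + a₄ * X2 + a₆)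
    (hk1 : 1 < v X1) (hk2 : 1 < v X2) (hX : X1 ≠ X2)
    (ht1 : v (X1 / Y1) ≤ r) (ht2 : v (X2 / Y2) ≤ r)
    (hℓ : ℓ = (Y1 - Y2) / (X1 - X2)) (hX3 : X3 = ℓ ^ 2 + a₁ * ℓ - a₂ - X1 - X2)
    (hY3 : Y3 = -(ℓ * (X3 - X1) + Y1) - a₁ * X3 - a₃) :
    1 < v X3 ∧ v (X3 / Y3 - X1 / Y1 - X2 / Y2) ≤ r ^ 2 := by
  obtain ⟨hY1, hs1, hs1', -⟩ := h9k_ker_facts v hr h1 h2 h3 h4 h6 hE1 hk1 ht1
  obtain ⟨hY2, hs2, hs2', -⟩ := h9k_ker_facts v hr h1 h2 h3 h4 h6 hE2 hk2 ht2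
  obtain ⟨hν, hα⟩ := h9k_chord_alpha v hr h1 h2 h3 h4 h6 hE1 hE2 hY1 hY2 hX ht1 ht2 hs1' hs2'
  rw [← hℓ] at hν hα
  have hX' : X1 - X2 ≠ 0 := sub_ne_zero.mpr hX
  have hℓ' : ℓ * (X1 - X2) = Y1 - Y2 := by rw [hℓ]; field_simp
  obtain ⟨ν, hνdef⟩ : ∃ ν : L, ν = Y1 - ℓ * X1 := ⟨_, rfl⟩
  rw [← hνdef] at hν hα
  have e1 : ℓ * X1 + ν = Y1 := by rw [hνdef]; ring
  have e2 : ℓ * X2 + ν = Y2 := by rw [hνdef]; linear_combination -hℓ'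
  have V2 : a₂ = ℓ ^ 2 + a₁ * ℓ - (X1 + X2 + X3) := by rw [hX3]; ring
  have V4 : a₄ = 2 * ℓ * ν + a₁ * ν + a₃ * ℓ + (X1 * X2 + X1 * X3 + X2 * X3) := by
    have : (X1 - X2) * (a₄ - (2 * ℓ * ν + a₁ * ν + a₃ * ℓ + (X1 * X2 + X1 * X3 + X2 * X3)))
        = 0 := by
      rw [← e1] at hE1
      rw [← e2] at hE2
      rw [hX3]
      linear_combination hE2 - hE1
    rcases mul_eq_zero.mp this with h | h
    · exact absurd h hX'
    · exact sub_eq_zero.mp h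
  have V6 : a₆ = ν ^ 2 + a₃ * ν - X1 * X2 * X3 := by
    have hE1' := hE1
    rw [← e1] at hE1'
    linear_combination -hE1' - X1 ^ 2 * V2 - X1 * V4
  have core := h9k_core v hr h1 h2 h3 h4 h6 V2 V4 V6 hν (by rw [e1]; exact hY1)
    (by rw [e2]; exact hY2) hα
    (by rw [e1]; exact ht1) (by rw [e2]; exact ht2) (by rw [e1]; exact hs1)
  obtain ⟨hY3ne, hk3, ht3, hs3, hsum⟩ := core
  rw [e1, e2] at hsum
  refine ⟨hk3, ?_⟩
  have hY3' : Y3 = -(ℓ * X3 + ν) - a₁ * X3 - a₃ := by rw [hY3, hνdef]; ring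
  have hsum' : v (X3 / (ℓ * X3 + ν) + (X1 / Y1 + X2 / Y2)) ≤ r ^ 2 := by
    rw [← add_assoc]; exact hsum
  have := h9k_flip v hr h1 h3 hY3ne ht3 hs3 hsum'
  rw [hY3']
  have e : X3 / (-(ℓ * X3 + ν) - a₁ * X3 - a₃) - X1 / Y1 - X2 / Y2
      = X3 / (-(ℓ * X3 + ν) - a₁ * X3 - a₃) - (X1 / Y1 + X2 / Y2) := by ring
  rw [e]; exact this

/-- The tangent case, final form. -/
theorem h9k_tangent_final {a₁ a₂ a₃ a₄ a₆ X Y d ℓ X3 Y3 : L} {r : Γ₀} (hr : r < 1)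
    (h1 : v a₁ ≤ 1) (h2 : v a₂ ≤ 1) (h3 : v a₃ ≤ 1) (h4 : v a₄ ≤ 1) (h6 : v a₆ ≤ 1)
    (hE : Y * (Y + (a₁ * X + a₃)) = X ^ 3 + a₂ * X ^ 2 + a₄ * X + a₆)
    (hk : 1 < v X) (hd : d = 2 * Y + a₁ * X + a₃) (hd0 : d ≠ 0)
    (ht : v (X / Y) ≤ r)
    (hℓ : ℓ = (3 * X ^ 2 + 2 * a₂ * X + a₄ - a₁ * Y) / d)
    (hX3 : X3 = ℓ ^ 2 + a₁ * ℓ - a₂ - X - X)
    (hY3 : Y3 = -(ℓ * (X3 - X) + Y) - a₁ * X3 - a₃) :
    1 < v X3 ∧ v (X3 / Y3 - X / Y - X / Y) ≤ r ^ 2 := by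
  obtain ⟨hY, hs, hs', -⟩ := h9k_ker_facts v hr h1 h2 h3 h4 h6 hE hk ht
  obtain ⟨hν, hα⟩ := h9k_tangent_alpha v hr h1 h2 h3 h4 h6 hE hY hd hd0 ht hs'
  rw [← hℓ] at hν hα
  have hℓ' : ℓ * d = 3 * X ^ 2 + 2 * a₂ * X + a₄ - a₁ * Y := by
    rw [hℓ, div_mul_cancel₀ _ hd0]
  obtain ⟨ν, hνdef⟩ : ∃ ν : L, ν = Y - ℓ * X := ⟨_, rfl⟩
  rw [← hνdef] at hν hα
  have e1 : ℓ * X + ν = Y := by rw [hνdef]; ring
  have V2 : a₂ = ℓ ^ 2 + a₁ * ℓ - (X + X + X3) := by rw [hX3]; ring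
  have V4 : a₄ = 2 * ℓ * ν + a₁ * ν + a₃ * ℓ + (X * X + X * X3 + X * X3) := by
    rw [hd, ← e1] at hℓ'
    linear_combination -hℓ' - 2 * X * V2
  have V6 : a₆ = ν ^ 2 + a₃ * ν - X * X * X3 := by
    have hE' := hE
    rw [← e1] at hE'
    linear_combination -hE' - X ^ 2 * V2 - X * V4
  have core := h9k_core v hr h1 h2 h3 h4 h6 V2 V4 V6 hν (by rw [e1]; exact hY)
    (by rw [e1]; exact hY) hα
    (by rw [e1]; exact ht) (by rw [e1]; exact ht) (by rw [e1]; exact hs)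
  obtain ⟨hY3ne, hk3, ht3, hs3, hsum⟩ := core
  rw [e1] at hsum
  refine ⟨hk3, ?_⟩
  have hY3' : Y3 = -(ℓ * X3 + ν) - a₁ * X3 - a₃ := by rw [hY3, hνdef]; ring
  have hsum' : v (X3 / (ℓ * X3 + ν) + (X / Y + X / Y)) ≤ r ^ 2 := by
    rw [← add_assoc]; exact hsum
  have := h9k_flip v hr h1 h3 hY3ne ht3 hs3 hsum'
  rw [hY3']
  have e : X3 / (-(ℓ * X3 + ν) - a₁ * X3 - a₃) - X / Y - X / Y
      = X3 / (-(ℓ * X3 + ν) - a₁ * X3 - a₃) - (X / Y + X / Y) := by ring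
  rw [e]; exact this

end final

open WeierstrassCurve

section points

variable {L : Type*} [Field L] {Γ₀ : Type*} [LinearOrderedCommGroupWithZero Γ₀]
  (v : Valuation L Γ₀) (W : WeierstrassCurve L)

/-- The `t`-coordinate `x / y` of a point (`0` at the origin). -/
def h9k_T : W.toAffine.Point → L
  | .zero => 0
  | .some x y _ => x / y

/-- Membership in the kernel of reduction: the origin, or a point with `1 < v x`. -/
def h9k_Ker : W.toAffine.Point → Prop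
  | .zero => True
  | .some x _ _ => 1 < v x

@[simp] theorem h9k_T_zero : h9k_T W (0 : W.toAffine.Point) = 0 := rfl

@[simp] theorem h9k_T_some {x y : L} (h : W.toAffine.Nonsingular x y) :
    h9k_T W (Affine.Point.some x y h) = x / y := rfl

@[simp] theorem h9k_Ker_zero : h9k_Ker v W (0 : W.toAffine.Point) := trivial

@[simp] theorem h9k_Ker_some {x y : L} (h : W.toAffine.Nonsingular x y) :
    h9k_Ker v W (Affine.Point.some x y h) ↔ 1 < v x := Iff.rfl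

theorem h9k_Ker_iff (P : W.toAffine.Point) :
    h9k_Ker v W P ↔ P = 0 ∨ ∃ (x y : L) (h : W.toAffine.Nonsingular x y),
      P = Affine.Point.some x y h ∧ 1 < v x := by
  rcases P with _ | ⟨x, y, h⟩
  · exact ⟨fun _ => Or.inl rfl, fun _ => trivial⟩
  · constructor
    · intro hk
      exact Or.inr ⟨x, y, h, rfl, hk⟩
    · rintro (h0 | ⟨x', y', h', heq, hk⟩)
      · exact absurd h0 (Affine.Point.some_ne_zero h)
      · cases heq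
        exact hk

theorem h9k_Ker_neg (P : W.toAffine.Point) (hP : h9k_Ker v W P) : h9k_Ker v W (-P) := by
  rcases P with _ | ⟨x, y, h⟩
  · exact trivial
  · exact hP

/-- The curve equation in the factored form used here. -/
theorem h9k_equation {x y : L} (h : W.toAffine.Equation x y) :
    y * (y + (W.a₁ * x + W.a₃)) = x ^ 3 + W.a₂ * x ^ 2 + W.a₄ * x + W.a₆ := by
  have := (Affine.equation_iff (W := W.toAffine) x y).mp h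
  linear_combination this

variable [DecidableEq L]

/-- **Main estimate**: on the kernel of reduction, `t(P + Q) ≡ t(P) + t(Q)` modulo `r²` when
`v t(P), v t(Q) ≤ r < 1`; and the kernel is closed under addition. -/
theorem h9k_add_est (h1 : v W.a₁ ≤ 1) (h2 : v W.a₂ ≤ 1) (h3 : v W.a₃ ≤ 1) (h4 : v W.a₄ ≤ 1)
    (h6 : v W.a₆ ≤ 1) {r : Γ₀} (hr : r < 1) (P Q : W.toAffine.Point)
    (hP : h9k_Ker v W P) (hQ : h9k_Ker v W Q) (htP : v (h9k_T W P) ≤ r)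
    (htQ : v (h9k_T W Q) ≤ r) :
    h9k_Ker v W (P + Q) ∧ v (h9k_T W (P + Q) - h9k_T W P - h9k_T W Q) ≤ r ^ 2 := by
  rcases P with _ | ⟨X1, Y1, hP'⟩
  · have : (Affine.Point.zero : W.toAffine.Point) + Q = Q := zero_add Q
    rw [this]
    refine ⟨hQ, ?_⟩
    have : h9k_T W Q - h9k_T W (Affine.Point.zero) - h9k_T W Q = 0 := by
      show h9k_T W Q - 0 - h9k_T W Q = 0
      ring
    rw [this, map_zero]; exact zero_le
  rcases Q with _ | ⟨X2, Y2, hQ'⟩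
  · have : Affine.Point.some X1 Y1 hP' + (Affine.Point.zero : W.toAffine.Point)
        = Affine.Point.some X1 Y1 hP' := add_zero _
    rw [this]
    refine ⟨hP, ?_⟩
    have : h9k_T W (Affine.Point.some X1 Y1 hP') - h9k_T W (Affine.Point.some X1 Y1 hP')
        - h9k_T W (Affine.Point.zero) = 0 := by
      show X1 / Y1 - X1 / Y1 - 0 = 0
      ring
    rw [this, map_zero]; exact zero_le
  have hE1 := h9k_equation W hP'.1
  have hE2 := h9k_equation W hQ'.1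
  have hk1 : 1 < v X1 := hP
  have hk2 : 1 < v X2 := hQ
  have ht1 : v (X1 / Y1) ≤ r := htP
  have ht2 : v (X2 / Y2) ≤ r := htQ
  have hnegY : ∀ x y : L, W.toAffine.negY x y = -y - W.a₁ * x - W.a₃ := by
    intro x y; simp only [Affine.negY]
  by_cases hX : X1 = X2
  · by_cases hY : Y1 = W.toAffine.negY X2 Y2
    · -- opposite points
      rw [Affine.Point.add_of_Y_eq hX hY]
      refine ⟨trivial, ?_⟩
      obtain ⟨hY2, hs2, -, -⟩ := h9k_ker_facts v hr h1 h2 h3 h4 h6 hE2 hk2 ht2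
      have h := h9k_neg_est v hr h1 h3 hY2 ht2 hs2
      have : h9k_T W (0 : W.toAffine.Point) - h9k_T W (Affine.Point.some X1 Y1 hP')
          - h9k_T W (Affine.Point.some X2 Y2 hQ')
          = -(X2 / (-Y2 - W.a₁ * X2 - W.a₃) + X2 / Y2) := by
        show 0 - X1 / Y1 - X2 / Y2 = _
        rw [hY, hnegY, hX]; ring
      rw [this, Valuation.map_neg]; exact h
    · -- doubling
      have hYeq : Y1 = Y2 := Affine.Y_eq_of_Y_ne hP'.1 hQ'.1 hX hY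
      subst hX
      subst hYeq
      rw [Affine.Point.add_of_Y_ne hY]
      have hd0 : 2 * Y1 + W.a₁ * X1 + W.a₃ ≠ 0 := by
        intro h0
        apply hY
        rw [hnegY]
        linear_combination h0
      have hslope : W.toAffine.slope X1 X1 Y1 Y1
          = (3 * X1 ^ 2 + 2 * W.a₂ * X1 + W.a₄ - W.a₁ * Y1)
              / (2 * Y1 + W.a₁ * X1 + W.a₃) := by
        rw [Affine.slope_of_Y_ne rfl hY, hnegY]
        congr 1; ring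
      have hX3 : W.toAffine.addX X1 X1 (W.toAffine.slope X1 X1 Y1 Y1)
          = (W.toAffine.slope X1 X1 Y1 Y1) ^ 2 + W.a₁ * (W.toAffine.slope X1 X1 Y1 Y1)
              - W.a₂ - X1 - X1 := by
        simp only [Affine.addX]
      have hY3 : W.toAffine.addY X1 X1 Y1 (W.toAffine.slope X1 X1 Y1 Y1)
          = -((W.toAffine.slope X1 X1 Y1 Y1)
              * (W.toAffine.addX X1 X1 (W.toAffine.slope X1 X1 Y1 Y1) - X1) + Y1)
              - W.a₁ * (W.toAffine.addX X1 X1 (W.toAffine.slope X1 X1 Y1 Y1)) - W.a₃ := by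
        simp only [Affine.addY, Affine.negAddY, hnegY]
      exact h9k_tangent_final v hr h1 h2 h3 h4 h6 hE1 hk1 rfl hd0 ht1 hslope hX3 hY3
  · rw [Affine.Point.add_of_X_ne hX]
    have hslope : W.toAffine.slope X1 X2 Y1 Y2 = (Y1 - Y2) / (X1 - X2) :=
      Affine.slope_of_X_ne hX
    have hX3 : W.toAffine.addX X1 X2 (W.toAffine.slope X1 X2 Y1 Y2)
        = (W.toAffine.slope X1 X2 Y1 Y2) ^ 2 + W.a₁ * (W.toAffine.slope X1 X2 Y1 Y2)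
            - W.a₂ - X1 - X2 := by
      simp only [Affine.addX]
    have hY3 : W.toAffine.addY X1 X2 Y1 (W.toAffine.slope X1 X2 Y1 Y2)
        = -((W.toAffine.slope X1 X2 Y1 Y2)
            * (W.toAffine.addX X1 X2 (W.toAffine.slope X1 X2 Y1 Y2) - X1) + Y1)
            - W.a₁ * (W.toAffine.addX X1 X2 (W.toAffine.slope X1 X2 Y1 Y2)) - W.a₃ := by
      simp only [Affine.addY, Affine.negAddY, hnegY]
    exact h9k_chord_final v hr h1 h2 h3 h4 h6 hE1 hE2 hk1 hk2 hX ht1 ht2 hslope hX3 hY3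

omit [DecidableEq L] in
theorem h9k_vT_lt_one (h1 : v W.a₁ ≤ 1) (h2 : v W.a₂ ≤ 1) (h3 : v W.a₃ ≤ 1) (h4 : v W.a₄ ≤ 1)
    (h6 : v W.a₆ ≤ 1) (P : W.toAffine.Point) (hP : h9k_Ker v W P) : v (h9k_T W P) < 1 := by
  rcases P with _ | ⟨x, y, h⟩
  · show v (0 : L) < 1
    rw [map_zero]; exact zero_lt_one
  · exact h9k_vt_lt_one v h1 h2 h3 h4 h6 (h9k_equation W h.1) hP

/-- The kernel of reduction is closed under addition. -/
theorem h9k_ker_add (h1 : v W.a₁ ≤ 1) (h2 : v W.a₂ ≤ 1) (h3 : v W.a₃ ≤ 1) (h4 : v W.a₄ ≤ 1)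
    (h6 : v W.a₆ ≤ 1) (P Q : W.toAffine.Point) (hP : h9k_Ker v W P) (hQ : h9k_Ker v W Q) :
    h9k_Ker v W (P + Q) := by
  have hr : max (v (h9k_T W P)) (v (h9k_T W Q)) < 1 :=
    max_lt (h9k_vT_lt_one v W h1 h2 h3 h4 h6 P hP) (h9k_vT_lt_one v W h1 h2 h3 h4 h6 Q hQ)
  exact (h9k_add_est v W h1 h2 h3 h4 h6 hr P Q hP hQ (le_max_left _ _) (le_max_right _ _)).1

/-- Multiples of a kernel point: `t(n • P) ≡ n t(P)` modulo `(v t(P))²`. -/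
theorem h9k_nsmul_est (h1 : v W.a₁ ≤ 1) (h2 : v W.a₂ ≤ 1) (h3 : v W.a₃ ≤ 1) (h4 : v W.a₄ ≤ 1)
    (h6 : v W.a₆ ≤ 1) (P : W.toAffine.Point) (hP : h9k_Ker v W P) (n : ℕ) :
    h9k_Ker v W (n • P) ∧ v (h9k_T W (n • P) - n * h9k_T W P) ≤ v (h9k_T W P) ^ 2 := by
  have hr : v (h9k_T W P) < 1 := h9k_vT_lt_one v W h1 h2 h3 h4 h6 P hP
  have hr3 : v (h9k_T W P) ^ 2 ≤ v (h9k_T W P) :=
    pow_le_of_le_one zero_le (le_of_lt hr) (by norm_num)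
  induction n with
  | zero =>
    rw [zero_nsmul]
    refine ⟨trivial, ?_⟩
    have : h9k_T W (0 : W.toAffine.Point) - ((0 : ℕ) : L) * h9k_T W P = 0 := by
      show (0 : L) - ((0 : ℕ) : L) * h9k_T W P = 0
      push_cast; ring
    rw [this, map_zero]; exact zero_le
  | succ k ih =>
    obtain ⟨ihK, ihE⟩ := ih
    rw [succ_nsmul]
    have hkt : v (h9k_T W (k • P)) ≤ v (h9k_T W P) := by
      have : h9k_T W (k • P) = (h9k_T W (k • P) - k * h9k_T W P) + k * h9k_T W P := by ring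
      rw [this]
      exact v.map_add_le (le_trans ihE hr3)
        (h9k_est_int_mul v (h9k_natCast_le_one v k) le_rfl)
    obtain ⟨hK, hE⟩ := h9k_add_est v W h1 h2 h3 h4 h6 hr (k • P) P ihK hP hkt le_rfl
    refine ⟨hK, ?_⟩
    have : h9k_T W (k • P + P) - ((k + 1 : ℕ) : L) * h9k_T W P
        = (h9k_T W (k • P + P) - h9k_T W (k • P) - h9k_T W P)
          + (h9k_T W (k • P) - k * h9k_T W P) := by
      push_cast; ring
    rw [this]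
    exact v.map_add_le hE ihE

/-- **(D-K)**: the kernel of reduction of an integral Weierstrass model has no `n`-torsion for
`v n = 1`. -/
theorem h9k_smul_ne_zero (h1 : v W.a₁ ≤ 1) (h2 : v W.a₂ ≤ 1) (h3 : v W.a₃ ≤ 1)
    (h4 : v W.a₄ ≤ 1) (h6 : v W.a₆ ≤ 1) {x y : L} (h : W.toAffine.Nonsingular x y)
    (hx : 1 < v x) (n : ℕ) (hn : v (n : L) = 1) :
    n • (Affine.Point.some x y h : W.toAffine.Point) ≠ 0 := by
  intro h0
  have hP : h9k_Ker v W (Affine.Point.some x y h) := hx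
  obtain ⟨-, hE⟩ := h9k_nsmul_est v W h1 h2 h3 h4 h6 _ hP n
  rw [h0] at hE
  have hE' : v ((0 : L) - n * (x / y)) ≤ v (x / y) ^ 2 := hE
  rw [zero_sub, Valuation.map_neg, map_mul, hn, one_mul] at hE'
  have hlt : v (x / y) < 1 := h9k_vt_lt_one v h1 h2 h3 h4 h6 (h9k_equation W h.1) hx
  have hy : 1 < v y := h9k_one_lt_vY v h1 h2 h3 h4 h6 (h9k_equation W h.1) hx
  have hx0 : x ≠ 0 := by
    intro h; rw [h, map_zero] at hx; exact absurd hx (not_lt.mpr zero_le)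
  have hy0 : y ≠ 0 := by
    intro h; rw [h, map_zero] at hy; exact absurd hy (not_lt.mpr zero_le)
  have hpos : 0 < v (x / y) :=
    zero_lt_iff.mpr ((Valuation.ne_zero_iff v).mpr (div_ne_zero hx0 hy0))
  exact absurd hE' (not_le.mpr (pow_lt_self_of_lt_one₀ hpos hlt (by norm_num)))

/-- A point of the kernel of reduction killed by `n` with `v n = 1` is the origin. -/
theorem h9k_eq_zero_of_nsmul (h1 : v W.a₁ ≤ 1) (h2 : v W.a₂ ≤ 1) (h3 : v W.a₃ ≤ 1)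
    (h4 : v W.a₄ ≤ 1) (h6 : v W.a₆ ≤ 1) (P : W.toAffine.Point) (hP : h9k_Ker v W P) (n : ℕ)
    (hn : v (n : L) = 1) (hnP : n • P = 0) : P = 0 := by
  rcases P with _ | ⟨x, y, h⟩
  · rfl
  · exact absurd hnP (h9k_smul_ne_zero v W h1 h2 h3 h4 h6 h hP n hn)

/-- The kernel of reduction as an additive subgroup. -/
def h9k_kernel (h1 : v W.a₁ ≤ 1) (h2 : v W.a₂ ≤ 1) (h3 : v W.a₃ ≤ 1) (h4 : v W.a₄ ≤ 1)
    (h6 : v W.a₆ ≤ 1) : AddSubgroup W.toAffine.Point where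
  carrier := {P | h9k_Ker v W P}
  add_mem' := fun {P Q} hP hQ => h9k_ker_add v W h1 h2 h3 h4 h6 P Q hP hQ
  zero_mem' := trivial
  neg_mem' := fun {P} hP => h9k_Ker_neg v W P hP

end points

end Fermat.Agent.Lib.S13
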