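/-
S13 project (lead), stream (E), piece (CS): from the formal-group input (FG, strict form)
`t(p • P) ≡ p t(P) + c t(P)^p` modulo smaller terms on the kernel of reduction `E₁`, deduce:
if `E₁[p]` contains a nonzero point with `v(t)^(p-1) ≤ v(p)`, then `E₁[p]` has at most `p` elements.
-/
import Mathlib
import Fermat.Agent.Lib.S13.KerTorsion

set_option autoImplicit false

namespace Fermat.Agent.Lib.S13

open WeierstrassCurve

section value

variable {L : Type*} [Field L] {Γ₀ : Type*} [LinearOrderedCommGroupWithZero Γ₀]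
  (v : Valuation L Γ₀)

/-- (A): a nonzero root `t` of `p t + c t^(q+1) ≡ 0` has `v p ≤ v t ^ q`. -/
theorem lead_cs_A {t c π : L} {q : ℕ} (ht0 : t ≠ 0) (hc : v c ≤ 1)
    (h : v (π * t + c * t ^ (q + 1)) < max (v π * v t) (v t ^ (q + 1))) :
    v π ≤ v t ^ q := by
  by_contra hlt
  push Not at hlt
  have hg0 : 0 < v t := zero_lt_iff.mpr ((Valuation.ne_zero_iff v).mpr ht0)
  have h0 : v t ^ (q + 1) < v π * v t := by
    rw [pow_succ]; exact mul_lt_mul_of_pos_right hlt hg0
  have h1 : v (c * t ^ (q + 1)) < v (π * t) := by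
    rw [map_mul, map_mul, map_pow]
    calc v c * v t ^ (q + 1) ≤ 1 * v t ^ (q + 1) := by gcongr
      _ = v t ^ (q + 1) := one_mul _
      _ < v π * v t := h0
  have h2 : v (π * t + c * t ^ (q + 1)) = v π * v t := by
    rw [Valuation.map_add_eq_of_lt_left v h1, map_mul]
  rw [h2, max_eq_left h0.le] at h
  exact lt_irrefl _ h

/-- (B): if `c` is a non-unit there is no root with `v t ^ q = v p`. -/
theorem lead_cs_B {t c π : L} {q : ℕ} (ht0 : t ≠ 0) (hc : v c < 1)
    (heq : v t ^ q = v π)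
    (h : v (π * t + c * t ^ (q + 1)) < max (v π * v t) (v t ^ (q + 1))) :
    False := by
  have hg0 : 0 < v t := zero_lt_iff.mpr ((Valuation.ne_zero_iff v).mpr ht0)
  have hπ0 : 0 < v π := by rw [← heq]; exact pow_pos hg0 q
  have h0 : v t ^ (q + 1) = v π * v t := by rw [pow_succ, heq]
  have h1 : v (c * t ^ (q + 1)) < v (π * t) := by
    rw [map_mul, map_mul, map_pow, h0]
    calc v c * (v π * v t) < 1 * (v π * v t) :=
          mul_lt_mul_of_pos_right hc (mul_pos hπ0 hg0)
      _ = v π * v t := one_mul _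
  have h2 : v (π * t + c * t ^ (q + 1)) = v π * v t := by
    rw [Valuation.map_add_eq_of_lt_left v h1, map_mul]
  rw [h2, h0, max_self] at h
  exact lt_irrefl _ h

/-- (C): if `c` is a unit, every nonzero root has `v t ^ q = v p`. -/
theorem lead_cs_C {t c π : L} {q : ℕ} (ht0 : t ≠ 0) (hc : v c = 1)
    (h : v (π * t + c * t ^ (q + 1)) < max (v π * v t) (v t ^ (q + 1))) :
    v t ^ q = v π := by
  have hA := lead_cs_A v ht0 hc.le h
  refine le_antisymm ?_ hA
  by_contra hlt
  push Not at hlt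
  have hg0 : 0 < v t := zero_lt_iff.mpr ((Valuation.ne_zero_iff v).mpr ht0)
  have h0 : v π * v t < v t ^ (q + 1) := by
    rw [pow_succ]; exact mul_lt_mul_of_pos_right hlt hg0
  have h1 : v (π * t) < v (c * t ^ (q + 1)) := by
    rw [map_mul, map_mul, map_pow, hc, one_mul]
    exact h0
  have h2 : v (π * t + c * t ^ (q + 1)) = v t ^ (q + 1) := by
    rw [Valuation.map_add_eq_of_lt_right v h1, map_mul, map_pow, hc, one_mul]
  rw [h2, max_eq_right h0.le] at h
  exact lt_irrefl _ h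

/-- (C'): with `v t ^ q = v p`: `v (p + c t^q) < v p`. -/
theorem lead_cs_C' {t c π : L} {q : ℕ} (ht0 : t ≠ 0)
    (heq : v t ^ q = v π)
    (h : v (π * t + c * t ^ (q + 1)) < max (v π * v t) (v t ^ (q + 1))) :
    v (π + c * t ^ q) < v π := by
  have hg0 : 0 < v t := zero_lt_iff.mpr ((Valuation.ne_zero_iff v).mpr ht0)
  have h0 : v t ^ (q + 1) = v π * v t := by rw [pow_succ, heq]
  rw [h0, max_self] at h
  have e : π * t + c * t ^ (q + 1) = (π + c * t ^ q) * t := by ring
  rw [e, map_mul] at h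
  exact lt_of_mul_lt_mul_right' h

end value

section residue

variable {L : Type*} [Field L] {Γ₀ : Type*} [LinearOrderedCommGroupWithZero Γ₀]
  (v : Valuation L Γ₀)

/-- The residue class of an integral element (and `0` for a non-integral one). -/
noncomputable def lead_cs_res (x : L) : IsLocalRing.ResidueField v.valuationSubring :=
  if h : v x ≤ 1 then
    IsLocalRing.residue _ (⟨x, (Valuation.mem_valuationSubring_iff v x).2 h⟩ : v.valuationSubring)
  else 0

theorem lead_cs_res_of_le {x : L} (h : v x ≤ 1) :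
    lead_cs_res v x = IsLocalRing.residue _
      (⟨x, (Valuation.mem_valuationSubring_iff v x).2 h⟩ : v.valuationSubring) := by
  rw [lead_cs_res, dif_pos h]

theorem lead_cs_residue_eq_zero_iff (a : v.valuationSubring) :
    IsLocalRing.residue _ a = 0 ↔ v (a : L) < 1 := by
  rw [IsLocalRing.residue_eq_zero_iff, ValuationSubring.valuation_lt_one_iff]
  exact ((Valuation.isEquiv_valuation_valuationSubring v).lt_one_iff_lt_one).symm

theorem lead_cs_res_eq_iff {x y : L} (hx : v x ≤ 1) (hy : v y ≤ 1) :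
    lead_cs_res v x = lead_cs_res v y ↔ v (x - y) < 1 := by
  rw [lead_cs_res_of_le v hx, lead_cs_res_of_le v hy, ← sub_eq_zero, ← map_sub,
    lead_cs_residue_eq_zero_iff]
  rfl

theorem lead_cs_res_pow {x : L} (hx : v x ≤ 1) (n : ℕ) :
    lead_cs_res v (x ^ n) = lead_cs_res v x ^ n := by
  have hxn : v (x ^ n) ≤ 1 := by rw [map_pow]; exact pow_le_one' hx n
  rw [lead_cs_res_of_le v hx, lead_cs_res_of_le v hxn, ← map_pow]
  rfl

theorem lead_cs_res_one : lead_cs_res v 1 = 1 := by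
  have h1 : v (1 : L) ≤ 1 := by rw [map_one]
  rw [lead_cs_res_of_le v h1]
  exact map_one _

/-- Counting: a family of integral elements, pairwise distinct modulo the maximal ideal, all
`q`-th roots of `1` modulo the maximal ideal, has at most `q` members. -/
theorem lead_cs_count {ι : Type*} (S : Set ι) (z : ι → L) {q : ℕ} (hq : 0 < q)
    (h1 : ∀ P ∈ S, v (z P) ≤ 1) (h2 : ∀ P ∈ S, v (z P ^ q - 1) < 1)
    (h3 : ∀ P ∈ S, ∀ P' ∈ S, v (z P - z P') < 1 → P = P') :
    S.Finite ∧ S.ncard ≤ q := by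
  classical
  set T : Finset (IsLocalRing.ResidueField v.valuationSubring) := Polynomial.nthRootsFinset q 1
  have hmaps : ∀ P ∈ S, lead_cs_res v (z P) ∈ (T : Set _) := by
    intro P hP
    rw [Finset.mem_coe, Polynomial.mem_nthRootsFinset hq, ← lead_cs_res_pow v (h1 P hP),
      ← lead_cs_res_one v]
    have hzq : v (z P ^ q) ≤ 1 := by rw [map_pow]; exact pow_le_one' (h1 P hP) q
    exact (lead_cs_res_eq_iff v hzq (by rw [map_one])).2 (h2 P hP)
  have hinj : Set.InjOn (fun P => lead_cs_res v (z P)) S := by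
    intro P hP P' hP' h
    exact h3 P hP P' hP' ((lead_cs_res_eq_iff v (h1 P hP) (h1 P' hP')).1 h)
  refine ⟨Set.Finite.of_injOn hmaps hinj T.finite_toSet, ?_⟩
  calc S.ncard ≤ (T : Set _).ncard :=
        Set.ncard_le_ncard_of_injOn _ hmaps hinj T.finite_toSet
    _ = T.card := Set.ncard_coe_finset T
    _ ≤ q := by
        show (Polynomial.nthRootsFinset q (1 : IsLocalRing.ResidueField v.valuationSubring)).card ≤ q
        rw [Polynomial.nthRootsFinset_def]
        exact le_trans (Multiset.toFinset_card_le _) (Polynomial.card_nthRoots q 1)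

end residue

section main

variable {L : Type*} [Field L] [DecidableEq L] {Γ₀ : Type*} [LinearOrderedCommGroupWithZero Γ₀]
  (v : Valuation L Γ₀) (W : WeierstrassCurve L)

/-- (FG'): the formal-group input, `[p](T) ≡ p T + c T^p` modulo terms smaller than
`max (|p| |T|, |T|^p)`, on actual nonzero points of the kernel of reduction. -/
def FormalPStatement (p : ℕ) : Prop :=
  ∃ c : L, v c ≤ 1 ∧ ∀ P : W.toAffine.Point, h9k_Ker v W P → P ≠ 0 →
    v (h9k_T W (p • P) - p * h9k_T W P - c * h9k_T W P ^ p)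
      < max (v (p : L) * v (h9k_T W P)) (v (h9k_T W P) ^ p)

omit [DecidableEq L] in
theorem lead_cs_T_ne_zero (h1 : v W.a₁ ≤ 1) (h2 : v W.a₂ ≤ 1) (h3 : v W.a₃ ≤ 1) (h4 : v W.a₄ ≤ 1)
    (h6 : v W.a₆ ≤ 1) (P : W.toAffine.Point) (hP : h9k_Ker v W P) (h0 : P ≠ 0) :
    h9k_T W P ≠ 0 := by
  rcases P with _ | ⟨x, y, h⟩
  · exact absurd rfl h0
  · have hx : 1 < v x := hP
    have hy : 1 < v y := h9k_one_lt_vY v h1 h2 h3 h4 h6 (h9k_equation W h.1) hx
    have hx0 : x ≠ 0 := by
      intro h; rw [h, map_zero] at hx; exact absurd hx (not_lt.mpr zero_le)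
    have hy0 : y ≠ 0 := by
      intro h; rw [h, map_zero] at hy; exact absurd hy (not_lt.mpr zero_le)
    exact div_ne_zero hx0 hy0

/-- **(CS)**: if the `p`-torsion of the kernel of reduction contains a nonzero point with
`v(t)^(p-1) ≤ v(p)`, it has at most `p` elements. -/
theorem lead_s13_canonSub (h1 : v W.a₁ ≤ 1) (h2 : v W.a₂ ≤ 1) (h3 : v W.a₃ ≤ 1) (h4 : v W.a₄ ≤ 1)
    (h6 : v W.a₆ ≤ 1) {p : ℕ} (hp : 2 ≤ p) (hFG : FormalPStatement v W p)
    (P₀ : W.toAffine.Point) (hK₀ : h9k_Ker v W P₀) (h0 : P₀ ≠ 0) (hp₀ : p • P₀ = 0)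
    (hsmall : v (h9k_T W P₀) ^ (p - 1) ≤ v (p : L)) :
    {P : W.toAffine.Point | h9k_Ker v W P ∧ p • P = 0}.Finite ∧
      {P : W.toAffine.Point | h9k_Ker v W P ∧ p • P = 0}.ncard ≤ p := by
  obtain ⟨q, rfl⟩ : ∃ q, p = q + 1 := ⟨p - 1, by omega⟩
  have hq : 0 < q := by omega
  rw [Nat.add_sub_cancel] at hsmall
  obtain ⟨c, hc, hFG⟩ := hFG
  set π : L := ((q + 1 : ℕ) : L) with hπ
  -- the root equation
  have hroot : ∀ P : W.toAffine.Point, h9k_Ker v W P → (q + 1) • P = 0 → P ≠ 0 →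
      v (π * h9k_T W P + c * h9k_T W P ^ (q + 1))
        < max (v π * v (h9k_T W P)) (v (h9k_T W P) ^ (q + 1)) := by
    intro P hK hP hP0
    have := hFG P hK hP0
    rw [hP] at this
    have e : h9k_T W (0 : W.toAffine.Point) - π * h9k_T W P - c * h9k_T W P ^ (q + 1)
        = -(π * h9k_T W P + c * h9k_T W P ^ (q + 1)) := by
      rw [h9k_T_zero]; ring
    rw [e, Valuation.map_neg] at this
    exact this
  have hlt : ∀ P : W.toAffine.Point, h9k_Ker v W P → v (h9k_T W P) < 1 :=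
    fun P hK => h9k_vT_lt_one v W h1 h2 h3 h4 h6 P hK
  have hne : ∀ P : W.toAffine.Point, h9k_Ker v W P → P ≠ 0 → h9k_T W P ≠ 0 :=
    fun P hK h => lead_cs_T_ne_zero v W h1 h2 h3 h4 h6 P hK h
  -- `t₀`
  set t₀ := h9k_T W P₀ with ht₀
  have ht₀0 : t₀ ≠ 0 := hne P₀ hK₀ h0
  have hg0 : 0 < v t₀ := zero_lt_iff.mpr ((Valuation.ne_zero_iff v).mpr ht₀0)
  have heq₀ : v t₀ ^ q = v π :=
    le_antisymm hsmall (lead_cs_A v ht₀0 hc (hroot P₀ hK₀ hp₀ h0))
  have hπ0 : 0 < v π := by rw [← heq₀]; exact pow_pos hg0 q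
  have hc1 : v c = 1 := by
    rcases lt_or_eq_of_le hc with h | h
    · exact (lead_cs_B v ht₀0 h heq₀ (hroot P₀ hK₀ hp₀ h0)).elim
    · exact h
  have hc0 : c ≠ 0 := by
    intro h; rw [h, map_zero] at hc1; exact zero_ne_one hc1
  -- all nonzero torsion points of the kernel have the same `v t`
  have hval : ∀ P : W.toAffine.Point, h9k_Ker v W P → (q + 1) • P = 0 → P ≠ 0 →
      v (h9k_T W P) = v t₀ := by
    intro P hK hP hP0
    have := lead_cs_C v (hne P hK hP0) hc1 (hroot P hK hP hP0)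
    exact (pow_left_inj (M := Γ₀) hq.ne').mp (this.trans heq₀.symm)
  have hcong : ∀ P : W.toAffine.Point, h9k_Ker v W P → (q + 1) • P = 0 → P ≠ 0 →
      v (π + c * h9k_T W P ^ q) < v π := by
    intro P hK hP hP0
    have hv := hval P hK hP hP0
    exact lead_cs_C' v (hne P hK hP0) (by rw [hv]; exact heq₀) (hroot P hK hP hP0)
  have hr : v t₀ < 1 := hlt P₀ hK₀
  -- the set `S` of nonzero points
  set S : Set W.toAffine.Point := {P | (h9k_Ker v W P ∧ (q + 1) • P = 0) ∧ P ≠ 0} with hS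
  have hcount : S.Finite ∧ S.ncard ≤ q := by
    refine lead_cs_count v S (fun P => h9k_T W P / t₀) hq ?_ ?_ ?_
    · rintro P ⟨⟨hK, hP⟩, hP0⟩
      show v (h9k_T W P / t₀) ≤ 1
      rw [map_div₀, hval P hK hP hP0, div_self hg0.ne']
    · rintro P ⟨⟨hK, hP⟩, hP0⟩
      show v ((h9k_T W P / t₀) ^ q - 1) < 1
      have e : (h9k_T W P / t₀) ^ q - 1
          = ((π + c * h9k_T W P ^ q) - (π + c * t₀ ^ q)) / (c * t₀ ^ q) := by
        have ht₀q : t₀ ^ q ≠ 0 := pow_ne_zero q ht₀0
        rw [div_pow, eq_div_iff (mul_ne_zero hc0 ht₀q), sub_mul, div_mul_eq_mul_div,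
          mul_div_assoc, mul_comm c (t₀ ^ q), ← mul_div_assoc, mul_div_assoc,
          mul_div_cancel_left₀ _ ht₀q]
        ring
      rw [e, map_div₀, map_mul, map_pow, hc1, one_mul, heq₀]
      have hnum : v ((π + c * h9k_T W P ^ q) - (π + c * t₀ ^ q)) < v π :=
        Valuation.map_sub_lt v (hcong P hK hP hP0) (hcong P₀ hK₀ hp₀ h0)
      calc v ((π + c * h9k_T W P ^ q) - (π + c * t₀ ^ q)) / v π
          = v ((π + c * h9k_T W P ^ q) - (π + c * t₀ ^ q)) * (v π)⁻¹ := div_eq_mul_inv _ _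
        _ < v π * (v π)⁻¹ := mul_lt_mul_of_pos_right hnum (inv_pos.mpr hπ0)
        _ = 1 := mul_inv_cancel₀ hπ0.ne'
    · rintro P ⟨⟨hK, hP⟩, hP0⟩ P' ⟨⟨hK', hP'⟩, hP0'⟩ hz
      have hz' : v (h9k_T W P - h9k_T W P') < v t₀ := by
        have e : h9k_T W P / t₀ - h9k_T W P' / t₀ = (h9k_T W P - h9k_T W P') / t₀ := by ring
        change v (h9k_T W P / t₀ - h9k_T W P' / t₀) < 1 at hz
        rw [e, map_div₀] at hz
        calc v (h9k_T W P - h9k_T W P') = v (h9k_T W P - h9k_T W P') / v t₀ * v t₀ := by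
              rw [div_mul_cancel₀ _ hg0.ne']
          _ < 1 * v t₀ := mul_lt_mul_of_pos_right hz hg0
          _ = v t₀ := one_mul _
      by_contra hPP'
      have hKn : h9k_Ker v W (-P') := h9k_Ker_neg v W P' hK'
      have hPn : (q + 1) • (-P') = 0 := by rw [smul_neg, hP', neg_zero]
      have hn0 : -P' ≠ 0 := by rwa [Ne, neg_eq_zero]
      have hvn : v (h9k_T W (-P')) = v t₀ := hval (-P') hKn hPn hn0
      have hD0 : P + -P' ≠ 0 := by
        intro h; apply hPP'; rw [← sub_eq_add_neg, sub_eq_zero] at h; exact h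
      obtain ⟨hKD, hED⟩ := h9k_add_est v W h1 h2 h3 h4 h6 hr P (-P') hK hKn
        (hval P hK hP hP0).le hvn.le
      obtain ⟨-, hEN⟩ := h9k_add_est v W h1 h2 h3 h4 h6 hr P' (-P') hK' hKn
        (hval P' hK' hP' hP0').le hvn.le
      rw [add_neg_cancel, h9k_T_zero] at hEN
      have hPD : (q + 1) • (P + -P') = 0 := by rw [smul_add, hP, hPn, add_zero]
      have hvD : v (h9k_T W (P + -P')) = v t₀ := hval _ hKD hPD hD0
      have hsq : v t₀ ^ 2 < v t₀ := by
        rw [pow_two]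
        calc v t₀ * v t₀ < 1 * v t₀ := mul_lt_mul_of_pos_right hr hg0
          _ = v t₀ := one_mul _
      have e : h9k_T W (P + -P') = (h9k_T W (P + -P') - h9k_T W P - h9k_T W (-P'))
          - (0 - h9k_T W P' - h9k_T W (-P')) + (h9k_T W P - h9k_T W P') := by ring
      have : v (h9k_T W (P + -P')) < v t₀ := by
        rw [e]
        refine lt_of_le_of_lt (Valuation.map_add_le_max' v _ _) (max_lt ?_ hz')
        exact lt_of_le_of_lt (Valuation.map_sub_le v hED hEN) hsq
      exact absurd hvD this.ne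
  -- conclusion
  have hins : {P : W.toAffine.Point | h9k_Ker v W P ∧ (q + 1) • P = 0} ⊆ insert 0 S := by
    intro P hP
    by_cases h : P = 0
    · exact Or.inl h
    · exact Or.inr ⟨hP, h⟩
  have hfin : (insert (0 : W.toAffine.Point) S).Finite := hcount.1.insert 0
  refine ⟨hfin.subset hins, ?_⟩
  calc {P : W.toAffine.Point | h9k_Ker v W P ∧ (q + 1) • P = 0}.ncard
      ≤ (insert (0 : W.toAffine.Point) S).ncard := Set.ncard_le_ncard hins hfin
    _ ≤ S.ncard + 1 := Set.ncard_insert_le 0 S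
    _ ≤ q + 1 := by omega

end main

end Fermat.Agent.Lib.S13
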