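import Mathlib
import Fermat.Prelude.Def_FLTPrelim_GaloisRep
import Fermat.Agent.Lib.S05.BadCaseProof
import Fermat.Agent.Lib.S13.KerTorsion

/-!
# Project S13 (E-f) = (E1): inertia moves points only inside the kernel of reduction

Owner: helper7.  Port of S05's good / bad case proofs with conclusion
`σ • P - P ∈ E₁` (kernel of reduction, helper9's `h9k_Ker`) instead of `σ • P = P`:
no hypothesis on the residue characteristic.

* `h7_sub_mem_ker_good` : good reduction, ANY point.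
* `h7_sub_mem_ker_bad` : multiplicative reduction `Y² = X³ + aX² + bX`, `n`-torsion points, where
  `v b = (v π) ^ (n e)` for some `π` in the base field.
-/

set_option autoImplicit false

open WeierstrassCurve WeierstrassCurve.Affine
open scoped WeierstrassCurve.Affine

namespace Fermat.Agent.Lib.S13

open Fermat.Agent.Lib.S05

section general

variable {F L : Type*} [Field F] [Field L] [Algebra F L] [DecidableEq L] {Γ₀ : Type*}
  [LinearOrderedCommGroupWithZero Γ₀] (v : Valuation L Γ₀) (W₀ : WeierstrassCurve F)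
  (σ : L ≃ₐ[F] L)

omit [DecidableEq L] in
theorem h7_bc_a₁ : (WeierstrassCurve.baseChange W₀ L).a₁ = algebraMap F L W₀.a₁ := rfl
omit [DecidableEq L] in
theorem h7_bc_a₂ : (WeierstrassCurve.baseChange W₀ L).a₂ = algebraMap F L W₀.a₂ := rfl
omit [DecidableEq L] in
theorem h7_bc_a₃ : (WeierstrassCurve.baseChange W₀ L).a₃ = algebraMap F L W₀.a₃ := rfl
omit [DecidableEq L] in
theorem h7_bc_a₄ : (WeierstrassCurve.baseChange W₀ L).a₄ = algebraMap F L W₀.a₄ := rfl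
omit [DecidableEq L] in
theorem h7_bc_a₆ : (WeierstrassCurve.baseChange W₀ L).a₆ = algebraMap F L W₀.a₆ := rfl
omit [DecidableEq L] in
theorem h7_bc_Δ : (WeierstrassCurve.baseChange W₀ L).Δ = algebraMap F L W₀.Δ :=
  WeierstrassCurve.map_Δ W₀ (algebraMap F L)

/-- `σ` preserves the kernel of reduction. -/
theorem h7_ker_smul (hσv : ∀ x, v (σ x) = v x) (P : (W₀⁄L).Point)
    (hP : h9k_Ker v (WeierstrassCurve.baseChange W₀ L) P) :
    h9k_Ker v (WeierstrassCurve.baseChange W₀ L) (σ • P) := by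
  rcases P with _ | ⟨x, y, h⟩
  · exact trivial
  · obtain ⟨h', e⟩ := smul_some_eq W₀ σ h
    rw [e]
    show 1 < v (σ x)
    rw [hσv]
    exact hP

/-- Points of the kernel of reduction are moved inside the kernel. -/
theorem h7_sub_ker_of_ker (hσv : ∀ x, v (σ x) = v x)
    (h1 : W₀.a₁ = 0) (h3 : W₀.a₃ = 0) (h2 : v (algebraMap F L W₀.a₂) ≤ 1)
    (h4 : v (algebraMap F L W₀.a₄) ≤ 1) (h6 : v (algebraMap F L W₀.a₆) ≤ 1)
    (P : (W₀⁄L).Point) (hP : h9k_Ker v (WeierstrassCurve.baseChange W₀ L) P) :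
    h9k_Ker v (WeierstrassCurve.baseChange W₀ L) (σ • P - P) := by
  have hW1 : v (WeierstrassCurve.baseChange W₀ L).a₁ ≤ 1 := by
    rw [h7_bc_a₁, h1, map_zero, map_zero]; exact zero_le_one
  have hW3 : v (WeierstrassCurve.baseChange W₀ L).a₃ ≤ 1 := by
    rw [h7_bc_a₃, h3, map_zero, map_zero]; exact zero_le_one
  rw [sub_eq_add_neg]
  exact h9k_ker_add v _ hW1 h2 hW3 h4 h6 _ _
    (h7_ker_smul v W₀ σ hσv P hP) (h9k_Ker_neg v _ P hP)

/-- An integral point with nonsingular reduction is moved inside the kernel of reduction. -/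
theorem h7_sub_ker_of_nonsingular_reduction
    (hσv : ∀ x, v (σ x) = v x) (hσm : ∀ x, v x ≤ 1 → v (σ x - x) < 1)
    (h1 : W₀.a₁ = 0) (h3 : W₀.a₃ = 0) (h2 : v (algebraMap F L W₀.a₂) ≤ 1)
    (h4 : v (algebraMap F L W₀.a₄) ≤ 1) (h6 : v (algebraMap F L W₀.a₆) ≤ 1)
    {x y : L} (h : (W₀⁄L).Nonsingular x y) (hx : v x ≤ 1)
    (hns : v (2 * y) = 1 ∨
      v (3 * x ^ 2 + 2 * algebraMap F L W₀.a₂ * x + algebraMap F L W₀.a₄) = 1) :
    h9k_Ker v (WeierstrassCurve.baseChange W₀ L)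
      (σ • (Point.some x y h : (W₀⁄L).Point) - Point.some x y h) := by
  set W : WeierstrassCurve L := WeierstrassCurve.baseChange W₀ L with hW
  have hW1 : W.a₁ = 0 := by rw [hW, h7_bc_a₁, h1, map_zero]
  have hW3 : W.a₃ = 0 := by rw [hW, h7_bc_a₃, h3, map_zero]
  have hW2 : W.a₂ = algebraMap F L W₀.a₂ := rfl
  have hW4 : W.a₄ = algebraMap F L W₀.a₄ := rfl
  have hW6 : W.a₆ = algebraMap F L W₀.a₆ := rfl
  obtain ⟨h', hσP⟩ := smul_some_eq W₀ σ h
  have hy : v y ≤ 1 :=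
    v_y_le_one v hW1 hW3 (by rw [hW2]; exact h2) (by rw [hW4]; exact h4) (by rw [hW6]; exact h6)
      h.1 hx
  have hxσ : v (x - σ x) < 1 := by rw [Valuation.map_sub_swap]; exact hσm x hx
  have hyσ : v (y - σ y) < 1 := by rw [Valuation.map_sub_swap]; exact hσm y hy
  have hK := sub_mem_kernel_of_reduction_eq v W hW1 hW3 (by rw [hW2]; exact h2)
    (by rw [hW4]; exact h4) (x₁ := x) (y₁ := y) (x₂ := σ x) (y₂ := σ y) h h' hx
    (by rw [hσv]; exact hx) hxσ hyσ (by rw [hW2, hW4]; exact hns)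
  rw [hσP]
  rcases hK with hK | ⟨x₃, y₃, h₃, hsub, hx₃⟩
  · rw [← hK, sub_self]
    exact trivial
  · have e : (Point.some (σ x) (σ y) h' : (W₀⁄L).Point) - Point.some x y h
        = -(Point.some x₃ y₃ h₃) := by
      rw [← hsub, neg_sub]
    rw [e]
    exact h9k_Ker_neg v W _ hx₃

/-- **(E1), good case**: every point is moved inside the kernel of reduction. -/
theorem h7_sub_ker_of_good_reduction
    (hσv : ∀ x, v (σ x) = v x) (hσm : ∀ x, v x ≤ 1 → v (σ x - x) < 1)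
    (h1 : W₀.a₁ = 0) (h3 : W₀.a₃ = 0) (h2 : v (algebraMap F L W₀.a₂) ≤ 1)
    (h4 : v (algebraMap F L W₀.a₄) ≤ 1) (h6 : v (algebraMap F L W₀.a₆) ≤ 1)
    (hΔ : v (algebraMap F L W₀.Δ) = 1) (P : (W₀⁄L).Point) :
    h9k_Ker v (WeierstrassCurve.baseChange W₀ L) (σ • P - P) := by
  rcases P with _ | ⟨x, y, h⟩
  · exact h7_sub_ker_of_ker v W₀ σ hσv h1 h3 h2 h4 h6 _ trivial
  · rcases le_or_gt (v x) 1 with hx | hx
    · set W : WeierstrassCurve L := WeierstrassCurve.baseChange W₀ L with hW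
      have hW1 : W.a₁ = 0 := by rw [hW, h7_bc_a₁, h1, map_zero]
      have hW3 : W.a₃ = 0 := by rw [hW, h7_bc_a₃, h3, map_zero]
      have hW2 : W.a₂ = algebraMap F L W₀.a₂ := rfl
      have hW4 : W.a₄ = algebraMap F L W₀.a₄ := rfl
      have hW6 : W.a₆ = algebraMap F L W₀.a₆ := rfl
      have hWΔ : v W.Δ = 1 := by rw [hW, h7_bc_Δ]; exact hΔ
      have hns := nonsingular_reduction_of_v_Δ v hW1 hW3 (by rw [hW2]; exact h2)
        (by rw [hW4]; exact h4) (by rw [hW6]; exact h6) hWΔ h.1 hx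
      rw [hW2, hW4] at hns
      exact h7_sub_ker_of_nonsingular_reduction v W₀ σ hσv hσm h1 h3 h2 h4 h6 h hx hns
    · exact h7_sub_ker_of_ker v W₀ σ hσv h1 h3 h2 h4 h6 _ hx

end general

section bad

variable {F L : Type*} [Field F] [Field L] [Algebra F L] [DecidableEq L] {Γ₀ : Type*}
  [LinearOrderedCommGroupWithZero Γ₀] (v : Valuation L Γ₀) (W₀ : WeierstrassCurve F)
  (σ : L ≃ₐ[F] L)

/-- Bad case, unit type: a point with `v x = 1` is moved inside the kernel of reduction. -/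
theorem h7_sub_ker_of_v_x_eq_one
    (hσv : ∀ x, v (σ x) = v x) (hσm : ∀ x, v x ≤ 1 → v (σ x - x) < 1)
    (h1 : W₀.a₁ = 0) (h3 : W₀.a₃ = 0) (h6 : W₀.a₆ = 0) (ha : v (algebraMap F L W₀.a₂) = 1)
    (hb : v (algebraMap F L W₀.a₄) < 1) (hv2 : v (2 : L) = 1)
    {x y : L} (h : (W₀⁄L).Nonsingular x y) (hx : v x = 1) :
    h9k_Ker v (WeierstrassCurve.baseChange W₀ L)
      (σ • (Point.some x y h : (W₀⁄L).Point) - Point.some x y h) := by
  set W : WeierstrassCurve L := WeierstrassCurve.baseChange W₀ L with hW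
  have hW1 : W.a₁ = 0 := by rw [hW, h7_bc_a₁, h1, map_zero]
  have hW3 : W.a₃ = 0 := by rw [hW, h7_bc_a₃, h3, map_zero]
  have hW6 : W.a₆ = 0 := by rw [hW, h7_bc_a₆, h6, map_zero]
  have hW2 : W.a₂ = algebraMap F L W₀.a₂ := rfl
  have hW4 : W.a₄ = algebraMap F L W₀.a₄ := rfl
  have hns := nonsingular_reduction_of_v_x_eq_one v hW1 hW3 hW6 (by rw [hW2]; exact ha)
    (by rw [hW4]; exact hb) hv2 h.1 hx
  rw [hW2, hW4] at hns
  exact h7_sub_ker_of_nonsingular_reduction v W₀ σ hσv hσm h1 h3 ha.le hb.le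
    (by rw [h6, map_zero, map_zero]; exact zero_le_one) h hx.le hns

/-- Bad case, points near `T = (0,0)`: a point with `v x ≤ v b` is moved inside the kernel. -/
theorem h7_sub_ker_of_v_x_le_v_b
    (hσv : ∀ x, v (σ x) = v x) (hσm : ∀ x, v x ≤ 1 → v (σ x - x) < 1)
    (h1 : W₀.a₁ = 0) (h3 : W₀.a₃ = 0) (h6 : W₀.a₆ = 0) (ha : v (algebraMap F L W₀.a₂) = 1)
    (hb : v (algebraMap F L W₀.a₄) < 1) (hb0 : algebraMap F L W₀.a₄ ≠ 0) (hv2 : v (2 : L) = 1)
    {x y : L} (h : (W₀⁄L).Nonsingular x y) (hx : v x ≤ v (algebraMap F L W₀.a₄)) :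
    h9k_Ker v (WeierstrassCurve.baseChange W₀ L)
      (σ • (Point.some x y h : (W₀⁄L).Point) - Point.some x y h) := by
  have hW1 : (WeierstrassCurve.baseChange W₀ L).a₁ = 0 := by rw [h7_bc_a₁, h1, map_zero]
  have hW3 : (WeierstrassCurve.baseChange W₀ L).a₃ = 0 := by rw [h7_bc_a₃, h3, map_zero]
  have hW6 : (WeierstrassCurve.baseChange W₀ L).a₆ = 0 := by rw [h7_bc_a₆, h6, map_zero]
  have hW4 : (WeierstrassCurve.baseChange W₀ L).a₄ = algebraMap F L W₀.a₄ := rfl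
  have hWb : (WeierstrassCurve.baseChange W₀ L).a₄ ≠ 0 := by rw [hW4]; exact hb0
  have h6' : v (algebraMap F L W₀.a₆) ≤ 1 := by rw [h6, map_zero, map_zero]; exact zero_le_one
  have hT0 : (W₀⁄L).Nonsingular 0 0 := hb_nonsingular_T hW6 hWb
  -- `σ` fixes `T`
  have hσT : σ • (Point.some 0 0 hT0 : (W₀⁄L).Point) = Point.some 0 0 hT0 := by
    obtain ⟨h', e⟩ := smul_some_eq W₀ σ hT0
    rw [e]
    congr 1 <;> exact map_zero σ
  by_cases hx0 : x = 0
  · subst hx0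
    have hy2 := hb_equation hW1 hW3 hW6 h.1
    have hy0 : y = 0 := by
      have : y ^ 2 = 0 := by rw [hy2]; ring
      exact pow_eq_zero_iff (two_ne_zero) |>.mp this
    subst hy0
    rw [hσT, sub_self]
    exact trivial
  · obtain ⟨y₃, h₃, hadd⟩ : ∃ (y₃ : L)
        (h₃ : (W₀⁄L).Nonsingular (algebraMap F L W₀.a₄ / x) y₃),
        (Point.some x y h : (W₀⁄L).Point) + Point.some 0 0 hT0 = Point.some _ y₃ h₃ :=
      hb_add_T hW1 hW3 hW6 hWb h hx0
    have hxpos : 0 < v x := v.pos_iff.mpr hx0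
    have hge : 1 ≤ v (algebraMap F L W₀.a₄ / x) := by
      rw [map_div₀, one_le_div₀ hxpos]; exact hx
    have hQ : h9k_Ker v (WeierstrassCurve.baseChange W₀ L)
        (σ • (Point.some _ y₃ h₃ : (W₀⁄L).Point) - Point.some _ y₃ h₃) := by
      rcases hge.eq_or_lt with heq | hlt
      · exact h7_sub_ker_of_v_x_eq_one v W₀ σ hσv hσm h1 h3 h6 ha hb hv2 h₃ heq.symm
      · exact h7_sub_ker_of_ker v W₀ σ hσv h1 h3 ha.le hb.le h6' _ hlt
    have e : σ • (Point.some _ y₃ h₃ : (W₀⁄L).Point) - Point.some _ y₃ h₃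
        = σ • (Point.some x y h : (W₀⁄L).Point) - Point.some x y h := by
      rw [← hadd, hb_smul_add, hσT]
      abel
    rw [← e]
    exact hQ

/-- Bad case, intermediate type: a point with `v b < v x < 1` and `σ x / x ≡ 1` is moved inside
the kernel of reduction. -/
theorem h7_sub_ker_of_intermediate
    (hσm : ∀ x, v x ≤ 1 → v (σ x - x) < 1)
    (h1 : W₀.a₁ = 0) (h3 : W₀.a₃ = 0) (h6 : W₀.a₆ = 0) (ha : v (algebraMap F L W₀.a₂) = 1)
    (hv2 : v (2 : L) = 1)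
    {x y : L} (h : (W₀⁄L).Nonsingular x y) (hxb : v (algebraMap F L W₀.a₄) < v x)
    (hx : v x < 1) (hσx : v (σ x - x) < v x) :
    h9k_Ker v (WeierstrassCurve.baseChange W₀ L)
      (σ • (Point.some x y h : (W₀⁄L).Point) - Point.some x y h) := by
  have hW1 : (WeierstrassCurve.baseChange W₀ L).a₁ = 0 := by rw [h7_bc_a₁, h1, map_zero]
  have hW3 : (WeierstrassCurve.baseChange W₀ L).a₃ = 0 := by rw [h7_bc_a₃, h3, map_zero]
  have hW6 : (WeierstrassCurve.baseChange W₀ L).a₆ = 0 := by rw [h7_bc_a₆, h6, map_zero]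
  have hW2 : (WeierstrassCurve.baseChange W₀ L).a₂ = algebraMap F L W₀.a₂ := rfl
  have hW4 : (WeierstrassCurve.baseChange W₀ L).a₄ = algebraMap F L W₀.a₄ := rfl
  obtain ⟨h', hσP⟩ := smul_some_eq W₀ σ h
  have hμ₁ : v (y / x) = 1 :=
    v_mu_eq_one v hW1 hW3 hW6 (by rw [hW2]; exact ha) h.1 (by rw [hW4]; exact hxb) hx
  have hμ : v (y / x - σ y / σ x) < 1 := by
    rw [← map_div₀ σ y x, Valuation.map_sub_swap]
    exact hσm _ hμ₁.le
  have hx' : v (x - σ x) < v x := by rw [Valuation.map_sub_swap]; exact hσx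
  have hK : (Point.some x y h : (W₀⁄L).Point) = Point.some (σ x) (σ y) h' ∨
      ∃ (x₃ y₃ : L) (h₃ : (W₀⁄L).Nonsingular x₃ y₃),
        (Point.some x y h : (W₀⁄L).Point) - Point.some (σ x) (σ y) h' = Point.some x₃ y₃ h₃ ∧
          1 < v x₃ :=
    sub_mem_kernel_of_intermediate v hW1 hW3 hW6 (by rw [hW2]; exact ha) hv2 h h'
      (by rw [hW4]; exact hxb) hx hx' hμ
  rw [hσP]
  rcases hK with hK | ⟨x₃, y₃, h₃, hsub, hx₃⟩
  · rw [← hK, sub_self]
    exact trivial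
  · have e : (Point.some (σ x) (σ y) h' : (W₀⁄L).Point) - Point.some x y h
        = -(Point.some x₃ y₃ h₃) := by
      rw [← hsub, neg_sub]
    rw [e]
    exact h9k_Ker_neg v _ _ hx₃

end bad

section final

/-- **(E1), good case**, in the setting of `Fermat.Agent.Lib.S05.GoodCase`: every point is moved
inside the kernel of reduction (no torsion hypothesis, no hypothesis on the residue
characteristic). -/
theorem h7_sub_mem_ker_good {F₀ L Γ₀ : Type} [Field F₀] [Field L] [Algebra F₀ L] [DecidableEq L]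
    [LinearOrderedCommGroupWithZero Γ₀] (v : Valuation L Γ₀) (σ : L ≃ₐ[F₀] L)
    (hσv : ∀ x, v (σ x) = v x) (hσm : ∀ x, v x ≤ 1 → v (σ x - x) < 1) (a₂ a₄ a₆ : F₀)
    (h2 : v (algebraMap F₀ L a₂) ≤ 1) (h4 : v (algebraMap F₀ L a₄) ≤ 1)
    (h6 : v (algebraMap F₀ L a₆) ≤ 1) (_hv2 : v (2 : L) = 1)
    (hΔ : v (algebraMap F₀ L (⟨0, a₂, 0, a₄, a₆⟩ : WeierstrassCurve F₀).Δ) = 1)
    (P : ((⟨0, a₂, 0, a₄, a₆⟩ : WeierstrassCurve F₀)⁄L).Point) :
    h9k_Ker v ((⟨0, a₂, 0, a₄, a₆⟩ : WeierstrassCurve F₀).map (algebraMap F₀ L))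
      (Point.map σ.toAlgHom P - P) :=
  h7_sub_ker_of_good_reduction v (⟨0, a₂, 0, a₄, a₆⟩ : WeierstrassCurve F₀) σ hσv hσm rfl rfl
    h2 h4 h6 hΔ P

/-- **(E1), bad case**, in the setting of `Fermat.Agent.Lib.S05.BadCase`: every `n`-torsion point
is moved inside the kernel of reduction, provided `v b = (v π) ^ (n e)`; no hypothesis on `v n`. -/
theorem h7_sub_mem_ker_bad {F₀ L Γ₀ : Type} [Field F₀] [Field L] [Algebra F₀ L] [DecidableEq L]
    [IsAlgClosed L] [LinearOrderedCommGroupWithZero Γ₀] (v : Valuation L Γ₀) (σ : L ≃ₐ[F₀] L)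
    (hσv : ∀ x, v (σ x) = v x) (hσm : ∀ x, v x ≤ 1 → v (σ x - x) < 1) (a b π : F₀)
    (hb0 : b ≠ 0) (_hdisc : a ^ 2 - 4 * b ≠ 0) (hva : v (algebraMap F₀ L a) = 1)
    (hvb : v (algebraMap F₀ L b) < 1) (hv2 : v (2 : L) = 1) (n : ℕ) (hn : 0 < n)
    (hπ : ∃ e : ℕ, v (algebraMap F₀ L b) = v (algebraMap F₀ L π) ^ (n * e))
    (P : ((⟨0, a, 0, b, 0⟩ : WeierstrassCurve F₀)⁄L).Point) (hP : n • P = 0) :
    h9k_Ker v ((⟨0, a, 0, b, 0⟩ : WeierstrassCurve F₀).map (algebraMap F₀ L))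
      (Point.map σ.toAlgHom P - P) := by
  have hb0' : algebraMap F₀ L b ≠ 0 := by
    rw [Ne, map_eq_zero_iff _ (algebraMap F₀ L).injective]; exact hb0
  have h6' : v (algebraMap F₀ L (⟨0, a, 0, b, 0⟩ : WeierstrassCurve F₀).a₆) ≤ 1 := by
    show v (algebraMap F₀ L 0) ≤ 1
    rw [map_zero, map_zero]; exact zero_le_one
  rcases P with _ | ⟨x, y, h⟩
  · exact h7_sub_ker_of_ker v (⟨0, a, 0, b, 0⟩ : WeierstrassCurve F₀) σ hσv rfl rfl hva.le hvb.le
      h6' _ trivial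
  · rcases lt_or_ge 1 (v x) with hx1 | hx1
    · exact h7_sub_ker_of_ker v (⟨0, a, 0, b, 0⟩ : WeierstrassCurve F₀) σ hσv rfl rfl hva.le hvb.le
        h6' _ hx1
    rcases lt_or_eq_of_le hx1 with hxlt | hxeq
    · rcases le_or_gt (v x) (v (algebraMap F₀ L b)) with hxb | hxb
      · exact h7_sub_ker_of_v_x_le_v_b v (⟨0, a, 0, b, 0⟩ : WeierstrassCurve F₀) σ hσv hσm
          rfl rfl rfl hva hvb hb0' hv2 h hxb
      · obtain ⟨α, hα⟩ := IsAlgClosed.exists_pow_nat_eq (algebraMap F₀ L a) two_pos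
        have hS : CompSetting v (algebraMap F₀ L a) (algebraMap F₀ L b) α :=
          ⟨hv2, hva, hα, hvb, hb0'⟩
        obtain ⟨k, hk⟩ := h2_componentTorsion_of_eq v (algebraMap F₀ L a) (algebraMap F₀ L b) α
          hS ((⟨0, a, 0, b, 0⟩ : WeierstrassCurve F₀).map (algebraMap F₀ L))
          (by ext <;> simp [Wab]) x y h n hP hxb hxlt
        obtain ⟨e, he⟩ := hπ
        have hroot := hb_root_extraction hn.ne' hk he
        have hx0 : x ≠ 0 := by
          intro h0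
          rw [h0, map_zero] at hxb
          exact not_lt_zero hxb
        exact h7_sub_ker_of_intermediate v (⟨0, a, 0, b, 0⟩ : WeierstrassCurve F₀) σ hσm
          rfl rfl rfl hva hv2 h hxb hxlt (v_sub_lt_of_v_eq_zpow v σ hσm hx0 π _ hroot)
    · exact h7_sub_ker_of_v_x_eq_one v (⟨0, a, 0, b, 0⟩ : WeierstrassCurve F₀) σ hσv hσm
        rfl rfl rfl hva hvb hv2 h hxeq

end final

end Fermat.Agent.Lib.S13
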