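/-
S13 project, stream (E) (helper8, architect): contracts for the local analysis at `p`.

Setting (as in S05's `Contracts.lean`): `F₀` a field (`ℚ`), `L` an algebraically closed extension
(`AlgebraicClosure ℚ`), `v : Valuation L Γ₀` (a place over `p`), `S` a set of `F₀`-automorphisms
of `L` (the inertia group), acting on points by Mathlib's `Point.map σ.toAlgHom`.

* `OrbStatement` (ORB): a subgroup `N` of order `p` of the kernel of reduction which is stable under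
  `S` consists of points with `v(t)^(p-1) ≤ v(p)`, provided `S`-fixed elements of `L` have value in
  `v(p)^ℤ` (helper5's (E2)).
* `LocalTheoremStatement` (E4): for the models `Y² = X³ + aX² + bX` in the good or in the
  multiplicative case, a stable subgroup `N` of order `p` of the `p`-torsion is either fixed pointwise
  by `S`, or `S` acts trivially on (`p`-torsion)/`N`.
-/
import Mathlib
import Fermat.Agent.Lib.S13.KerTorsion
import Fermat.Agent.Lib.S13.CanonSub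

set_option autoImplicit false

namespace Fermat.Agent.Lib.S13

open WeierstrassCurve WeierstrassCurve.Affine WeierstrassCurve.Affine.Point

/-- (ORB). -/
def OrbStatement : Prop :=
  ∀ {F₀ L Γ₀ : Type} [Field F₀] [Field L] [Algebra F₀ L] [DecidableEq L]
    [LinearOrderedCommGroupWithZero Γ₀] (v : Valuation L Γ₀) (S : Set (L ≃ₐ[F₀] L)),
    (∀ σ ∈ S, ∀ x, v (σ x) = v x) →
    ∀ p : ℕ, p.Prime → v (p : L) < 1 →
    (∀ z : L, z ≠ 0 → (∀ σ ∈ S, σ z = z) → ∃ m : ℤ, v z = v (p : L) ^ m) →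
    ∀ W₀ : WeierstrassCurve F₀,
      v (W₀.map (algebraMap F₀ L)).a₁ ≤ 1 → v (W₀.map (algebraMap F₀ L)).a₂ ≤ 1 →
      v (W₀.map (algebraMap F₀ L)).a₃ ≤ 1 → v (W₀.map (algebraMap F₀ L)).a₄ ≤ 1 →
      v (W₀.map (algebraMap F₀ L)).a₆ ≤ 1 →
    ∀ N : AddSubgroup (W₀⁄L).Point, Nat.card N = p →
      (∀ σ ∈ S, ∀ Q ∈ N, Point.map σ.toAlgHom Q ∈ N) →
      (∀ Q ∈ N, h9k_Ker v (W₀.map (algebraMap F₀ L)) Q) →
      ∀ Q ∈ N, Q ≠ 0 → v (h9k_T (W₀.map (algebraMap F₀ L)) Q) ^ (p - 1) ≤ v (p : L)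

/-- The hypotheses on the model `Y² = X³ + aX² + bX` over `F₀`: good reduction, or multiplicative
reduction with `v b` a `p`-th power of the value of an element of `F₀`. -/
def GoodOrBadModel {F₀ L Γ₀ : Type} [Field F₀] [Field L] [Algebra F₀ L]
    [LinearOrderedCommGroupWithZero Γ₀] (v : Valuation L Γ₀) (p : ℕ) (a b : F₀) : Prop :=
  (v (algebraMap F₀ L a) ≤ 1 ∧ v (algebraMap F₀ L b) ≤ 1 ∧
      v (algebraMap F₀ L (⟨0, a, 0, b, 0⟩ : WeierstrassCurve F₀).Δ) = 1) ∨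
    (b ≠ 0 ∧ a ^ 2 - 4 * b ≠ 0 ∧ v (algebraMap F₀ L a) = 1 ∧ v (algebraMap F₀ L b) < 1 ∧
      ∃ (π : F₀) (e : ℕ), v (algebraMap F₀ L b) = v (algebraMap F₀ L π) ^ (p * e))

/-- (E4): the local theorem. -/
def LocalTheoremStatement : Prop :=
  ∀ {F₀ L Γ₀ : Type} [Field F₀] [Field L] [Algebra F₀ L] [DecidableEq L] [IsAlgClosed L]
    [LinearOrderedCommGroupWithZero Γ₀] (v : Valuation L Γ₀) (S : Set (L ≃ₐ[F₀] L)),
    (∀ σ ∈ S, ∀ x, v (σ x) = v x) → (∀ σ ∈ S, ∀ x, v x ≤ 1 → v (σ x - x) < 1) →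
    ∀ p : ℕ, p.Prime → p ≠ 2 → v (p : L) < 1 → v (2 : L) = 1 →
    (∀ z : L, z ≠ 0 → (∀ σ ∈ S, σ z = z) → ∃ m : ℤ, v z = v (p : L) ^ m) →
    ∀ a b : F₀, GoodOrBadModel v p a b →
    ∀ N : AddSubgroup ((⟨0, a, 0, b, 0⟩ : WeierstrassCurve F₀)⁄L).Point, Nat.card N = p →
      (∀ σ ∈ S, ∀ Q ∈ N, Point.map σ.toAlgHom Q ∈ N) →
      (∀ σ ∈ S, ∀ Q ∈ N, Point.map σ.toAlgHom Q = Q) ∨
        (∀ σ ∈ S, ∀ Q : ((⟨0, a, 0, b, 0⟩ : WeierstrassCurve F₀)⁄L).Point, p • Q = 0 →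
          Point.map σ.toAlgHom Q - Q ∈ N)

end Fermat.Agent.Lib.S13
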