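/-
S13 project, stream (E) (helper8): the local theorem (E4) at a place over `p`, from
(E1) [`E1Statement`, helper7], (ORB) [`OrbStatement`, helper5], (FG) [`FGStatement`, helper4]
and (CS) [`lead_s13_canonSub`, lead].
-/
import Mathlib
import Fermat.Agent.Lib.S13.ELocalDefs

set_option autoImplicit false

namespace Fermat.Agent.Lib.S13

open WeierstrassCurve WeierstrassCurve.Affine WeierstrassCurve.Affine.Point

/-! ### The abstract argument -/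

section abstract

variable {M : Type*} [AddCommGroup M]

/-- Elements of a subgroup of order `p` are killed by `p`. -/
theorem h8_nsmul_eq_zero_of_card {p : ℕ} (N : AddSubgroup M) (hN : Nat.card N = p) {Q : M}
    (hQ : Q ∈ N) : p • Q = 0 := by
  have h := card_nsmul_eq_zero' (G := N) (x := ⟨Q, hQ⟩)
  rw [hN] at h
  have := congrArg (Subtype.val : N → M) h
  simpa using this

/-- In a subgroup of prime order every element is a multiple of any nonzero element. -/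
theorem h8_mem_multiples_of_card {p : ℕ} (hp : p.Prime) (N : AddSubgroup M)
    (hN : Nat.card N = p) {Q R : M} (hQ : Q ∈ N) (hQ0 : Q ≠ 0) (hR : R ∈ N) :
    ∃ k : ℕ, R = k • Q := by
  have : Fact p.Prime := ⟨hp⟩
  have htop : AddSubgroup.zmultiples (⟨Q, hQ⟩ : N) = ⊤ :=
    zmultiples_eq_top_of_prime_card (p := p) hN
      (fun h => hQ0 (by simpa using congrArg (Subtype.val : N → M) h))
  have hmem : (⟨R, hR⟩ : N) ∈ AddSubgroup.zmultiples (⟨Q, hQ⟩ : N) := by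
    rw [htop]; exact AddSubgroup.mem_top _
  obtain ⟨k, hk⟩ := AddSubgroup.mem_zmultiples_iff.mp hmem
  have hk' : R = k • Q := by
    have := congrArg (Subtype.val : N → M) hk
    simpa using this.symm
  have hpQ : p • Q = 0 := h8_nsmul_eq_zero_of_card N hN hQ
  refine ⟨(k % (p : ℤ)).toNat, ?_⟩
  have hpos : 0 ≤ k % (p : ℤ) := Int.emod_nonneg _ (by exact_mod_cast hp.ne_zero)
  have e : k = (k % (p : ℤ)) + (p : ℤ) * (k / (p : ℤ)) := (Int.emod_add_mul_ediv k p).symm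
  rw [hk']
  conv_lhs => rw [e]
  rw [add_zsmul, mul_zsmul', natCast_zsmul, hpQ, zsmul_zero, add_zero]
  conv_lhs => rw [← Int.toNat_of_nonneg hpos]
  rw [natCast_zsmul]

theorem h8_abstract_local {ι : Type*} (S : Set ι) (act : ι → M →+ M) {p : ℕ}
    (K N : AddSubgroup M) (hN : Nat.card N = p)
    (hstab : ∀ σ ∈ S, ∀ Q ∈ N, act σ Q ∈ N)
    (hE1 : ∀ σ ∈ S, ∀ Q, p • Q = 0 → act σ Q - Q ∈ K)
    (hCS : (∃ Q ∈ N, Q ≠ 0 ∧ Q ∈ K) → ∀ Q ∈ K, p • Q = 0 → Q ∈ N) :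
    (∀ σ ∈ S, ∀ Q ∈ N, act σ Q = Q) ∨ (∀ σ ∈ S, ∀ Q, p • Q = 0 → act σ Q - Q ∈ N) := by
  by_cases h : ∃ Q ∈ N, Q ≠ 0 ∧ Q ∈ K
  · right
    intro σ hσ Q hQ
    refine hCS h _ (hE1 σ hσ Q hQ) ?_
    rw [smul_sub, ← map_nsmul, hQ, _root_.map_zero, sub_zero]
  · left
    intro σ hσ Q hQ
    have hpQ : p • Q = 0 := h8_nsmul_eq_zero_of_card N hN hQ
    by_contra hne
    exact h ⟨act σ Q - Q, N.sub_mem (hstab σ hσ Q hQ) hQ, sub_ne_zero.mpr hne, hE1 σ hσ Q hpQ⟩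

end abstract

/-! ### The inputs -/

/-- (E1): inertia acts trivially on (`p`-torsion) modulo the kernel of reduction. -/
def E1Statement : Prop :=
  ∀ {F₀ L Γ₀ : Type} [Field F₀] [Field L] [Algebra F₀ L] [DecidableEq L] [IsAlgClosed L]
    [LinearOrderedCommGroupWithZero Γ₀] (v : Valuation L Γ₀) (σ : L ≃ₐ[F₀] L),
    (∀ x, v (σ x) = v x) → (∀ x, v x ≤ 1 → v (σ x - x) < 1) →
    ∀ p : ℕ, p.Prime → v (2 : L) = 1 →
    ∀ a b : F₀, GoodOrBadModel v p a b →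
    ∀ Q : ((⟨0, a, 0, b, 0⟩ : WeierstrassCurve F₀)⁄L).Point, p • Q = 0 →
      h9k_Ker v ((⟨0, a, 0, b, 0⟩ : WeierstrassCurve F₀).map (algebraMap F₀ L))
        (Point.map σ.toAlgHom Q - Q)

/-- (FG): helper4's `h4_fg`. -/
def FGStatement : Prop :=
  ∀ {L Γ₀ : Type} [Field L] [DecidableEq L] [LinearOrderedCommGroupWithZero Γ₀]
    (v : Valuation L Γ₀) (a b : L), v a ≤ 1 → v b ≤ 1 → ∀ p : ℕ, p.Prime →
    FormalPStatement v (⟨0, a, 0, b, 0⟩ : WeierstrassCurve L) p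

/-! ### The local theorem -/

/-- The local theorem for a general integral model, from its inputs. -/
theorem h8_local_core (hOrb : OrbStatement) {F₀ L Γ₀ : Type} [Field F₀] [Field L] [Algebra F₀ L]
    [DecidableEq L] [LinearOrderedCommGroupWithZero Γ₀] (v : Valuation L Γ₀)
    (S : Set (L ≃ₐ[F₀] L)) (hσv : ∀ σ ∈ S, ∀ x, v (σ x) = v x) {p : ℕ} (hp : p.Prime)
    (hvp : v (p : L) < 1)
    (hE2 : ∀ z : L, z ≠ 0 → (∀ σ ∈ S, σ z = z) → ∃ m : ℤ, v z = v (p : L) ^ m)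
    (W₀ : WeierstrassCurve F₀)
    (h1 : v (W₀.map (algebraMap F₀ L)).a₁ ≤ 1) (h2 : v (W₀.map (algebraMap F₀ L)).a₂ ≤ 1)
    (h3 : v (W₀.map (algebraMap F₀ L)).a₃ ≤ 1) (h4 : v (W₀.map (algebraMap F₀ L)).a₄ ≤ 1)
    (h6 : v (W₀.map (algebraMap F₀ L)).a₆ ≤ 1)
    (hFGW : FormalPStatement v (W₀.map (algebraMap F₀ L)) p)
    (hE1W : ∀ σ ∈ S, ∀ Q : (W₀⁄L).Point, p • Q = 0 →
      h9k_Ker v (W₀.map (algebraMap F₀ L)) (Point.map σ.toAlgHom Q - Q))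
    (N : AddSubgroup (W₀⁄L).Point) (hN : Nat.card N = p)
    (hstab : ∀ σ ∈ S, ∀ Q ∈ N, Point.map σ.toAlgHom Q ∈ N) :
    (∀ σ ∈ S, ∀ Q ∈ N, Point.map σ.toAlgHom Q = Q) ∨
      (∀ σ ∈ S, ∀ Q : (W₀⁄L).Point, p • Q = 0 → Point.map σ.toAlgHom Q - Q ∈ N) := by
  refine h8_abstract_local S (fun σ => Point.map (W' := W₀.toAffine) σ.toAlgHom)
    (h9k_kernel v (W₀.map (algebraMap F₀ L)) h1 h2 h3 h4 h6) N hN hstab hE1W ?_
  rintro ⟨Q₀, hQ₀N, hQ₀0, hQ₀K⟩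
  have hNK : ∀ R ∈ N, h9k_Ker v (W₀.map (algebraMap F₀ L)) R := by
    intro R hR
    obtain ⟨k, rfl⟩ := h8_mem_multiples_of_card hp N hN hQ₀N hQ₀0 hR
    exact (h9k_nsmul_est v _ h1 h2 h3 h4 h6 Q₀ hQ₀K k).1
  have hsmall := hOrb v S hσv p hp hvp hE2 W₀ h1 h2 h3 h4 h6 N hN hstab hNK Q₀ hQ₀N hQ₀0
  have hpQ₀ : p • Q₀ = 0 := h8_nsmul_eq_zero_of_card N hN hQ₀N
  obtain ⟨hfin, hcard⟩ := lead_s13_canonSub v _ h1 h2 h3 h4 h6 hp.two_le hFGW Q₀ hQ₀K hQ₀0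
    hpQ₀ hsmall
  have hsub : (N : Set (W₀⁄L).Point) ⊆
      {P : (W₀.map (algebraMap F₀ L)).toAffine.Point |
        h9k_Ker v (W₀.map (algebraMap F₀ L)) P ∧ p • P = 0} := by
    intro R hR
    exact ⟨hNK R hR, h8_nsmul_eq_zero_of_card N hN hR⟩
  have hNcard : (N : Set (W₀⁄L).Point).ncard = p := by
    rw [← hN]; exact (Nat.card_coe_set_eq _).symm
  have heq := Set.eq_of_subset_of_ncard_le hsub (by rw [hNcard]; exact hcard) hfin
  intro Q hQK hpQ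
  have : Q ∈ (N : Set (W₀⁄L).Point) := by
    rw [heq]; exact ⟨hQK, hpQ⟩
  exact this

theorem h8_localTheorem_of (hE1 : E1Statement) (hOrb : OrbStatement) (hFG : FGStatement) :
    LocalTheoremStatement := by
  intro F₀ L Γ₀ _ _ _ _ _ _ v S hσv hσm p hp hp2 hvp hv2 hE2 a b hmodel N hN hstab
  have hva : v (algebraMap F₀ L a) ≤ 1 := by
    rcases hmodel with h | h
    · exact h.1
    · exact h.2.2.1.le
  have hvb : v (algebraMap F₀ L b) ≤ 1 := by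
    rcases hmodel with h | h
    · exact h.2.1
    · exact h.2.2.2.1.le
  have hWeq : (⟨0, a, 0, b, 0⟩ : WeierstrassCurve F₀).map (algebraMap F₀ L)
      = ⟨0, algebraMap F₀ L a, 0, algebraMap F₀ L b, 0⟩ := by
    ext <;> simp
  have hFGW : FormalPStatement v
      ((⟨0, a, 0, b, 0⟩ : WeierstrassCurve F₀).map (algebraMap F₀ L)) p := by
    rw [hWeq]; exact hFG v _ _ hva hvb p hp
  refine h8_local_core hOrb v S hσv hp hvp hE2 ⟨0, a, 0, b, 0⟩ ?_ ?_ ?_ ?_ ?_ hFGW ?_ N hN hstab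
  · rw [hWeq]; simp
  · rw [hWeq]; exact hva
  · rw [hWeq]; simp
  · rw [hWeq]; exact hvb
  · rw [hWeq]; simp
  · intro σ hσ Q hQ
    exact hE1 v σ (hσv σ hσ) (hσm σ hσ) p hp hv2 a b hmodel Q hQ

end Fermat.Agent.Lib.S13
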