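/-
S13 project, stream (E) (helper8): `E1Statement` (ELocal.lean) from helper7's (E1) theorems.
-/
import Mathlib
import Fermat.Agent.Lib.S13.ELocal
import Fermat.Agent.Lib.S13.E1Reduction

set_option autoImplicit false

namespace Fermat.Agent.Lib.S13

open WeierstrassCurve WeierstrassCurve.Affine WeierstrassCurve.Affine.Point

theorem h8_e1 : E1Statement := by
  intro F₀ L Γ₀ _ _ _ _ _ _ v σ hσv hσm p hp hv2 a b hmodel Q hQ
  rcases hmodel with ⟨ha, hb, hΔ⟩ | ⟨hb0, hdisc, hva, hvb, π, hπ⟩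
  · have h6 : v (algebraMap F₀ L (0 : F₀)) ≤ 1 := by
      rw [_root_.map_zero, _root_.map_zero]; exact zero_le_one
    exact h7_sub_mem_ker_good v σ hσv hσm a b 0 ha hb h6 hv2 hΔ Q
  · exact h7_sub_mem_ker_bad v σ hσv hσm a b π hb0 hdisc hva hvb hv2 p hp.pos hπ Q hQ

end Fermat.Agent.Lib.S13
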