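/-
S13 project, stream (E) (helper8), piece (G1): a variable change defined over the base field
induces a Galois-equivariant isomorphism on points (extracted from helper9's
`h9_fixed_of_variableChange`, Lib/S05/Transfer.lean).
-/
import Mathlib
import Fermat.Agent.Lib.S05.Transfer

set_option autoImplicit false

namespace Fermat.Agent.Lib.S13

open WeierstrassCurve WeierstrassCurve.Affine WeierstrassCurve.Affine.Point
open Fermat.Agent.Lib.S51 Fermat.Agent.Lib.S05

theorem h8_transfer_iso {F₀ L : Type*} [Field F₀] [Field L] [Algebra F₀ L]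
    [DecidableEq L] (W : WeierstrassCurve F₀) (C : VariableChange F₀) :
    ∃ Φ : ((C • W)⁄L).Point ≃+ (W⁄L).Point, ∀ (σ : L ≃ₐ[F₀] L) (Q : ((C • W)⁄L).Point),
      Φ (Point.map σ.toAlgHom Q) = Point.map σ.toAlgHom (Φ Q) := by
  have heq : (C.map (algebraMap F₀ L)) • (W.baseChange L) = (C • W).baseChange L :=
    map_variableChange ..
  let Φ : ((C • W)⁄L).Point ≃+ (W⁄L).Point :=
    (h9_pointCongr heq.symm).trans
      (vcPointEquiv (W.baseChange L) (C.map (algebraMap F₀ L)))
  refine ⟨Φ, ?_⟩
  intro σ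
  have hCσ : (C.map (algebraMap F₀ L)).map (σ : L →+* L) = C.map (algebraMap F₀ L) := by
    rw [VariableChange.map_map]
    congr 1
    ext z
    exact σ.commutes z
  have hΦ_some : ∀ {x y : L} (hxy : ((C • W)⁄L).Nonsingular x y),
      ∃ h', Φ (Point.some x y hxy) =
        Point.some (vcX (C.map (algebraMap F₀ L)) x) (vcY (C.map (algebraMap F₀ L)) x y) h' := by
    intro x y hxy
    have hxy' : ((C.map (algebraMap F₀ L)) • (W.baseChange L)).toAffine.Nonsingular x y :=
      heq.symm ▸ hxy
    refine ⟨(nonsingular_vc _ _ _ _).mp hxy', ?_⟩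
    show vcPointEquiv _ _ (h9_pointCongr heq.symm (Point.some x y hxy)) = _
    rw [h9_pointCongr_some, vcPointEquiv_some]
  rintro (_ | ⟨x, y, hxy⟩)
  · rw [show (Point.zero : ((C • W)⁄L).Point) = 0 from rfl, _root_.map_zero, _root_.map_zero,
      _root_.map_zero]
  · obtain ⟨h1, e1⟩ := hΦ_some hxy
    rw [e1, Point.map_some, Point.map_some]
    obtain ⟨h2, e2⟩ := hΦ_some ((WeierstrassCurve.Affine.baseChange_nonsingular (C • W)
      σ.toAlgHom.injective x y).mpr hxy)
    rw [e2]
    have ex : vcX (C.map (algebraMap F₀ L)) (σ.toAlgHom x) =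
        σ.toAlgHom (vcX (C.map (algebraMap F₀ L)) x) := by
      have := vcX_map (σ : L →+* L) (C.map (algebraMap F₀ L)) x
      rw [hCσ] at this
      exact this
    have ey : vcY (C.map (algebraMap F₀ L)) (σ.toAlgHom x) (σ.toAlgHom y) =
        σ.toAlgHom (vcY (C.map (algebraMap F₀ L)) x y) := by
      have := vcY_map (σ : L →+* L) (C.map (algebraMap F₀ L)) x y
      rw [hCσ] at this
      exact this
    simp only [Point.some.injEq]
    exact ⟨ex, ey⟩

end Fermat.Agent.Lib.S13
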