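/-
S13 project (lead), piece (L2) of stream (B)/(E2) (for helper5): the prime of the inertia field below
`P` is unramified over `ℤ`.
-/
import Mathlib

set_option autoImplicit false

namespace Fermat.Agent.Lib.S13

open NumberField

variable (N : Type*) [Field N] [NumberField N] [IsGalois ℚ N] (P : Ideal (𝓞 N)) [P.IsPrime]

set_option linter.unusedVariables false in
set_option maxHeartbeats 400000 in
/-- Let `E` be the inertia field of the prime `P` of the Galois number field `N`; the prime of `E`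
below `P` has ramification index `1` over `ℤ`. -/
theorem lead_inertiaField_ramificationIdx (hP : P ≠ ⊥) :
    (P.under (𝓞 (IntermediateField.fixedField (P.inertia (N ≃ₐ[ℚ] N))))).ramificationIdx ℤ
      = 1 := by
  have i2 : IsGaloisGroup (P.inertia (N ≃ₐ[ℚ] N))
      (IntermediateField.fixedField (P.inertia (N ≃ₐ[ℚ] N))) N :=
    IsGaloisGroup.subgroup (N ≃ₐ[ℚ] N) ℚ N (P.inertia (N ≃ₐ[ℚ] N))
  have i4 : IsGaloisGroup (P.inertia (N ≃ₐ[ℚ] N))
      (𝓞 (IntermediateField.fixedField (P.inertia (N ≃ₐ[ℚ] N)))) (𝓞 N) :=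
    IsGaloisGroup.of_isFractionRing _ _ _
      (IntermediateField.fixedField (P.inertia (N ≃ₐ[ℚ] N))) N
  -- `e(P | ℤ) = |I|`
  have h1 : Nat.card (P.inertia (N ≃ₐ[ℚ] N)) = (P.under ℤ).ramificationIdxIn (𝓞 N) :=
    Ideal.card_inertia_eq_ramificationIdxIn (G := (N ≃ₐ[ℚ] N)) (P.under ℤ) P
  have h1' : (P.under ℤ).ramificationIdxIn (𝓞 N) = P.ramificationIdx ℤ :=
    Ideal.ramificationIdxIn_eq_ramificationIdx (P.under ℤ) P (N ≃ₐ[ℚ] N)
  -- `e(P | 𝓟E) = |inertia of P in I| = |I|`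
  have h2 : Nat.card (Ideal.inertia (P.inertia (N ≃ₐ[ℚ] N)) P)
      = (P.under (𝓞 (IntermediateField.fixedField (P.inertia (N ≃ₐ[ℚ] N))))).ramificationIdxIn
        (𝓞 N) :=
    Ideal.card_inertia_eq_ramificationIdxIn (G := (P.inertia (N ≃ₐ[ℚ] N)))
      (P.under (𝓞 (IntermediateField.fixedField (P.inertia (N ≃ₐ[ℚ] N))))) P
  have h2' : (P.under (𝓞 (IntermediateField.fixedField (P.inertia (N ≃ₐ[ℚ] N))))).ramificationIdxIn
      (𝓞 N) = P.ramificationIdx (𝓞 (IntermediateField.fixedField (P.inertia (N ≃ₐ[ℚ] N)))) :=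
    Ideal.ramificationIdxIn_eq_ramificationIdx
      (P.under (𝓞 (IntermediateField.fixedField (P.inertia (N ≃ₐ[ℚ] N))))) P
      (P.inertia (N ≃ₐ[ℚ] N))
  have h3 : Ideal.inertia (P.inertia (N ≃ₐ[ℚ] N)) P = ⊤ := by
    rw [eq_top_iff]
    intro σ _ x
    exact σ.2 x
  have h3' : Nat.card (Ideal.inertia (P.inertia (N ≃ₐ[ℚ] N)) P)
      = Nat.card (P.inertia (N ≃ₐ[ℚ] N)) := by
    rw [h3]; exact Subgroup.card_top
  -- tower
  have h4 := Ideal.ramificationIdx_tower (R := ℤ)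
    (P.under (𝓞 (IntermediateField.fixedField (P.inertia (N ≃ₐ[ℚ] N))))) P
  have hpos : 0 < Nat.card (P.inertia (N ≃ₐ[ℚ] N)) := Nat.card_pos
  have e1 : P.ramificationIdx ℤ = Nat.card (P.inertia (N ≃ₐ[ℚ] N)) := by rw [h1, h1']
  have e2 : P.ramificationIdx (𝓞 (IntermediateField.fixedField (P.inertia (N ≃ₐ[ℚ] N))))
      = Nat.card (P.inertia (N ≃ₐ[ℚ] N)) := by rw [← h2', ← h2, h3']
  rw [e1, e2] at h4
  have : (P.under (𝓞 (IntermediateField.fixedField (P.inertia (N ≃ₐ[ℚ] N))))).ramificationIdx ℤ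
      * Nat.card (P.inertia (N ≃ₐ[ℚ] N)) = 1 * Nat.card (P.inertia (N ≃ₐ[ℚ] N)) := by
    rw [one_mul]; exact h4.symm
  exact Nat.eq_of_mul_eq_mul_right hpos this

end Fermat.Agent.Lib.S13
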