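/-
S13 project (lead): adapter from the topological form of (B) (helper5) to `GlobalStatement`.
-/
import Mathlib
import Fermat.Agent.Lib.S13.Defs

set_option autoImplicit false

namespace Fermat.Agent.Lib.S13

/-- `GlobalStatement` follows from its version for open normal subgroups. -/
theorem lead_s13_global_of_open
    (h : ∀ (p : ℕ) (H : Subgroup GQ) [H.Normal], IsOpen (H : Set GQ) →
      (∀ ℓ : ℕ, ℓ.Prime → ℓ ≠ p → ∀ A : ValuationSubring Qbar, A.LiesOverPrime ℓ →
        A.inertiaSubgroupIn ℚ ≤ H) →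
      (∃ A : ValuationSubring Qbar, A.LiesOverPrime p ∧ A.inertiaSubgroupIn ℚ ≤ H) →
      H = ⊤) : GlobalStatement := by
  intro p _ H hH hL hℓ hp
  obtain ⟨L, hLfin, hLH⟩ := hL
  have hopen : IsOpen (H : Set GQ) :=
    Subgroup.isOpen_mono hLH (IntermediateField.fixingSubgroup_isOpen L)
  exact h p H hopen hℓ hp

end Fermat.Agent.Lib.S13
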