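/-
Project S13, stream (B)+(E2) (helper5): bridge between a valuation subring `A` of a field `L`
and the arithmetic of a number field `E` mapped into `L`.

* `h5_mem_inertiaSubgroupIn_iff`: concrete description of the inertia group of `A`;
* `h5_primeOf ι A`: the prime of `𝓞 E` cut out by `A`; `h5_hos`: the same as a height one prime;
* `h5_val_le_one_iff`, `h5_val_eq_one_of`, `h5_val_lt_one_of`: `v_A ∘ ι` and the `𝔓`-adic
  valuation of `E` have the same unit ball;
* `h5_exists_repr`: `𝔓`-integral elements are fractions `a / b`, `b ∉ 𝔓`.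
-/
import Mathlib
import Fermat.Prelude.Def_FLTPrelim_Ramification
import Fermat.Agent.Lib.S05.Inertia

set_option autoImplicit false
set_option linter.unusedSectionVars false

noncomputable section

namespace Fermat.Agent.Lib.S13

open NumberField IsDedekindDomain

section Inertia

variable {K L : Type*} [Field K] [Field L] [Algebra K L] (A : ValuationSubring L)

/-- Membership in the inertia group, concretely. -/
theorem h5_mem_inertiaSubgroupIn_iff (σ : L ≃ₐ[K] L) :
    σ ∈ A.inertiaSubgroupIn K ↔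
      σ ∈ A.decompositionSubgroup K ∧ ∀ x ∈ A, A.valuation (σ x - x) < 1 := by
  constructor
  · intro h
    exact ⟨Fermat.Agent.Lib.S05.mem_decomposition_of_mem_inertia A h,
      fun x hx => Fermat.Agent.Lib.S05.valuation_sub_lt_one_of_mem_inertia A h hx⟩
  · rintro ⟨hD, hI⟩
    refine ⟨⟨σ, hD⟩, ?_, rfl⟩
    show MulSemiringAction.toRingAut (A.decompositionSubgroup K)
      (IsLocalRing.ResidueField A) ⟨σ, hD⟩ = 1
    ext y
    obtain ⟨x, rfl⟩ := IsLocalRing.residue_surjective y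
    show (⟨σ, hD⟩ : A.decompositionSubgroup K) • (IsLocalRing.residue A x) = IsLocalRing.residue A x
    rw [← IsLocalRing.ResidueField.residue_smul]
    have hmem : ((⟨σ, hD⟩ : A.decompositionSubgroup K) • x) - x ∈ IsLocalRing.maximalIdeal A := by
      rw [ValuationSubring.valuation_lt_one_iff]
      exact hI x x.2
    rw [← sub_eq_zero, ← map_sub]
    exact (Ideal.Quotient.eq_zero_iff_mem).mpr hmem

end Inertia

section Bridge

variable {E L : Type*} [Field E] [NumberField E] [Field L] (ι : E →+* L) (A : ValuationSubring L)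

/-- Integers of `E` land in any valuation subring. -/
theorem h5_int_mem (y : 𝓞 E) : ι (y : E) ∈ A := by
  have h1 : IsIntegral ℤ (y : E) := NumberField.RingOfIntegers.isIntegral_coe y
  have h2 : IsIntegral ℤ (ι (y : E)) := h1.map (ι : E →+* L).toIntAlgHom
  have h3 : IsIntegral A (ι (y : E)) := h2.tower_top
  have := (IsIntegrallyClosed.isIntegral_iff (R := A) (K := L)).mp h3
  obtain ⟨z, hz⟩ := this
  rw [← hz]
  exact z.2

/-- The ring hom `𝓞 E → A`. -/
def h5_intHom : 𝓞 E →+* A :=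
  (ι.comp (algebraMap (𝓞 E) E)).codRestrict A.toSubring (fun y => h5_int_mem ι A y)

/-- The prime of `𝓞 E` cut out by the valuation subring `A`. -/
def h5_primeOf : Ideal (𝓞 E) := Ideal.comap (h5_intHom ι A) (IsLocalRing.maximalIdeal A)

instance h5_primeOf_isPrime : (h5_primeOf ι A).IsPrime :=
  Ideal.comap_isPrime _ _

theorem h5_mem_primeOf_iff (y : 𝓞 E) : y ∈ h5_primeOf ι A ↔ A.valuation (ι (y : E)) < 1 := by
  unfold h5_primeOf
  rw [Ideal.mem_comap, ValuationSubring.valuation_lt_one_iff]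
  rfl

theorem h5_val_int_le_one (y : 𝓞 E) : A.valuation (ι (y : E)) ≤ 1 :=
  (ValuationSubring.valuation_le_one_iff A _).mpr (h5_int_mem ι A y)

theorem h5_val_eq_one_of_notMem (y : 𝓞 E) (hy : y ∉ h5_primeOf ι A) :
    A.valuation (ι (y : E)) = 1 := by
  rw [h5_mem_primeOf_iff, not_lt] at hy
  exact le_antisymm (h5_val_int_le_one ι A y) hy

variable {p : ℕ} (hp : p.Prime) (hA : A.LiesOverPrime p)

include hA in
theorem h5_natCast_mem_primeOf : ((p : ℕ) : 𝓞 E) ∈ h5_primeOf ι A := by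
  rw [h5_mem_primeOf_iff]
  have : ι (((p : ℕ) : 𝓞 E) : E) = (p : L) := by simp
  rw [this]
  exact (ValuationSubring.mem_nonunits_iff (A := A)).mp hA

include hp hA in
theorem h5_primeOf_ne_bot : h5_primeOf ι A ≠ ⊥ := by
  intro h
  have h1 := h5_natCast_mem_primeOf ι A hA (E := E)
  rw [h, Ideal.mem_bot] at h1
  have : (p : ℕ) = 0 := by exact_mod_cast h1
  exact hp.ne_zero this

/-- The height one prime attached to `A`. -/
def h5_hos : HeightOneSpectrum (𝓞 E) :=
  ⟨h5_primeOf ι A, inferInstance, h5_primeOf_ne_bot ι A hp hA⟩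

theorem h5_hos_asIdeal : (h5_hos ι A hp hA).asIdeal = h5_primeOf ι A := rfl

/-- Representation of `𝔓`-integral elements. -/
theorem h5_exists_repr (x : E) (hx : (h5_hos ι A hp hA).valuation E x ≤ 1) :
    ∃ (a b : 𝓞 E), b ∉ h5_primeOf ι A ∧ x * (b : E) = (a : E) ∧
      (h5_hos ι A hp hA).valuation E x = (h5_hos ι A hp hA).valuation E (a : E) := by
  obtain ⟨n, d, hnd⟩ := (h5_hos ι A hp hA).exists_primeCompl_mul_eq_of_integer x hx
  refine ⟨n, d, d.2, hnd, ?_⟩
  have h1 : (h5_hos ι A hp hA).valuation E (algebraMap (𝓞 E) E d) = 1 := by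
    rw [HeightOneSpectrum.valuation_eq_one_iff_notMem]
    exact d.2
  have h2 := congrArg ((h5_hos ι A hp hA).valuation E) hnd
  rw [map_mul, h1, mul_one] at h2
  exact h2

theorem h5_val_le_one_of (x : E) (hx : (h5_hos ι A hp hA).valuation E x ≤ 1) :
    A.valuation (ι x) ≤ 1 := by
  obtain ⟨a, b, hb, hab, -⟩ := h5_exists_repr ι A hp hA x hx
  have h1 := congrArg (fun z => A.valuation (ι z)) hab
  simp only [map_mul] at h1
  rw [h5_val_eq_one_of_notMem ι A b hb, mul_one] at h1
  rw [h1]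
  exact h5_val_int_le_one ι A a

theorem h5_val_lt_one_of (x : E) (hx : (h5_hos ι A hp hA).valuation E x < 1) :
    A.valuation (ι x) < 1 := by
  obtain ⟨a, b, hb, hab, hv⟩ := h5_exists_repr ι A hp hA x hx.le
  have h1 := congrArg (fun z => A.valuation (ι z)) hab
  simp only [map_mul] at h1
  rw [h5_val_eq_one_of_notMem ι A b hb, mul_one] at h1
  rw [h1, ← h5_mem_primeOf_iff, ← h5_hos_asIdeal ι A hp hA,
    ← HeightOneSpectrum.valuation_lt_one_iff_mem (K := E), ← hv]
  exact hx

theorem h5_val_eq_one_of (x : E) (hx : (h5_hos ι A hp hA).valuation E x = 1) :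
    A.valuation (ι x) = 1 := by
  have hx0 : x ≠ 0 := by
    rintro rfl
    rw [map_zero] at hx
    exact zero_ne_one hx
  refine le_antisymm (h5_val_le_one_of ι A hp hA x hx.le) ?_
  have h1 : (h5_hos ι A hp hA).valuation E x⁻¹ ≤ 1 := by
    rw [map_inv₀, hx, inv_one]
  have h2 := h5_val_le_one_of ι A hp hA x⁻¹ h1
  rw [map_inv₀, map_inv₀] at h2
  have h3 : A.valuation (ι x) ≠ 0 := by
    rw [Ne, Valuation.zero_iff, map_eq_zero]
    exact hx0
  exact (inv_le_one₀ (zero_lt_iff.mpr h3)).mp h2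

theorem h5_val_le_one_iff (x : E) :
    A.valuation (ι x) ≤ 1 ↔ (h5_hos ι A hp hA).valuation E x ≤ 1 := by
  refine ⟨fun h => ?_, h5_val_le_one_of ι A hp hA x⟩
  by_contra hcon
  push Not at hcon
  have hx0 : x ≠ 0 := by
    rintro rfl
    rw [map_zero] at hcon
    exact not_lt_zero hcon
  have h1 : (h5_hos ι A hp hA).valuation E x⁻¹ < 1 := by
    rw [map_inv₀]
    exact inv_lt_one_of_one_lt₀ hcon
  have h2 := h5_val_lt_one_of ι A hp hA x⁻¹ h1
  rw [map_inv₀, map_inv₀] at h2
  have h3 : A.valuation (ι x) ≠ 0 := by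
    rw [Ne, Valuation.zero_iff, map_eq_zero]
    exact hx0
  have h4 : 1 < A.valuation (ι x) := (inv_lt_one₀ (zero_lt_iff.mpr h3)).mp h2
  exact not_le.mpr h4 h

end Bridge

section Bridge2

variable {E L : Type*} [Field E] [NumberField E] [Field L] (ι : E →+* L) (A : ValuationSubring L)
variable {p : ℕ} (hp : p.Prime) (hA : A.LiesOverPrime p)

include hA in
theorem h5_val_p_lt_one : A.valuation (p : L) < 1 :=
  (ValuationSubring.mem_nonunits_iff (A := A)).mp hA

include ι hp hA in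
theorem h5_val_p_pos : 0 < A.valuation (p : L) := by
  rw [zero_lt_iff, Ne, Valuation.zero_iff]
  intro h0
  -- then `L` has characteristic `p`, but `𝓞 E → A ⊂ L` with `E` of characteristic zero
  have h1 : ι ((p : ℕ) : E) = 0 := by simpa using h0
  rw [map_eq_zero] at h1
  have : (p : ℕ) = 0 := by exact_mod_cast h1
  exact hp.ne_zero this

include ι hp hA in
/-- Zpowers of `v_A(p)` are injective. -/
theorem h5_zpow_val_injective {m n : ℤ} (h : A.valuation (p : L) ^ m = A.valuation (p : L) ^ n) :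
    m = n :=
  zpow_right_injective₀ (h5_val_p_pos ι A hp hA) (h5_val_p_lt_one A hA).ne h

/-- If `p` is a uniformizer at `𝔓`, the value group of `E` under `v_A` is `v_A(p)^ℤ`. -/
theorem h5_val_eq_zpow
    (he : (h5_hos ι A hp hA).valuation E ((p : ℕ) : E) = WithZero.exp (-1 : ℤ))
    (x : E) (hx : x ≠ 0) : ∃ n : ℤ, A.valuation (ι x) = A.valuation (p : L) ^ n := by
  set w := h5_hos ι A hp hA with hw
  have hx' : w.valuation E x ≠ 0 := by
    rw [Ne, Valuation.zero_iff]; exact hx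
  refine ⟨-(w.valuation E x).log, ?_⟩
  have hp0 : ((p : ℕ) : E) ≠ 0 := by
    intro h
    rw [h, map_zero] at he
    exact WithZero.exp_ne_zero.symm he
  have h1 : w.valuation E (x * (((p : ℕ) : E) ^ (-(w.valuation E x).log))⁻¹) = 1 := by
    rw [map_mul, map_inv₀, map_zpow₀, he, ← WithZero.exp_zsmul, smul_eq_mul, neg_mul_neg, mul_one,
      WithZero.exp_log hx']
    exact mul_inv_cancel₀ hx'
  have h2 := h5_val_eq_one_of ι A hp hA _ h1
  rw [map_mul, map_mul, map_inv₀, map_inv₀, map_zpow₀, map_zpow₀] at h2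
  have h3 : ι ((p : ℕ) : E) = (p : L) := by simp
  rw [h3] at h2
  have h4 : A.valuation (p : L) ^ (-(w.valuation E x).log) ≠ 0 :=
    zpow_ne_zero _ (h5_val_p_pos ι A hp hA).ne'
  rwa [mul_inv_eq_one₀ h4] at h2

/-- Conversely: if the value group of `E` under `v_A` is `v_A(p)^ℤ`, then `p` is a uniformizer
at `𝔓`. -/
theorem h5_uniformizer_of_val
    (h : ∀ x : E, x ≠ 0 → ∃ n : ℤ, A.valuation (ι x) = A.valuation (p : L) ^ n) :
    (h5_hos ι A hp hA).valuation E ((p : ℕ) : E) = WithZero.exp (-1 : ℤ) := by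
  set w := h5_hos ι A hp hA with hw
  obtain ⟨π, hπ⟩ := w.valuation_exists_uniformizer E
  have hπ0 : π ≠ 0 := by
    rintro rfl
    rw [map_zero] at hπ
    exact WithZero.exp_ne_zero.symm hπ
  have hp0 : ((p : ℕ) : E) ≠ 0 := by
    have := hp.ne_zero
    exact_mod_cast this
  have hvp0 : w.valuation E ((p : ℕ) : E) ≠ 0 := by
    rw [Ne, Valuation.zero_iff]; exact hp0
  -- `m := ord_𝔓 p ≥ 1`
  set m : ℤ := -(w.valuation E ((p : ℕ) : E)).log with hm
  have hvp : w.valuation E ((p : ℕ) : E) = WithZero.exp (-m) := by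
    rw [hm, neg_neg, WithZero.exp_log hvp0]
  have hlt : w.valuation E ((p : ℕ) : E) < 1 := by
    have h1 := h5_natCast_mem_primeOf ι A hA (E := E)
    rw [← h5_hos_asIdeal ι A hp hA, ← HeightOneSpectrum.valuation_lt_one_iff_mem (K := E)] at h1
    simpa using h1
  have hm1 : 1 ≤ m := by
    rw [hvp, ← WithZero.exp_zero, WithZero.exp_lt_exp] at hlt
    omega
  -- `p / π ^ m` is a `𝔓`-unit
  have h1 : w.valuation E (((p : ℕ) : E) * (π ^ m)⁻¹) = 1 := by
    rw [map_mul, map_inv₀, map_zpow₀, hπ, hvp, ← WithZero.exp_zsmul, smul_eq_mul, mul_neg, mul_one]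
    exact mul_inv_cancel₀ WithZero.exp_ne_zero
  have h2 := h5_val_eq_one_of ι A hp hA _ h1
  rw [map_mul, map_mul, map_inv₀, map_inv₀, map_zpow₀, map_zpow₀] at h2
  have h3 : ι ((p : ℕ) : E) = (p : L) := by simp
  rw [h3] at h2
  obtain ⟨n, hn⟩ := h π hπ0
  rw [hn, ← zpow_mul] at h2
  have h4 : A.valuation (p : L) ^ (n * m) ≠ 0 :=
    zpow_ne_zero _ (h5_val_p_pos ι A hp hA).ne'
  rw [mul_inv_eq_one₀ h4] at h2
  have h5 : (1 : ℤ) = n * m := by
    apply h5_zpow_val_injective ι A hp hA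
    rw [zpow_one]; exact h2
  have hm' : m = 1 := by
    have hdvd : m ∣ 1 := ⟨n, by rw [h5]; ring⟩
    have := Int.le_of_dvd one_pos hdvd
    omega
  rw [hvp, hm']

end Bridge2

section Bridge3

variable {E L : Type*} [Field E] [NumberField E] [Field L] (ι : E →+* L) (A : ValuationSubring L)
variable {p : ℕ} (hp : p.Prime) (hA : A.LiesOverPrime p)

/-- The prime `(p)` of `ℤ` as a height one prime. -/
def h5_hosInt : HeightOneSpectrum ℤ :=
  ⟨Ideal.span {(p : ℤ)},
    (Ideal.span_singleton_prime (by exact_mod_cast hp.ne_zero)).mpr (Nat.prime_iff_prime_int.mp hp),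
    by
      rw [Ne, Ideal.span_singleton_eq_bot]
      exact_mod_cast hp.ne_zero⟩

theorem h5_hosInt_asIdeal : (h5_hosInt hp).asIdeal = Ideal.span {(p : ℤ)} := rfl

include hp hA in
theorem h5_liesOver : (h5_primeOf ι A : Ideal (𝓞 E)).LiesOver (Ideal.span {(p : ℤ)}) := by
  rw [Ideal.liesOver_span_iff Ideal.IsPrime.ne_top' (Nat.prime_iff_prime_int.mp hp)]
  have := h5_natCast_mem_primeOf ι A hA (E := E)
  simpa using this

/-- `v_𝔓(p) = exp(-1)^e`. -/
theorem h5_val_hos_p : (h5_hos ι A hp hA).valuation E ((p : ℕ) : E) =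
    WithZero.exp (-1 : ℤ) ^ (h5_primeOf ι A).ramificationIdx ℤ := by
  have : (h5_hos ι A hp hA).asIdeal.LiesOver (h5_hosInt hp).asIdeal := h5_liesOver ι A hp hA
  have h1 := HeightOneSpectrum.intValuation_liesOver (h5_hosInt hp) (h5_hos ι A hp hA) (p : ℤ)
  have h2 : (h5_hosInt hp).intValuation (p : ℤ) = WithZero.exp (-1 : ℤ) :=
    HeightOneSpectrum.intValuation_singleton _ (by exact_mod_cast hp.ne_zero) rfl
  have h3 : (h5_hosInt hp).asIdeal.ramificationIdx' (h5_hos ι A hp hA).asIdeal =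
      (h5_primeOf ι A).ramificationIdx ℤ :=
    Ideal.ramificationIdx'_eq_ramificationIdx _ _ (h5_hosInt hp).ne_bot
  rw [h2, h3] at h1
  rw [h1, ← HeightOneSpectrum.valuation_of_algebraMap (K := E)]
  congr 1
  simp

theorem h5_val_hos_p_of_ramificationIdx (he : (h5_primeOf ι A : Ideal (𝓞 E)).ramificationIdx ℤ = 1) :
    (h5_hos ι A hp hA).valuation E ((p : ℕ) : E) = WithZero.exp (-1 : ℤ) := by
  rw [h5_val_hos_p, he, pow_one]

theorem h5_ramificationIdx_of_val_hos_p
    (he : (h5_hos ι A hp hA).valuation E ((p : ℕ) : E) = WithZero.exp (-1 : ℤ)) :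
    (h5_primeOf ι A : Ideal (𝓞 E)).ramificationIdx ℤ = 1 := by
  rw [h5_val_hos_p] at he
  have h1 : (WithZero.exp (-1 : ℤ) : WithZero (Multiplicative ℤ)) ^
      ((h5_primeOf ι A : Ideal (𝓞 E)).ramificationIdx ℤ) = WithZero.exp (-1 : ℤ) ^ 1 := by
    rw [he, pow_one]
  have h0 : (0 : WithZero (Multiplicative ℤ)) < WithZero.exp (-1 : ℤ) := WithZero.exp_pos
  have hlt : (WithZero.exp (-1 : ℤ) : WithZero (Multiplicative ℤ)) < 1 := by
    rw [← WithZero.exp_zero, WithZero.exp_lt_exp]; norm_num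
  exact pow_right_injective₀ h0 hlt.ne h1

end Bridge3

section Bridge4

variable {E L : Type*} [Field E] [NumberField E] [Field L] (ι : E →+* L) (A : ValuationSubring L)
variable {p : ℕ} (hp : p.Prime) (hA : A.LiesOverPrime p)

theorem h5_isUnramifiedAt_iff :
    Algebra.IsUnramifiedAt ℤ (h5_primeOf ι A : Ideal (𝓞 E)) ↔
      (h5_primeOf ι A : Ideal (𝓞 E)).ramificationIdx ℤ = 1 := by
  rw [Ideal.ramificationIdx_eq_one_iff]

end Bridge4

/-- Every prime number lies under some valuation subring of a field of characteristic zero. -/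
theorem h5_exists_liesOver (L : Type*) [Field L] [CharZero L] {ℓ : ℕ} (hℓ : ℓ.Prime) :
    ∃ A : ValuationSubring L, A.LiesOverPrime ℓ := by
  set R : Subring L := (algebraMap ℤ L).range with hR
  have hmem : (ℓ : L) ∈ R := ⟨(ℓ : ℤ), by simp⟩
  set I : Ideal R := Ideal.span {(⟨(ℓ : L), hmem⟩ : R)} with hI
  have hne : I ≠ ⊤ := by
    intro h
    rw [hI, Ideal.span_singleton_eq_top] at h
    obtain ⟨⟨b, n, rfl⟩, hb⟩ := h.exists_left_inv
    have h1 := congrArg Subtype.val hb
    simp only [Subring.coe_mul, Subring.coe_one] at h1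
    have h2 : ((n * (ℓ : ℤ) : ℤ) : L) = ((1 : ℤ) : L) := by
      push_cast
      simpa using h1
    have h3 : n * (ℓ : ℤ) = 1 := Int.cast_injective h2
    have h4 : (ℓ : ℤ) ∣ 1 := ⟨n, by rw [← h3]; ring⟩
    have h5 := Int.natAbs_dvd_natAbs.mpr h4
    simp at h5
    exact hℓ.ne_one h5
  obtain ⟨B, -, hB⟩ := Ideal.image_subset_nonunits_valuationSubring I hne
  refine ⟨B, ?_⟩
  apply hB
  exact ⟨⟨(ℓ : L), hmem⟩, Ideal.subset_span rfl, rfl⟩

end Fermat.Agent.Lib.S13
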