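/-
Project S13, stream (B)+(E2) (helper5): **(E2)** an element of `ℚ̄` fixed by the inertia group of a
valuation subring `A` over `p` has value in `v_A(p)^ℤ` -- modulo the finite-level contract (L2)
`InertiaFieldStatement` (the inertia field of a finite Galois extension is unramified).

Method: if `v_A(x) ∉ v_A(p)^ℤ`, at every finite normal level `N ∋ x` some automorphism inert on `N`
moves `x` ((L2) + `ValBridge`); by compactness of `G_ℚ` there is an automorphism inert on all levels
moving `x`; such an automorphism lies in the inertia group of `A`.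
-/
import Mathlib
import Fermat.Agent.Lib.S13.Defs
import Fermat.Agent.Lib.S13.ValBridge

set_option autoImplicit false
set_option linter.unusedSectionVars false

noncomputable section

namespace Fermat.Agent.Lib.S13

open NumberField IsDedekindDomain IntermediateField
open scoped Pointwise

instance h5_isAlgebraic_Qbar : Algebra.IsAlgebraic ℚ Qbar := by
  have h : (DivisionRing.toRatAlgebra : Algebra ℚ Qbar) =
      AlgebraicClosure.instAlgebra (k := ℚ) (R := ℚ) := Subsingleton.elim _ _
  rw [h]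
  exact AlgebraicClosure.isAlgebraic ℚ

instance h5_isAlgClosure_Qbar : IsAlgClosure ℚ Qbar := ⟨inferInstance, inferInstance⟩

/-- Contract (L2): the prime of the inertia field below `P` is unramified over `ℤ`. -/
def InertiaFieldStatement : Prop :=
  ∀ (N : Type) [Field N] [NumberField N] [IsGalois ℚ N] (P : Ideal (𝓞 N)) [P.IsPrime], P ≠ ⊥ →
    (P.under (𝓞 (IntermediateField.fixedField (P.inertia (N ≃ₐ[ℚ] N))))).ramificationIdx ℤ = 1

section Level

variable (N : IntermediateField ℚ Qbar) [FiniteDimensional ℚ N]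

instance h5_numberField : NumberField N :=
  { to_charZero := inferInstance, to_finiteDimensional := inferInstance }

instance h5_isGalois [Normal ℚ N] : IsGalois ℚ N :=
  { to_isSeparable := inferInstance, to_normal := inferInstance }

end Level

variable (A : ValuationSubring Qbar)

/-- `σ` acts trivially modulo `𝔪_A` on the algebraic integers of `N`. -/
def h5_InertOn (N : IntermediateField ℚ Qbar) (σ : GQ) : Prop :=
  ∀ z : Qbar, z ∈ N → IsIntegral ℤ z → A.valuation (σ z - z) < 1

theorem h5_inertOn_mono {N N' : IntermediateField ℚ Qbar} (h : N ≤ N') {σ : GQ}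
    (hσ : h5_InertOn A N' σ) : h5_InertOn A N σ :=
  fun z hz hint => hσ z (h hz) hint

/-- Right invariance under the fixing subgroup. -/
theorem h5_inertOn_mul_fixing (N : IntermediateField ℚ Qbar) {σ ρ : GQ}
    (hσ : h5_InertOn A N σ) (hρ : ρ ∈ N.fixingSubgroup) : h5_InertOn A N (σ * ρ) := by
  intro z hz hint
  have h1 : ρ z = z := by
    have := (IntermediateField.mem_fixingSubgroup_iff N ρ).mp hρ z hz
    exact this
  show A.valuation (σ (ρ z) - z) < 1
  rw [h1]
  exact hσ z hz hint

/-- A set which is right invariant under an open subgroup is closed. -/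
theorem h5_isClosed_of_right_invariant {G : Type*} [Group G] [TopologicalSpace G]
    [IsTopologicalGroup G] (U : Subgroup G) (hU : IsOpen (U : Set G)) (S : Set G)
    (hS : ∀ σ ∈ S, ∀ ρ ∈ U, σ * ρ ∈ S) : IsClosed S := by
  rw [← isOpen_compl_iff, isOpen_iff_forall_mem_open]
  intro σ hσ
  refine ⟨σ • (U : Set G), ?_, hU.leftCoset σ, ⟨1, U.one_mem, by simp⟩⟩
  rintro _ ⟨ρ, hρ, rfl⟩ hmem
  apply hσ
  have := hS _ hmem ρ⁻¹ (U.inv_mem hρ)
  simpa using this

theorem h5_isClosed_inertOn (N : IntermediateField ℚ Qbar) [FiniteDimensional ℚ N] :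
    IsClosed {σ : GQ | h5_InertOn A N σ} :=
  h5_isClosed_of_right_invariant N.fixingSubgroup (IntermediateField.fixingSubgroup_isOpen N) _
    (fun _ hσ _ hρ => h5_inertOn_mul_fixing A N hσ hρ)

theorem h5_isClosed_moves (x : Qbar) : IsClosed {σ : GQ | σ x ≠ x} := by
  have hint : IsIntegral ℚ x := (Algebra.IsAlgebraic.isAlgebraic x).isIntegral
  have : FiniteDimensional ℚ ℚ⟮x⟯ := IntermediateField.adjoin.finiteDimensional hint
  refine h5_isClosed_of_right_invariant (ℚ⟮x⟯).fixingSubgroup
    (IntermediateField.fixingSubgroup_isOpen _) _ ?_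
  intro σ hσ ρ hρ
  have h1 : ρ x = x :=
    (IntermediateField.mem_fixingSubgroup_iff _ ρ).mp hρ x (IntermediateField.mem_adjoin_simple_self ℚ x)
  show σ (ρ x) ≠ x
  rw [h1]
  exact hσ

section Level

variable (N : IntermediateField ℚ Qbar) [FiniteDimensional ℚ N] [Normal ℚ N]

theorem h5_restrict_apply (σ : GQ) (y : N) :
    ((AlgEquiv.restrictNormalHom N σ y : N) : Qbar) = σ (y : Qbar) :=
  AlgEquiv.restrictNormal_commutes σ N y

theorem h5_restrict_mem_inertia_iff (σ : GQ) :
    AlgEquiv.restrictNormalHom N σ ∈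
        (h5_primeOf (algebraMap N Qbar) A : Ideal (𝓞 N)).inertia (N ≃ₐ[ℚ] N) ↔
      h5_InertOn A N σ := by
  constructor
  · intro h z hz hint
    have hint' : IsIntegral ℤ (⟨z, hz⟩ : N) := by
      rw [← isIntegral_algebraMap_iff (algebraMap N Qbar).injective]
      exact hint
    set a : 𝓞 N := ⟨⟨z, hz⟩, hint'⟩ with ha
    have h1 : (AlgEquiv.restrictNormalHom N σ • a - a : 𝓞 N) ∈
        (h5_primeOf (algebraMap N Qbar) A : Ideal (𝓞 N)) := h a
    rw [h5_mem_primeOf_iff] at h1
    have h2 : algebraMap N Qbar (((AlgEquiv.restrictNormalHom N σ • a - a : 𝓞 N)) : N) =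
        σ z - z := by
      show algebraMap N Qbar (AlgEquiv.restrictNormalHom N σ (a : N) - (a : N)) = _
      rw [map_sub]
      congr 1
      exact h5_restrict_apply N σ ⟨z, hz⟩
    rw [h2] at h1
    exact h1
  · intro h a
    show (AlgEquiv.restrictNormalHom N σ • a - a : 𝓞 N) ∈
        (h5_primeOf (algebraMap N Qbar) A : Ideal (𝓞 N))
    rw [h5_mem_primeOf_iff]
    have h2 : algebraMap N Qbar (((AlgEquiv.restrictNormalHom N σ • a - a : 𝓞 N)) : N) =
        σ ((a : N) : Qbar) - ((a : N) : Qbar) := by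
      show algebraMap N Qbar (AlgEquiv.restrictNormalHom N σ (a : N) - (a : N)) = _
      rw [map_sub]
      congr 1
      exact h5_restrict_apply N σ (a : N)
    rw [h2]
    refine h _ (a : N).2 ?_
    have := NumberField.RingOfIntegers.isIntegral_coe a
    exact this.map (IsScalarTower.toAlgHom ℤ N Qbar)

variable {p : ℕ} (hp : p.Prime) (hA : A.LiesOverPrime p)

include hp hA in
/-- **Finite level**: an element whose value is not a power of `v_A(p)` is moved by an element
which is inert on `N`. -/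
theorem h5_exists_inert_moving (hL2 : InertiaFieldStatement) (x : Qbar) (hxN : x ∈ N) (hx0 : x ≠ 0)
    (hval : ∀ n : ℤ, A.valuation x ≠ A.valuation (p : Qbar) ^ n) :
    ∃ σ : GQ, h5_InertOn A N σ ∧ σ x ≠ x := by
  by_contra hcon
  push Not at hcon
  set P : Ideal (𝓞 N) := h5_primeOf (algebraMap N Qbar) A with hP
  have hPbot : P ≠ ⊥ := h5_primeOf_ne_bot (algebraMap N Qbar) A hp hA
  set I : Subgroup (N ≃ₐ[ℚ] N) := P.inertia (N ≃ₐ[ℚ] N) with hI
  set E : IntermediateField ℚ N := IntermediateField.fixedField I with hE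
  -- `x ∈ E`
  have hxE : (⟨x, hxN⟩ : N) ∈ E := by
    rw [hE, IntermediateField.mem_fixedField_iff]
    intro τ hτ
    obtain ⟨σ, rfl⟩ := AlgEquiv.restrictNormalHom_surjective (F := ℚ) (K₁ := N) Qbar τ
    have h1 : h5_InertOn A N σ := (h5_restrict_mem_inertia_iff A N σ).mp hτ
    have h2 := hcon σ h1
    apply Subtype.ext
    rw [h5_restrict_apply]
    exact h2
  -- the ramification index of the prime of `E` below `P`
  have he : (P.under (𝓞 E)).ramificationIdx ℤ = 1 := hL2 N P hPbot
  -- that prime is the prime cut out by `A`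
  set ιE : E →+* Qbar := (algebraMap N Qbar).comp (algebraMap E N) with hιE
  have hPE : (h5_primeOf ιE A : Ideal (𝓞 E)) = P.under (𝓞 E) := by
    ext y
    rw [h5_mem_primeOf_iff, Ideal.under_def, Ideal.mem_comap, hP, h5_mem_primeOf_iff]
    rfl
  rw [← hPE] at he
  have hv := h5_val_hos_p_of_ramificationIdx ιE A hp hA he
  obtain ⟨n, hn⟩ := h5_val_eq_zpow ιE A hp hA hv (⟨⟨x, hxN⟩, hxE⟩ : E) (by
    intro h0
    apply hx0
    have := congrArg (fun z : E => ((z : N) : Qbar)) h0
    simpa using this)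
  exact hval n hn

end Level

variable {p : ℕ} (hp : p.Prime) (hA : A.LiesOverPrime p)

/-- Every element of `ℚ̄` lies in a finite normal extension of `ℚ`. -/
theorem h5_exists_level (y : Qbar) :
    ∃ N : IntermediateField ℚ Qbar, FiniteDimensional ℚ N ∧ Normal ℚ N ∧ y ∈ N := by
  have hint : IsIntegral ℚ y := (Algebra.IsAlgebraic.isAlgebraic y).isIntegral
  have : FiniteDimensional ℚ ℚ⟮y⟯ := IntermediateField.adjoin.finiteDimensional hint
  refine ⟨normalClosure ℚ ℚ⟮y⟯ Qbar, inferInstance, normalClosure.normal ℚ ℚ⟮y⟯ Qbar, ?_⟩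
  exact IntermediateField.le_normalClosure _ (IntermediateField.mem_adjoin_simple_self ℚ y)

theorem h5_isIntegral_map (σ : GQ) {z : Qbar} (hz : IsIntegral ℤ z) : IsIntegral ℤ (σ z) :=
  hz.map (σ : Qbar →ₐ[ℚ] Qbar).toRingHom.toIntAlgHom

theorem h5_val_isIntegral_le_one {z : Qbar} (hz : IsIntegral ℤ z) : A.valuation z ≤ 1 := by
  have h3 : IsIntegral A z := hz.tower_top
  obtain ⟨w, hw⟩ := (IsIntegrallyClosed.isIntegral_iff (R := A) (K := Qbar)).mp h3
  rw [← hw]
  exact (ValuationSubring.valuation_le_one_iff A _).mpr w.2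


include hp hA in
/-- Elements of `A` are fractions of algebraic integers with unit denominator. -/
theorem h5_exists_repr_Qbar (y : Qbar) (hy : A.valuation y ≤ 1) :
    ∃ a b : Qbar, IsIntegral ℤ a ∧ IsIntegral ℤ b ∧ A.valuation b = 1 ∧ y * b = a := by
  obtain ⟨N, hfin, hnor, hyN⟩ := h5_exists_level y
  have h1 := (h5_val_le_one_iff (algebraMap N Qbar) A hp hA (⟨y, hyN⟩ : N)).mp hy
  obtain ⟨a, b, hb, hab, -⟩ := h5_exists_repr (algebraMap N Qbar) A hp hA _ h1
  refine ⟨algebraMap N Qbar (a : N), algebraMap N Qbar (b : N), ?_, ?_, ?_, ?_⟩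
  · exact (NumberField.RingOfIntegers.isIntegral_coe a).map (IsScalarTower.toAlgHom ℤ N Qbar)
  · exact (NumberField.RingOfIntegers.isIntegral_coe b).map (IsScalarTower.toAlgHom ℤ N Qbar)
  · exact h5_val_eq_one_of_notMem (algebraMap N Qbar) A b hb
  · have := congrArg (algebraMap N Qbar) hab
    rw [map_mul] at this
    exact this

include hp hA in
/-- An automorphism which is trivial modulo `𝔪_A` on algebraic integers preserves `A` and is
trivial modulo `𝔪_A` on `A`. -/
theorem h5_inert_on_A (σ : GQ) (hσ : ∀ z : Qbar, IsIntegral ℤ z → A.valuation (σ z - z) < 1)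
    (y : Qbar) (hy : A.valuation y ≤ 1) :
    A.valuation (σ y) ≤ 1 ∧ A.valuation (σ y - y) < 1 := by
  obtain ⟨a, b, ha, hb, hvb, hab⟩ := h5_exists_repr_Qbar A hp hA y hy
  have hσb : A.valuation (σ b) = 1 := by
    have h1 : σ b = b + (σ b - b) := by ring
    rw [h1, Valuation.map_add_eq_of_lt_left, hvb]
    rw [hvb]; exact hσ b hb
  have hσab : σ y * σ b = σ a := by rw [← map_mul, hab]
  have hb0 : σ b ≠ 0 := by
    intro h; rw [h, map_zero] at hσb; exact zero_ne_one hσb
  constructor
  · have h1 : A.valuation (σ y) = A.valuation (σ a) := by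
      have := congrArg A.valuation hσab
      rwa [map_mul, hσb, mul_one] at this
    rw [h1]
    exact h5_val_isIntegral_le_one A (h5_isIntegral_map σ ha)
  · have hkey : (σ y - y) * (b * σ b) = (σ a - a) * b - a * (σ b - b) := by
      rw [← hσab, ← hab]; ring
    have h1 : A.valuation ((σ y - y) * (b * σ b)) = A.valuation (σ y - y) := by
      rw [map_mul, map_mul, hvb, hσb, mul_one, mul_one]
    rw [← h1, hkey]
    refine lt_of_le_of_lt (Valuation.map_sub _ _ _) (max_lt ?_ ?_)
    · rw [map_mul, hvb, mul_one]; exact hσ a ha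
    · rw [map_mul]
      calc A.valuation a * A.valuation (σ b - b) ≤ 1 * A.valuation (σ b - b) :=
            mul_le_mul' (h5_val_isIntegral_le_one A ha) le_rfl
        _ < 1 := by rw [one_mul]; exact hσ b hb

include hp hA in
/-- **Step A**: an automorphism inert on every finite normal level is in the inertia group. -/
theorem h5_mem_inertia_of_inertOn (σ : GQ)
    (hσ : ∀ N : IntermediateField ℚ Qbar, FiniteDimensional ℚ N → Normal ℚ N → h5_InertOn A N σ) :
    σ ∈ A.inertiaSubgroupIn ℚ := by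
  have h1 : ∀ z : Qbar, IsIntegral ℤ z → A.valuation (σ z - z) < 1 := by
    intro z hz
    obtain ⟨N, hfin, hnor, hzN⟩ := h5_exists_level z
    exact hσ N hfin hnor z hzN hz
  have h2 : ∀ z : Qbar, IsIntegral ℤ z → A.valuation (σ⁻¹ z - z) < 1 := by
    intro z hz
    have h3 := h1 (σ⁻¹ z) (h5_isIntegral_map σ⁻¹ hz)
    have h4 : σ (σ⁻¹ z) = z := by
      show (σ * σ⁻¹) z = z
      rw [mul_inv_cancel]; rfl
    rw [h4, Valuation.map_sub_swap] at h3
    exact h3
  rw [h5_mem_inertiaSubgroupIn_iff]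
  refine ⟨?_, fun x hx => (h5_inert_on_A A hp hA σ h1 x
    ((ValuationSubring.valuation_le_one_iff A x).mpr hx)).2⟩
  -- decomposition group
  show σ • A = A
  ext x
  rw [ValuationSubring.mem_smul_pointwise_iff_exists]
  constructor
  · rintro ⟨y, hy, rfl⟩
    exact (ValuationSubring.valuation_le_one_iff A _).mp
      (h5_inert_on_A A hp hA σ h1 y ((ValuationSubring.valuation_le_one_iff A y).mpr hy)).1
  · intro hx
    refine ⟨σ⁻¹ x, ?_, ?_⟩
    · exact (ValuationSubring.valuation_le_one_iff A _).mp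
        (h5_inert_on_A A hp hA σ⁻¹ h2 x ((ValuationSubring.valuation_le_one_iff A x).mpr hx)).1
    · show σ • (σ⁻¹ x) = x
      show (σ * σ⁻¹) x = x
      rw [mul_inv_cancel]; rfl

/-- **(E2)** modulo the contract (L2): an element fixed by the inertia group has value in
`v_A(p)^ℤ`. -/
theorem h5_inertia_fixed_val_of (hL2 : InertiaFieldStatement) {p : ℕ} (hp : p.Prime)
    (A : ValuationSubring Qbar) (hA : A.LiesOverPrime p) (x : Qbar) (hx : x ≠ 0)
    (hfix : ∀ σ ∈ A.inertiaSubgroupIn ℚ, σ x = x) :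
    ∃ n : ℤ, A.valuation x = A.valuation (p : Qbar) ^ n := by
  classical
  by_contra hcon
  push Not at hcon
  let ι : Type := {N : IntermediateField ℚ Qbar // FiniteDimensional ℚ N ∧ Normal ℚ N}
  let t : ι → Set GQ := fun N => {σ | h5_InertOn A N.1 σ} ∩ {σ | σ x ≠ x}
  have hclosed : ∀ i, IsClosed (t i) := fun i => by
    have := i.2.1
    exact (h5_isClosed_inertOn A i.1).inter (h5_isClosed_moves x)
  obtain ⟨Nx, hfx, hnx, hxNx⟩ := h5_exists_level x
  have hfip : ∀ u : Finset ι, (Set.univ ∩ ⋂ i ∈ u, t i).Nonempty := by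
    intro u
    have : ∀ i : ι, FiniteDimensional ℚ i.1 := fun i => i.2.1
    have : ∀ i : ι, Normal ℚ i.1 := fun i => i.2.2
    let N₀ : IntermediateField ℚ Qbar := ⨆ i : (u : Set ι), (i : ι).1
    have hfin0 : FiniteDimensional ℚ N₀ := IntermediateField.finiteDimensional_iSup_of_finite
    have hnor0 : Normal ℚ N₀ :=
      @IntermediateField.normal_iSup ℚ Qbar _ _ _ _ (fun i : (u : Set ι) => (i : ι).1)
        (fun i => (i : ι).2.2)
    let N' : IntermediateField ℚ Qbar := N₀ ⊔ Nx
    have : FiniteDimensional ℚ N' := IntermediateField.finiteDimensional_sup _ _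
    have : Normal ℚ N' := @IntermediateField.normal_sup ℚ Qbar _ _ _ N₀ Nx hnor0 hnx
    obtain ⟨σ, hσ, hσx⟩ := h5_exists_inert_moving A N' hp hA hL2 x
      ((le_sup_right : Nx ≤ N') hxNx) hx hcon
    refine ⟨σ, trivial, Set.mem_iInter₂.mpr fun i hi => ⟨h5_inertOn_mono A ?_ hσ, hσx⟩⟩
    exact le_trans (le_iSup (fun j : (u : Set ι) => (j : ι).1) ⟨i, hi⟩) le_sup_left
  obtain ⟨σ, -, hσ⟩ := isCompact_univ.inter_iInter_nonempty t hclosed hfip
  have hσ' := Set.mem_iInter.mp hσ
  have hmem : σ ∈ A.inertiaSubgroupIn ℚ :=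
    h5_mem_inertia_of_inertOn A hp hA σ (fun N hfin hnor => (hσ' ⟨N, hfin, hnor⟩).1)
  exact (hσ' ⟨Nx, hfx, hnx⟩).2 (hfix σ hmem)

end Fermat.Agent.Lib.S13
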