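/-
Project S13, stream (B)+(E2) (helper5): **(B)** a normal open subgroup of `G_ℚ` containing all
inertia groups at all primes `ℓ ≠ p` and one inertia group over `p` is everything -- modulo the
finite-level contract (L2) `InertiaFieldStatement`.

Method: the fixed field `F` is finite Galois over `ℚ`; by (E2) its value group at every relevant
valuation subring is that of `ℚ`, so it is unramified at some prime over every rational prime;
Minkowski (`NumberField.exists_not_isUnramifiedAt_int_of_isGalois`) gives `F = ℚ`.
-/
import Mathlib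
import Fermat.Agent.Lib.S13.InertiaValue
import Fermat.Agent.Lib.S13.GlobalAdapter

set_option autoImplicit false
set_option linter.unusedSectionVars false

noncomputable section

namespace Fermat.Agent.Lib.S13

open NumberField IsDedekindDomain IntermediateField
open scoped Pointwise

/-- **(B)** modulo the contract (L2). -/
theorem h5_normal_open_eq_top_of (hL2 : InertiaFieldStatement) (p : ℕ) (H : Subgroup GQ)
    [H.Normal] (hopen : IsOpen (H : Set GQ))
    (hℓ : ∀ ℓ : ℕ, ℓ.Prime → ℓ ≠ p → ∀ A : ValuationSubring Qbar, A.LiesOverPrime ℓ →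
      A.inertiaSubgroupIn ℚ ≤ H)
    (hp : ∃ A : ValuationSubring Qbar, A.LiesOverPrime p ∧ A.inertiaSubgroupIn ℚ ≤ H) :
    H = ⊤ := by
  have hclosed : IsClosed (H : Set GQ) := Subgroup.isClosed_of_isOpen H hopen
  set F : IntermediateField ℚ Qbar := IntermediateField.fixedField H with hF
  have hfix : F.fixingSubgroup = H :=
    InfiniteGalois.fixingSubgroup_fixedField ⟨H, hclosed⟩
  have hfin : FiniteDimensional ℚ F := by
    rw [← InfiniteGalois.isOpen_iff_finite, hfix]
    exact hopen
  have hgal : IsGalois ℚ F := by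
    have h0 : F.fixingSubgroup.Normal := by rw [hfix]; infer_instance
    exact (InfiniteGalois.normal_iff_isGalois F).mp h0
  by_cases h1 : 1 < Module.finrank ℚ F
  · exfalso
    obtain ⟨ℓ, hℓp, hram⟩ :=
      NumberField.exists_not_isUnramifiedAt_int_of_isGalois (K := F) (𝒪 := 𝓞 F) h1
    -- a valuation subring over `ℓ` whose inertia group lies in `H`
    obtain ⟨A, hA, hAH⟩ : ∃ A : ValuationSubring Qbar, A.LiesOverPrime ℓ ∧
        A.inertiaSubgroupIn ℚ ≤ H := by
      by_cases hℓeq : ℓ = p
      · subst hℓeq; exact hp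
      · obtain ⟨A, hA⟩ := h5_exists_liesOver Qbar hℓp
        exact ⟨A, hA, hℓ ℓ hℓp hℓeq A hA⟩
    have hval : ∀ x : F, x ≠ 0 →
        ∃ n : ℤ, A.valuation (algebraMap F Qbar x) = A.valuation (ℓ : Qbar) ^ n := by
      intro x hx
      refine h5_inertia_fixed_val_of hL2 hℓp A hA _ ?_ ?_
      · rw [Ne, map_eq_zero]; exact hx
      · intro σ hσ
        have h2 : σ ∈ F.fixingSubgroup := by rw [hfix]; exact hAH hσ
        exact (IntermediateField.mem_fixingSubgroup_iff F σ).mp h2 _ x.2
    have hunr : Algebra.IsUnramifiedAt ℤ (h5_primeOf (algebraMap F Qbar) A : Ideal (𝓞 F)) :=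
      (h5_isUnramifiedAt_iff (algebraMap F Qbar) A).mpr
        (h5_ramificationIdx_of_val_hos_p (algebraMap F Qbar) A hℓp hA
          (h5_uniformizer_of_val (algebraMap F Qbar) A hℓp hA hval))
    refine hram _ inferInstance ?_ hunr
    exact h5_natCast_mem_primeOf (algebraMap F Qbar) A hA
  · -- `F = ℚ`
    have h2 : Module.finrank ℚ F = 1 := by
      have : 0 < Module.finrank ℚ F := Module.finrank_pos
      omega
    have h3 : F = ⊥ := IntermediateField.finrank_eq_one_iff.mp h2
    rw [← hfix, h3]
    exact IntermediateField.fixingSubgroup_bot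

/-- **(B)** in the contract shape, modulo (L2). -/
theorem h5_global_of (hL2 : InertiaFieldStatement) : GlobalStatement :=
  lead_s13_global_of_open (fun p H _ hopen hℓ hp => h5_normal_open_eq_top_of hL2 p H hopen hℓ hp)

end Fermat.Agent.Lib.S13
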