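/-
S13 project, stream (B) + (E2) (helper5): the unconditional forms of
* contract (B) `GlobalStatement` (`h5_global`), and
* (E2) (`h5_inertia_fixed_val`): an element of `Qbar` fixed by the inertia group of a place `A | p`
  has valuation in `v_A(p)^ℤ`,
obtained by feeding lead's (L2) (`lead_inertiaField_ramificationIdx`) into the conditional versions of
`InertiaValue.lean` / `Unramified.lean`.
-/
import Fermat.Agent.Lib.S13.Unramified
import Fermat.Agent.Lib.S13.InertiaField

set_option autoImplicit false

namespace Fermat.Agent.Lib.S13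

open NumberField

/-- (L2), in the packaged form consumed by `InertiaValue.lean` / `Unramified.lean`. -/
theorem h5_inertiaFieldStatement : InertiaFieldStatement :=
  fun N _ _ _ P _ hP => lead_inertiaField_ramificationIdx N P hP

/-- **Contract (B)**: the global statement. -/
theorem h5_global : GlobalStatement := h5_global_of h5_inertiaFieldStatement

/-- A normal open subgroup of `GQ` containing the inertia groups of all places over every prime
`ℓ ≠ p`, and of one place over `p` as well, is everything. -/
theorem h5_normal_open_eq_top (p : ℕ) (H : Subgroup GQ) [H.Normal]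
    (hopen : IsOpen (H : Set GQ))
    (hℓ : ∀ (ℓ : ℕ), ℓ.Prime → ℓ ≠ p → ∀ A : ValuationSubring Qbar, A.LiesOverPrime ℓ →
      A.inertiaSubgroupIn ℚ ≤ H)
    (hp : ∃ A : ValuationSubring Qbar, A.LiesOverPrime p ∧ A.inertiaSubgroupIn ℚ ≤ H) :
    H = ⊤ :=
  h5_normal_open_eq_top_of h5_inertiaFieldStatement p H hopen hℓ hp

/-- **(E2)**: a nonzero element of `Qbar` fixed by the inertia group of a place `A` above `p` has
`A`-adic valuation an integral power of the valuation of `p`. -/
theorem h5_inertia_fixed_val {p : ℕ} (hp : p.Prime) (A : ValuationSubring Qbar)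
    (hA : A.LiesOverPrime p) (x : Qbar) (hx : x ≠ 0)
    (hfix : ∀ σ ∈ A.inertiaSubgroupIn ℚ, σ x = x) :
    ∃ n : ℤ, A.valuation x = A.valuation (p : Qbar) ^ n :=
  h5_inertia_fixed_val_of h5_inertiaFieldStatement hp A hA x hx hfix

/-- (E2) in helper8's requested shape / name. -/
theorem h5_val_of_inertia_fixed (A : ValuationSubring (AlgebraicClosure ℚ)) {p : ℕ}
    (hp : p.Prime) (hA : A.LiesOverPrime p) (z : AlgebraicClosure ℚ) (hz : z ≠ 0)
    (hfix : ∀ σ ∈ A.inertiaSubgroupIn ℚ, σ z = z) :
    ∃ m : ℤ, A.valuation z = A.valuation (p : AlgebraicClosure ℚ) ^ m :=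
  h5_inertia_fixed_val hp A hA z hz hfix

end Fermat.Agent.Lib.S13
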