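/-
S13 project, stream (E) (helper8): from the local theorem for a model `⟨0,a,0,b,0⟩` over `ℚ` to the
two alternatives of `LocalAtPStatement` for any curve `C • ⟨0,a,0,b,0⟩`.
-/
import Mathlib
import Fermat.Agent.Lib.S13.Defs
import Fermat.Agent.Lib.S13.ELocalDefs
import Fermat.Agent.Lib.S13.EGlobalIso
import Fermat.Agent.Lib.S13.InertiaFinal
import Fermat.Agent.Lib.S05.Assembly

set_option autoImplicit false

namespace Fermat.Agent.Lib.S13

open WeierstrassCurve WeierstrassCurve.Affine WeierstrassCurve.Affine.Point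
open Fermat.Agent.Lib.S05

theorem h8_global_core (hLoc : LocalTheoremStatement) {p : ℕ} (hp : p.Prime) (hp2 : p ≠ 2)
    (A : ValuationSubring Qbar) (hA : A.LiesOverPrime p) (a b : ℚ) (C : VariableChange ℚ)
    (hmodel : GoodOrBadModel A.valuation p a b)
    (N : Submodule (ZMod p) (Submodule.torsionBy ℤ
      ((C • (⟨0, a, 0, b, 0⟩ : WeierstrassCurve ℚ))⁄Qbar).Point p))
    (hNs : IsGaloisStable ℚ N) (hNcard : Nat.card N = p) :
    (∀ σ ∈ A.inertiaSubgroupIn ℚ, ∀ n ∈ N, σ • n = n) ∨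
      (∀ σ ∈ A.inertiaSubgroupIn ℚ, ∀ x : Submodule.torsionBy ℤ
        ((C • (⟨0, a, 0, b, 0⟩ : WeierstrassCurve ℚ))⁄Qbar).Point p, σ • x - x ∈ N) := by
  have := h9_isAlgebraic_Qbar
  -- the inertia group
  have hσv : ∀ σ ∈ (A.inertiaSubgroupIn ℚ : Set GQ), ∀ x, A.valuation (σ x) = A.valuation x := by
    intro σ hσ z
    exact valuation_apply_of_mem_decomposition A (mem_decomposition_of_mem_inertia A hσ) z
  have hσm : ∀ σ ∈ (A.inertiaSubgroupIn ℚ : Set GQ), ∀ x, A.valuation x ≤ 1 →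
      A.valuation (σ x - x) < 1 := by
    intro σ hσ z hz
    exact valuation_sub_lt_one_of_mem_inertia A hσ ((A.valuation_le_one_iff z).mp hz)
  have hvp : A.valuation (p : Qbar) < 1 := h9_val_q_lt_one A hA
  have hv2 : A.valuation (2 : Qbar) = 1 := by
    have h1 : ¬ (p : ℤ) ∣ ((2 : ℕ) : ℤ) := by
      rw [Int.natCast_dvd_natCast]
      intro hdvd
      exact hp2 ((Nat.prime_dvd_prime_iff_eq hp Nat.prime_two).mp hdvd)
    have := h9_val_int_of_not_dvd A hA hp h1
    simpa using this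
  have hE2 : ∀ z : Qbar, z ≠ 0 → (∀ σ ∈ (A.inertiaSubgroupIn ℚ : Set GQ), σ z = z) →
      ∃ m : ℤ, A.valuation z = A.valuation (p : Qbar) ^ m :=
    fun z hz hfix => h5_val_of_inertia_fixed A hp hA z hz hfix
  -- the transfer
  obtain ⟨Φ, hΦ⟩ := h8_transfer_iso (L := Qbar) (⟨0, a, 0, b, 0⟩ : WeierstrassCurve ℚ) C
  set T := Submodule.torsionBy ℤ ((C • (⟨0, a, 0, b, 0⟩ : WeierstrassCurve ℚ))⁄Qbar).Point p
    with hT
  let f : T →+ ((⟨0, a, 0, b, 0⟩ : WeierstrassCurve ℚ)⁄Qbar).Point :=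
    Φ.toAddMonoidHom.comp T.subtype.toAddMonoidHom
  have hf_inj : Function.Injective f := by
    intro x y hxy
    apply Subtype.ext
    exact Φ.injective hxy
  have hf_smul : ∀ (σ : GQ) (x : T), f (σ • x) = Point.map σ.toAlgHom (f x) := by
    intro σ x
    exact hΦ σ x.1
  have hf_tors : ∀ x : T, p • f x = 0 := by
    intro x
    rw [← map_nsmul]
    have hx : p • x = 0 := by
      apply Subtype.ext
      have := x.2
      rw [Submodule.mem_torsionBy_iff, natCast_zsmul] at this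
      simpa using this
    rw [hx, _root_.map_zero]
  -- the image of `N`
  set N' : AddSubgroup ((⟨0, a, 0, b, 0⟩ : WeierstrassCurve ℚ)⁄Qbar).Point :=
    N.toAddSubgroup.map f with hN'
  have hN'card : Nat.card N' = p := by
    rw [← hNcard]
    exact Nat.card_congr (N.toAddSubgroup.equivMapOfInjective f hf_inj).toEquiv.symm
  have hN'stab : ∀ σ ∈ (A.inertiaSubgroupIn ℚ : Set GQ), ∀ Q ∈ N',
      Point.map σ.toAlgHom Q ∈ N' := by
    rintro σ - Q ⟨n, hn, rfl⟩
    exact ⟨σ • n, hNs σ n hn, hf_smul σ n⟩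
  rcases hLoc A.valuation (A.inertiaSubgroupIn ℚ : Set GQ) hσv hσm p hp hp2 hvp hv2 hE2 a b
    hmodel N' hN'card hN'stab with h1 | h2
  · left
    intro σ hσ n hn
    apply hf_inj
    rw [hf_smul]
    exact h1 σ hσ (f n) ⟨n, hn, rfl⟩
  · right
    intro σ hσ x
    obtain ⟨n, hn, hnx⟩ := h2 σ hσ (f x) (hf_tors x)
    have : n = σ • x - x := by
      apply hf_inj
      rw [hnx, map_sub, hf_smul]
    rw [← this]
    exact hn

end Fermat.Agent.Lib.S13
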