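/-
S13 project, stream (E) (helper8): `LocalAtPStatement` from the local theorem and the Frey models
at `p`.
-/
import Mathlib
import Fermat.Agent.Lib.S13.EGlobalCore

set_option autoImplicit false

namespace Fermat.Agent.Lib.S13

open WeierstrassCurve WeierstrassCurve.Affine WeierstrassCurve.Affine.Point
open Fermat.Agent.Lib.S05

/-- A proper nonzero subspace of a plane over `𝔽_p` has `p` elements. -/
theorem h8_card_line {p : ℕ} [Fact p.Prime] {V : Type*} [AddCommGroup V] [Module (ZMod p) V]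
    (hV : Module.finrank (ZMod p) V = 2) (N : Submodule (ZMod p) V) (hN0 : N ≠ ⊥)
    (hN1 : N ≠ ⊤) : Nat.card N = p := by
  have : FiniteDimensional (ZMod p) V := Module.finite_of_finrank_pos (by omega)
  have hN2 : Module.finrank (ZMod p) N < 2 := hV ▸ Submodule.finrank_lt hN1
  have hN3 : Module.finrank (ZMod p) N ≠ 0 := fun h => hN0 (Submodule.finrank_eq_zero.1 h)
  have hN : Module.finrank (ZMod p) N = 1 := by omega
  rw [Module.natCard_eq_pow_finrank (K := ZMod p), hN, Nat.card_zmod, pow_one]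

/-- The numerics at `p`: one of the two Legendre-type models of the Frey curve is in the good or
in the multiplicative case of `GoodOrBadModel`. -/
def FreyModelCasesStatement : Prop :=
  ∀ (P : FreyPackage) (A : ValuationSubring Qbar), A.LiesOverPrime P.p →
    (GoodOrBadModel (F₀ := ℚ) A.valuation P.p ((P.b ^ P.p - P.a ^ P.p : ℤ) : ℚ)
        ((-(P.a ^ P.p * P.b ^ P.p) : ℤ) : ℚ)) ∨
      (GoodOrBadModel (F₀ := ℚ) A.valuation P.p ((P.a ^ P.p + P.c ^ P.p : ℤ) : ℚ)
        ((P.a ^ P.p * P.c ^ P.p : ℤ) : ℚ))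

theorem h8_localAtP_of (hLoc : LocalTheoremStatement) (hCases : FreyModelCasesStatement) :
    LocalAtPStatement := by
  intro P hV N hNs hN0 hN1
  have : Fact P.p.Prime := ⟨P.pp⟩
  have hp2 : P.p ≠ 2 := by have := P.hp5; omega
  obtain ⟨A, hA⟩ := h5_exists_liesOver Qbar P.pp
  refine ⟨A, hA, ?_⟩
  have hcard : Nat.card N = P.p := h8_card_line hV N hN0 hN1
  -- generic form, to substitute the curve
  have key : ∀ (a b : ℚ) (C : VariableChange ℚ) (E : WeierstrassCurve ℚ)
      (_ : C • (⟨0, a, 0, b, 0⟩ : WeierstrassCurve ℚ) = E)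
      (_ : GoodOrBadModel A.valuation P.p a b)
      (N : Submodule (ZMod P.p) (Submodule.torsionBy ℤ (E⁄Qbar).Point P.p))
      (_ : IsGaloisStable ℚ N) (_ : Nat.card N = P.p),
      (∀ σ ∈ A.inertiaSubgroupIn ℚ, ∀ n ∈ N, σ • n = n) ∨
        (∀ σ ∈ A.inertiaSubgroupIn ℚ,
          ∀ x : Submodule.torsionBy ℤ (E⁄Qbar).Point P.p, σ • x - x ∈ N) := by
    intro a b C E hE hmodel N hNs hNcard
    subst hE
    exact h8_global_core hLoc P.pp hp2 A hA a b C hmodel N hNs hNcard
  rcases hCases P A hA with h | h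
  · exact key _ _ h9_vc1 P.freyCurve (h9_vc1_smul P) h N hNs hcard
  · exact key _ _ (h9_vc2 P) P.freyCurve (h9_vc2_smul P) h N hNs hcard

end Fermat.Agent.Lib.S13
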