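/-
S13 project, stream (E), piece (G3) (helper4): numerics of the Frey models at the prime `p` itself.
For a place `A` over `p = P.p`, one of the two models
`Y² = X³ + (B - A)X² - ABX` (`h9_model1`), `Y² = X³ + (A + C)X² + ACX` (`h9_model2`)
of the Frey curve satisfies helper8's `GoodOrBadModel` hypothesis:
* `p ∤ abc` : model 1 has good reduction (`Δ = 16 A² B² C²`, `p` odd);
* `p ∣ ab`  : model 1 is multiplicative, `v(-AB) = v(p)^(p (e₁ + e₂))`;
* `p ∣ c`, `p ∤ ab` : model 2 is multiplicative, `v(AC) = v(p)^(p e)`.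
(Port of the three case blocks of `Lib/S05/Assembly.lean` with `q := P.p`.)
-/
import Mathlib
import Fermat.Agent.Lib.S05.Assembly
import Fermat.Agent.Lib.S13.Defs
import Fermat.Agent.Lib.S13.ELocalDefs

set_option autoImplicit false

namespace Fermat.Agent.Lib.S13

open WeierstrassCurve Fermat.Agent.Lib.S05

theorem h4g_model_cases (P : FreyPackage) (A : ValuationSubring Qbar)
    (hA : A.LiesOverPrime P.p) :
    (GoodOrBadModel (F₀ := ℚ) A.valuation P.p ((P.b ^ P.p - P.a ^ P.p : ℤ) : ℚ)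
        ((-(P.a ^ P.p * P.b ^ P.p) : ℤ) : ℚ)) ∨
      (GoodOrBadModel (F₀ := ℚ) A.valuation P.p ((P.a ^ P.p + P.c ^ P.p : ℤ) : ℚ)
        ((P.a ^ P.p * P.c ^ P.p : ℤ) : ℚ)) := by
  have hq : P.p.Prime := P.pp
  have hqZ : Prime (P.p : ℤ) := Nat.prime_iff_prime_int.mp hq
  have hq2 : P.p ≠ 2 := by have := P.hp5; omega
  by_cases hdiv : (P.p : ℤ) ∣ P.a * P.b * P.c
  · by_cases hab : (P.p : ℤ) ∣ P.a * P.b
    · -- `p ∣ ab`: model 1 is in the bad case
      left
      right
      have hnd : ¬ (P.p : ℤ) ∣ (P.b ^ P.p - P.a ^ P.p) := by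
        intro hd
        rcases hqZ.dvd_or_dvd hab with ha | hb
        · have hb' : (P.p : ℤ) ∣ P.b ^ P.p := by
            have : P.b ^ P.p = (P.b ^ P.p - P.a ^ P.p) + P.a ^ P.p := by ring
            rw [this]
            exact dvd_add hd (dvd_pow ha P.hp0)
          exact h9_not_dvd_both hq P.hgcdab ha (hqZ.dvd_of_dvd_pow hb')
        · have ha' : (P.p : ℤ) ∣ P.a ^ P.p := by
            have : P.a ^ P.p = P.b ^ P.p - (P.b ^ P.p - P.a ^ P.p) := by ring
            rw [this]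
            exact dvd_sub (dvd_pow hb P.hp0) hd
          exact h9_not_dvd_both hq P.hgcdab (hqZ.dvd_of_dvd_pow ha') hb
      have hdvdb : (P.p : ℤ) ∣ -(P.a ^ P.p * P.b ^ P.p) := by
        rw [dvd_neg, ← mul_pow]
        exact dvd_pow hab P.hp0
      obtain ⟨e₁, he₁⟩ := h9_val_int_pow A hA hq P.ha0
      obtain ⟨e₂, he₂⟩ := h9_val_int_pow A hA hq P.hb0
      refine ⟨?_, h9_model1_disc P, ?_, ?_, (P.p : ℚ), e₁ + e₂, ?_⟩
      · exact Int.cast_ne_zero.mpr
          (neg_ne_zero.mpr (mul_ne_zero (pow_ne_zero _ P.ha0) (pow_ne_zero _ P.hb0)))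
      · rw [map_intCast]
        exact h9_val_int_of_not_dvd A hA hq hnd
      · rw [map_intCast]
        exact h9_val_int_lt_one_of_dvd A hA hdvdb
      · rw [map_intCast, map_natCast]
        push_cast
        rw [Valuation.map_neg, map_mul, map_pow, map_pow, he₁, he₂, ← pow_mul, ← pow_mul,
          ← pow_add]
        congr 1
        ring
    · -- `p ∣ c`, `p ∤ ab`: model 2 is in the bad case
      right
      right
      have hc : (P.p : ℤ) ∣ P.c := (hqZ.dvd_or_dvd hdiv).resolve_left hab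
      have ha : ¬ (P.p : ℤ) ∣ P.a := fun h => hab (dvd_mul_of_dvd_left h _)
      have hnd : ¬ (P.p : ℤ) ∣ (P.a ^ P.p + P.c ^ P.p) := by
        intro hd
        have ha' : (P.p : ℤ) ∣ P.a ^ P.p := by
          have : P.a ^ P.p = (P.a ^ P.p + P.c ^ P.p) - P.c ^ P.p := by ring
          rw [this]
          exact dvd_sub hd (dvd_pow hc P.hp0)
        exact ha (hqZ.dvd_of_dvd_pow ha')
      have hdvdb : (P.p : ℤ) ∣ P.a ^ P.p * P.c ^ P.p :=
        dvd_mul_of_dvd_right (dvd_pow hc P.hp0) _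
      obtain ⟨e₂, he₂⟩ := h9_val_int_pow A hA hq P.hc0
      have he₁ : A.valuation ((P.a : ℤ) : Qbar) = 1 := h9_val_int_of_not_dvd A hA hq ha
      refine ⟨?_, h9_model2_disc P, ?_, ?_, (P.p : ℚ), e₂, ?_⟩
      · exact Int.cast_ne_zero.mpr (mul_ne_zero (pow_ne_zero _ P.ha0) (pow_ne_zero _ P.hc0))
      · rw [map_intCast]
        exact h9_val_int_of_not_dvd A hA hq hnd
      · rw [map_intCast]
        exact h9_val_int_lt_one_of_dvd A hA hdvdb
      · rw [map_intCast, map_natCast]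
        push_cast
        rw [map_mul, map_pow, map_pow, he₁, he₂, one_pow, one_mul, ← pow_mul]
        congr 1
        ring
  · -- good reduction: model 1
    left
    left
    have ha : ¬ (P.p : ℤ) ∣ P.a :=
      fun h => hdiv (dvd_mul_of_dvd_left (dvd_mul_of_dvd_left h _) _)
    have hb : ¬ (P.p : ℤ) ∣ P.b :=
      fun h => hdiv (dvd_mul_of_dvd_left (dvd_mul_of_dvd_right h _) _)
    have hc : ¬ (P.p : ℤ) ∣ P.c := fun h => hdiv (dvd_mul_of_dvd_right h _)
    have h16 : ¬ (P.p : ℤ) ∣ 16 := by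
      intro h
      have h' : (P.p : ℤ) ∣ 2 ^ 4 := by norm_num; exact h
      have := hqZ.dvd_of_dvd_pow h'
      have h2' : (P.p : ℤ) ∣ ((2 : ℕ) : ℤ) := by simpa using this
      rw [Int.natCast_dvd_natCast] at h2'
      exact hq2 ((Nat.prime_dvd_prime_iff_eq hq Nat.prime_two).mp h2')
    have hΔnd : ¬ (P.p : ℤ) ∣ 16 * (P.a ^ P.p) ^ 2 * (P.b ^ P.p) ^ 2 * (P.c ^ P.p) ^ 2 := by
      intro h
      rcases hqZ.dvd_or_dvd h with h | h
      · rcases hqZ.dvd_or_dvd h with h | h
        · rcases hqZ.dvd_or_dvd h with h | h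
          · exact h16 h
          · exact ha (hqZ.dvd_of_dvd_pow (hqZ.dvd_of_dvd_pow h))
        · exact hb (hqZ.dvd_of_dvd_pow (hqZ.dvd_of_dvd_pow h))
      · exact hc (hqZ.dvd_of_dvd_pow (hqZ.dvd_of_dvd_pow h))
    refine ⟨?_, ?_, ?_⟩
    · rw [map_intCast]; exact valuation_intCast_le_one A _
    · rw [map_intCast]; exact valuation_intCast_le_one A _
    · have hΔ := h9_model1_Δ P
      unfold h9_model1 at hΔ
      rw [hΔ, map_intCast]
      exact h9_val_int_of_not_dvd A hA hq hΔnd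

end Fermat.Agent.Lib.S13
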