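/-
S13 project, stream (E), piece (ORB) (helper5): proof of helper8's contract `OrbStatement`
(`ELocalDefs.lean`).

If `N` is a subgroup of prime order `p` of the kernel of reduction, stable under a set `S` of
valuation-preserving automorphisms whose fixed elements have value in `v(p)^ℤ` (this is (E2) for the
inertia group), then `v(t Q)^(p-1) ≤ v(p)` for the nonzero points `Q` of `N`: the product `z` of the
`t`-coordinates of the `p - 1` nonzero points of `N` is `S`-fixed and `v z = v(t Q)^(p-1)`.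
-/
import Mathlib
import Fermat.Agent.Lib.S13.ELocalDefs

set_option autoImplicit false

namespace Fermat.Agent.Lib.S13

open WeierstrassCurve WeierstrassCurve.Affine WeierstrassCurve.Affine.Point

/-- If `c = a ^ m` with `a < 1` and `0 < c < 1`, then `c ≤ a`. -/
theorem h5o_le_of_eq_zpow {Γ₀ : Type*} [LinearOrderedCommGroupWithZero Γ₀] {a c : Γ₀}
    (ha1 : a < 1) (hc0 : c ≠ 0) (hc1 : c < 1) (m : ℤ) (h : c = a ^ m) : c ≤ a := by
  rcases le_or_gt m 0 with hm | hm
  · exfalso
    obtain ⟨n, rfl⟩ : ∃ n : ℕ, m = -(n : ℤ) := ⟨(-m).toNat, by omega⟩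
    rw [zpow_neg, zpow_natCast] at h
    have hn1 : a ^ n ≤ 1 := pow_le_one₀ zero_le (le_of_lt ha1)
    by_cases hn0 : a ^ n = 0
    · rw [hn0, inv_zero] at h
      exact hc0 h
    · have hpos : 0 < a ^ n := zero_lt_iff.mpr hn0
      have : 1 ≤ (a ^ n)⁻¹ := (one_le_inv₀ hpos).mpr hn1
      rw [← h] at this
      exact absurd hc1 (not_lt.mpr this)
  · obtain ⟨n, rfl⟩ : ∃ n : ℕ, m = (n : ℤ) + 1 := ⟨(m - 1).toNat, by omega⟩
    rw [h, zpow_add_one₀ (by
      intro ha0
      rw [ha0] at h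
      rw [zero_zpow _ (by omega)] at h
      exact hc0 h), zpow_natCast]
    calc a ^ n * a ≤ 1 * a := mul_le_mul_left (pow_le_one₀ zero_le (le_of_lt ha1)) a
      _ = a := one_mul a

section orb

variable {F₀ L Γ₀ : Type} [Field F₀] [Field L] [Algebra F₀ L] [DecidableEq L]
  [LinearOrderedCommGroupWithZero Γ₀] (v : Valuation L Γ₀)

/-- `t` commutes with the Galois action on points. -/
theorem h5o_T_map (W₀ : WeierstrassCurve F₀) (σ : L ≃ₐ[F₀] L) (Q : (W₀⁄L).Point) :
    h9k_T (W₀.map (algebraMap F₀ L)) (Point.map σ.toAlgHom Q)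
      = σ (h9k_T (W₀.map (algebraMap F₀ L)) Q) := by
  rcases Q with _ | ⟨x, y, h⟩
  · show (0 : L) = σ 0
    rw [_root_.map_zero]
  · show σ.toAlgHom x / σ.toAlgHom y = σ (x / y)
    rw [map_div₀]
    rfl

omit [DecidableEq L] in
/-- The `t`-coordinate of a nonzero point of the kernel of reduction is nonzero. -/
theorem h5o_T_ne_zero (W : WeierstrassCurve L) (h1 : v W.a₁ ≤ 1) (h2 : v W.a₂ ≤ 1)
    (h3 : v W.a₃ ≤ 1) (h4 : v W.a₄ ≤ 1) (h6 : v W.a₆ ≤ 1) (P : W.toAffine.Point)
    (hP : h9k_Ker v W P) (h0 : P ≠ 0) : h9k_T W P ≠ 0 := by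
  rcases P with _ | ⟨x, y, h⟩
  · exact absurd rfl h0
  · have hx : 1 < v x := hP
    have hy : 1 < v y := h9k_one_lt_vY v h1 h2 h3 h4 h6 (h9k_equation W h.1) hx
    have hx0 : x ≠ 0 := by
      intro h; rw [h, _root_.map_zero] at hx; exact absurd hx (not_lt.mpr zero_le)
    have hy0 : y ≠ 0 := by
      intro h; rw [h, _root_.map_zero] at hy; exact absurd hy (not_lt.mpr zero_le)
    exact div_ne_zero hx0 hy0

/-- `v (t (k • P)) ≤ v (t P)` on the kernel of reduction. -/
theorem h5o_vT_nsmul_le (W : WeierstrassCurve L) (h1 : v W.a₁ ≤ 1) (h2 : v W.a₂ ≤ 1)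
    (h3 : v W.a₃ ≤ 1) (h4 : v W.a₄ ≤ 1) (h6 : v W.a₆ ≤ 1) (P : W.toAffine.Point)
    (hP : h9k_Ker v W P) (k : ℕ) : v (h9k_T W (k • P)) ≤ v (h9k_T W P) := by
  obtain ⟨-, hE⟩ := h9k_nsmul_est v W h1 h2 h3 h4 h6 P hP k
  have hr : v (h9k_T W P) < 1 := h9k_vT_lt_one v W h1 h2 h3 h4 h6 P hP
  have hr2 : v (h9k_T W P) ^ 2 ≤ v (h9k_T W P) :=
    pow_le_of_le_one zero_le (le_of_lt hr) (by norm_num)
  have : h9k_T W (k • P) = (h9k_T W (k • P) - k * h9k_T W P) + k * h9k_T W P := by ring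
  rw [this]
  exact v.map_add_le (le_trans hE hr2) (h9k_est_int_mul v (h9k_natCast_le_one v k) le_rfl)

end orb

/-- **(ORB)**. -/
theorem h5_orb : OrbStatement := by
  intro F₀ L Γ₀ _ _ _ _ _ v S hSv p hp hvp hE2 W₀ h1 h2 h3 h4 h6 N hcard hstab hker Q hQ hQ0
  classical
  have : Fact p.Prime := ⟨hp⟩
  have : Finite N := Nat.finite_of_card_ne_zero (hcard ▸ hp.ne_zero)
  have : Fintype N := Fintype.ofFinite N
  -- all nonzero points of `N` have the same `v t`
  have hval : ∀ R : N, R ≠ 0 →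
      v (h9k_T (W₀.map (algebraMap F₀ L)) (R : (W₀⁄L).Point))
        = v (h9k_T (W₀.map (algebraMap F₀ L)) Q) := by
    intro R hR
    have hQ' : (⟨Q, hQ⟩ : N) ≠ 0 := fun h => hQ0 (congrArg Subtype.val h)
    obtain ⟨k, hk⟩ := mem_multiples_of_prime_card hcard (g := (⟨Q, hQ⟩ : N)) (g' := R) hQ'
    obtain ⟨k', hk'⟩ := mem_multiples_of_prime_card hcard (g := R) (g' := (⟨Q, hQ⟩ : N)) hR
    have e1 : (R : (W₀⁄L).Point) = k • Q := by
      have := congrArg Subtype.val hk
      simpa using this.symm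
    have e2 : Q = k' • (R : (W₀⁄L).Point) := by
      have := congrArg Subtype.val hk'
      simpa using this.symm
    apply le_antisymm
    · rw [e1]
      exact h5o_vT_nsmul_le v _ h1 h2 h3 h4 h6 Q (hker Q hQ) k
    · conv_lhs => rw [e2]
      exact h5o_vT_nsmul_le v _ h1 h2 h3 h4 h6 (R : (W₀⁄L).Point) (hker _ R.2) k'
  -- the product of the `t`-coordinates of the nonzero points of `N`
  set T : N → L := fun R => h9k_T (W₀.map (algebraMap F₀ L)) (R : (W₀⁄L).Point) with hT
  set g : N → L := fun R => if R = 0 then 1 else T R with hg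
  set z : L := ∏ R : N, g R with hz
  have hTne : ∀ R : N, R ≠ 0 → T R ≠ 0 := fun R hR =>
    h5o_T_ne_zero v _ h1 h2 h3 h4 h6 (R : (W₀⁄L).Point) (hker _ R.2)
      (fun h => hR (Subtype.ext h))
  have hz0 : z ≠ 0 := by
    rw [hz, Finset.prod_ne_zero_iff]
    intro R _
    by_cases hR : R = 0
    · simp [hg, hR]
    · simp only [hg, hR, if_false]
      exact hTne R hR
  -- `z` is fixed by `S`
  have hfix : ∀ σ ∈ S, σ z = z := by
    intro σ hσ
    set τ : N → N := fun R => ⟨Point.map σ.toAlgHom (R : (W₀⁄L).Point), hstab σ hσ _ R.2⟩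
      with hτ
    have hτinj : Function.Injective τ := by
      intro R R' h
      have h' := congrArg Subtype.val h
      exact Subtype.ext (Point.map_injective σ.toAlgHom h')
    have hτ00 : τ 0 = 0 := Subtype.ext (_root_.map_zero (Point.map σ.toAlgHom))
    have hτ0 : ∀ R, τ R = 0 ↔ R = 0 := by
      intro R
      constructor
      · intro h
        exact hτinj (h.trans hτ00.symm)
      · rintro rfl
        exact hτ00
    have hτbij : Function.Bijective τ := Finite.injective_iff_bijective.mp hτinj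
    have hgτ : ∀ R, σ (g R) = g (τ R) := by
      intro R
      by_cases hR : R = 0
      · subst hR
        simp only [hg, hτ00, if_true, map_one]
      · have : τ R ≠ 0 := fun h => hR ((hτ0 R).mp h)
        simp only [hg, hR, this, if_false]
        exact (h5o_T_map W₀ σ (R : (W₀⁄L).Point)).symm
    rw [hz, map_prod]
    rw [Finset.prod_congr rfl (fun R _ => hgτ R)]
    exact Function.Bijective.prod_comp hτbij g
  -- the valuation of `z`
  have hvz : v z = v (h9k_T (W₀.map (algebraMap F₀ L)) Q) ^ (p - 1) := by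
    rw [hz, map_prod]
    rw [← Finset.mul_prod_erase Finset.univ (fun R => v (g R)) (Finset.mem_univ (0 : N))]
    have h0 : v (g 0) = 1 := by simp [hg]
    rw [h0, one_mul]
    rw [Finset.prod_congr rfl (fun R hR => ?_), Finset.prod_const]
    · congr 1
      rw [Finset.card_erase_of_mem (Finset.mem_univ _), Finset.card_univ,
        ← Nat.card_eq_fintype_card, hcard]
    · have hR0 : R ≠ 0 := (Finset.mem_erase.mp hR).1
      simp only [hg, hR0, if_false]
      exact hval R hR0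
  obtain ⟨m, hm⟩ := hE2 z hz0 hfix
  rw [hvz] at hm
  have hQker := hker Q hQ
  have htlt : v (h9k_T (W₀.map (algebraMap F₀ L)) Q) < 1 :=
    h9k_vT_lt_one v _ h1 h2 h3 h4 h6 Q hQker
  have htne : v (h9k_T (W₀.map (algebraMap F₀ L)) Q) ≠ 0 :=
    (Valuation.ne_zero_iff v).mpr (h5o_T_ne_zero v _ h1 h2 h3 h4 h6 Q hQker hQ0)
  have hp1 : p - 1 ≠ 0 := by have := hp.two_le; omega
  exact h5o_le_of_eq_zpow hvp (pow_ne_zero _ htne) (pow_lt_one₀ zero_le htlt hp1) m hm

end Fermat.Agent.Lib.S13
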