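/-
S13 project, stream (E) (helper4): the addition law of `Y² = X³ + aX² + bX` in the coordinates
`t = X/Y`, `s = 1/Y` near the origin, as a polynomial RELATION over an arbitrary commutative ring
(inverses are witnesses), so that it is preserved by ring homomorphisms and functional.

Curve in `(t,s)`-coordinates: `s = t³ + a t² s + b t s²`.
Line through `P₁, P₂`: `s = λ t + ν`, `λ = Nλ / D`,
`D = 1 - (a t₁² + b t₁ (s₁ + s₂))`, `Nλ = t₂² + t₁ t₂ + t₁² + a (t₁ + t₂) s₂ + b s₂²`,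
`ν = s₁ - λ t₁`; sum `P₃ = (t₃, s₃)`, `t₃ = t₁ + t₂ + ν (a + 2bλ)/(1 + aλ + bλ²)`, `s₃ = λ t₃ - ν`.
-/
import Mathlib

set_option autoImplicit false

namespace Fermat.Agent.Lib.S13

variable {S : Type*} [CommRing S]

/-- the curve equation in `(t,s)`-coordinates -/
def h4Curve (a b t s : S) : Prop := s = t ^ 3 + a * t ^ 2 * s + b * t * s ^ 2

/-- the addition relation `(t₁,s₁) + (t₂,s₂) = (t₃,s₃)` -/
def h4AddRel (a b t1 s1 t2 s2 t3 s3 : S) : Prop :=
  ∃ D' lam E' : S,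
    (1 - (a * t1 ^ 2 + b * (t1 * (s1 + s2)))) * D' = 1 ∧
    lam = (t2 ^ 2 + t1 * t2 + t1 ^ 2 + a * ((t1 + t2) * s2) + b * s2 ^ 2) * D' ∧
    (1 + a * lam + b * lam ^ 2) * E' = 1 ∧
    t3 = t1 + t2 + (s1 - lam * t1) * (a + 2 * b * lam) * E' ∧
    s3 = lam * t3 - (s1 - lam * t1)

theorem h4Curve_map {S' : Type*} [CommRing S'] (φ : S →+* S') {a b t s : S}
    (h : h4Curve a b t s) : h4Curve (φ a) (φ b) (φ t) (φ s) := by
  unfold h4Curve at *
  have := congrArg φ h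
  simpa only [map_add, map_mul, map_pow] using this

theorem h4AddRel_map {S' : Type*} [CommRing S'] (φ : S →+* S') {a b t1 s1 t2 s2 t3 s3 : S}
    (h : h4AddRel a b t1 s1 t2 s2 t3 s3) :
    h4AddRel (φ a) (φ b) (φ t1) (φ s1) (φ t2) (φ s2) (φ t3) (φ s3) := by
  obtain ⟨D', lam, E', h1, h2, h3, h4, h5⟩ := h
  refine ⟨φ D', φ lam, φ E', ?_, ?_, ?_, ?_, ?_⟩
  · have := congrArg φ h1
    simpa only [map_add, map_mul, map_pow, map_sub, map_one] using this
  · have := congrArg φ h2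
    simpa only [map_add, map_mul, map_pow, map_sub, map_one] using this
  · have := congrArg φ h3
    simpa only [map_add, map_mul, map_pow, map_sub, map_one] using this
  · have := congrArg φ h4
    simpa only [map_add, map_mul, map_pow, map_sub, map_one, map_ofNat] using this
  · have := congrArg φ h5
    simpa only [map_add, map_mul, map_pow, map_sub, map_one] using this

theorem h4_inv_unique {x y z : S} (h1 : x * y = 1) (h2 : x * z = 1) : y = z := by
  calc y = y * (x * z) := by rw [h2, mul_one]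
    _ = (x * y) * z := by ring
    _ = z := by rw [h1, one_mul]

/-- the relation is functional -/
theorem h4AddRel_unique {a b t1 s1 t2 s2 t3 s3 t3' s3' : S}
    (h : h4AddRel a b t1 s1 t2 s2 t3 s3) (h' : h4AddRel a b t1 s1 t2 s2 t3' s3') :
    t3 = t3' ∧ s3 = s3' := by
  obtain ⟨D', lam, E', h1, h2, h3, h4, h5⟩ := h
  obtain ⟨D'', lam', E'', h1', h2', h3', h4', h5'⟩ := h'
  have hD : D' = D'' := h4_inv_unique h1 h1'
  subst hD
  have hl : lam = lam' := by rw [h2, h2']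
  subst hl
  have hE : E' = E'' := h4_inv_unique h3 h3'
  subst hE
  have ht : t3 = t3' := by rw [h4, h4']
  subst ht
  exact ⟨rfl, by rw [h5, h5']⟩

/-- The line through the first point with slope `λ` also passes through the second point. -/
theorem h4_line_second {a b t1 s1 t2 s2 D' lam : S}
    (C1 : h4Curve a b t1 s1) (C2 : h4Curve a b t2 s2)
    (h1 : (1 - (a * t1 ^ 2 + b * (t1 * (s1 + s2)))) * D' = 1)
    (h2 : lam = (t2 ^ 2 + t1 * t2 + t1 ^ 2 + a * ((t1 + t2) * s2) + b * s2 ^ 2) * D') :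
    s2 = lam * t2 + (s1 - lam * t1) := by
  unfold h4Curve at C1 C2
  have key : (s2 - s1) * (1 - (a * t1 ^ 2 + b * (t1 * (s1 + s2))))
      = (t2 - t1) * (t2 ^ 2 + t1 * t2 + t1 ^ 2 + a * ((t1 + t2) * s2) + b * s2 ^ 2) := by
    linear_combination C2 - C1
  have : s2 - s1 = (t2 - t1) * lam := by
    calc s2 - s1 = (s2 - s1) * ((1 - (a * t1 ^ 2 + b * (t1 * (s1 + s2)))) * D') := by
          rw [h1, mul_one]
      _ = ((s2 - s1) * (1 - (a * t1 ^ 2 + b * (t1 * (s1 + s2))))) * D' := by ring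
      _ = (t2 - t1) * lam := by rw [key, h2]; ring
  linear_combination this

/-- `λ D = Nλ`. -/
theorem h4_lam_mul {a b t1 s1 t2 s2 D' lam : S}
    (h1 : (1 - (a * t1 ^ 2 + b * (t1 * (s1 + s2)))) * D' = 1)
    (h2 : lam = (t2 ^ 2 + t1 * t2 + t1 ^ 2 + a * ((t1 + t2) * s2) + b * s2 ^ 2) * D') :
    lam * (1 - (a * t1 ^ 2 + b * (t1 * (s1 + s2))))
      = t2 ^ 2 + t1 * t2 + t1 ^ 2 + a * ((t1 + t2) * s2) + b * s2 ^ 2 := by
  rw [h2]
  calc _ = (t2 ^ 2 + t1 * t2 + t1 ^ 2 + a * ((t1 + t2) * s2) + b * s2 ^ 2)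
        * ((1 - (a * t1 ^ 2 + b * (t1 * (s1 + s2)))) * D') := by ring
    _ = _ := by rw [h1, mul_one]

/-- The sum of two points of the curve is on the curve. -/
theorem h4AddRel_curve {a b t1 s1 t2 s2 t3 s3 : S}
    (C1 : h4Curve a b t1 s1) (C2 : h4Curve a b t2 s2)
    (h : h4AddRel a b t1 s1 t2 s2 t3 s3) : h4Curve a b t3 s3 := by
  obtain ⟨D', lam, E', h1, h2, h3, h4, h5⟩ := h
  have hs2 := h4_line_second C1 C2 h1 h2
  have hlD := h4_lam_mul h1 h2
  unfold h4Curve at *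
  obtain ⟨ν, hν⟩ : ∃ ν, ν = s1 - lam * t1 := ⟨_, rfl⟩
  rw [← hν] at h4 h5 hs2
  have hs1 : s1 = lam * t1 + ν := by rw [hν]; ring
  clear hν
  -- r1 = 0
  have hr1 : (b * ν ^ 2 - lam) + ν * (a + 2 * b * lam) * (t1 + t2)
      + (1 + a * lam + b * lam ^ 2) * (t1 ^ 2 + t1 * t2 + t2 ^ 2) = 0 := by
    rw [hs1, hs2] at hlD
    linear_combination -hlD
  -- c(t1) = 0
  have hc1 : (1 + a * lam + b * lam ^ 2) * t1 ^ 3 + ν * (a + 2 * b * lam) * t1 ^ 2
      + (b * ν ^ 2 - lam) * t1 - ν = 0 := by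
    rw [hs1] at C1
    linear_combination -C1
  -- E * (-t3) = -E (t1+t2) - A2
  have hA : (1 + a * lam + b * lam ^ 2) * t3
      = (1 + a * lam + b * lam ^ 2) * (t1 + t2) + ν * (a + 2 * b * lam) := by
    rw [h4]
    calc _ = (1 + a * lam + b * lam ^ 2) * (t1 + t2)
          + ν * (a + 2 * b * lam) * ((1 + a * lam + b * lam ^ 2) * E') := by ring
      _ = _ := by rw [h3, mul_one]
  rw [h5]
  -- goal: lam t3 - ν = t3^3 + a t3^2 (lam t3 - ν) + b t3 (lam t3 - ν)^2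
  -- i.e. c(-t3) = 0 where c(t) = E t^3 + A2 t^2 + A1 t + A0
  have hc : (1 + a * lam + b * lam ^ 2) * (-t3) ^ 3 + ν * (a + 2 * b * lam) * (-t3) ^ 2
      + (b * ν ^ 2 - lam) * (-t3) - ν = 0 := by
    have e : (1 + a * lam + b * lam ^ 2) * (-t3) ^ 3 + ν * (a + 2 * b * lam) * (-t3) ^ 2
        + (b * ν ^ 2 - lam) * (-t3) - ν
        = ((-t3) - t1) * ((-t3) - t2) * ((1 + a * lam + b * lam ^ 2) * (-t3)
            + ν * (a + 2 * b * lam) + (1 + a * lam + b * lam ^ 2) * (t1 + t2))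
          + ((b * ν ^ 2 - lam) + ν * (a + 2 * b * lam) * (t1 + t2)
            + (1 + a * lam + b * lam ^ 2) * (t1 ^ 2 + t1 * t2 + t2 ^ 2)) * ((-t3) - t1)
          + ((1 + a * lam + b * lam ^ 2) * t1 ^ 3 + ν * (a + 2 * b * lam) * t1 ^ 2
            + (b * ν ^ 2 - lam) * t1 - ν) := by ring
    rw [e, hr1, hc1]
    have : (1 + a * lam + b * lam ^ 2) * (-t3) + ν * (a + 2 * b * lam)
        + (1 + a * lam + b * lam ^ 2) * (t1 + t2) = 0 := by linear_combination -hA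
    rw [this]; ring
  linear_combination hc

end Fermat.Agent.Lib.S13
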