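/-
S13 project, stream (E), piece (E-i) (helper3): on the kernel of reduction of the model
`Y² = X³ + aX² + bX` over a valued field, Mathlib's group law on points is given, in the coordinates
`t = X/Y`, `s = 1/Y` (`(0,0)` at the origin), by helper4's polynomial addition relation `h4AddRel`
(`Lib/S13/FGRel.lean`), uniformly in all cases (zero, opposite, tangent, chord).

Main results: `h3_curve_ts` (kernel points satisfy `h4Curve`), `h3_addRel`.
-/
import Mathlib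
import Fermat.Agent.Lib.S13.FGRel
import Fermat.Agent.Lib.S13.KerTorsion

set_option autoImplicit false

open WeierstrassCurve

namespace Fermat.Agent.Lib.S13

section field
variable {L : Type*} [Field L]

theorem h3_div_aux {x1 x2 x3 Y1 Y2 Y3 : L} (h1 : Y1 ≠ 0) (h2 : Y2 ≠ 0) (h3 : Y3 ≠ 0) :
    x3 / -Y3 - x1 / Y1 - x2 / Y2
      = -(x3 * Y1 * Y2 + x1 * Y2 * Y3 + x2 * Y1 * Y3) / (Y1 * Y2 * Y3) := by
  rw [div_neg]
  field_simp
  ring

/-- Field-level core: if the `xy`-line through `P₁, P₂` has slope `ℓ` (chord or tangent,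
expressed by `hline` and `R1`), Mathlib's sum is `(x₃, y₃)`, and `lam` is `-ℓ/m` (`m` the intercept),
then the `(t,s)`-coordinates of the sum are given by the `(t,s)`-addition law. -/
theorem h3_ts_sum_aux {a b x1 y1 x2 y2 ℓ x3 y3 lam E' : L}
    (hy1 : y1 ≠ 0) (hy2 : y2 ≠ 0) (hy3 : y3 ≠ 0)
    (E1 : y1 ^ 2 = x1 ^ 3 + a * x1 ^ 2 + b * x1)
    (hline : y2 - y1 = ℓ * (x2 - x1))
    (R1 : x1 ^ 2 + x1 * x2 + x2 ^ 2 + a * (x1 + x2) + b
      = ℓ ^ 2 * (x1 + x2) + 2 * ℓ * (y1 - ℓ * x1))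
    (hx3 : x3 = ℓ ^ 2 - a - x1 - x2) (hy3' : y3 = -(ℓ * (x3 - x1) + y1))
    (hlam : lam * (y1 - ℓ * x1) = -ℓ)
    (hE : (1 + a * lam + b * lam ^ 2) * E' = 1) :
    x3 / y3 = x1 / y1 + x2 / y2 + (1 / y1 - lam * (x1 / y1)) * (a + 2 * b * lam) * E' ∧
    1 / y3 = lam * (x3 / y3) - (1 / y1 - lam * (x1 / y1)) := by
  obtain ⟨m, hm⟩ : ∃ m, m = y1 - ℓ * x1 := ⟨_, rfl⟩
  rw [← hm] at hlam R1
  have hY1 : y1 = ℓ * x1 + m := by rw [hm]; ring
  have hY2 : y2 = ℓ * x2 + m := by rw [hm]; linear_combination hline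
  have hY3 : y3 = -(ℓ * x3 + m) := by rw [hy3', hm]; ring
  obtain ⟨ν, hν⟩ : ∃ ν, ν = 1 / y1 - lam * (x1 / y1) := ⟨_, rfl⟩
  rw [← hν]
  have hνm : ν * m = 1 := by
    rw [hν]
    field_simp
    linear_combination (-x1) * hlam - hY1
  have hm0 : m ≠ 0 := by
    rintro rfl; simp at hνm
  have hν0 : ν ≠ 0 := by
    rintro rfl; simp at hνm
  have hlamν : lam = -ℓ * ν := by
    calc lam = lam * (ν * m) := by rw [hνm, mul_one]
      _ = (lam * m) * ν := by ring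
      _ = -ℓ * ν := by rw [hlam]
  -- Vieta
  have K1 : x1 + x2 + x3 = ℓ ^ 2 - a := by rw [hx3]; ring
  have K2 : x1 * x2 + x1 * x3 + x2 * x3 = b - 2 * ℓ * m := by
    rw [hx3]; linear_combination (-1 : L) * R1
  have K3 : x1 * x2 * x3 = m ^ 2 := by
    have h1 : y1 ^ 2 = (ℓ * x1 + m) ^ 2 := by rw [← hY1]
    rw [E1] at h1
    have h2 : x2 * x3 = (b - 2 * ℓ * m) - x1 * (x2 + x3) := by linear_combination K2
    have h3 : x2 + x3 = ℓ ^ 2 - a - x1 := by linear_combination K1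
    calc x1 * x2 * x3 = x1 * (x2 * x3) := by ring
      _ = x1 * ((b - 2 * ℓ * m) - x1 * (ℓ ^ 2 - a - x1)) := by rw [h2, h3]
      _ = m ^ 2 := by linear_combination h1
  have hν' : ν = 1 / m := by
    field_simp; exact hνm
  constructor
  · -- the `t`-coordinate
    have hQ : 1 + a * lam + b * lam ^ 2 ≠ 0 := by
      intro h0; rw [h0, zero_mul] at hE; exact zero_ne_one hE
    have hE' : E' = 1 / (1 + a * lam + b * lam ^ 2) :=
      eq_div_of_mul_eq hQ (by rw [mul_comm]; exact hE)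
    rw [hE', hlamν, hν']
    have hQ' : 1 + a * (-ℓ * (1 / m)) + b * (-ℓ * (1 / m)) ^ 2 ≠ 0 := by
      rw [hlamν, hν'] at hQ; exact hQ
    have hQ2 : m ^ 2 - a * ℓ * m + b * ℓ ^ 2 ≠ 0 := by
      intro h0
      apply hQ'
      field_simp
      linear_combination h0
    have hy3n : ℓ * x3 + m ≠ 0 := by
      intro h0; apply hy3; rw [hY3, h0, neg_zero]
    have hy1n : ℓ * x1 + m ≠ 0 := by rw [← hY1]; exact hy1
    have hy2n : ℓ * x2 + m ≠ 0 := by rw [← hY2]; exact hy2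
    rw [hY3, hY1, hY2]
    have hNum : x3 * (ℓ * x1 + m) * (ℓ * x2 + m) + x1 * (ℓ * x2 + m) * (ℓ * x3 + m)
        + x2 * (ℓ * x1 + m) * (ℓ * x3 + m) = m * (2 * b * ℓ - a * m) := by
      linear_combination (3 * ℓ ^ 2) * K3 + (2 * ℓ * m) * K2 + (m ^ 2) * K1
    have hDen : (ℓ * x1 + m) * (ℓ * x2 + m) * (ℓ * x3 + m)
        = m * (m ^ 2 - a * ℓ * m + b * ℓ ^ 2) := by
      linear_combination (ℓ ^ 3) * K3 + (ℓ ^ 2 * m) * K2 + (ℓ * m ^ 2) * K1
    have key : x3 / -(ℓ * x3 + m) - x1 / (ℓ * x1 + m) - x2 / (ℓ * x2 + m)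
        = (a * m - 2 * b * ℓ) / (m ^ 2 - a * ℓ * m + b * ℓ ^ 2) := by
      have e1 : x3 / -(ℓ * x3 + m) - x1 / (ℓ * x1 + m) - x2 / (ℓ * x2 + m)
          = -(x3 * (ℓ * x1 + m) * (ℓ * x2 + m) + x1 * (ℓ * x2 + m) * (ℓ * x3 + m)
            + x2 * (ℓ * x1 + m) * (ℓ * x3 + m))
            / ((ℓ * x1 + m) * (ℓ * x2 + m) * (ℓ * x3 + m)) :=
        h3_div_aux hy1n hy2n hy3n
      rw [e1, hNum, hDen]
      field_simp
      ring
    have key2 : (1 / m) * (a + 2 * b * (-ℓ * (1 / m)))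
        * (1 / (1 + a * (-ℓ * (1 / m)) + b * (-ℓ * (1 / m)) ^ 2))
        = (a * m - 2 * b * ℓ) / (m ^ 2 - a * ℓ * m + b * ℓ ^ 2) := by
      field_simp
      ring
    rw [key2, ← key]
    ring
  · -- the `s`-coordinate
    rw [hlamν, hY3]
    have hy3n : ℓ * x3 + m ≠ 0 := by
      intro h0; apply hy3; rw [hY3, h0, neg_zero]
    field_simp
    linear_combination hνm

/-- the `(t,s)` curve equation from the Weierstrass equation -/
theorem h3_curve_of_eq {a b x y : L} (hy : y ≠ 0) (E : y ^ 2 = x ^ 3 + a * x ^ 2 + b * x) :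
    h4Curve a b (x / y) (1 / y) := by
  unfold h4Curve
  field_simp
  linear_combination E

/-- chord case: `lam = -ℓ/m` -/
theorem h3_lam_chord {a b x1 y1 x2 y2 ℓ D' lam : L} (hy1 : y1 ≠ 0) (hy2 : y2 ≠ 0)
    (E1 : y1 ^ 2 = x1 ^ 3 + a * x1 ^ 2 + b * x1) (E2 : y2 ^ 2 = x2 ^ 3 + a * x2 ^ 2 + b * x2)
    (hx : x1 ≠ x2) (hℓ : ℓ = (y1 - y2) / (x1 - x2))
    (hD : (1 - (a * (x1 / y1) ^ 2 + b * ((x1 / y1) * (1 / y1 + 1 / y2)))) * D' = 1)
    (hl : lam = ((x2 / y2) ^ 2 + (x1 / y1) * (x2 / y2) + (x1 / y1) ^ 2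
      + a * (((x1 / y1) + (x2 / y2)) * (1 / y2)) + b * (1 / y2) ^ 2) * D') :
    lam * (y1 - ℓ * x1) = -ℓ := by
  have C1 := h3_curve_of_eq hy1 E1
  have C2 := h3_curve_of_eq hy2 E2
  unfold h4Curve at C1 C2
  have hx' : x1 - x2 ≠ 0 := sub_ne_zero.mpr hx
  have hline : y1 - y2 = ℓ * (x1 - x2) := by rw [hℓ]; field_simp
  obtain ⟨t1, ht1⟩ : ∃ t, t = x1 / y1 := ⟨_, rfl⟩
  obtain ⟨t2, ht2⟩ : ∃ t, t = x2 / y2 := ⟨_, rfl⟩
  obtain ⟨s1, hs1⟩ : ∃ s, s = 1 / y1 := ⟨_, rfl⟩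
  obtain ⟨s2, hs2⟩ : ∃ s, s = 1 / y2 := ⟨_, rfl⟩
  rw [← ht1, ← hs1, ← hs2] at hD
  rw [← ht1, ← ht2, ← hs2] at hl
  rw [← ht1, ← hs1] at C1
  rw [← ht2, ← hs2] at C2
  obtain ⟨m, hm⟩ : ∃ m, m = y1 - ℓ * x1 := ⟨_, rfl⟩
  rw [← hm]
  have hY1 : y1 = ℓ * x1 + m := by rw [hm]; ring
  have hY2 : y2 = ℓ * x2 + m := by rw [hm]; linear_combination (-1 : L) * hline
  have key : (s2 - s1) * (1 - (a * t1 ^ 2 + b * (t1 * (s1 + s2))))
      = (t2 - t1) * (t2 ^ 2 + t1 * t2 + t1 ^ 2 + a * ((t1 + t2) * s2) + b * s2 ^ 2) := by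
    linear_combination C2 - C1
  have hs : s2 - s1 = ℓ * (x1 - x2) * (s1 * s2) := by
    rw [hs1, hs2]; field_simp; linear_combination hline
  have ht : t2 - t1 = -(m * (x1 - x2)) * (s1 * s2) := by
    rw [ht1, ht2, hs1, hs2]; field_simp; rw [hY1, hY2]; ring
  have hss : s1 * s2 ≠ 0 := by
    rw [hs1, hs2]; exact mul_ne_zero (one_div_ne_zero hy1) (one_div_ne_zero hy2)
  rw [hs, ht] at key
  have key2 : ℓ * (1 - (a * t1 ^ 2 + b * (t1 * (s1 + s2))))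
      = -m * (t2 ^ 2 + t1 * t2 + t1 ^ 2 + a * ((t1 + t2) * s2) + b * s2 ^ 2) := by
    have : ((x1 - x2) * (s1 * s2)) * (ℓ * (1 - (a * t1 ^ 2 + b * (t1 * (s1 + s2)))))
        = ((x1 - x2) * (s1 * s2)) * (-m * (t2 ^ 2 + t1 * t2 + t1 ^ 2 + a * ((t1 + t2) * s2)
          + b * s2 ^ 2)) := by linear_combination key
    exact mul_left_cancel₀ (mul_ne_zero hx' hss) this
  rw [hl]
  calc (t2 ^ 2 + t1 * t2 + t1 ^ 2 + a * ((t1 + t2) * s2) + b * s2 ^ 2) * D' * m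
      = -(-m * (t2 ^ 2 + t1 * t2 + t1 ^ 2 + a * ((t1 + t2) * s2) + b * s2 ^ 2)) * D' := by ring
    _ = -(ℓ * ((1 - (a * t1 ^ 2 + b * (t1 * (s1 + s2)))) * D')) := by rw [← key2]; ring
    _ = -ℓ := by rw [hD, mul_one]

/-- tangent case: `lam = -ℓ/m` -/
theorem h3_lam_tangent {a b x y ℓ D' lam : L} (hy : y ≠ 0) (h2 : (2 : L) ≠ 0)
    (E1 : y ^ 2 = x ^ 3 + a * x ^ 2 + b * x)
    (hℓ : ℓ = (3 * x ^ 2 + 2 * a * x + b) / (2 * y))
    (hD : (1 - (a * (x / y) ^ 2 + b * ((x / y) * (1 / y + 1 / y)))) * D' = 1)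
    (hl : lam = ((x / y) ^ 2 + (x / y) * (x / y) + (x / y) ^ 2
      + a * (((x / y) + (x / y)) * (1 / y)) + b * (1 / y) ^ 2) * D') :
    lam * (y - ℓ * x) = -ℓ := by
  have key : ((x / y) ^ 2 + (x / y) * (x / y) + (x / y) ^ 2
      + a * (((x / y) + (x / y)) * (1 / y)) + b * (1 / y) ^ 2) * (y - ℓ * x)
      = -ℓ * (1 - (a * (x / y) ^ 2 + b * ((x / y) * (1 / y + 1 / y)))) := by
    rw [hℓ]
    field_simp
    linear_combination (3 * (3 * x ^ 2 + 2 * a * x + b)) * E1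
  rw [hl]
  calc _ = (((x / y) ^ 2 + (x / y) * (x / y) + (x / y) ^ 2
      + a * (((x / y) + (x / y)) * (1 / y)) + b * (1 / y) ^ 2) * (y - ℓ * x)) * D' := by ring
    _ = -ℓ * ((1 - (a * (x / y) ^ 2 + b * ((x / y) * (1 / y + 1 / y)))) * D') := by
        rw [key]; ring
    _ = -ℓ := by rw [hD, mul_one]

end field

section points

variable {L : Type*} [Field L] {Γ₀ : Type*} [LinearOrderedCommGroupWithZero Γ₀]
  (v : Valuation L Γ₀)

/-- The `s`-coordinate `1 / y` of a point (`0` at the origin). -/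
def h3_S (W : WeierstrassCurve L) : W.toAffine.Point → L
  | .zero => 0
  | .some _ y _ => 1 / y

@[simp] theorem h3_S_zero (W : WeierstrassCurve L) : h3_S W (0 : W.toAffine.Point) = 0 := rfl

@[simp] theorem h3_S_some (W : WeierstrassCurve L) {x y : L} (h : W.toAffine.Nonsingular x y) :
    h3_S W (Affine.Point.some x y h) = 1 / y := rfl

/-- The model `Y² = X³ + aX² + bX`. -/
abbrev h3_Wab (a b : L) : WeierstrassCurve L := ⟨0, a, 0, b, 0⟩

theorem h3_Wab_eq {a b x y : L} (h : (h3_Wab a b).toAffine.Equation x y) :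
    y ^ 2 = x ^ 3 + a * x ^ 2 + b * x := by
  have := (Affine.equation_iff (W := (h3_Wab a b).toAffine) x y).mp h
  simp only [h3_Wab] at this
  linear_combination this

theorem h3_one_sub_ne_zero {u : L} (hu : v u < 1) : 1 - u ≠ 0 := by
  intro h
  have : u = 1 := by linear_combination -h
  rw [this, map_one] at hu
  exact lt_irrefl _ hu

theorem h3_one_add_ne_zero {u : L} (hu : v u < 1) : 1 + u ≠ 0 := by
  intro h
  have : u = -1 := by linear_combination h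
  rw [this, Valuation.map_neg, map_one] at hu
  exact lt_irrefl _ hu

theorem h3_lt_mul_of_le_of_lt {x y : L} (hx : v x ≤ 1) (hy : v y < 1) : v (x * y) < 1 := by
  rw [map_mul]
  calc v x * v y ≤ 1 * v y := mul_le_mul_left hx _
    _ = v y := one_mul _
    _ < 1 := hy

theorem h3_lt_mul_of_lt_of_le {x y : L} (hx : v x < 1) (hy : v y ≤ 1) : v (x * y) < 1 := by
  rw [mul_comm]; exact h3_lt_mul_of_le_of_lt v hy hx

theorem h3_lt_add {x y : L} (hx : v x < 1) (hy : v y < 1) : v (x + y) < 1 :=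
  lt_of_le_of_lt (v.map_add _ _) (max_lt hx hy)

theorem h3_lt_pow {x : L} (hx : v x < 1) {n : ℕ} (hn : n ≠ 0) : v (x ^ n) < 1 := by
  rw [map_pow]; exact pow_lt_one₀ zero_le hx hn

variable {a b : L}

theorem h3_ker_y_ne_zero (ha : v a ≤ 1) (hb : v b ≤ 1) {x y : L}
    (h : (h3_Wab a b).toAffine.Nonsingular x y) (hx : 1 < v x) : y ≠ 0 ∧ v (1 / y) < 1 := by
  have hE := h9k_equation (h3_Wab a b) h.1
  have hY : 1 < v y := h9k_one_lt_vY v (by simp) (by simpa using ha) (by simp) (by simpa using hb)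
    (by simp) hE hx
  have hy0 : y ≠ 0 := by
    intro h0; rw [h0, map_zero] at hY; exact absurd hY (not_lt.mpr zero_le)
  refine ⟨hy0, ?_⟩
  rw [map_div₀, map_one]
  exact (div_lt_one₀ (lt_trans zero_lt_one hY)).mpr hY

theorem h3_vS_lt_one (ha : v a ≤ 1) (hb : v b ≤ 1) (P : (h3_Wab a b).toAffine.Point)
    (hP : h9k_Ker v (h3_Wab a b) P) : v (h3_S (h3_Wab a b) P) < 1 := by
  rcases P with _ | ⟨x, y, h⟩
  · show v (0 : L) < 1
    rw [map_zero]; exact zero_lt_one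
  · exact (h3_ker_y_ne_zero v ha hb h hP).2

theorem h3_vT_lt_one (ha : v a ≤ 1) (hb : v b ≤ 1) (P : (h3_Wab a b).toAffine.Point)
    (hP : h9k_Ker v (h3_Wab a b) P) : v (h9k_T (h3_Wab a b) P) < 1 :=
  h9k_vT_lt_one v (h3_Wab a b) (by simp) (by simpa using ha) (by simp) (by simpa using hb)
    (by simp) P hP

/-- kernel points satisfy the `(t,s)` curve equation -/
theorem h3_curve_ts (ha : v a ≤ 1) (hb : v b ≤ 1) (P : (h3_Wab a b).toAffine.Point)
    (hP : h9k_Ker v (h3_Wab a b) P) :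
    h4Curve a b (h9k_T (h3_Wab a b) P) (h3_S (h3_Wab a b) P) := by
  rcases P with _ | ⟨x, y, h⟩
  · show h4Curve a b 0 0
    unfold h4Curve; ring
  · exact h3_curve_of_eq (h3_ker_y_ne_zero v ha hb h hP).1 (h3_Wab_eq h.1)

variable [DecidableEq L]

/-- **(E-i)** On the kernel of reduction of `Y² = X³ + aX² + bX`, Mathlib's group law is the
`(t,s)`-addition relation `h4AddRel`. -/
theorem h3_addRel (ha : v a ≤ 1) (hb : v b ≤ 1) (P1 P2 : (h3_Wab a b).toAffine.Point)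
    (hP1 : h9k_Ker v (h3_Wab a b) P1) (hP2 : h9k_Ker v (h3_Wab a b) P2) :
    h4AddRel a b (h9k_T (h3_Wab a b) P1) (h3_S (h3_Wab a b) P1)
      (h9k_T (h3_Wab a b) P2) (h3_S (h3_Wab a b) P2)
      (h9k_T (h3_Wab a b) (P1 + P2)) (h3_S (h3_Wab a b) (P1 + P2)) := by
  -- generic data
  have C1 := h3_curve_ts v ha hb P1 hP1
  have C2 := h3_curve_ts v ha hb P2 hP2
  have ht1 := h3_vT_lt_one v ha hb P1 hP1
  have ht2 := h3_vT_lt_one v ha hb P2 hP2
  have hs1 := h3_vS_lt_one v ha hb P1 hP1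
  have hs2 := h3_vS_lt_one v ha hb P2 hP2
  have hP3 : h9k_Ker v (h3_Wab a b) (P1 + P2) :=
    h9k_ker_add v (h3_Wab a b) (by simp) (by simpa using ha) (by simp) (by simpa using hb)
      (by simp) P1 P2 hP1 hP2
  obtain ⟨t1, ht1def⟩ : ∃ t, t = h9k_T (h3_Wab a b) P1 := ⟨_, rfl⟩
  obtain ⟨s1, hs1def⟩ : ∃ s, s = h3_S (h3_Wab a b) P1 := ⟨_, rfl⟩
  obtain ⟨t2, ht2def⟩ : ∃ t, t = h9k_T (h3_Wab a b) P2 := ⟨_, rfl⟩
  obtain ⟨s2, hs2def⟩ : ∃ s, s = h3_S (h3_Wab a b) P2 := ⟨_, rfl⟩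
  rw [← ht1def, ← hs1def] at C1
  rw [← ht2def, ← hs2def] at C2
  rw [← ht1def] at ht1
  rw [← ht2def] at ht2
  rw [← hs1def] at hs1
  rw [← hs2def] at hs2
  rw [← ht1def, ← hs1def, ← ht2def, ← hs2def]
  have hu : v (a * t1 ^ 2 + b * (t1 * (s1 + s2))) < 1 :=
    h3_lt_add v (h3_lt_mul_of_le_of_lt v ha (h3_lt_pow v ht1 (by norm_num)))
      (h3_lt_mul_of_le_of_lt v hb (h3_lt_mul_of_lt_of_le v ht1 (le_of_lt (h3_lt_add v hs1 hs2))))
  have hD0 : 1 - (a * t1 ^ 2 + b * (t1 * (s1 + s2))) ≠ 0 := h3_one_sub_ne_zero v hu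
  have hvD : v (1 - (a * t1 ^ 2 + b * (t1 * (s1 + s2)))) = 1 := by
    rw [sub_eq_add_neg]
    exact Valuation.map_one_add_of_lt v (by rwa [Valuation.map_neg])
  obtain ⟨D', hD'⟩ : ∃ D', D' = (1 - (a * t1 ^ 2 + b * (t1 * (s1 + s2))))⁻¹ := ⟨_, rfl⟩
  have hDD' : (1 - (a * t1 ^ 2 + b * (t1 * (s1 + s2)))) * D' = 1 := by
    rw [hD']; exact mul_inv_cancel₀ hD0
  have hvD' : v D' = 1 := by
    have := congrArg v hDD'
    rw [map_mul, hvD, one_mul, map_one] at this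
    exact this
  obtain ⟨lam, hlam⟩ : ∃ lam, lam
      = (t2 ^ 2 + t1 * t2 + t1 ^ 2 + a * ((t1 + t2) * s2) + b * s2 ^ 2) * D' := ⟨_, rfl⟩
  have hvN : v (t2 ^ 2 + t1 * t2 + t1 ^ 2 + a * ((t1 + t2) * s2) + b * s2 ^ 2) < 1 :=
    h3_lt_add v (h3_lt_add v (h3_lt_add v (h3_lt_add v (h3_lt_pow v ht2 (by norm_num))
      (h3_lt_mul_of_lt_of_le v ht1 (le_of_lt ht2))) (h3_lt_pow v ht1 (by norm_num)))
      (h3_lt_mul_of_le_of_lt v ha (h3_lt_mul_of_lt_of_le v (h3_lt_add v ht1 ht2) (le_of_lt hs2))))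
      (h3_lt_mul_of_le_of_lt v hb (h3_lt_pow v hs2 (by norm_num)))
  have hvlam : v lam < 1 := by
    rw [hlam, map_mul, hvD', mul_one]; exact hvN
  have hE0 : 1 + a * lam + b * lam ^ 2 ≠ 0 := by
    rw [add_assoc]
    exact h3_one_add_ne_zero v (h3_lt_add v (h3_lt_mul_of_le_of_lt v ha hvlam)
      (h3_lt_mul_of_le_of_lt v hb (h3_lt_pow v hvlam (by norm_num))))
  obtain ⟨E', hE'⟩ : ∃ E', E' = (1 + a * lam + b * lam ^ 2)⁻¹ := ⟨_, rfl⟩
  have hEE' : (1 + a * lam + b * lam ^ 2) * E' = 1 := by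
    rw [hE']; exact mul_inv_cancel₀ hE0
  refine ⟨D', lam, E', hDD', hlam, hEE', ?_⟩
  -- it remains to compute the sum
  unfold h4Curve at C1 C2
  rcases P1 with _ | ⟨x1, y1, h1⟩
  · -- `P1 = 0`
    have e : (Affine.Point.zero : (h3_Wab a b).toAffine.Point) + P2 = P2 := zero_add P2
    rw [e, ← ht2def, ← hs2def]
    have ht10 : t1 = 0 := ht1def
    have hs10 : s1 = 0 := hs1def
    subst ht10
    subst hs10
    have hD1 : D' = 1 := by
      have : (1 - (a * (0 : L) ^ 2 + b * (0 * (0 + s2)))) = 1 := by ring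
      rw [this, one_mul] at hDD'
      exact hDD'
    refine ⟨by ring, ?_⟩
    rw [hlam, hD1]
    linear_combination C2
  rcases P2 with _ | ⟨x2, y2, h2⟩
  · -- `P2 = 0`
    have e : Affine.Point.some x1 y1 h1 + (Affine.Point.zero : (h3_Wab a b).toAffine.Point)
        = Affine.Point.some x1 y1 h1 := add_zero _
    rw [e, ← ht1def, ← hs1def]
    have ht20 : t2 = 0 := ht2def
    have hs20 : s2 = 0 := hs2def
    subst ht20
    subst hs20
    have hν : s1 - lam * t1 = 0 := by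
      have h' : (s1 - lam * t1) * (1 - (a * t1 ^ 2 + b * (t1 * (s1 + 0)))) = 0 := by
        have hl' : lam * (1 - (a * t1 ^ 2 + b * (t1 * (s1 + 0)))) = t1 ^ 2 := by
          rw [hlam]
          calc _ = ((0 : L) ^ 2 + t1 * 0 + t1 ^ 2 + a * ((t1 + 0) * 0) + b * 0 ^ 2)
                * ((1 - (a * t1 ^ 2 + b * (t1 * (s1 + 0)))) * D') := by ring
            _ = t1 ^ 2 := by rw [hDD']; ring
        linear_combination C1 - t1 * hl'
      rcases mul_eq_zero.mp h' with h'' | h''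
      · exact h''
      · exact absurd h'' hD0
    refine ⟨?_, ?_⟩
    · rw [hν]; ring
    · rw [hν]; linear_combination hν
  -- both affine
  have hk1 : 1 < v x1 := hP1
  have hk2 : 1 < v x2 := hP2
  obtain ⟨hy1, -⟩ := h3_ker_y_ne_zero v ha hb h1 hk1
  obtain ⟨hy2, -⟩ := h3_ker_y_ne_zero v ha hb h2 hk2
  have E1 := h3_Wab_eq h1.1
  have E2 := h3_Wab_eq h2.1
  have ht1' : t1 = x1 / y1 := ht1def
  have hs1' : s1 = 1 / y1 := hs1def
  have ht2' : t2 = x2 / y2 := ht2def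
  have hs2' : s2 = 1 / y2 := hs2def
  have hnegY : ∀ x y : L, (h3_Wab a b).toAffine.negY x y = -y := by
    intro x y; simp [Affine.negY]
  by_cases hxy : x1 = x2 ∧ y1 = (h3_Wab a b).toAffine.negY x2 y2
  · -- opposite points
    obtain ⟨hx, hy⟩ := hxy
    rw [Affine.Point.add_of_Y_eq hx hy]
    rw [hnegY] at hy
    have ht21 : t2 = -t1 := by
      rw [ht1', ht2', hx, hy]; field_simp
    have hs21 : s2 = -s1 := by
      rw [hs1', hs2', hy]; field_simp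
    have hν : s1 - lam * t1 = 0 := by
      have h' : (s1 - lam * t1) * (1 - (a * t1 ^ 2 + b * (t1 * (s1 + s2)))) = 0 := by
        have hl' : lam * (1 - (a * t1 ^ 2 + b * (t1 * (s1 + s2))))
            = t2 ^ 2 + t1 * t2 + t1 ^ 2 + a * ((t1 + t2) * s2) + b * s2 ^ 2 := by
          rw [hlam]
          calc _ = (t2 ^ 2 + t1 * t2 + t1 ^ 2 + a * ((t1 + t2) * s2) + b * s2 ^ 2)
                * ((1 - (a * t1 ^ 2 + b * (t1 * (s1 + s2)))) * D') := by ring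
            _ = _ := by rw [hDD', mul_one]
        rw [ht21, hs21] at hl'
        rw [hs21]
        linear_combination C1 - t1 * hl'
      rcases mul_eq_zero.mp h' with h'' | h''
      · exact h''
      · exact absurd h'' hD0
    show (0 : L) = _ ∧ (0 : L) = _
    refine ⟨?_, ?_⟩
    · rw [hν, ht21]; ring
    · have hT0 : h9k_T (h3_Wab a b) (0 : (h3_Wab a b).toAffine.Point) = 0 := rfl
      rw [hν, hT0]; ring
  · -- generic case
    rw [Affine.Point.add_some hxy]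
    rw [Affine.Point.add_some hxy] at hP3
    have hk3 : 1 < v ((h3_Wab a b).toAffine.addX x1 x2 ((h3_Wab a b).toAffine.slope x1 x2 y1 y2)) :=
      hP3
    have h3ns := Affine.nonsingular_add h1 h2 hxy
    obtain ⟨hy3ne, -⟩ := h3_ker_y_ne_zero v ha hb h3ns hk3
    show (h3_Wab a b).toAffine.addX x1 x2 ((h3_Wab a b).toAffine.slope x1 x2 y1 y2)
        / (h3_Wab a b).toAffine.addY x1 x2 y1 ((h3_Wab a b).toAffine.slope x1 x2 y1 y2)
        = t1 + t2 + (s1 - lam * t1) * (a + 2 * b * lam) * E'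
      ∧ 1 / (h3_Wab a b).toAffine.addY x1 x2 y1 ((h3_Wab a b).toAffine.slope x1 x2 y1 y2)
        = lam * ((h3_Wab a b).toAffine.addX x1 x2 ((h3_Wab a b).toAffine.slope x1 x2 y1 y2)
          / (h3_Wab a b).toAffine.addY x1 x2 y1 ((h3_Wab a b).toAffine.slope x1 x2 y1 y2))
          - (s1 - lam * t1)
    clear h3ns hk3 hP3
    obtain ⟨ℓ, hℓ⟩ : ∃ ℓ, ℓ = (h3_Wab a b).toAffine.slope x1 x2 y1 y2 := ⟨_, rfl⟩
    rw [← hℓ] at hy3ne ⊢
    have hx3 : (h3_Wab a b).toAffine.addX x1 x2 ℓ = ℓ ^ 2 - a - x1 - x2 := by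
      simp [Affine.addX]
    have hy3 : (h3_Wab a b).toAffine.addY x1 x2 y1 ℓ
        = -(ℓ * ((h3_Wab a b).toAffine.addX x1 x2 ℓ - x1) + y1) := by
      simp [Affine.addY, Affine.negAddY, Affine.negY]
    obtain ⟨x3, hx3def⟩ : ∃ x3, x3 = (h3_Wab a b).toAffine.addX x1 x2 ℓ := ⟨_, rfl⟩
    obtain ⟨y3, hy3def⟩ : ∃ y3, y3 = (h3_Wab a b).toAffine.addY x1 x2 y1 ℓ := ⟨_, rfl⟩
    rw [← hx3def] at hx3 hy3
    rw [← hy3def] at hy3 hy3ne
    rw [← hx3def, ← hy3def]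
    subst ht1' hs1' ht2' hs2'
    by_cases hx : x1 = x2
    · -- tangent
      have hy : y1 ≠ (h3_Wab a b).toAffine.negY x2 y2 := fun h => hxy ⟨hx, h⟩
      have hyy : y1 = y2 := Affine.Y_eq_of_Y_ne h1.1 h2.1 hx hy
      subst hx
      subst hyy
      rw [hnegY] at hy
      have h2y : (2 : L) * y1 ≠ 0 := by
        intro h0; apply hy; linear_combination h0
      have h2 : (2 : L) ≠ 0 := fun h0 => h2y (by rw [h0, zero_mul])
      have hslope : ℓ = (3 * x1 ^ 2 + 2 * a * x1 + b) / (2 * y1) := by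
        rw [hℓ, Affine.slope_of_Y_ne rfl (by rw [hnegY]; exact hy), hnegY]
        simp only [h3_Wab]
        congr 1 <;> ring
      have hl := h3_lam_tangent hy1 h2 E1 hslope hDD' hlam
      have R1 : x1 ^ 2 + x1 * x1 + x1 ^ 2 + a * (x1 + x1) + b
          = ℓ ^ 2 * (x1 + x1) + 2 * ℓ * (y1 - ℓ * x1) := by
        rw [hslope]; field_simp; ring
      exact h3_ts_sum_aux hy1 hy1 hy3ne E1 (by ring) R1 hx3 hy3 hl hEE'
    · -- chord
      have hslope : ℓ = (y1 - y2) / (x1 - x2) := by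
        rw [hℓ, Affine.slope_of_X_ne hx]
      have hx' : x1 - x2 ≠ 0 := sub_ne_zero.mpr hx
      have hl := h3_lam_chord hy1 hy2 E1 E2 hx hslope hDD' hlam
      have hline : y2 - y1 = ℓ * (x2 - x1) := by
        rw [hslope]; field_simp; ring
      have R1 : x1 ^ 2 + x1 * x2 + x2 ^ 2 + a * (x1 + x2) + b
          = ℓ ^ 2 * (x1 + x2) + 2 * ℓ * (y1 - ℓ * x1) := by
        have h' : (x1 - x2) * (x1 ^ 2 + x1 * x2 + x2 ^ 2 + a * (x1 + x2) + b)
            = (x1 - x2) * (ℓ ^ 2 * (x1 + x2) + 2 * ℓ * (y1 - ℓ * x1)) := by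
          have hy21 : y2 = y1 + ℓ * (x2 - x1) := by linear_combination hline
          rw [hy21] at E2
          linear_combination E2 - E1
        exact mul_left_cancel₀ hx' h'
      exact h3_ts_sum_aux hy1 hy2 hy3ne E1 hline R1 hx3 hy3 hl hEE'

end points

end Fermat.Agent.Lib.S13
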