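/-
S13 project, stream (E) (helper4): polynomial functions `ℕ → R` of bounded degree, defined through
iterated forward differences, and the divisibility `p ∣ f p` for `f` of degree `< p` with `f 0 = 0`.
-/
import Mathlib

set_option autoImplicit false

namespace Fermat.Agent.Lib.S13

open Finset

variable {R : Type*} [CommRing R]

/-- `f : ℕ → R` is a polynomial function of degree `≤ m`: its `(m+1)`-st forward difference is `0`. -/
def h4Poly (m : ℕ) (f : ℕ → R) : Prop := (fwdDiff (1 : ℕ))^[m + 1] f = 0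

theorem h4_fwdDiff_zero : fwdDiff (1 : ℕ) (0 : ℕ → R) = 0 := by
  funext n; simp [fwdDiff]

theorem h4_fwdDiff_iter_zero (j : ℕ) : (fwdDiff (1 : ℕ))^[j] (0 : ℕ → R) = 0 := by
  induction j with
  | zero => rfl
  | succ j ih => rw [Function.iterate_succ_apply', ih, h4_fwdDiff_zero]

theorem h4Poly_zero (m : ℕ) : h4Poly m (0 : ℕ → R) := h4_fwdDiff_iter_zero _

theorem h4Poly_succ {m : ℕ} {f : ℕ → R} (h : h4Poly m f) : h4Poly (m + 1) f := by
  unfold h4Poly at *
  rw [Function.iterate_succ_apply', h, h4_fwdDiff_zero]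

theorem h4Poly_mono {m m' : ℕ} (hmm : m ≤ m') {f : ℕ → R} (h : h4Poly m f) : h4Poly m' f := by
  induction hmm with
  | refl => exact h
  | step _ ih => exact h4Poly_succ ih

theorem h4Poly_const (m : ℕ) (c : R) : h4Poly m (fun _ => c : ℕ → R) := by
  apply h4Poly_mono (Nat.zero_le m)
  unfold h4Poly
  funext n
  simp [fwdDiff]

theorem h4_fwdDiff_iter_add (j : ℕ) (f g : ℕ → R) :
    (fwdDiff (1 : ℕ))^[j] (f + g) = (fwdDiff (1 : ℕ))^[j] f + (fwdDiff (1 : ℕ))^[j] g :=
  fwdDiff_iter_add 1 f g j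

theorem h4Poly_add {m : ℕ} {f g : ℕ → R} (hf : h4Poly m f) (hg : h4Poly m g) :
    h4Poly m (f + g) := by
  unfold h4Poly at *
  rw [h4_fwdDiff_iter_add, hf, hg, add_zero]

theorem h4_fwdDiff_iter_const_mul (j : ℕ) (c : R) (f : ℕ → R) :
    (fwdDiff (1 : ℕ))^[j] (fun n => c * f n) = fun n => c * (fwdDiff (1 : ℕ))^[j] f n := by
  induction j generalizing f with
  | zero => rfl
  | succ j ih =>
    rw [Function.iterate_succ_apply, Function.iterate_succ_apply]
    have : fwdDiff (1 : ℕ) (fun n => c * f n) = fun n => c * fwdDiff (1 : ℕ) f n := by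
      funext n; simp [fwdDiff, mul_sub]
    rw [this, ih]

theorem h4Poly_const_mul {m : ℕ} (c : R) {f : ℕ → R} (hf : h4Poly m f) :
    h4Poly m (fun n => c * f n) := by
  unfold h4Poly at *
  rw [h4_fwdDiff_iter_const_mul, hf]
  funext n; simp

theorem h4Poly_neg {m : ℕ} {f : ℕ → R} (hf : h4Poly m f) : h4Poly m (fun n => - f n) := by
  have := h4Poly_const_mul (-1 : R) hf
  simpa using this

theorem h4Poly_sub {m : ℕ} {f g : ℕ → R} (hf : h4Poly m f) (hg : h4Poly m g) :
    h4Poly m (fun n => f n - g n) := by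
  have := h4Poly_add hf (h4Poly_neg hg)
  have e : (fun n => f n - g n) = f + fun n => - g n := by funext n; simp [sub_eq_add_neg]
  rw [e]; exact this

theorem h4Poly_sum {ι : Type*} (s : Finset ι) {m : ℕ} {f : ι → ℕ → R}
    (hf : ∀ i ∈ s, h4Poly m (f i)) : h4Poly m (fun n => ∑ i ∈ s, f i n) := by
  classical
  induction s using Finset.induction_on with
  | empty =>
    have e : (fun n => ∑ i ∈ (∅ : Finset ι), f i n) = (0 : ℕ → R) := by funext n; simp
    rw [e]; exact h4Poly_zero m
  | insert a s ha ih =>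
    have e : (fun n => ∑ i ∈ insert a s, f i n) = f a + fun n => ∑ i ∈ s, f i n := by
      funext n; simp [Finset.sum_insert ha]
    rw [e]
    exact h4Poly_add (hf a (Finset.mem_insert_self a s))
      (ih fun i hi => hf i (Finset.mem_insert_of_mem hi))

theorem h4_fwdDiff_iter_shift (j : ℕ) (f : ℕ → R) :
    (fwdDiff (1 : ℕ))^[j] (fun n => f (n + 1)) = fun n => (fwdDiff (1 : ℕ))^[j] f (n + 1) := by
  funext n
  exact fwdDiff_iter_comp_add 1 f 1 j n

theorem h4Poly_shift {m : ℕ} {f : ℕ → R} (hf : h4Poly m f) : h4Poly m (fun n => f (n + 1)) := by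
  unfold h4Poly at *
  rw [h4_fwdDiff_iter_shift, hf]
  rfl

theorem h4Poly_of_fwdDiff {m : ℕ} {f : ℕ → R} (h : h4Poly m (fwdDiff (1 : ℕ) f)) :
    h4Poly (m + 1) f := by
  unfold h4Poly at *
  rw [Function.iterate_succ_apply]
  exact h

theorem h4Poly_fwdDiff {m : ℕ} {f : ℕ → R} (h : h4Poly (m + 1) f) :
    h4Poly m (fwdDiff (1 : ℕ) f) := by
  unfold h4Poly at *
  rw [Function.iterate_succ_apply] at h
  exact h

/-- degree `0` means constant -/
theorem h4Poly_zero_iff {f : ℕ → R} : h4Poly 0 f ↔ ∀ n, f n = f 0 := by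
  unfold h4Poly
  constructor
  · intro h n
    induction n with
    | zero => rfl
    | succ n ih =>
      have := congrFun h n
      simp only [Function.iterate_succ, Function.iterate_zero, Function.comp_apply, id_eq,
        fwdDiff, Pi.zero_apply] at this
      rw [← ih]
      exact sub_eq_zero.mp this
  · intro h
    funext n
    simp only [Function.iterate_succ, Function.iterate_zero, Function.comp_apply, id_eq,
      fwdDiff, Pi.zero_apply]
    rw [h (n + 1), h n, sub_self]

theorem h4_fwdDiff_mul (f g : ℕ → R) :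
    fwdDiff (1 : ℕ) (f * g) = fwdDiff (1 : ℕ) f * (fun n => g (n + 1)) + f * fwdDiff (1 : ℕ) g := by
  funext n
  simp only [fwdDiff, Pi.mul_apply, Pi.add_apply]
  ring

/-- product of polynomial functions -/
theorem h4Poly_mul : ∀ (N m m' : ℕ), m + m' = N → ∀ {f g : ℕ → R}, h4Poly m f → h4Poly m' g →
    h4Poly (m + m') (f * g) := by
  intro N
  induction N with
  | zero =>
    intro m m' hN f g hf hg
    have hm : m = 0 := by omega
    have hm' : m' = 0 := by omega
    subst hm; subst hm'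
    rw [h4Poly_zero_iff] at *
    intro n
    simp only [Pi.mul_apply]
    rw [hf n, hg n]
  | succ N ih =>
    intro m m' hN f g hf hg
    rw [hN]
    apply h4Poly_of_fwdDiff
    rw [h4_fwdDiff_mul]
    apply h4Poly_add
    · -- Δf * shift g
      rcases Nat.eq_zero_or_pos m with hm | hm
      · subst hm
        have : fwdDiff (1 : ℕ) f = 0 := hf
        rw [this, zero_mul]
        exact h4Poly_zero _
      · obtain ⟨m₁, rfl⟩ : ∃ m₁, m = m₁ + 1 := ⟨m - 1, by omega⟩
        have h1 := ih m₁ m' (by omega) (h4Poly_fwdDiff hf) (h4Poly_shift hg)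
        have : m₁ + m' = N := by omega
        rw [this] at h1
        exact h1
    · rcases Nat.eq_zero_or_pos m' with hm | hm
      · subst hm
        have : fwdDiff (1 : ℕ) g = 0 := hg
        rw [this, mul_zero]
        exact h4Poly_zero _
      · obtain ⟨m₁, rfl⟩ : ∃ m₁, m' = m₁ + 1 := ⟨m' - 1, by omega⟩
        have h1 := ih m m₁ (by omega) hf (h4Poly_fwdDiff hg)
        have : m + m₁ = N := by omega
        rw [this] at h1
        exact h1

theorem h4Poly_mul' {m m' k : ℕ} (hk : m + m' ≤ k) {f g : ℕ → R} (hf : h4Poly m f)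
    (hg : h4Poly m' g) : h4Poly k (fun n => f n * g n) :=
  h4Poly_mono hk (h4Poly_mul (m + m') m m' rfl hf hg)

theorem h4_fwdDiff_iter_eq_zero_of_poly {m j : ℕ} (hj : m < j) {f : ℕ → R} (hf : h4Poly m f) :
    (fwdDiff (1 : ℕ))^[j] f = 0 := by
  obtain ⟨i, rfl⟩ : ∃ i, j = i + (m + 1) := ⟨j - (m + 1), by omega⟩
  rw [Function.iterate_add_apply]
  have : (fwdDiff (1 : ℕ))^[m + 1] f = 0 := hf
  rw [this, h4_fwdDiff_iter_zero]

/-- **Key divisibility**: a polynomial function of degree `k < p` vanishing at `0` takes a value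
divisible by `p` at `p`. -/
theorem h4Poly_eval_prime {p k : ℕ} (hp : p.Prime) (hk : k < p) {f : ℕ → R} (hf : h4Poly k f)
    (h0 : f 0 = 0) : (p : R) ∣ f p := by
  have key := shift_eq_sum_fwdDiff_iter (1 : ℕ) f p 0
  simp only [smul_eq_mul, mul_one, zero_add] at key
  rw [key]
  apply Finset.dvd_sum
  intro j hj
  rcases Nat.eq_zero_or_pos j with hj0 | hj0
  · subst hj0
    simp [h0]
  · by_cases hjk : j ≤ k
    · have hdvd : p ∣ p.choose j := hp.dvd_choose_self hj0.ne' (by omega)
      obtain ⟨c, hc⟩ := hdvd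
      rw [hc]
      refine ⟨c • (fwdDiff (1 : ℕ))^[j] f 0, ?_⟩
      rw [mul_smul, nsmul_eq_mul, nsmul_eq_mul]
    · have := h4_fwdDiff_iter_eq_zero_of_poly (by omega : k < j) hf
      rw [this]
      simp

end Fermat.Agent.Lib.S13
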