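/-
S13 project, stream (E) (helper4): the power series `w(T)` with `w = T³ + a T² w + b T w²`
over an arbitrary commutative ring (the `s = 1/y` coordinate of the generic point with `x/y = T`
on `Y² = X³ + aX² + bX`).
-/
import Mathlib

set_option autoImplicit false

namespace Fermat.Agent.Lib.S13

open PowerSeries

variable {R : Type*} [CommRing R]

/-- the contraction `Φ(f) = X³ + a X² f + b X f²` -/
noncomputable def h4Phi (a b : R) (f : R⟦X⟧) : R⟦X⟧ :=
  X ^ 3 + C a * X ^ 2 * f + C b * X * f ^ 2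

theorem h4Phi_sub (a b : R) (f g : R⟦X⟧) :
    h4Phi a b f - h4Phi a b g = X * ((C a * X + C b * (f + g)) * (f - g)) := by
  unfold h4Phi; ring

/-- iterates of the contraction starting at `0` -/
noncomputable def h4WSeq (a b : R) : ℕ → R⟦X⟧
  | 0 => 0
  | m + 1 => h4Phi a b (h4WSeq a b m)

theorem h4WSeq_succ_sub (a b : R) (m : ℕ) :
    (X : R⟦X⟧) ^ m ∣ h4WSeq a b (m + 1) - h4WSeq a b m := by
  induction m with
  | zero => simp
  | succ m ih =>
    show X ^ (m + 1) ∣ h4Phi a b (h4WSeq a b (m + 1)) - h4Phi a b (h4WSeq a b m)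
    rw [h4Phi_sub, pow_succ']
    exact mul_dvd_mul_left X (Dvd.dvd.mul_left ih _)

theorem h4WSeq_sub (a b : R) (m n : ℕ) (hmn : m ≤ n) :
    (X : R⟦X⟧) ^ m ∣ h4WSeq a b n - h4WSeq a b m := by
  induction hmn with
  | refl => simp
  | step hmn ih =>
    rename_i n
    have h1 := h4WSeq_succ_sub a b n
    have h2 : (X : R⟦X⟧) ^ m ∣ h4WSeq a b (n + 1) - h4WSeq a b n :=
      (pow_dvd_pow X hmn).trans h1
    have : h4WSeq a b (n + 1) - h4WSeq a b m
        = (h4WSeq a b (n + 1) - h4WSeq a b n) + (h4WSeq a b n - h4WSeq a b m) := by ring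
    rw [this]
    exact dvd_add h2 ih

/-- the fixed point `w` -/
noncomputable def h4W (a b : R) : R⟦X⟧ := PowerSeries.mk fun k => coeff k (h4WSeq a b (k + 1))

theorem h4W_sub_seq (a b : R) (m : ℕ) : (X : R⟦X⟧) ^ m ∣ h4W a b - h4WSeq a b m := by
  rw [X_pow_dvd_iff]
  intro k hk
  rw [map_sub, h4W, coeff_mk]
  have := h4WSeq_sub a b (k + 1) m (by omega)
  rw [X_pow_dvd_iff] at this
  have h := this k (by omega)
  rw [map_sub] at h
  rw [sub_eq_zero] at h ⊢
  exact h.symm

/-- `w = X³ + a X² w + b X w²` -/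
theorem h4W_eq (a b : R) : h4W a b = h4Phi a b (h4W a b) := by
  have key : ∀ m : ℕ, (X : R⟦X⟧) ^ m ∣ h4Phi a b (h4W a b) - h4W a b := by
    intro m
    have h1 : (X : R⟦X⟧) ^ m ∣ h4Phi a b (h4W a b) - h4Phi a b (h4WSeq a b m) := by
      rw [h4Phi_sub]
      exact Dvd.dvd.mul_left (Dvd.dvd.mul_left (h4W_sub_seq a b m) _) _
    have h2 : (X : R⟦X⟧) ^ m ∣ h4WSeq a b (m + 1) - h4W a b := by
      have := h4W_sub_seq a b (m + 1)
      have h3 : (X : R⟦X⟧) ^ m ∣ h4W a b - h4WSeq a b (m + 1) :=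
        (pow_dvd_pow X (Nat.le_succ m)).trans this
      have e : h4WSeq a b (m + 1) - h4W a b = -(h4W a b - h4WSeq a b (m + 1)) := by ring
      rw [e]; exact (dvd_neg).mpr h3
    have e : h4Phi a b (h4W a b) - h4W a b
        = (h4Phi a b (h4W a b) - h4Phi a b (h4WSeq a b m)) + (h4WSeq a b (m + 1) - h4W a b) := by
      show _ = _ + (h4Phi a b (h4WSeq a b m) - h4W a b)
      ring
    rw [e]
    exact dvd_add h1 h2
  have : h4Phi a b (h4W a b) - h4W a b = 0 := by
    ext k
    have := key (k + 1)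
    rw [X_pow_dvd_iff] at this
    simpa using this k (Nat.lt_succ_self k)
  exact (sub_eq_zero.mp this).symm

/-- `w = X * w'` with `w' = X² + a X w + b w²` -/
noncomputable def h4W' (a b : R) : R⟦X⟧ := X ^ 2 + C a * X * h4W a b + C b * (h4W a b) ^ 2

theorem h4W_eq_X_mul (a b : R) : h4W a b = X * h4W' a b := by
  conv_lhs => rw [h4W_eq a b]
  unfold h4Phi h4W'
  ring

theorem h4W_constantCoeff (a b : R) : constantCoeff (h4W a b) = 0 := by
  rw [h4W_eq_X_mul]; simp

theorem h4W'_constantCoeff (a b : R) : constantCoeff (h4W' a b) = 0 := by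
  unfold h4W'
  simp [h4W_constantCoeff]

end Fermat.Agent.Lib.S13
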