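/-
S13 project, stream (E) (helper4): the multiplication-by-`n` series `θ_n(T)` (together with the
`s`-coordinate `σ_n(T)`) of the formal group of `Y² = X³ + aX² + bX`, defined by iterating the
`(t,s)`-addition law with the generic point `(T, w(T))` in `R⟦T⟧`.
-/
import Fermat.Agent.Lib.S13.FGRel
import Fermat.Agent.Lib.S13.FGW
import Fermat.Agent.Lib.S13.FGPoly

set_option autoImplicit false

namespace Fermat.Agent.Lib.S13

open PowerSeries

variable {R : Type*} [CommRing R]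

section step

variable (a b : R)

/-- `D = 1 - (a X² + b X (w + σ))` -/
noncomputable def h4D (σ : R⟦X⟧) : R⟦X⟧ :=
  1 - (C a * X ^ 2 + C b * (X * (h4W a b + σ)))

/-- `Nλ = θ² + Xθ + X² + a (X + θ) σ + b σ²` -/
noncomputable def h4N (θ σ : R⟦X⟧) : R⟦X⟧ :=
  θ ^ 2 + X * θ + X ^ 2 + C a * ((X + θ) * σ) + C b * σ ^ 2

noncomputable def h4D' (σ : R⟦X⟧) : R⟦X⟧ := invOfUnit (h4D a b σ) 1

noncomputable def h4Lam (θ σ : R⟦X⟧) : R⟦X⟧ := h4N a b θ σ * h4D' a b σ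

noncomputable def h4E (θ σ : R⟦X⟧) : R⟦X⟧ :=
  1 + C a * h4Lam a b θ σ + C b * h4Lam a b θ σ ^ 2

noncomputable def h4E' (θ σ : R⟦X⟧) : R⟦X⟧ := invOfUnit (h4E a b θ σ) 1

/-- `H = (w' - λ) (a + 2bλ) E'`, so that `ν (a + 2bλ) E' = X H`. -/
noncomputable def h4H (θ σ : R⟦X⟧) : R⟦X⟧ :=
  (h4W' a b - h4Lam a b θ σ) * (C a + 2 * C b * h4Lam a b θ σ) * h4E' a b θ σ

/-- next `t`-coordinate: `θ' = X + θ + X H` -/
noncomputable def h4NextT (θ σ : R⟦X⟧) : R⟦X⟧ := X + θ + X * h4H a b θ σ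

/-- next `s`-coordinate: `σ' = λ θ' - ν`, `ν = w - λ X` -/
noncomputable def h4NextS (θ σ : R⟦X⟧) : R⟦X⟧ :=
  h4Lam a b θ σ * h4NextT a b θ σ - (h4W a b - h4Lam a b θ σ * X)

/-- the sequence `(θ_n, σ_n)` -/
noncomputable def h4Seq : ℕ → R⟦X⟧ × R⟦X⟧
  | 0 => (0, 0)
  | n + 1 => (h4NextT a b (h4Seq n).1 (h4Seq n).2, h4NextS a b (h4Seq n).1 (h4Seq n).2)

noncomputable def h4Theta (n : ℕ) : R⟦X⟧ := (h4Seq a b n).1
noncomputable def h4Sigma (n : ℕ) : R⟦X⟧ := (h4Seq a b n).2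

theorem h4Theta_zero : h4Theta a b 0 = 0 := rfl
theorem h4Sigma_zero : h4Sigma a b 0 = 0 := rfl
theorem h4Theta_succ (n : ℕ) :
    h4Theta a b (n + 1) = h4NextT a b (h4Theta a b n) (h4Sigma a b n) := rfl
theorem h4Sigma_succ (n : ℕ) :
    h4Sigma a b (n + 1) = h4NextS a b (h4Theta a b n) (h4Sigma a b n) := rfl

theorem h4D_constantCoeff (σ : R⟦X⟧) : constantCoeff (h4D a b σ) = 1 := by
  unfold h4D; simp

theorem h4D_mul (σ : R⟦X⟧) : h4D a b σ * h4D' a b σ = 1 :=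
  mul_invOfUnit _ 1 (by rw [h4D_constantCoeff]; rfl)

theorem h4N_constantCoeff {θ σ : R⟦X⟧} (hθ : constantCoeff θ = 0) (hσ : constantCoeff σ = 0) :
    constantCoeff (h4N a b θ σ) = 0 := by
  unfold h4N; simp [hθ, hσ]

theorem h4Lam_constantCoeff {θ σ : R⟦X⟧} (hθ : constantCoeff θ = 0) (hσ : constantCoeff σ = 0) :
    constantCoeff (h4Lam a b θ σ) = 0 := by
  unfold h4Lam; rw [map_mul, h4N_constantCoeff a b hθ hσ, zero_mul]

theorem h4E_constantCoeff {θ σ : R⟦X⟧} (hθ : constantCoeff θ = 0) (hσ : constantCoeff σ = 0) :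
    constantCoeff (h4E a b θ σ) = 1 := by
  unfold h4E; simp [h4Lam_constantCoeff a b hθ hσ]

theorem h4E_mul {θ σ : R⟦X⟧} (hθ : constantCoeff θ = 0) (hσ : constantCoeff σ = 0) :
    h4E a b θ σ * h4E' a b θ σ = 1 :=
  mul_invOfUnit _ 1 (by rw [h4E_constantCoeff a b hθ hσ]; rfl)

theorem h4NextT_constantCoeff {θ σ : R⟦X⟧} (hθ : constantCoeff θ = 0) :
    constantCoeff (h4NextT a b θ σ) = 0 := by
  unfold h4NextT; simp [hθ]

theorem h4NextS_constantCoeff {θ σ : R⟦X⟧} (hθ : constantCoeff θ = 0)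
    (hσ : constantCoeff σ = 0) : constantCoeff (h4NextS a b θ σ) = 0 := by
  unfold h4NextS
  simp [h4Lam_constantCoeff a b hθ hσ, h4W_constantCoeff]

theorem h4Seq_constantCoeff (n : ℕ) :
    constantCoeff (h4Theta a b n) = 0 ∧ constantCoeff (h4Sigma a b n) = 0 := by
  induction n with
  | zero => exact ⟨by simp [h4Theta_zero], by simp [h4Sigma_zero]⟩
  | succ n ih =>
    exact ⟨by rw [h4Theta_succ]; exact h4NextT_constantCoeff a b ih.1,
      by rw [h4Sigma_succ]; exact h4NextS_constantCoeff a b ih.1 ih.2⟩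

/-- the generic point `(X, w)` is on the curve -/
theorem h4Curve_XW : h4Curve (C a : R⟦X⟧) (C b) X (h4W a b) := by
  unfold h4Curve
  conv_lhs => rw [h4W_eq a b]
  unfold h4Phi; ring

/-- one step of the sequence is an instance of the addition relation -/
theorem h4AddRel_step {θ σ : R⟦X⟧} (hθ : constantCoeff θ = 0) (hσ : constantCoeff σ = 0) :
    h4AddRel (C a : R⟦X⟧) (C b) X (h4W a b) θ σ (h4NextT a b θ σ) (h4NextS a b θ σ) := by
  refine ⟨h4D' a b σ, h4Lam a b θ σ, h4E' a b θ σ, ?_, ?_, ?_, ?_, ?_⟩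
  · exact h4D_mul a b σ
  · rfl
  · exact h4E_mul a b hθ hσ
  · unfold h4NextT h4H
    rw [h4W_eq_X_mul a b]
    ring
  · rfl

theorem h4AddRel_seq (n : ℕ) :
    h4AddRel (C a : R⟦X⟧) (C b) X (h4W a b) (h4Theta a b n) (h4Sigma a b n)
      (h4Theta a b (n + 1)) (h4Sigma a b (n + 1)) :=
  h4AddRel_step a b (h4Seq_constantCoeff a b n).1 (h4Seq_constantCoeff a b n).2

theorem h4Curve_seq (n : ℕ) :
    h4Curve (C a : R⟦X⟧) (C b) (h4Theta a b n) (h4Sigma a b n) := by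
  induction n with
  | zero => unfold h4Curve; simp [h4Theta_zero, h4Sigma_zero]
  | succ n ih => exact h4AddRel_curve (h4Curve_XW a b) ih (h4AddRel_seq a b n)

/-- `σ_n = λ_n θ_n + ν_n` -/
theorem h4Sigma_eq (n : ℕ) :
    h4Sigma a b n = h4Lam a b (h4Theta a b n) (h4Sigma a b n) * h4Theta a b n
      + (h4W a b - h4Lam a b (h4Theta a b n) (h4Sigma a b n) * X) :=
  h4_line_second (h4Curve_XW a b) (h4Curve_seq a b n) (h4D_mul a b _) rfl

/-- `θ_{n+1} - θ_n = X (1 + H_n)` -/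
theorem h4Theta_succ_sub (n : ℕ) :
    h4Theta a b (n + 1) - h4Theta a b n
      = X * (1 + h4H a b (h4Theta a b n) (h4Sigma a b n)) := by
  rw [h4Theta_succ]; unfold h4NextT; ring

/-- `σ_{n+1} - σ_n = X (λ_n (3 + H_n) - 2 w')` -/
theorem h4Sigma_succ_sub (n : ℕ) :
    h4Sigma a b (n + 1) - h4Sigma a b n
      = X * (h4Lam a b (h4Theta a b n) (h4Sigma a b n)
          * (3 + h4H a b (h4Theta a b n) (h4Sigma a b n)) - 2 * h4W' a b) := by
  have h1 := h4Sigma_eq a b n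
  have h2 := h4Theta_succ_sub a b n
  have e : h4Theta a b (n + 1) = h4Theta a b n
      + X * (1 + h4H a b (h4Theta a b n) (h4Sigma a b n)) := by
    rw [← h2]; ring
  rw [h4Sigma_succ]
  unfold h4NextS
  rw [← h4Theta_succ, e]
  rw [h4W_eq_X_mul a b] at h1 ⊢
  generalize h4Lam a b (h4Theta a b n) (h4Sigma a b n) = lam at *
  generalize h4H a b (h4Theta a b n) (h4Sigma a b n) = H at *
  linear_combination (-1 : R⟦X⟧) * h1

end step

end Fermat.Agent.Lib.S13
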