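/-
S13 project, stream (E) (helper4): the coefficients of the multiplication-by-`n` series `θ_n` are
polynomial functions of `n` (coefficient `k` has degree `≤ k`); consequently
`coeff k θ_p ∈ p R` for `k < p`, and `coeff 1 θ_n = n`.
-/
import Fermat.Agent.Lib.S13.FGSeq

set_option autoImplicit false

namespace Fermat.Agent.Lib.S13

open PowerSeries

variable {R : Type*} [CommRing R]

/-- a family of power series whose `k`-th coefficient (`k ≤ K`) is a polynomial function of degree
`≤ k` of the index -/
def h4Tame (K : ℕ) (F : ℕ → R⟦X⟧) : Prop := ∀ k ≤ K, h4Poly k (fun n => coeff k (F n))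

theorem h4Tame_const (K : ℕ) (f : R⟦X⟧) : h4Tame K (fun _ => f) :=
  fun k _ => h4Poly_const k _

theorem h4Tame_add {K : ℕ} {F G : ℕ → R⟦X⟧} (hF : h4Tame K F) (hG : h4Tame K G) :
    h4Tame K (fun n => F n + G n) := by
  intro k hk
  have := h4Poly_add (hF k hk) (hG k hk)
  have e : (fun n => coeff k (F n + G n)) = (fun n => coeff k (F n)) + fun n => coeff k (G n) := by
    funext n; simp
  rw [e]; exact this

theorem h4Tame_sub {K : ℕ} {F G : ℕ → R⟦X⟧} (hF : h4Tame K F) (hG : h4Tame K G) :
    h4Tame K (fun n => F n - G n) := by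
  intro k hk
  have := h4Poly_sub (hF k hk) (hG k hk)
  have e : (fun n => coeff k (F n - G n)) = fun n => coeff k (F n) - coeff k (G n) := by
    funext n; simp
  rw [e]; exact this

theorem h4Tame_mul {K : ℕ} {F G : ℕ → R⟦X⟧} (hF : h4Tame K F) (hG : h4Tame K G) :
    h4Tame K (fun n => F n * G n) := by
  intro k hk
  have e : (fun n => coeff k (F n * G n))
      = fun n => ∑ p ∈ Finset.HasAntidiagonal.antidiagonal k, coeff p.1 (F n) * coeff p.2 (G n) := by
    funext n; rw [coeff_mul]
  rw [e]
  apply h4Poly_sum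
  intro p hp
  have hp' := Finset.HasAntidiagonal.mem_antidiagonal.mp hp
  exact h4Poly_mul' (by omega) (hF p.1 (by omega)) (hG p.2 (by omega))

theorem h4Tame_inv {K : ℕ} {U V : ℕ → R⟦X⟧} (hUV : ∀ n, U n * V n = 1)
    (hU0 : ∀ n, constantCoeff (U n) = 1) (hU : h4Tame K U) : h4Tame K V := by
  intro k
  induction k using Nat.strong_induction_on with
  | _ k ih =>
    intro hk
    rcases Nat.eq_zero_or_pos k with hk0 | hk0
    · subst hk0
      have : (fun n => coeff 0 (V n)) = fun _ => (1 : R) := by
        funext n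
        have h := congrArg (coeff 0) (hUV n)
        rw [coeff_mul] at h
        rw [Finset.Nat.antidiagonal_zero, Finset.sum_singleton, coeff_zero_eq_constantCoeff_apply,
          hU0 n, one_mul, coeff_zero_eq_constantCoeff_apply] at h
        rw [coeff_zero_eq_constantCoeff_apply, h]
        simp
      rw [this]; exact h4Poly_const 0 _
    · obtain ⟨j, rfl⟩ : ∃ j, k = j + 1 := ⟨k - 1, by omega⟩
      have e : (fun n => coeff (j + 1) (V n))
          = fun n => - ∑ p ∈ Finset.HasAntidiagonal.antidiagonal j, coeff (p.1 + 1) (U n) * coeff p.2 (V n) := by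
        funext n
        have h := congrArg (coeff (j + 1)) (hUV n)
        rw [coeff_mul, Finset.Nat.sum_antidiagonal_succ] at h
        simp only [coeff_zero_eq_constantCoeff, hU0 n, one_mul] at h
        have h1 : coeff (j + 1) (1 : R⟦X⟧) = 0 := by
          rw [coeff_one]; simp
        rw [h1] at h
        linear_combination h
      rw [e]
      apply h4Poly_neg
      apply h4Poly_sum
      intro p hp
      have hp' := Finset.HasAntidiagonal.mem_antidiagonal.mp hp
      exact h4Poly_mul' (by omega) (hU (p.1 + 1) (by omega)) (ih p.2 (by omega) (by omega))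

section main

variable (a b : R)

theorem h4Tame_H {K : ℕ} (hθ : h4Tame K (h4Theta a b)) (hσ : h4Tame K (h4Sigma a b)) :
    h4Tame K (fun n => h4Lam a b (h4Theta a b n) (h4Sigma a b n)) ∧
    h4Tame K (fun n => h4H a b (h4Theta a b n) (h4Sigma a b n)) := by
  have hX : h4Tame K (fun _ => (X : R⟦X⟧)) := h4Tame_const K _
  have hCa : h4Tame K (fun _ => (C a : R⟦X⟧)) := h4Tame_const K _
  have hCb : h4Tame K (fun _ => (C b : R⟦X⟧)) := h4Tame_const K _
  have hD : h4Tame K (fun n => h4D a b (h4Sigma a b n)) := by
    unfold h4D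
    exact h4Tame_sub (h4Tame_const K 1) (h4Tame_add (h4Tame_const K _)
      (h4Tame_mul hCb (h4Tame_mul hX (h4Tame_add (h4Tame_const K _) hσ))))
  have hD' : h4Tame K (fun n => h4D' a b (h4Sigma a b n)) :=
    h4Tame_inv (fun n => h4D_mul a b _) (fun n => h4D_constantCoeff a b _) hD
  have hN : h4Tame K (fun n => h4N a b (h4Theta a b n) (h4Sigma a b n)) := by
    unfold h4N
    refine h4Tame_add (h4Tame_add (h4Tame_add (h4Tame_add ?_ (h4Tame_mul hX hθ))
      (h4Tame_const K _)) (h4Tame_mul hCa (h4Tame_mul (h4Tame_add hX hθ) hσ))) ?_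
    · have := h4Tame_mul hθ hθ
      simpa only [sq] using this
    · have := h4Tame_mul hCb (h4Tame_mul hσ hσ)
      simpa only [sq] using this
  have hL : h4Tame K (fun n => h4Lam a b (h4Theta a b n) (h4Sigma a b n)) := by
    unfold h4Lam; exact h4Tame_mul hN hD'
  have hE : h4Tame K (fun n => h4E a b (h4Theta a b n) (h4Sigma a b n)) := by
    unfold h4E
    refine h4Tame_add (h4Tame_add (h4Tame_const K 1) (h4Tame_mul hCa hL)) ?_
    have := h4Tame_mul hCb (h4Tame_mul hL hL)
    simpa only [sq] using this
  have hE' : h4Tame K (fun n => h4E' a b (h4Theta a b n) (h4Sigma a b n)) :=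
    h4Tame_inv (fun n => h4E_mul a b (h4Seq_constantCoeff a b n).1 (h4Seq_constantCoeff a b n).2)
      (fun n => h4E_constantCoeff a b (h4Seq_constantCoeff a b n).1 (h4Seq_constantCoeff a b n).2)
      hE
  refine ⟨hL, ?_⟩
  unfold h4H
  exact h4Tame_mul (h4Tame_mul (h4Tame_sub (h4Tame_const K _) hL)
    (h4Tame_add hCa (h4Tame_mul (h4Tame_const K (2 * C b)) hL))) hE'

theorem h4Tame_seq (K : ℕ) : h4Tame K (h4Theta a b) ∧ h4Tame K (h4Sigma a b) := by
  induction K with
  | zero =>
    constructor
    · intro k hk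
      have hk0 : k = 0 := by omega
      subst hk0
      have : (fun n => coeff 0 (h4Theta a b n)) = fun _ => (0 : R) := by
        funext n; rw [coeff_zero_eq_constantCoeff_apply]; exact (h4Seq_constantCoeff a b n).1
      rw [this]; exact h4Poly_const 0 _
    · intro k hk
      have hk0 : k = 0 := by omega
      subst hk0
      have : (fun n => coeff 0 (h4Sigma a b n)) = fun _ => (0 : R) := by
        funext n; rw [coeff_zero_eq_constantCoeff_apply]; exact (h4Seq_constantCoeff a b n).2
      rw [this]; exact h4Poly_const 0 _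
  | succ K ih =>
    obtain ⟨hθ, hσ⟩ := ih
    obtain ⟨hL, hH⟩ := h4Tame_H a b hθ hσ
    constructor
    · intro k hk
      rcases Nat.lt_or_ge k (K + 1) with hlt | hge
      · exact hθ k (by omega)
      · have hk' : k = K + 1 := by omega
        subst hk'
        apply h4Poly_of_fwdDiff
        have e : fwdDiff (1 : ℕ) (fun n => coeff (K + 1) (h4Theta a b n))
            = fun n => coeff K (1 + h4H a b (h4Theta a b n) (h4Sigma a b n)) := by
          funext n
          simp only [fwdDiff]
          rw [← map_sub, h4Theta_succ_sub, coeff_succ_X_mul]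
        rw [e]
        exact (h4Tame_add (h4Tame_const K 1) hH) K le_rfl
    · intro k hk
      rcases Nat.lt_or_ge k (K + 1) with hlt | hge
      · exact hσ k (by omega)
      · have hk' : k = K + 1 := by omega
        subst hk'
        apply h4Poly_of_fwdDiff
        have e : fwdDiff (1 : ℕ) (fun n => coeff (K + 1) (h4Sigma a b n))
            = fun n => coeff K (h4Lam a b (h4Theta a b n) (h4Sigma a b n)
                * (3 + h4H a b (h4Theta a b n) (h4Sigma a b n)) - 2 * h4W' a b) := by
          funext n
          simp only [fwdDiff]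
          rw [← map_sub, h4Sigma_succ_sub, coeff_succ_X_mul]
        rw [e]
        exact (h4Tame_sub (h4Tame_mul hL (h4Tame_add (h4Tame_const K 3) hH))
          (h4Tame_const K _)) K le_rfl

/-- `coeff k θ_p ∈ p R` for `k < p`. -/
theorem h4_theta_coeff_dvd {p : ℕ} (hp : p.Prime) {k : ℕ} (hk : k < p) :
    (p : R) ∣ coeff k (h4Theta a b p) := by
  have h := (h4Tame_seq a b k).1 k le_rfl
  exact h4Poly_eval_prime hp hk h (by simp [h4Theta_zero])

theorem h4H_constantCoeff {θ σ : R⟦X⟧} (hθ : constantCoeff θ = 0) (hσ : constantCoeff σ = 0) :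
    constantCoeff (h4H a b θ σ) = 0 := by
  unfold h4H
  simp [h4W'_constantCoeff, h4Lam_constantCoeff a b hθ hσ]

/-- `coeff 1 θ_n = n`. -/
theorem h4_theta_coeff_one (n : ℕ) : coeff 1 (h4Theta a b n) = n := by
  induction n with
  | zero => simp [h4Theta_zero]
  | succ n ih =>
    have h := congrArg (coeff 1) (h4Theta_succ_sub a b n)
    rw [map_sub, ih, coeff_succ_X_mul, map_add, coeff_zero_eq_constantCoeff_apply,
      coeff_zero_eq_constantCoeff_apply,
      h4H_constantCoeff a b (h4Seq_constantCoeff a b n).1 (h4Seq_constantCoeff a b n).2] at h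
    simp at h
    push_cast
    linear_combination h

theorem h4_theta_coeff_zero (n : ℕ) : coeff 0 (h4Theta a b n) = 0 := by
  rw [coeff_zero_eq_constantCoeff_apply]; exact (h4Seq_constantCoeff a b n).1

end main

end Fermat.Agent.Lib.S13
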