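/-
S13 project, stream (E) (helper4): specialisation of the formal multiplication-by-`n` series at an
actual point.  `ev : R⟦X⟧ →+* R ⧸ (τ^(m+1))` (truncate and evaluate at `τ`), and the comparison
`q (t_n) = ev (θ_n)` obtained from functoriality of the addition relation.
-/
import Fermat.Agent.Lib.S13.FGTame

set_option autoImplicit false

namespace Fermat.Agent.Lib.S13

open PowerSeries

variable {R : Type*} [CommRing R]

/-- the ideal `(τ^(m+1))` -/
def h4I (τ : R) (m : ℕ) : Ideal R := Ideal.span {τ ^ (m + 1)}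

/-- polynomial evaluation at `τ` followed by reduction modulo `τ^(m+1)` -/
noncomputable def h4PolyEv (τ : R) (m : ℕ) : Polynomial R →+* R ⧸ h4I τ m :=
  (Ideal.Quotient.mk (h4I τ m)).comp (Polynomial.evalRingHom τ)

theorem h4PolyEv_X_pow_mul (τ : R) (m : ℕ) (Q : Polynomial R) :
    h4PolyEv τ m (Polynomial.X ^ (m + 1) * Q) = 0 := by
  unfold h4PolyEv
  rw [RingHom.comp_apply, Polynomial.coe_evalRingHom, Polynomial.eval_mul, Polynomial.eval_pow,
    Polynomial.eval_X, Ideal.Quotient.eq_zero_iff_mem]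
  exact Ideal.mul_mem_right _ _ (Ideal.subset_span rfl)

theorem h4PolyEv_trunc_coe (τ : R) (m : ℕ) (P : Polynomial R) :
    h4PolyEv τ m (trunc (m + 1) (P : R⟦X⟧)) = h4PolyEv τ m P := by
  have hdvd : (Polynomial.X : Polynomial R) ^ (m + 1) ∣ P - trunc (m + 1) (P : R⟦X⟧) := by
    rw [Polynomial.X_pow_dvd_iff]
    intro d hd
    rw [Polynomial.coeff_sub, coeff_trunc, if_pos hd, Polynomial.coeff_coe, sub_self]
  obtain ⟨Q, hQ⟩ := hdvd
  have : P = trunc (m + 1) (P : R⟦X⟧) + Polynomial.X ^ (m + 1) * Q := by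
    rw [← hQ]; ring
  conv_rhs => rw [this]
  rw [map_add, h4PolyEv_X_pow_mul, add_zero]

/-- truncate at degree `m+1` and evaluate at `τ` modulo `τ^(m+1)`: a ring homomorphism -/
noncomputable def h4Ev (τ : R) (m : ℕ) : R⟦X⟧ →+* R ⧸ h4I τ m where
  toFun f := h4PolyEv τ m (trunc (m + 1) f)
  map_one' := by
    rw [trunc_one, map_one]
  map_mul' f g := by
    rw [← trunc_trunc_mul_trunc, ← Polynomial.coe_mul, h4PolyEv_trunc_coe, map_mul]
  map_zero' := by rw [map_zero, map_zero]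
  map_add' f g := by rw [map_add, map_add]

theorem h4Ev_apply (τ : R) (m : ℕ) (f : R⟦X⟧) :
    h4Ev τ m f = h4PolyEv τ m (trunc (m + 1) f) := rfl

theorem h4Ev_C (τ : R) (m : ℕ) (c : R) : h4Ev τ m (C c) = Ideal.Quotient.mk (h4I τ m) c := by
  rw [h4Ev_apply, trunc_C]
  unfold h4PolyEv
  simp

theorem h4Ev_X (τ : R) (m : ℕ) (hm : 1 ≤ m) :
    h4Ev τ m X = Ideal.Quotient.mk (h4I τ m) τ := by
  rw [h4Ev_apply, trunc_X_of (by omega)]
  unfold h4PolyEv
  simp

/-- explicit form: `ev f = Σ_{k ≤ m} coeff k f · τ^k` modulo `τ^(m+1)` -/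
theorem h4Ev_eq_sum (τ : R) (m : ℕ) (f : R⟦X⟧) :
    h4Ev τ m f
      = Ideal.Quotient.mk (h4I τ m) (∑ k ∈ Finset.range (m + 1), coeff k f * τ ^ k) := by
  rw [h4Ev_apply]
  unfold h4PolyEv
  rw [RingHom.comp_apply, Polynomial.coe_evalRingHom, trunc_apply]
  congr 1
  rw [Polynomial.eval_finsetSum]
  rw [← Finset.range_eq_Ico]
  apply Finset.sum_congr rfl
  intro k _
  rw [Polynomial.eval_monomial]

/-- nilpotent perturbations of `1` are units: uniqueness of the fixed point modulo `τ^(m+1)` -/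
theorem h4_fixed_unique {S : Type*} [CommRing S] {a b τ s s' : S} {N : ℕ} (hτ : τ ^ N = 0)
    (h : h4Curve a b τ s) (h' : h4Curve a b τ s') : s = s' := by
  unfold h4Curve at h h'
  set u := a * τ + b * (s + s') with hu
  have key : (s - s') * (1 - τ * u) = 0 := by
    rw [hu]; linear_combination h - h'
  have hnil : IsNilpotent (τ * u) := ⟨N, by rw [mul_pow, hτ, zero_mul]⟩
  have hunit : IsUnit (1 - τ * u) := hnil.isUnit_one_sub
  have := hunit.mul_left_eq_zero.mp key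
  exact sub_eq_zero.mp this

/-- **Specialisation.**  If `(t_n, s_n)` is a sequence in `R` with `(t_0,s_0) = (0,0)` obtained by
repeatedly adding the point `(τ, s)` (via the addition relation), then `t_n ≡ θ_n(τ)` and
`s_n ≡ σ_n(τ)` modulo `τ^(m+1)`. -/
theorem h4_spec (a b τ s : R) (m : ℕ) (hm : 1 ≤ m) (hC : h4Curve a b τ s)
    (t' s' : ℕ → R) (h0 : t' 0 = 0 ∧ s' 0 = 0)
    (hstep : ∀ n, h4AddRel a b τ s (t' n) (s' n) (t' (n + 1)) (s' (n + 1))) (n : ℕ) :
    Ideal.Quotient.mk (h4I τ m) (t' n) = h4Ev τ m (h4Theta a b n) ∧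
    Ideal.Quotient.mk (h4I τ m) (s' n) = h4Ev τ m (h4Sigma a b n) := by
  set q := Ideal.Quotient.mk (h4I τ m) with hq
  have hτnil : (q τ) ^ (m + 1) = 0 := by
    rw [← map_pow, hq, Ideal.Quotient.eq_zero_iff_mem]
    exact Ideal.subset_span rfl
  -- ev w = q s
  have hw : h4Ev τ m (h4W a b) = q s := by
    have h1 := h4Curve_map (h4Ev τ m) (h4Curve_XW a b)
    rw [h4Ev_C, h4Ev_C, h4Ev_X τ m hm] at h1
    have h2 := h4Curve_map q hC
    exact h4_fixed_unique hτnil h1 h2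
  induction n with
  | zero =>
    rw [h0.1, h0.2, h4Theta_zero, h4Sigma_zero, map_zero, map_zero]
    exact ⟨rfl, rfl⟩
  | succ n ih =>
    have h1 := h4AddRel_map (h4Ev τ m) (h4AddRel_seq a b n)
    rw [h4Ev_C, h4Ev_C, h4Ev_X τ m hm, hw, ← ih.1, ← ih.2] at h1
    have h2 := h4AddRel_map q (hstep n)
    exact h4AddRel_unique h2 h1

end Fermat.Agent.Lib.S13
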