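/-
S13 project, stream (E) (helper4): the formal-group input (FG').

For the model `Y² = X³ + aX² + bX` over a valued field `(L, v)` with `v a ≤ 1`, `v b ≤ 1` and a
prime `p` there is an integral `c` with
`v (t(p • P) - p t(P) - c t(P)^p) < max (v p · v t(P)) (v t(P) ^ p)`
for every nonzero point `P` of the kernel of reduction.

Proof: the multiplication-by-`n` power series `θ_n ∈ R⟦X⟧` over `R = v.integer` (`FGSeq`) have
`coeff 0 = 0`, `coeff 1 = n`, `p ∣ coeff k θ_p` for `k < p` (`FGTame`); the actual points satisfy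
`t(n • P) ≡ θ_n(t(P))` modulo `t(P)^(p+1)` (`FGSpec`, fed with helper3's `h3_addRel`).
-/
import Mathlib
import Fermat.Agent.Lib.S13.FGSpec
import Fermat.Agent.Lib.S13.FGPoint
import Fermat.Agent.Lib.S13.CanonSub

set_option autoImplicit false

namespace Fermat.Agent.Lib.S13

open PowerSeries WeierstrassCurve

section lift

variable {L : Type*} [Field L] {Γ₀ : Type*} [LinearOrderedCommGroupWithZero Γ₀]
  (v : Valuation L Γ₀)

theorem h4_v_one_sub {x : L} (hx : v x < 1) : v (1 - x) = 1 :=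
  Valuation.map_one_sub_of_lt (v := v) hx

theorem h4_v_one_add {x : L} (hx : v x < 1) : v (1 + x) = 1 := by
  have : v (1 - (-x)) = 1 := h4_v_one_sub v (by rwa [Valuation.map_neg])
  simpa using this

/-- small-ness of `a t² + b t (s + s')` -/
theorem h4_v_Dterm {a b t s s' : L} (ha : v a ≤ 1) (hb : v b ≤ 1) (ht : v t < 1)
    (hs : v s < 1) (hs' : v s' < 1) : v (a * t ^ 2 + b * (t * (s + s'))) < 1 :=
  h3_lt_add v (h3_lt_mul_of_le_of_lt v ha (h3_lt_pow v ht (by norm_num)))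
    (h3_lt_mul_of_le_of_lt v hb (h3_lt_mul_of_lt_of_le v ht (h3_lt_add v hs hs').le))

/-- small-ness of `a λ + b λ²` -/
theorem h4_v_Eterm {a b lam : L} (ha : v a ≤ 1) (hb : v b ≤ 1) (hl : v lam < 1) :
    v (a * lam + b * lam ^ 2) < 1 :=
  h3_lt_add v (h3_lt_mul_of_le_of_lt v ha hl)
    (h3_lt_mul_of_le_of_lt v hb (h3_lt_pow v hl (by norm_num)))

/-- small-ness of the numerator of the slope -/
theorem h4_v_Nterm {a b t1 t2 s2 : L} (ha : v a ≤ 1) (hb : v b ≤ 1) (ht1 : v t1 < 1)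
    (ht2 : v t2 < 1) (hs2 : v s2 < 1) :
    v (t2 ^ 2 + t1 * t2 + t1 ^ 2 + a * ((t1 + t2) * s2) + b * s2 ^ 2) < 1 :=
  h3_lt_add v (h3_lt_add v (h3_lt_add v (h3_lt_add v (h3_lt_pow v ht2 (by norm_num))
    (h3_lt_mul_of_lt_of_le v ht1 ht2.le)) (h3_lt_pow v ht1 (by norm_num)))
    (h3_lt_mul_of_le_of_lt v ha (h3_lt_mul_of_lt_of_le v (h3_lt_add v ht1 ht2) hs2.le)))
    (h3_lt_mul_of_le_of_lt v hb (h3_lt_pow v hs2 (by norm_num)))

/-- The addition relation between small elements descends from the valued field to its ring of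
integers: the inverses occurring in it are inverses of `1 + small`. -/
theorem h4AddRel_lift {a b t1 s1 t2 s2 t3 s3 : v.integer}
    (ht1 : v (t1 : L) < 1) (hs1 : v (s1 : L) < 1) (ht2 : v (t2 : L) < 1) (hs2 : v (s2 : L) < 1)
    (h : h4AddRel (a : L) (b : L) (t1 : L) (s1 : L) (t2 : L) (s2 : L) (t3 : L) (s3 : L)) :
    h4AddRel a b t1 s1 t2 s2 t3 s3 := by
  obtain ⟨D', lam, E', hD, hlam, hE, ht3, hs3⟩ := h
  have ha : v (a : L) ≤ 1 := a.2
  have hb : v (b : L) ≤ 1 := b.2
  have hvD : v (1 - ((a : L) * (t1 : L) ^ 2 + (b : L) * ((t1 : L) * ((s1 : L) + (s2 : L))))) = 1 :=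
    h4_v_one_sub v (h4_v_Dterm v ha hb ht1 hs1 hs2)
  have hvD' : v D' = 1 := by
    have := congrArg v hD
    rwa [map_mul, hvD, one_mul, map_one] at this
  have hvlam : v lam < 1 := by
    rw [hlam, map_mul, hvD', mul_one]
    exact h4_v_Nterm v ha hb ht1 ht2 hs2
  have hvE : v (1 + (a : L) * lam + (b : L) * lam ^ 2) = 1 := by
    have := h4_v_one_add v (h4_v_Eterm v ha hb hvlam)
    rwa [← add_assoc] at this
  have hvE' : v E' = 1 := by
    have := congrArg v hE
    rwa [map_mul, hvE, one_mul, map_one] at this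
  refine ⟨⟨D', hvD'.le⟩, ⟨lam, hvlam.le⟩, ⟨E', hvE'.le⟩, ?_, ?_, ?_, ?_, ?_⟩
  · apply Subtype.ext; push_cast; exact hD
  · apply Subtype.ext; push_cast; exact hlam
  · apply Subtype.ext; push_cast; exact hE
  · apply Subtype.ext; push_cast; exact ht3
  · apply Subtype.ext; push_cast; exact hs3

theorem h4Curve_lift {a b t s : v.integer}
    (h : h4Curve (a : L) (b : L) (t : L) (s : L)) : h4Curve a b t s := by
  unfold h4Curve at *
  apply Subtype.ext; push_cast; exact h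

end lift

section main

variable {L : Type*} [Field L] [DecidableEq L] {Γ₀ : Type*} [LinearOrderedCommGroupWithZero Γ₀]
  (v : Valuation L Γ₀)

/-- **Congruence form of (FG)**: `t(n • P) = Σ_{k ≤ m} coeff k θ_n · t(P)^k + r · t(P)^(m+1)` with
`r` integral. -/
theorem h4_fg_congr {a b : L} (ha : v a ≤ 1) (hb : v b ≤ 1) (m : ℕ) (hm : 1 ≤ m)
    (P : (h3_Wab a b).toAffine.Point) (hP : h9k_Ker v (h3_Wab a b) P) (n : ℕ) :
    ∃ r : L, v r ≤ 1 ∧ h9k_T (h3_Wab a b) (n • P)
      = ∑ k ∈ Finset.range (m + 1),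
          ((coeff k (h4Theta (⟨a, ha⟩ : v.integer) ⟨b, hb⟩ n) : v.integer) : L)
            * h9k_T (h3_Wab a b) P ^ k
        + r * h9k_T (h3_Wab a b) P ^ (m + 1) := by
  have hK : ∀ n : ℕ, h9k_Ker v (h3_Wab a b) (n • P) := fun n =>
    (h9k_nsmul_est v (h3_Wab a b) (by simp) (by simpa using ha) (by simp) (by simpa using hb)
      (by simp) P hP n).1
  have hT : ∀ n : ℕ, v (h9k_T (h3_Wab a b) (n • P)) < 1 := fun n =>
    h3_vT_lt_one v ha hb _ (hK n)
  have hS : ∀ n : ℕ, v (h3_S (h3_Wab a b) (n • P)) < 1 := fun n =>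
    h3_vS_lt_one v ha hb _ (hK n)
  have hT1 : v (h9k_T (h3_Wab a b) P) < 1 := h3_vT_lt_one v ha hb _ hP
  have hS1 : v (h3_S (h3_Wab a b) P) < 1 := h3_vS_lt_one v ha hb _ hP
  set a' : v.integer := ⟨a, ha⟩ with ha'
  set b' : v.integer := ⟨b, hb⟩ with hb'
  set t' : ℕ → v.integer := fun n => ⟨h9k_T (h3_Wab a b) (n • P), (hT n).le⟩ with ht'
  set s' : ℕ → v.integer := fun n => ⟨h3_S (h3_Wab a b) (n • P), (hS n).le⟩ with hs'
  set τ : v.integer := ⟨h9k_T (h3_Wab a b) P, hT1.le⟩ with hτ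
  set s0 : v.integer := ⟨h3_S (h3_Wab a b) P, hS1.le⟩ with hs0
  have hC : h4Curve a' b' τ s0 := h4Curve_lift v (h3_curve_ts v ha hb P hP)
  have h0 : t' 0 = 0 ∧ s' 0 = 0 := by
    constructor <;> apply Subtype.ext <;> simp [ht', hs']
  have hstep : ∀ n, h4AddRel a' b' τ s0 (t' n) (s' n) (t' (n + 1)) (s' (n + 1)) := by
    intro n
    apply h4AddRel_lift v hT1 hS1 (hT n) (hS n)
    have h := h3_addRel v ha hb P (n • P) hP (hK n)
    rw [← succ_nsmul'] at h
    exact h
  have hmain := (h4_spec a' b' τ s0 m hm hC t' s' h0 hstep n).1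
  rw [h4Ev_eq_sum, Ideal.Quotient.eq, h4I, Ideal.mem_span_singleton'] at hmain
  obtain ⟨r, hr⟩ := hmain
  refine ⟨(r : L), r.2, ?_⟩
  have h := congrArg (fun x : v.integer => (x : L)) hr
  simp only [ht', hτ] at h
  push_cast at h
  linear_combination -h

/-- **(FG')**, the formal-group input for the canonical subgroup argument. -/
theorem h4_fg {a b : L} (ha : v a ≤ 1) (hb : v b ≤ 1) {p : ℕ} (hp : p.Prime) :
    FormalPStatement v (⟨0, a, 0, b, 0⟩ : WeierstrassCurve L) p := by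
  refine ⟨((coeff p (h4Theta (⟨a, ha⟩ : v.integer) ⟨b, hb⟩ p) : v.integer) : L),
    (coeff p (h4Theta (⟨a, ha⟩ : v.integer) ⟨b, hb⟩ p)).2, ?_⟩
  intro P hP hP0
  obtain ⟨r, hr, heq⟩ := h4_fg_congr v ha hb p hp.one_le P hP p
  have hτ0 : h9k_T (h3_Wab a b) P ≠ 0 :=
    lead_cs_T_ne_zero v (h3_Wab a b) (by simp) (by simpa using ha) (by simp) (by simpa using hb)
      (by simp) P hP hP0
  have hτ1 : v (h9k_T (h3_Wab a b) P) < 1 := h3_vT_lt_one v ha hb P hP
  show v (h9k_T (h3_Wab a b) (p • P) - p * h9k_T (h3_Wab a b) P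
      - ((coeff p (h4Theta (⟨a, ha⟩ : v.integer) ⟨b, hb⟩ p) : v.integer) : L)
        * h9k_T (h3_Wab a b) P ^ p)
    < max (v (p : L) * v (h9k_T (h3_Wab a b) P)) (v (h9k_T (h3_Wab a b) P) ^ p)
  set τ : L := h9k_T (h3_Wab a b) P with hτ
  set cf : ℕ → L := fun k => ((coeff k (h4Theta (⟨a, ha⟩ : v.integer) ⟨b, hb⟩ p) : v.integer) : L)
    with hcf
  have hτpos : 0 < v τ := zero_lt_iff.mpr ((Valuation.ne_zero_iff v).mpr hτ0)
  -- the middle terms
  have hmid : ∀ k ∈ Finset.range p,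
      v (cf k * τ ^ k - if k = 1 then (p : L) * τ else 0) ≤ v (p : L) * v τ ^ 2 := by
    intro k hk
    have hkp : k < p := Finset.mem_range.mp hk
    rcases Nat.lt_or_ge k 2 with h2 | h2
    · interval_cases k
      · have : cf 0 = 0 := by
          simp only [hcf]
          rw [h4_theta_coeff_zero]; rfl
        simp [this]
      · have : cf 1 = (p : L) := by
          simp only [hcf]
          rw [h4_theta_coeff_one]; simp
        simp [this]
    · have hk1 : k ≠ 1 := by omega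
      rw [if_neg hk1, sub_zero]
      obtain ⟨d, hd⟩ := h4_theta_coeff_dvd (R := v.integer) ⟨a, ha⟩ ⟨b, hb⟩ hp hkp
      have hcfk : cf k = (p : L) * (d : L) := by
        simp only [hcf]
        rw [hd]; push_cast; rfl
      rw [hcfk, map_mul, map_mul, map_pow]
      have hd1 : v (d : L) ≤ 1 := d.2
      have hpow : v τ ^ k ≤ v τ ^ 2 := pow_le_pow_of_le_one zero_le hτ1.le h2
      calc v (p : L) * v (d : L) * v τ ^ k ≤ v (p : L) * 1 * v τ ^ 2 := by gcongr
        _ = v (p : L) * v τ ^ 2 := by rw [mul_one]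
  have hsum : v (∑ k ∈ Finset.range p, (cf k * τ ^ k - if k = 1 then (p : L) * τ else 0))
      ≤ v (p : L) * v τ ^ 2 := Valuation.map_sum_le v hmid
  have hite : ∑ k ∈ Finset.range p, (if k = 1 then (p : L) * τ else 0) = (p : L) * τ := by
    rw [Finset.sum_ite_eq' (Finset.range p) 1 (fun _ => (p : L) * τ)]
    simp [hp.one_lt]
  have hdecomp : h9k_T (h3_Wab a b) (p • P) - p * τ - cf p * τ ^ p
      = ∑ k ∈ Finset.range p, (cf k * τ ^ k - if k = 1 then (p : L) * τ else 0)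
        + r * τ ^ (p + 1) := by
    rw [heq, Finset.sum_range_succ, Finset.sum_sub_distrib, hite]
    ring
  rw [hdecomp]
  have hrest : v (r * τ ^ (p + 1)) < v τ ^ p := by
    rw [map_mul, map_pow, pow_succ]
    calc v r * (v τ ^ p * v τ) ≤ 1 * (v τ ^ p * v τ) := by gcongr
      _ = v τ ^ p * v τ := one_mul _
      _ < v τ ^ p * 1 := by
          apply mul_lt_mul_of_pos_left hτ1 (pow_pos hτpos p)
      _ = v τ ^ p := mul_one _
  have hfirst : v (∑ k ∈ Finset.range p, (cf k * τ ^ k - if k = 1 then (p : L) * τ else 0))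
      < max (v (p : L) * v τ) (v τ ^ p) := by
    rcases eq_or_ne (v (p : L)) 0 with h0 | h0
    · rw [h0, zero_mul] at hsum
      have : v (∑ k ∈ Finset.range p, (cf k * τ ^ k - if k = 1 then (p : L) * τ else 0)) = 0 :=
        le_antisymm hsum zero_le
      rw [this]
      exact lt_max_of_lt_right (pow_pos hτpos p)
    · refine lt_max_of_lt_left (lt_of_le_of_lt hsum ?_)
      have hppos : 0 < v (p : L) := zero_lt_iff.mpr h0
      apply mul_lt_mul_of_pos_left _ hppos
      calc v τ ^ 2 = v τ * v τ := sq _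
        _ < v τ * 1 := mul_lt_mul_of_pos_left hτ1 hτpos
        _ = v τ := mul_one _
  exact lt_of_le_of_lt (v.map_add _ _) (max_lt hfirst (lt_max_of_lt_right hrest))

end main

end Fermat.Agent.Lib.S13
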