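/-
S13 project, stream (E) (helper8): the local theorem (E4), unconditionally.
-/
import Mathlib
import Fermat.Agent.Lib.S13.ELocal
import Fermat.Agent.Lib.S13.E1Bridge
import Fermat.Agent.Lib.S13.EOrb
import Fermat.Agent.Lib.S13.FGMain

set_option autoImplicit false

namespace Fermat.Agent.Lib.S13

theorem h8_fgStatement : FGStatement :=
  fun v _ _ ha hb _ hp => h4_fg v ha hb hp

/-- **(E4)**: the local theorem at a place over `p`. -/
theorem h8_localTheorem : LocalTheoremStatement :=
  h8_localTheorem_of h8_e1 h5_orb h8_fgStatement

end Fermat.Agent.Lib.S13
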