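/-
S13 project, stream (E) (helper8): contract (E) `LocalAtPStatement`, unconditionally.
-/
import Mathlib
import Fermat.Agent.Lib.S13.EGlobal
import Fermat.Agent.Lib.S13.EGlobalModels
import Fermat.Agent.Lib.S13.ELocalFinal

set_option autoImplicit false

namespace Fermat.Agent.Lib.S13

theorem h8_freyModelCases : FreyModelCasesStatement :=
  fun P A hA => h4g_model_cases P A hA

/-- **Contract (E)**: local analysis at `p`. -/
theorem h8_localAtP : LocalAtPStatement :=
  h8_localAtP_of h8_localTheorem h8_freyModelCases

end Fermat.Agent.Lib.S13
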