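import Mathlib

/-!
# Project S13 (E-b): finite-difference calculus for sequences in a commutative ring

Owner: helper7.

`h7_FD X M j g` : `X ^ (m + j) ∣ Δ^m g n` for all `m ≤ M` and all `n` (`Δ = fwdDiff 1`).
Closure under constants, `+`, `-`, `*` (levels add), `X *`, powers, shift, inverses;
`h7_FD.of_fwdDiff` : level `j + 1` for `Δ g` up to order `M` gives level `j` for `g` up to `M + 1`;
`h7_FD_of_step` : the induction on the order for systems of recursions;
`h7_FD_newton` : `g 0 = 0`, `g 1 = X`, `p` prime ⇒ `g p = p X (1 + X U) + X ^ p G`.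
-/

set_option autoImplicit false

namespace Fermat.Agent.Lib.S13

open fwdDiff Finset

variable {S : Type*} [CommRing S]

/-- `g` has finite-difference level `j` up to order `M` with respect to `X`:
`X ^ (m + j) ∣ Δ^m g n` for all `m ≤ M` and all `n`. -/
def h7_FD (X : S) (M j : ℕ) (g : ℕ → S) : Prop :=
  ∀ m ≤ M, ∀ n, X ^ (m + j) ∣ (Δ_[1])^[m] g n

variable {X : S} {M j : ℕ} {g : ℕ → S}

theorem h7_FD.mono_order {M' : ℕ} (h : h7_FD X M j g) (hM : M' ≤ M) : h7_FD X M' j g :=
  fun m hm n => h m (hm.trans hM) n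

theorem h7_FD.mono_level {j' : ℕ} (h : h7_FD X M j g) (hj : j' ≤ j) : h7_FD X M j' g :=
  fun m hm n => (pow_dvd_pow X (by omega)).trans (h m hm n)

theorem h7_FD.dvd (h : h7_FD X M j g) (n : ℕ) : X ^ j ∣ g n := by
  have := h 0 (Nat.zero_le _) n
  simpa using this

theorem h7_fwdDiff_iter_zero (m : ℕ) : (Δ_[1])^[m] (fun _ => (0 : S) : ℕ → S) = fun _ => 0 := by
  induction m with
  | zero => rfl
  | succ m ih => rw [Function.iterate_succ_apply, fwdDiff_const, ih]

theorem h7_fwdDiff_iter_const (c : S) (m : ℕ) (hm : m ≠ 0) :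
    (Δ_[1])^[m] (fun _ => c : ℕ → S) = fun _ => 0 := by
  obtain ⟨k, rfl⟩ := Nat.exists_eq_succ_of_ne_zero hm
  rw [Function.iterate_succ_apply, fwdDiff_const, h7_fwdDiff_iter_zero]

theorem h7_FD_const {c : S} (hc : X ^ j ∣ c) : h7_FD X M j (fun _ => c) := by
  intro m _ n
  rcases Nat.eq_zero_or_pos m with rfl | hm
  · simpa using hc
  · rw [h7_fwdDiff_iter_const c m hm.ne']
    exact dvd_zero _

theorem h7_FD_const_zero (c : S) : h7_FD X M 0 (fun _ => c) :=
  h7_FD_const (by simp)

theorem h7_FD.add {f : ℕ → S} (hf : h7_FD X M j f) (hg : h7_FD X M j g) :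
    h7_FD X M j (fun n => f n + g n) := by
  intro m hm n
  have : (fun n => f n + g n) = f + g := rfl
  rw [this, fwdDiff_iter_add]
  exact dvd_add (hf m hm n) (hg m hm n)

theorem h7_fwdDiff_iter_neg (f : ℕ → S) (m : ℕ) :
    (Δ_[1])^[m] (fun n => -f n) = fun n => -((Δ_[1])^[m] f n) := by
  have h := fwdDiff_iter_const_smul (1 : ℕ) (-1 : ℤ) f m
  have e1 : ((-1 : ℤ) • f) = fun n => -f n := by
    ext n
    simp
  rw [e1] at h
  rw [h]
  ext n
  simp

theorem h7_FD.neg (hg : h7_FD X M j g) : h7_FD X M j (fun n => -g n) := by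
  intro m hm n
  rw [h7_fwdDiff_iter_neg]
  exact (dvd_neg).mpr (hg m hm n)

theorem h7_FD.sub {f : ℕ → S} (hf : h7_FD X M j f) (hg : h7_FD X M j g) :
    h7_FD X M j (fun n => f n - g n) := by
  have := hf.add hg.neg
  simpa [sub_eq_add_neg] using this

theorem h7_FD.shift (hg : h7_FD X M j g) : h7_FD X M j (fun n => g (n + 1)) := by
  intro m hm n
  rw [fwdDiff_iter_comp_add]
  exact hg m hm (n + 1)

theorem h7_FD.delta (hg : h7_FD X (M + 1) j g) : h7_FD X M (j + 1) (Δ_[1] g) := by
  intro m hm n
  have := hg (m + 1) (by omega) n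
  rw [Function.iterate_succ_apply] at this
  have e : m + 1 + j = m + (j + 1) := by omega
  rwa [e] at this

theorem h7_FD.of_fwdDiff (h0 : ∀ n, X ^ j ∣ g n) (hg : h7_FD X M (j + 1) (Δ_[1] g)) :
    h7_FD X (M + 1) j g := by
  intro m hm n
  rcases Nat.eq_zero_or_pos m with rfl | hpos
  · simpa using h0 n
  · obtain ⟨k, rfl⟩ := Nat.exists_eq_succ_of_ne_zero hpos.ne'
    have := hg k (by omega) n
    rw [Function.iterate_succ_apply]
    have e : k + 1 + j = k + (j + 1) := by omega
    rwa [e]

/-- Leibniz rule: `Δ (f h) = Δ f · E h + f · Δ h`. -/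
theorem h7_fwdDiff_mul (f h : ℕ → S) :
    Δ_[1] (fun n => f n * h n)
      = (fun n => Δ_[1] f n * h (n + 1)) + (fun n => f n * Δ_[1] h n) := by
  ext n
  simp only [_root_.fwdDiff, Pi.add_apply]
  ring

theorem h7_FD_mul_aux (X : S) (m : ℕ) : ∀ (f h : ℕ → S) (a b : ℕ),
    (∀ k ≤ m, ∀ n, X ^ (k + a) ∣ (Δ_[1])^[k] f n) → (∀ k ≤ m, ∀ n, X ^ (k + b) ∣ (Δ_[1])^[k] h n) →
    ∀ n, X ^ (m + (a + b)) ∣ (Δ_[1])^[m] (fun n => f n * h n) n := by
  induction m with
  | zero =>
    intro f h a b hf hh n
    have h1 := hf 0 le_rfl n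
    have h2 := hh 0 le_rfl n
    simp only [zero_add, Function.iterate_zero, id_eq] at h1 h2 ⊢
    rw [pow_add]
    exact mul_dvd_mul h1 h2
  | succ m ih =>
    intro f h a b hf hh n
    rw [Function.iterate_succ_apply, h7_fwdDiff_mul, fwdDiff_iter_add, Pi.add_apply]
    apply dvd_add
    · -- `Δ f · E h`
      have := ih (Δ_[1] f) (fun n => h (n + 1)) (a + 1) b
        (fun k hk n => by
          have := hf (k + 1) (by omega) n
          rw [Function.iterate_succ_apply] at this
          have e : k + 1 + a = k + (a + 1) := by omega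
          rwa [e] at this)
        (fun k hk n => by
          rw [fwdDiff_iter_comp_add]
          exact hh k (by omega) (n + 1)) n
      have e : m + 1 + (a + b) = m + (a + 1 + b) := by omega
      rw [e]
      exact this
    · -- `f · Δ h`
      have := ih f (Δ_[1] h) a (b + 1)
        (fun k hk n => hf k (by omega) n)
        (fun k hk n => by
          have := hh (k + 1) (by omega) n
          rw [Function.iterate_succ_apply] at this
          have e : k + 1 + b = k + (b + 1) := by omega
          rwa [e] at this) n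
      have e : m + 1 + (a + b) = m + (a + (b + 1)) := by omega
      rw [e]
      exact this

theorem h7_FD.mul {f h : ℕ → S} {a b : ℕ} (hf : h7_FD X M a f) (hh : h7_FD X M b h) :
    h7_FD X M (a + b) (fun n => f n * h n) :=
  fun m hm n => h7_FD_mul_aux X m f h a b (fun k hk n => hf k (hk.trans hm) n)
    (fun k hk n => hh k (hk.trans hm) n) n

theorem h7_FD.const_mul {c : S} {i : ℕ} (hc : X ^ i ∣ c) (hg : h7_FD X M j g) :
    h7_FD X M (i + j) (fun n => c * g n) :=
  (h7_FD_const (M := M) hc).mul hg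

theorem h7_FD.X_mul (hg : h7_FD X M j g) : h7_FD X M (j + 1) (fun n => X * g n) := by
  have := h7_FD.const_mul (X := X) (c := X) (i := 1) (by simp) hg
  rwa [add_comm] at this

theorem h7_FD.pow {f : ℕ → S} {a : ℕ} (hf : h7_FD X M a f) (k : ℕ) :
    h7_FD X M (k * a) (fun n => f n ^ k) := by
  induction k with
  | zero =>
    simp only [pow_zero, zero_mul]
    exact h7_FD_const_zero 1
  | succ k ih =>
    have := ih.mul hf
    have e : (k + 1) * a = k * a + a := by ring
    rw [e]
    simpa [pow_succ] using this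

/-- Inverses: if `v · w = 1` and `w` has level `0` up to order `M` then so has `v`. -/
theorem h7_FD.inv {v w : ℕ → S} (hw : h7_FD X M 0 w) (hvw : ∀ n, v n * w n = 1) :
    h7_FD X M 0 v := by
  have key : ∀ M' ≤ M, h7_FD X M' 0 v := by
    intro M'
    induction M' with
    | zero =>
      intro _ m hm n
      obtain rfl : m = 0 := by omega
      simp
    | succ M' ih =>
      intro hM'
      have hv := ih (by omega)
      apply h7_FD.of_fwdDiff (fun n => by simp)
      -- `Δ v = - E v · v · Δ w`
      have hΔ : Δ_[1] v = fun n => -(v (n + 1) * v n * Δ_[1] w n) := by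
        ext n
        simp only [_root_.fwdDiff]
        have h1 := hvw n
        have h2 := hvw (n + 1)
        linear_combination (v n) * h2 - (v (n + 1)) * h1
      rw [hΔ]
      have hw' : h7_FD X M' 1 (Δ_[1] w) := by
        have : h7_FD X (M' + 1) 0 w := hw.mono_order hM'
        simpa using this.delta
      have := ((hv.shift.mul hv).mul hw').neg
      simpa using this
  exact key M le_rfl

/-- A system of sequences whose differences are of level `1` as soon as the sequences are of
level `0` is of level `0` to all orders. -/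
theorem h7_FD_of_step {ι : Type*} (X : S) (g : ι → ℕ → S)
    (step : ∀ M, (∀ i, h7_FD X M 0 (g i)) → ∀ i, h7_FD X M 1 (Δ_[1] (g i))) :
    ∀ M i, h7_FD X M 0 (g i) := by
  intro M
  induction M with
  | zero =>
    intro i m hm n
    obtain rfl : m = 0 := by omega
    simp
  | succ M ih =>
    intro i
    exact h7_FD.of_fwdDiff (fun n => by simp) (step M ih i)

/-- Newton's formula: the shape of `g p`. -/
theorem h7_FD_newton {p : ℕ} (hp : p.Prime) (hg : h7_FD X p 0 g) (h0 : g 0 = 0)
    (h1 : g 1 = X) : ∃ U G : S, g p = p * X * (1 + X * U) + X ^ p * G := by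
  have hN := shift_eq_sum_fwdDiff_iter (1 : ℕ) g p 0
  simp only [smul_eq_mul, mul_one, zero_add] at hN
  -- choose witnesses for the divisibilities
  have hc : ∀ k, ∃ c : S, k ≤ p → (Δ_[1])^[k] g 0 = X ^ k * c := by
    intro k
    by_cases hk : k ≤ p
    · obtain ⟨c, hc⟩ := hg k hk 0
      exact ⟨c, fun _ => by simpa using hc⟩
    · exact ⟨0, fun h => absurd h hk⟩
  choose c hc using hc
  have hp2 : 2 ≤ p := hp.two_le
  refine ⟨∑ k ∈ Finset.Ico 2 p, ((p.choose k / p : ℕ) : S) * X ^ (k - 2) * c k, c p, ?_⟩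
  rw [hN, Finset.range_add_one, Finset.sum_insert (by simp), Nat.choose_self, one_smul, hc p le_rfl]
  have hsplit : Finset.range p = insert 0 (insert 1 (Finset.Ico 2 p)) := by
    ext k
    simp only [Finset.mem_range, Finset.mem_insert, Finset.mem_Ico]
    omega
  rw [hsplit, Finset.sum_insert (by simp), Finset.sum_insert (by simp)]
  simp only [Function.iterate_zero, id_eq, h0, smul_zero, zero_add, Nat.choose_one_right,
    Function.iterate_one]
  have hΔ1 : Δ_[1] g 0 = X := by simp [_root_.fwdDiff, h0, h1]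
  rw [hΔ1]
  have hsum : ∑ k ∈ Finset.Ico 2 p, p.choose k • (Δ_[1])^[k] g 0
      = (p : S) * X * (X * ∑ k ∈ Finset.Ico 2 p, ((p.choose k / p : ℕ) : S) * X ^ (k - 2) * c k) := by
    rw [Finset.mul_sum, Finset.mul_sum]
    apply Finset.sum_congr rfl
    intro k hk
    rw [Finset.mem_Ico] at hk
    have hdvd : p ∣ p.choose k := hp.dvd_choose_self (by omega) hk.2
    obtain ⟨q, hq⟩ := hdvd
    have hq' : p.choose k / p = q := by
      rw [hq, Nat.mul_div_cancel_left _ hp.pos]
    rw [hc k hk.2.le, hq', hq, nsmul_eq_mul]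
    have hX : X ^ k = X ^ 2 * X ^ (k - 2) := by
      rw [← pow_add]
      congr 1
      omega
    rw [hX]
    push_cast
    ring
  rw [hsum, nsmul_eq_mul]
  ring

end Fermat.Agent.Lib.S13
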