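/-
S13 project, stream (E), piece (E-h) (helper4): the hypotheses of helper8's local theorem
`LocalTheoremStatement` for the inertia group `S := A.inertiaSubgroupIn ℚ` of a place `A` of `ℚ̄`
over the prime `p = P.p` of a Frey package, bundled in one lemma.
-/
import Mathlib
import Fermat.Agent.Lib.S05.Assembly
import Fermat.Agent.Lib.S13.Defs
import Fermat.Agent.Lib.S13.InertiaFinal

set_option autoImplicit false

namespace Fermat.Agent.Lib.S13

open Fermat.Agent.Lib.S05

theorem h4g_inertia_hyps (P : FreyPackage) (A : ValuationSubring Qbar)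
    (hA : A.LiesOverPrime P.p) :
    (∀ σ ∈ (A.inertiaSubgroupIn ℚ : Set GQ), ∀ x, A.valuation (σ x) = A.valuation x) ∧
    (∀ σ ∈ (A.inertiaSubgroupIn ℚ : Set GQ), ∀ x, A.valuation x ≤ 1 →
      A.valuation (σ x - x) < 1) ∧
    P.p.Prime ∧ P.p ≠ 2 ∧
    A.valuation (P.p : Qbar) < 1 ∧ A.valuation (2 : Qbar) = 1 ∧
    (∀ z : Qbar, z ≠ 0 → (∀ σ ∈ (A.inertiaSubgroupIn ℚ : Set GQ), σ z = z) →
      ∃ m : ℤ, A.valuation z = A.valuation (P.p : Qbar) ^ m) := by
  have := h9_isAlgebraic_Qbar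
  have hp2 : P.p ≠ 2 := by have := P.hp5; omega
  refine ⟨?_, ?_, P.pp, hp2, h9_val_q_lt_one A hA, ?_, ?_⟩
  · intro σ hσ x
    exact valuation_apply_of_mem_decomposition A (mem_decomposition_of_mem_inertia A hσ) x
  · intro σ hσ x hx
    exact valuation_sub_lt_one_of_mem_inertia A hσ ((A.valuation_le_one_iff x).mp hx)
  · have h := valuation_natCast_eq_one_of_prime_ne A hA P.pp Nat.prime_two (Ne.symm hp2)
    simpa using h
  · intro z hz hfix
    exact h5_val_of_inertia_fixed A P.pp hA z hz (fun σ hσ => hfix σ hσ)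

end Fermat.Agent.Lib.S13
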