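/-
S13 project, stream (E), piece (G2) of (E-h) EGlobal (helper5): counting lemmas.

* `h5g_card_line`: a proper nonzero subspace of the two-dimensional `𝔽_p`-space `FreyV P` has
  exactly `p` elements;
* `h5g_card_map`: the image of a subgroup under an injective homomorphism has the same cardinality.
-/
import Mathlib
import Fermat.Agent.Lib.S13.Defs

set_option autoImplicit false

open WeierstrassCurve WeierstrassCurve.Affine WeierstrassCurve.Affine.Point

namespace Fermat.Agent.Lib.S13

/-- A proper nonzero subspace of a two-dimensional space over `ZMod p` has `p` elements. -/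
theorem h5g_card_line_gen {p : ℕ} [Fact p.Prime] {V : Type*} [AddCommGroup V] [Module (ZMod p) V]
    (hV : Module.finrank (ZMod p) V = 2) (N : Submodule (ZMod p) V) (hN0 : N ≠ ⊥)
    (hN1 : N ≠ ⊤) : Nat.card N = p := by
  have : FiniteDimensional (ZMod p) V := Module.finite_of_finrank_pos (by omega)
  have hN2 : Module.finrank (ZMod p) N < 2 := hV ▸ Submodule.finrank_lt hN1
  have hN3 : Module.finrank (ZMod p) N ≠ 0 := fun h => hN0 (Submodule.finrank_eq_zero.1 h)
  have hN : Module.finrank (ZMod p) N = 1 := by omega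
  rw [Module.natCard_eq_pow_finrank (K := ZMod p) (V := N), hN, pow_one, Nat.card_zmod]

/-- A Galois-stable line of `FreyV P` (any proper nonzero subspace) has `p` elements. -/
theorem h5g_card_line (P : FreyPackage) (hV : Module.finrank (ZMod P.p) (FreyV P) = 2)
    (N : Submodule (ZMod P.p) (FreyV P)) (hN0 : N ≠ ⊥) (hN1 : N ≠ ⊤) : Nat.card N = P.p := by
  have : Fact P.p.Prime := ⟨P.pp⟩
  exact h5g_card_line_gen hV N hN0 hN1

/-- The image of a subgroup under an injective homomorphism has the same cardinality. -/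
theorem h5g_card_map {G H : Type*} [AddGroup G] [AddGroup H] (f : G →+ H)
    (hf : Function.Injective f) (K : AddSubgroup G) : Nat.card (K.map f) = Nat.card K :=
  Nat.card_congr (K.equivMapOfInjective f hf).toEquiv.symm

/-- The subspace `N` of `FreyV P`, as an additive subgroup of the group of points of the Frey
curve over `Qbar`. -/
noncomputable def h5g_lineSubgroup (P : FreyPackage) (N : Submodule (ZMod P.p) (FreyV P)) :
    AddSubgroup (P.freyCurve⁄Qbar).Point :=
  N.toAddSubgroup.map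
    (Submodule.torsionBy ℤ (P.freyCurve⁄Qbar).Point P.p).subtype.toAddMonoidHom

theorem h5g_mem_lineSubgroup {P : FreyPackage} {N : Submodule (ZMod P.p) (FreyV P)}
    {Q : (P.freyCurve⁄Qbar).Point} :
    Q ∈ h5g_lineSubgroup P N ↔
      ∃ h : Q ∈ Submodule.torsionBy ℤ (P.freyCurve⁄Qbar).Point P.p, (⟨Q, h⟩ : FreyV P) ∈ N := by
  constructor
  · rintro ⟨x, hx, rfl⟩
    exact ⟨x.2, hx⟩
  · rintro ⟨h, hx⟩
    exact ⟨⟨Q, h⟩, hx, rfl⟩

theorem h5g_coe_mem_lineSubgroup {P : FreyPackage} {N : Submodule (ZMod P.p) (FreyV P)}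
    (x : FreyV P) : (x : (P.freyCurve⁄Qbar).Point) ∈ h5g_lineSubgroup P N ↔ x ∈ N := by
  rw [h5g_mem_lineSubgroup]
  exact ⟨fun ⟨_, h⟩ => h, fun h => ⟨x.2, h⟩⟩

theorem h5g_card_lineSubgroup (P : FreyPackage) (N : Submodule (ZMod P.p) (FreyV P)) :
    Nat.card (h5g_lineSubgroup P N) = Nat.card N :=
  h5g_card_map _ (Submodule.subtype_injective _) N.toAddSubgroup

/-- The points of the line are `p`-torsion. -/
theorem h5g_nsmul_eq_zero_of_mem {P : FreyPackage} {N : Submodule (ZMod P.p) (FreyV P)}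
    {Q : (P.freyCurve⁄Qbar).Point} (hQ : Q ∈ h5g_lineSubgroup P N) : P.p • Q = 0 := by
  obtain ⟨h, -⟩ := h5g_mem_lineSubgroup.mp hQ
  have := (Submodule.mem_torsionBy_iff _ _).mp h
  rwa [Nat.cast_smul_eq_nsmul] at this

/-- Galois-stability of the line, on the level of points. -/
theorem h5g_lineSubgroup_stable {P : FreyPackage} {N : Submodule (ZMod P.p) (FreyV P)}
    (hN : IsGaloisStable ℚ N) (σ : GQ) {Q : (P.freyCurve⁄Qbar).Point}
    (hQ : Q ∈ h5g_lineSubgroup P N) : Point.map σ.toAlgHom Q ∈ h5g_lineSubgroup P N := by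
  obtain ⟨h, hx⟩ := h5g_mem_lineSubgroup.mp hQ
  have := hN σ ⟨Q, h⟩ hx
  exact (h5g_coe_mem_lineSubgroup (σ • (⟨Q, h⟩ : FreyV P))).mpr this

/-- The Galois action on `FreyV P`, on the level of points. -/
theorem h5g_coe_smul (P : FreyPackage) (σ : GQ) (x : FreyV P) :
    ((σ • x : FreyV P) : (P.freyCurve⁄Qbar).Point)
      = Point.map σ.toAlgHom (x : (P.freyCurve⁄Qbar).Point) := rfl

end Fermat.Agent.Lib.S13
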