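/-
S13 project, stream (E), piece of (E-h) EGlobal (helper5): pulling the local theorem (E4) back from a
model `Y² = X³ + aX² + bX` of the Frey curve to the Frey curve itself.

Given a place `A | p`, a model `⟨0, a, 0, b, 0⟩` over `ℚ` which is `GoodOrBadModel` at `A`, and an
additive bijection `Φ` between the points of the Frey curve and the points of the model over `Qbar`
commuting with the inertia group of `A`, the two alternatives of `LocalTheoremStatement` for the image
of a Galois-stable line `N` give the two alternatives of `LocalAtPStatement` for `N`.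
-/
import Mathlib
import Fermat.Agent.Lib.S05.Assembly
import Fermat.Agent.Lib.S13.ELocalDefs
import Fermat.Agent.Lib.S13.EGlobalLine
import Fermat.Agent.Lib.S13.InertiaFinal

set_option autoImplicit false

open WeierstrassCurve WeierstrassCurve.Affine WeierstrassCurve.Affine.Point

namespace Fermat.Agent.Lib.S13

open Fermat.Agent.Lib.S05 in
/-- The hypotheses of `LocalTheoremStatement` for the inertia group of a place over `p`. -/
theorem h5g_inertia_hyps (P : FreyPackage) (A : ValuationSubring Qbar)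
    (hA : A.LiesOverPrime P.p) :
    (∀ σ ∈ (A.inertiaSubgroupIn ℚ : Set GQ), ∀ x, A.valuation (σ x) = A.valuation x) ∧
    (∀ σ ∈ (A.inertiaSubgroupIn ℚ : Set GQ), ∀ x, A.valuation x ≤ 1 →
      A.valuation (σ x - x) < 1) ∧
    A.valuation (P.p : Qbar) < 1 ∧ A.valuation (2 : Qbar) = 1 ∧
    (∀ z : Qbar, z ≠ 0 → (∀ σ ∈ (A.inertiaSubgroupIn ℚ : Set GQ), σ z = z) →
      ∃ m : ℤ, A.valuation z = A.valuation (P.p : Qbar) ^ m) := by
  have := h9_isAlgebraic_Qbar
  refine ⟨fun σ hσ z => ?_, fun σ hσ z hz => ?_, h9_val_q_lt_one A hA, ?_, fun z hz hfix => ?_⟩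
  · exact valuation_apply_of_mem_decomposition A (mem_decomposition_of_mem_inertia A hσ) z
  · exact valuation_sub_lt_one_of_mem_inertia A hσ ((A.valuation_le_one_iff z).mp hz)
  · have hp2 : (2 : ℕ) ≠ P.p := by have := P.hp5; omega
    have := valuation_natCast_eq_one_of_prime_ne A hA P.pp Nat.prime_two hp2
    simpa using this
  · exact h5_val_of_inertia_fixed A P.pp hA z hz hfix

/-- Pulling the local theorem back along an inertia-equivariant isomorphism of point groups. -/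
theorem h5g_local_of_model (hLoc : LocalTheoremStatement) (P : FreyPackage)
    (hV : Module.finrank (ZMod P.p) (FreyV P) = 2)
    (N : Submodule (ZMod P.p) (FreyV P)) (hNs : IsGaloisStable ℚ N) (hN0 : N ≠ ⊥) (hN1 : N ≠ ⊤)
    (A : ValuationSubring Qbar) (hA : A.LiesOverPrime P.p) (a b : ℚ)
    (hmodel : GoodOrBadModel (F₀ := ℚ) A.valuation P.p a b)
    (Φ : (P.freyCurve⁄Qbar).Point ≃+ ((⟨0, a, 0, b, 0⟩ : WeierstrassCurve ℚ)⁄Qbar).Point)
    (hΦ : ∀ σ ∈ A.inertiaSubgroupIn ℚ, ∀ Q : (P.freyCurve⁄Qbar).Point,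
      Φ (Point.map σ.toAlgHom Q) = Point.map σ.toAlgHom (Φ Q)) :
    (∀ σ ∈ A.inertiaSubgroupIn ℚ, ∀ n ∈ N, σ • n = n) ∨
      (∀ σ ∈ A.inertiaSubgroupIn ℚ, ∀ x : FreyV P, σ • x - x ∈ N) := by
  obtain ⟨hσv, hσm, hvp, hv2, hE2⟩ := h5g_inertia_hyps P A hA
  have hp2 : P.p ≠ 2 := by have := P.hp5; omega
  set N' : AddSubgroup ((⟨0, a, 0, b, 0⟩ : WeierstrassCurve ℚ)⁄Qbar).Point :=
    (h5g_lineSubgroup P N).map Φ.toAddMonoidHom with hN'
  have hcard : Nat.card N' = P.p := by
    rw [hN', h5g_card_map _ Φ.injective, h5g_card_lineSubgroup, h5g_card_line P hV N hN0 hN1]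
  have hstab : ∀ σ ∈ (A.inertiaSubgroupIn ℚ : Set GQ), ∀ Q ∈ N',
      Point.map σ.toAlgHom Q ∈ N' := by
    rintro σ hσ _ ⟨Q, hQ, rfl⟩
    refine ⟨Point.map σ.toAlgHom Q, h5g_lineSubgroup_stable hNs σ hQ, ?_⟩
    exact hΦ σ hσ Q
  rcases hLoc A.valuation (A.inertiaSubgroupIn ℚ : Set GQ) hσv hσm P.p P.pp hp2 hvp hv2 hE2 a b
    hmodel N' hcard hstab with h | h
  · left
    intro σ hσ n hn
    apply Subtype.ext
    have h1 : Φ (n : (P.freyCurve⁄Qbar).Point) ∈ N' :=
      ⟨_, (h5g_coe_mem_lineSubgroup n).mpr hn, rfl⟩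
    have h2 := h σ hσ _ h1
    rw [← hΦ σ hσ] at h2
    exact Φ.injective h2
  · right
    intro σ hσ x
    have hx : P.p • Φ (x : (P.freyCurve⁄Qbar).Point) = 0 := by
      rw [← map_nsmul]
      have := (Submodule.mem_torsionBy_iff _ _).mp x.2
      rw [Nat.cast_smul_eq_nsmul] at this
      rw [this, _root_.map_zero]
    obtain ⟨Q, hQ, hQe⟩ := h σ hσ _ hx
    have hQe' : Φ Q = Φ (Point.map σ.toAlgHom (x : (P.freyCurve⁄Qbar).Point)
        - (x : (P.freyCurve⁄Qbar).Point)) := by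
      rw [map_sub, hΦ σ hσ]
      exact hQe
    have hQ' := Φ.injective hQe'
    rw [hQ'] at hQ
    exact (h5g_coe_mem_lineSubgroup (σ • x - x)).mp hQ

end Fermat.Agent.Lib.S13
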