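/-
S13 project, stream (E) (helper8), layer (E-a): the EXACT addition law on the kernel of reduction
in the coordinates `t = x / y`, `s = 1 / y` (the origin is `(0, 0)`), written with denominators
that are units of the valuation ring.  Extracted from helper7's `Lib/S05/KernelTorsion.lean`.

For two points `(t₁, s₁)`, `(t₂, s₂)` of the curve `s = t³ + a₂ t² s + a₄ t s² + a₆ s³` put
  `A = t₂² + t₁ t₂ + t₁² + a₂ (t₁ + t₂) s₂ + a₄ s₂²`,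
  `B = a₂ t₁² + a₄ t₁ (s₁ + s₂) + a₆ (s₁² + s₁ s₂ + s₂²)`,
  `α = A / (1 - B)` (the slope of the chord / tangent in the `(t, s)`-plane),
  `C = 1 + a₂ α + a₄ α² + a₆ α³`, `N = a₂ + 2 a₄ α + 3 a₆ α²`.
Then the sum `(t₃, s₃)` satisfies
  `C (t₃ - t₁ - t₂) = (s₂ - α t₂) N`,  `s₃ = s₁ + α (t₃ - t₁ + 2 t₂) - 2 s₂`.
-/
import Mathlib
import Fermat.Agent.Lib.S05.KernelTorsion

set_option autoImplicit false

namespace Fermat.Agent.Lib.S13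

open Fermat.Agent.Lib.S05 WeierstrassCurve

/-! ### The formulas, in an arbitrary commutative ring -/

section Phi

variable {S : Type*} [CommRing S]

/-- Numerator of the slope. -/
def h8_phiA (a₂ a₄ t₁ t₂ s₂ : S) : S :=
  t₂ ^ 2 + t₁ * t₂ + t₁ ^ 2 + a₂ * ((t₁ + t₂) * s₂) + a₄ * s₂ ^ 2

/-- `1 - B` is the denominator of the slope. -/
def h8_phiB (a₂ a₄ a₆ t₁ s₁ s₂ : S) : S :=
  a₂ * t₁ ^ 2 + a₄ * (t₁ * (s₁ + s₂)) + a₆ * (s₁ ^ 2 + s₁ * s₂ + s₂ ^ 2)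

/-- Leading coefficient of the cubic cut out by the line of slope `α`. -/
def h8_phiC (a₂ a₄ a₆ α : S) : S := 1 + (a₂ * α + a₄ * α ^ 2 + a₆ * α ^ 3)

def h8_phiN (a₂ a₄ a₆ α : S) : S := a₂ + 2 * a₄ * α + 3 * a₆ * α ^ 2

/-- The curve in the `(t, s)`-plane. -/
def h8_onCurve (a₂ a₄ a₆ t s : S) : Prop :=
  s = t ^ 3 + a₂ * t ^ 2 * s + a₄ * t * s ^ 2 + a₆ * s ^ 3

theorem h8_phi_key {a₂ a₄ a₆ t₁ s₁ t₂ s₂ : S} (C1 : h8_onCurve a₂ a₄ a₆ t₁ s₁)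
    (C2 : h8_onCurve a₂ a₄ a₆ t₂ s₂) :
    (s₂ - s₁) * (1 - h8_phiB a₂ a₄ a₆ t₁ s₁ s₂) = (t₂ - t₁) * h8_phiA a₂ a₄ t₁ t₂ s₂ := by
  unfold h8_onCurve at C1 C2
  unfold h8_phiA h8_phiB
  linear_combination C2 - C1

end Phi

/-! ### Pure algebra: the third point of a line -/

section core

variable {L : Type*} [Field L]

/-- Vieta form: `X1, X2, X3` are the roots of `X³ + a₂X² + a₄X + a₆ - (ℓX + ν)²`.  Then, with
`α = -ℓ/ν`, the three points `(Xᵢ / Yᵢ, 1 / Yᵢ)`, `Yᵢ = ℓXᵢ + ν`, lie on the line `s = α t + 1/ν`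
and the sum of their `t`-coordinates is `-(1/ν) N(α) / C(α)`. -/
theorem h8_core_exact {a₂ a₄ a₆ X1 X2 X3 ℓ ν : L}
    (V2 : a₂ = ℓ ^ 2 - (X1 + X2 + X3))
    (V4 : a₄ = 2 * ℓ * ν + (X1 * X2 + X1 * X3 + X2 * X3))
    (V6 : a₆ = ν ^ 2 - X1 * X2 * X3)
    (hν : ν ≠ 0) (hY1 : ℓ * X1 + ν ≠ 0) (hY2 : ℓ * X2 + ν ≠ 0) (hY3 : ℓ * X3 + ν ≠ 0) :
    h8_phiC a₂ a₄ a₆ (-ℓ / ν) * (X3 / (ℓ * X3 + ν) + X1 / (ℓ * X1 + ν) + X2 / (ℓ * X2 + ν))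
      = -((1 / ν) * h8_phiN a₂ a₄ a₆ (-ℓ / ν)) := by
  obtain ⟨α, hαdef⟩ : ∃ α : L, ℓ = -α * ν := ⟨-ℓ / ν, by field_simp⟩
  have hα' : -ℓ / ν = α := by rw [hαdef]; field_simp
  rw [hα']
  have hf : ∀ X : L, ℓ * X + ν = ν * (1 - α * X) := by
    intro X; rw [hαdef]; ring
  have hu : ∀ X : L, ℓ * X + ν ≠ 0 → 1 - α * X ≠ 0 := by
    intro X hX h0
    apply hX
    rw [hf, h0, mul_zero]
  have hu1 := hu X1 hY1
  have hu2 := hu X2 hY2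
  have hu3 := hu X3 hY3
  have hA3' : h8_phiC a₂ a₄ a₆ α = (1 - α * X1) * (1 - α * X2) * (1 - α * X3) := by
    unfold h8_phiC
    rw [V2, V4, V6, hαdef]; ring
  have hB : h8_phiN a₂ a₄ a₆ α
      = -(X1 * (1 - α * X2) * (1 - α * X3) + (1 - α * X1) * X2 * (1 - α * X3)
          + (1 - α * X1) * (1 - α * X2) * X3) := by
    unfold h8_phiN
    rw [V2, V4, V6, hαdef]; ring
  rw [hf, hf, hf, hA3', hB]
  field_simp
  ring

end core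

/-! ### Chord and tangent, exact form -/

section exact

variable {L : Type*} [Field L] {Γ₀ : Type*} [LinearOrderedCommGroupWithZero Γ₀]
  (v : Valuation L Γ₀)

/-- `v (1 - B) = 1` for small arguments. -/
theorem h8_v_one_sub_phiB {a₂ a₄ a₆ t₁ s₁ s₂ : L} {r : Γ₀} (hr : r < 1)
    (h2 : v a₂ ≤ 1) (h4 : v a₄ ≤ 1) (h6 : v a₆ ≤ 1)
    (ht1 : v t₁ ≤ r) (hs1 : v s₁ ≤ r) (hs2 : v s₂ ≤ r) :
    v (1 - h8_phiB a₂ a₄ a₆ t₁ s₁ s₂) = 1 := by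
  have hrr : r * r = r ^ 2 := (sq r).symm
  have hr2lt : r ^ 2 < 1 := pow_lt_one₀ zero_le hr (by norm_num)
  have e_t1sq : v (t₁ ^ 2) ≤ r ^ 2 := by rw [map_pow]; exact pow_le_pow_left₀ zero_le ht1 2
  have e_s1sq : v (s₁ ^ 2) ≤ r ^ 2 := by rw [map_pow]; exact pow_le_pow_left₀ zero_le hs1 2
  have e_s2sq : v (s₂ ^ 2) ≤ r ^ 2 := by rw [map_pow]; exact pow_le_pow_left₀ zero_le hs2 2
  have e_s1s2 : v (s₁ * s₂) ≤ r ^ 2 := hrr ▸ kt_est_mul v hs1 hs2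
  apply Valuation.map_one_sub_of_lt
  unfold h8_phiB
  refine lt_of_le_of_lt (v.map_add_le (g := r ^ 2) (v.map_add_le ?_ ?_) ?_) hr2lt
  · exact kt_est_int_mul v h2 e_t1sq
  · refine kt_est_int_mul v h4 ?_
    exact hrr ▸ kt_est_mul v ht1 (v.map_add_le hs1 hs2)
  · exact kt_est_int_mul v h6 (v.map_add_le (v.map_add_le e_s1sq e_s1s2) e_s2sq)

/-- `v A ≤ r²` for small arguments. -/
theorem h8_v_phiA_le {a₂ a₄ t₁ t₂ s₂ : L} {r : Γ₀}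
    (h2 : v a₂ ≤ 1) (h4 : v a₄ ≤ 1)
    (ht1 : v t₁ ≤ r) (ht2 : v t₂ ≤ r) (hs2 : v s₂ ≤ r) :
    v (h8_phiA a₂ a₄ t₁ t₂ s₂) ≤ r ^ 2 := by
  have hrr : r * r = r ^ 2 := (sq r).symm
  have e_t1sq : v (t₁ ^ 2) ≤ r ^ 2 := by rw [map_pow]; exact pow_le_pow_left₀ zero_le ht1 2
  have e_t2sq : v (t₂ ^ 2) ≤ r ^ 2 := by rw [map_pow]; exact pow_le_pow_left₀ zero_le ht2 2
  have e_s2sq : v (s₂ ^ 2) ≤ r ^ 2 := by rw [map_pow]; exact pow_le_pow_left₀ zero_le hs2 2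
  have e_t1t2 : v (t₁ * t₂) ≤ r ^ 2 := hrr ▸ kt_est_mul v ht1 ht2
  unfold h8_phiA
  refine v.map_add_le (v.map_add_le (v.map_add_le (v.map_add_le e_t2sq e_t1t2) e_t1sq) ?_) ?_
  · refine kt_est_int_mul v h2 ?_
    exact hrr ▸ kt_est_mul v (v.map_add_le ht1 ht2) hs2
  · exact kt_est_int_mul v h4 e_s2sq

/-- The exact conclusion, as a predicate on the six coordinates. -/
def h8_AddExact (a₂ a₄ a₆ t₁ s₁ t₂ s₂ t₃ s₃ : L) : Prop :=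
  1 - h8_phiB a₂ a₄ a₆ t₁ s₁ s₂ ≠ 0 ∧
  h8_phiC a₂ a₄ a₆ (h8_phiA a₂ a₄ t₁ t₂ s₂ / (1 - h8_phiB a₂ a₄ a₆ t₁ s₁ s₂)) ≠ 0 ∧
  h8_phiC a₂ a₄ a₆ (h8_phiA a₂ a₄ t₁ t₂ s₂ / (1 - h8_phiB a₂ a₄ a₆ t₁ s₁ s₂)) * (t₃ - t₁ - t₂)
    = (s₂ - h8_phiA a₂ a₄ t₁ t₂ s₂ / (1 - h8_phiB a₂ a₄ a₆ t₁ s₁ s₂) * t₂)
      * h8_phiN a₂ a₄ a₆ (h8_phiA a₂ a₄ t₁ t₂ s₂ / (1 - h8_phiB a₂ a₄ a₆ t₁ s₁ s₂)) ∧
  s₃ = s₁ + h8_phiA a₂ a₄ t₁ t₂ s₂ / (1 - h8_phiB a₂ a₄ a₆ t₁ s₁ s₂) * (t₃ - t₁ + 2 * t₂) - 2 * s₂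

/-- From the line relations and the sum formula to the exact conclusion. -/
theorem h8_addExact_of_line {a₂ a₄ a₆ t₁ s₁ t₂ s₂ t₃ s₃ α β : L}
    (hD : 1 - h8_phiB a₂ a₄ a₆ t₁ s₁ s₂ ≠ 0)
    (hα : (1 - h8_phiB a₂ a₄ a₆ t₁ s₁ s₂) * α = h8_phiA a₂ a₄ t₁ t₂ s₂)
    (hC : h8_phiC a₂ a₄ a₆ α ≠ 0)
    (l1 : s₁ = α * t₁ + β) (l2 : s₂ = α * t₂ + β) (l3 : s₃ = α * t₃ - β)
    (hsum : h8_phiC a₂ a₄ a₆ α * (t₃ - t₁ - t₂) = β * h8_phiN a₂ a₄ a₆ α) :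
    h8_AddExact a₂ a₄ a₆ t₁ s₁ t₂ s₂ t₃ s₃ := by
  have hα' : h8_phiA a₂ a₄ t₁ t₂ s₂ / (1 - h8_phiB a₂ a₄ a₆ t₁ s₁ s₂) = α := by
    rw [← hα]; field_simp
  refine ⟨hD, ?_, ?_, ?_⟩
  · rw [hα']; exact hC
  · rw [hα', hsum]
    congr 1
    rw [l2]; ring
  · rw [hα', l3, l1, l2]; ring

/-- The chord case. -/
theorem h8_chord_exact {a₂ a₄ a₆ X1 Y1 X2 Y2 ℓ X3 Y3 : L}
    (h2 : v a₂ ≤ 1) (h4 : v a₄ ≤ 1) (h6 : v a₆ ≤ 1)
    (hE1 : Y1 ^ 2 = X1 ^ 3 + a₂ * X1 ^ 2 + a₄ * X1 + a₆)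
    (hE2 : Y2 ^ 2 = X2 ^ 3 + a₂ * X2 ^ 2 + a₄ * X2 + a₆)
    (hk1 : 1 < v X1) (hk2 : 1 < v X2) (hX : X1 ≠ X2)
    (hℓ : ℓ = (Y1 - Y2) / (X1 - X2)) (hX3 : X3 = ℓ ^ 2 - a₂ - X1 - X2)
    (hY3 : Y3 = -(ℓ * (X3 - X1) + Y1)) :
    Y3 ≠ 0 ∧ h8_AddExact a₂ a₄ a₆ (X1 / Y1) (1 / Y1) (X2 / Y2) (1 / Y2) (X3 / Y3) (1 / Y3) := by
  have hlt1 : v (X1 / Y1) < 1 := kt_vt_lt_one v h2 h4 h6 hE1 hk1
  have hlt2 : v (X2 / Y2) < 1 := kt_vt_lt_one v h2 h4 h6 hE2 hk2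
  obtain ⟨r, hrdef⟩ : ∃ r : Γ₀, r = max (v (X1 / Y1)) (v (X2 / Y2)) := ⟨_, rfl⟩
  have hr : r < 1 := by rw [hrdef]; exact max_lt hlt1 hlt2
  have ht1 : v (X1 / Y1) ≤ r := by rw [hrdef]; exact le_max_left _ _
  have ht2 : v (X2 / Y2) ≤ r := by rw [hrdef]; exact le_max_right _ _
  obtain ⟨hY1, hs1, hs1'⟩ := kt_ker_facts v hr h2 h4 h6 hE1 hk1 ht1
  obtain ⟨hY2, hs2, hs2'⟩ := kt_ker_facts v hr h2 h4 h6 hE2 hk2 ht2
  obtain ⟨hν, hα⟩ := kt_chord_alpha v hr h2 h4 h6 hE1 hE2 hY1 hY2 hX ht1 ht2 hs1' hs2'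
  rw [← hℓ] at hν hα
  have hX' : X1 - X2 ≠ 0 := sub_ne_zero.mpr hX
  have hℓ' : ℓ * (X1 - X2) = Y1 - Y2 := by rw [hℓ]; field_simp
  obtain ⟨ν, hνdef⟩ : ∃ ν : L, ν = Y1 - ℓ * X1 := ⟨_, rfl⟩
  rw [← hνdef] at hν hα
  have e1 : ℓ * X1 + ν = Y1 := by rw [hνdef]; ring
  have e2 : ℓ * X2 + ν = Y2 := by rw [hνdef]; linear_combination -hℓ'
  have V2 : a₂ = ℓ ^ 2 - (X1 + X2 + X3) := by rw [hX3]; ring
  have V4 : a₄ = 2 * ℓ * ν + (X1 * X2 + X1 * X3 + X2 * X3) := by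
    have : (X1 - X2) * (a₄ - (2 * ℓ * ν + (X1 * X2 + X1 * X3 + X2 * X3))) = 0 := by
      rw [← e1] at hE1
      rw [← e2] at hE2
      rw [hX3]
      linear_combination hE2 - hE1
    rcases mul_eq_zero.mp this with h | h
    · exact absurd h hX'
    · exact sub_eq_zero.mp h
  have V6 : a₆ = ν ^ 2 - X1 * X2 * X3 := by
    have hE1' := hE1
    rw [← e1] at hE1'
    linear_combination -hE1' - X1 ^ 2 * V2 - X1 * V4
  obtain ⟨hY3ne, -, -⟩ := kt_core v hr h2 h4 h6 V2 V4 V6 hν (by rw [e1]; exact hY1)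
    (by rw [e2]; exact hY2) hα (by rw [e1]; exact ht1) (by rw [e2]; exact ht2)
    (by rw [e1]; exact hs1)
  have hY3' : Y3 = -(ℓ * X3 + ν) := by rw [hY3, hνdef]; ring
  have hY3ne' : Y3 ≠ 0 := by rw [hY3']; exact neg_ne_zero.mpr hY3ne
  refine ⟨hY3ne', ?_⟩
  have core := h8_core_exact V2 V4 V6 hν (by rw [e1]; exact hY1) (by rw [e2]; exact hY2) hY3ne
  rw [e1, e2] at core
  -- the curve in the (t,s)-plane
  have C1 : h8_onCurve a₂ a₄ a₆ (X1 / Y1) (1 / Y1) := kt_ts_eq hY1 hE1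
  have C2 : h8_onCurve a₂ a₄ a₆ (X2 / Y2) (1 / Y2) := kt_ts_eq hY2 hE2
  have key := h8_phi_key C1 C2
  -- the line
  have l1 : 1 / Y1 = -ℓ / ν * (X1 / Y1) + 1 / ν := by
    field_simp
    linear_combination e1
  have l2 : 1 / Y2 = -ℓ / ν * (X2 / Y2) + 1 / ν := by
    field_simp
    linear_combination e2
  have l3 : 1 / Y3 = -ℓ / ν * (X3 / Y3) - 1 / ν := by
    rw [hY3']
    field_simp
    ring
  have hD1 : v (1 - h8_phiB a₂ a₄ a₆ (X1 / Y1) (1 / Y1) (1 / Y2)) = 1 :=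
    h8_v_one_sub_phiB v hr h2 h4 h6 ht1 hs1' hs2'
  have hD : 1 - h8_phiB a₂ a₄ a₆ (X1 / Y1) (1 / Y1) (1 / Y2) ≠ 0 := by
    intro h; rw [h, map_zero] at hD1; exact zero_ne_one hD1
  -- t₁ ≠ t₂
  have htne : X2 / Y2 - X1 / Y1 ≠ 0 := by
    intro h0
    rw [h0, zero_mul] at key
    have hs : 1 / Y2 - 1 / Y1 = 0 := (mul_eq_zero.mp key).resolve_right hD
    have hYY : Y1 = Y2 := by
      have := sub_eq_zero.mp hs
      field_simp at this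
      exact this
    apply hX
    have h0' := sub_eq_zero.mp h0
    rw [hYY] at h0'
    field_simp at h0'
    exact h0'.symm
  have hαeq : (1 - h8_phiB a₂ a₄ a₆ (X1 / Y1) (1 / Y1) (1 / Y2)) * (-ℓ / ν)
      = h8_phiA a₂ a₄ (X1 / Y1) (X2 / Y2) (1 / Y2) := by
    have hs : 1 / Y2 - 1 / Y1 = -ℓ / ν * (X2 / Y2 - X1 / Y1) := by rw [l1, l2]; ring
    rw [hs] at key
    have : (X2 / Y2 - X1 / Y1) * ((1 - h8_phiB a₂ a₄ a₆ (X1 / Y1) (1 / Y1) (1 / Y2)) * (-ℓ / ν)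
        - h8_phiA a₂ a₄ (X1 / Y1) (X2 / Y2) (1 / Y2)) = 0 := by
      linear_combination key
    exact sub_eq_zero.mp ((mul_eq_zero.mp this).resolve_left htne)
  -- `C ≠ 0`
  have hC : h8_phiC a₂ a₄ a₆ (-ℓ / ν) ≠ 0 := by
    intro h0
    rw [h0, zero_mul] at core
    have hN : (1 / ν) * h8_phiN a₂ a₄ a₆ (-ℓ / ν) = 0 := by
      have := core.symm
      exact neg_eq_zero.mp this
    -- use the valuation: `v C = 1`
    have hvα : v (-ℓ / ν) < 1 := by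
      have hvν : v ν ≠ 0 := (Valuation.ne_zero_iff v).mpr hν
      rw [map_div₀, Valuation.map_neg, div_lt_one₀ (zero_lt_iff.mpr hvν)]
      have hr2lt : r ^ 2 < 1 := pow_lt_one₀ zero_le hr (by norm_num)
      calc v ℓ ≤ r ^ 2 * v ν := hα
        _ < 1 * v ν := by
            exact mul_lt_mul_of_pos_right hr2lt (zero_lt_iff.mpr hvν)
        _ = v ν := one_mul _
    have hvC : v (h8_phiC a₂ a₄ a₆ (-ℓ / ν)) = 1 := by
      unfold h8_phiC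
      apply Valuation.map_one_add_of_lt
      have hvα' : v (-ℓ / ν) ≤ 1 := le_of_lt hvα
      refine v.map_add_lt (v.map_add_lt ?_ ?_) ?_
      · exact lt_of_le_of_lt (kt_est_int_mul v h2 le_rfl) hvα
      · refine lt_of_le_of_lt (kt_est_int_mul v h4 le_rfl) ?_
        rw [map_pow]; exact pow_lt_one₀ zero_le hvα (by norm_num)
      · refine lt_of_le_of_lt (kt_est_int_mul v h6 le_rfl) ?_
        rw [map_pow]; exact pow_lt_one₀ zero_le hvα (by norm_num)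
    rw [h0, map_zero] at hvC
    exact zero_ne_one hvC
  refine h8_addExact_of_line hD hαeq hC l1 l2 l3 ?_
  have ht3 : X3 / Y3 = -(X3 / (ℓ * X3 + ν)) := by rw [hY3', div_neg]
  rw [ht3]
  linear_combination -core

/-- `v C = 1` for a small slope. -/
theorem h8_v_phiC {a₂ a₄ a₆ α : L} (h2 : v a₂ ≤ 1) (h4 : v a₄ ≤ 1) (h6 : v a₆ ≤ 1)
    (hα : v α < 1) : v (h8_phiC a₂ a₄ a₆ α) = 1 := by
  unfold h8_phiC
  apply Valuation.map_one_add_of_lt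
  refine v.map_add_lt (v.map_add_lt ?_ ?_) ?_
  · exact lt_of_le_of_lt (kt_est_int_mul v h2 le_rfl) hα
  · refine lt_of_le_of_lt (kt_est_int_mul v h4 le_rfl) ?_
    rw [map_pow]; exact pow_lt_one₀ zero_le hα (by norm_num)
  · refine lt_of_le_of_lt (kt_est_int_mul v h6 le_rfl) ?_
    rw [map_pow]; exact pow_lt_one₀ zero_le hα (by norm_num)

/-- The tangent case. -/
theorem h8_tangent_exact {a₂ a₄ a₆ X Y ℓ X3 Y3 : L}
    (h2 : v a₂ ≤ 1) (h4 : v a₄ ≤ 1) (h6 : v a₆ ≤ 1)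
    (hE : Y ^ 2 = X ^ 3 + a₂ * X ^ 2 + a₄ * X + a₆)
    (hk : 1 < v X) (hYY : Y + Y ≠ 0)
    (hℓ : ℓ = (3 * X ^ 2 + 2 * a₂ * X + a₄) / (Y + Y)) (hX3 : X3 = ℓ ^ 2 - a₂ - X - X)
    (hY3 : Y3 = -(ℓ * (X3 - X) + Y)) :
    Y3 ≠ 0 ∧ h8_AddExact a₂ a₄ a₆ (X / Y) (1 / Y) (X / Y) (1 / Y) (X3 / Y3) (1 / Y3) := by
  have hr : v (X / Y) < 1 := kt_vt_lt_one v h2 h4 h6 hE hk
  have ht : v (X / Y) ≤ v (X / Y) := le_rfl
  obtain ⟨hY, hs, hs'⟩ := kt_ker_facts v hr h2 h4 h6 hE hk ht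
  obtain ⟨hν, hα⟩ := kt_tangent_alpha v hr h2 h4 h6 hE hY hYY ht hs'
  rw [← hℓ] at hν hα
  have hℓ' : ℓ * (Y + Y) = 3 * X ^ 2 + 2 * a₂ * X + a₄ := by
    rw [hℓ, div_mul_cancel₀ _ hYY]
  obtain ⟨ν, hνdef⟩ : ∃ ν : L, ν = Y - ℓ * X := ⟨_, rfl⟩
  rw [← hνdef] at hν hα
  have e1 : ℓ * X + ν = Y := by rw [hνdef]; ring
  have V2 : a₂ = ℓ ^ 2 - (X + X + X3) := by rw [hX3]; ring
  have V4 : a₄ = 2 * ℓ * ν + (X * X + X * X3 + X * X3) := by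
    rw [← e1] at hℓ'
    linear_combination -hℓ' - 2 * X * V2
  have V6 : a₆ = ν ^ 2 - X * X * X3 := by
    have hE' := hE
    rw [← e1] at hE'
    linear_combination -hE' - X ^ 2 * V2 - X * V4
  obtain ⟨hY3ne, -, -⟩ := kt_core v hr h2 h4 h6 V2 V4 V6 hν (by rw [e1]; exact hY)
    (by rw [e1]; exact hY) hα (by rw [e1]) (by rw [e1]) (by rw [e1]; exact hs)
  have hY3' : Y3 = -(ℓ * X3 + ν) := by rw [hY3, hνdef]; ring
  have hY3ne' : Y3 ≠ 0 := by rw [hY3']; exact neg_ne_zero.mpr hY3ne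
  refine ⟨hY3ne', ?_⟩
  have core := h8_core_exact V2 V4 V6 hν (by rw [e1]; exact hY) (by rw [e1]; exact hY) hY3ne
  rw [e1] at core
  have l1 : 1 / Y = -ℓ / ν * (X / Y) + 1 / ν := by
    field_simp
    linear_combination e1
  have l3 : 1 / Y3 = -ℓ / ν * (X3 / Y3) - 1 / ν := by
    rw [hY3']
    field_simp
    ring
  have hD1 : v (1 - h8_phiB a₂ a₄ a₆ (X / Y) (1 / Y) (1 / Y)) = 1 :=
    h8_v_one_sub_phiB v hr h2 h4 h6 ht hs' hs'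
  have hD : 1 - h8_phiB a₂ a₄ a₆ (X / Y) (1 / Y) (1 / Y) ≠ 0 := by
    intro h; rw [h, map_zero] at hD1; exact zero_ne_one hD1
  have hαeq : (1 - h8_phiB a₂ a₄ a₆ (X / Y) (1 / Y) (1 / Y)) * (-ℓ / ν)
      = h8_phiA a₂ a₄ (X / Y) (X / Y) (1 / Y) := by
    have h0 : (1 - h8_phiB a₂ a₄ a₆ (X / Y) (1 / Y) (1 / Y)) * (-ℓ)
        = h8_phiA a₂ a₄ (X / Y) (X / Y) (1 / Y) * ν := by
      unfold h8_phiA h8_phiB
      rw [hνdef]
      field_simp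
      linear_combination (-3 * ℓ) * hE + Y * hℓ'
    rw [mul_div_assoc', h0, mul_div_assoc, div_self hν, mul_one]
  have hvα : v (-ℓ / ν) < 1 := by
    have hvν : v ν ≠ 0 := (Valuation.ne_zero_iff v).mpr hν
    rw [map_div₀, Valuation.map_neg, div_lt_one₀ (zero_lt_iff.mpr hvν)]
    have hr2lt : v (X / Y) ^ 2 < 1 := pow_lt_one₀ zero_le hr (by norm_num)
    calc v ℓ ≤ v (X / Y) ^ 2 * v ν := hα
      _ < 1 * v ν := mul_lt_mul_of_pos_right hr2lt (zero_lt_iff.mpr hvν)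
      _ = v ν := one_mul _
  have hC : h8_phiC a₂ a₄ a₆ (-ℓ / ν) ≠ 0 := by
    intro h0
    have := h8_v_phiC v h2 h4 h6 hvα
    rw [h0, map_zero] at this
    exact zero_ne_one this
  refine h8_addExact_of_line hD hαeq hC l1 l1 l3 ?_
  have ht3 : X3 / Y3 = -(X3 / (ℓ * X3 + ν)) := by rw [hY3', div_neg]
  rw [ht3]
  linear_combination -core

end exact

/-! ### The statement for points -/

section points

variable {L : Type*} [Field L] {Γ₀ : Type*} [LinearOrderedCommGroupWithZero Γ₀]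
  (v : Valuation L Γ₀) (W : WeierstrassCurve L)

/-- The `s`-coordinate `1 / y` of a point (`0` at the origin). -/
def h8_ktS : W.toAffine.Point → L
  | .zero => 0
  | .some _ y _ => 1 / y

@[simp] theorem h8_ktS_zero : h8_ktS W (0 : W.toAffine.Point) = 0 := rfl

@[simp] theorem h8_ktS_some {x y : L} (h : W.toAffine.Nonsingular x y) :
    h8_ktS W (Affine.Point.some x y h) = 1 / y := rfl

/-- A point of the kernel of reduction lies on the curve in the `(t, s)`-plane, with small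
coordinates. -/
theorem h8_ker_onCurve (h1 : W.a₁ = 0) (h3 : W.a₃ = 0) (h2 : v W.a₂ ≤ 1) (h4 : v W.a₄ ≤ 1)
    (h6 : v W.a₆ ≤ 1) (P : W.toAffine.Point) (hP : KtKer v W P) :
    h8_onCurve W.a₂ W.a₄ W.a₆ (ktT W P) (h8_ktS W P) ∧ v (ktT W P) < 1 ∧
      v (h8_ktS W P) ≤ v (ktT W P) ^ 3 := by
  rcases P with _ | ⟨x, y, h⟩
  · refine ⟨?_, ?_, ?_⟩
    · show (0 : L) = 0 ^ 3 + W.a₂ * 0 ^ 2 * 0 + W.a₄ * 0 * 0 ^ 2 + W.a₆ * 0 ^ 3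
      ring
    · show v (0 : L) < 1
      rw [map_zero]; exact zero_lt_one
    · show v (0 : L) ≤ v (0 : L) ^ 3
      rw [map_zero]; exact zero_le
  · have hE := kt_equation W h1 h3 h.1
    have hk : 1 < v x := hP
    have hlt : v (x / y) < 1 := kt_vt_lt_one v h2 h4 h6 hE hk
    obtain ⟨hY, hs, -⟩ := kt_ker_facts v hlt h2 h4 h6 hE hk le_rfl
    exact ⟨kt_ts_eq hY hE, hlt, hs⟩

/-- Degenerate case: one of the two points is the origin, or the points are opposite. -/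
theorem h8_addExact_degenerate {a₂ a₄ a₆ t₁ s₁ t₂ s₂ t₃ s₃ : L}
    (h2 : v a₂ ≤ 1) (h4 : v a₄ ≤ 1) (h6 : v a₆ ≤ 1)
    (C1 : h8_onCurve a₂ a₄ a₆ t₁ s₁) (C2 : h8_onCurve a₂ a₄ a₆ t₂ s₂)
    (ht1 : v t₁ < 1) (ht2 : v t₂ < 1) (hs1 : v s₁ ≤ v t₁ ^ 3) (hs2 : v s₂ ≤ v t₂ ^ 3)
    (hl1 : s₁ * (1 - h8_phiB a₂ a₄ a₆ t₁ s₁ s₂) = t₁ * h8_phiA a₂ a₄ t₁ t₂ s₂)
    (ht3 : t₃ = t₁ + t₂) (hs3 : s₃ = s₁ + s₂) :
    h8_AddExact a₂ a₄ a₆ t₁ s₁ t₂ s₂ t₃ s₃ := by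
  obtain ⟨r, hrdef⟩ : ∃ r : Γ₀, r = max (v t₁) (v t₂) := ⟨_, rfl⟩
  have hr : r < 1 := by rw [hrdef]; exact max_lt ht1 ht2
  have hr1 : r ≤ 1 := le_of_lt hr
  have h1r : v t₁ ≤ r := by rw [hrdef]; exact le_max_left _ _
  have h2r : v t₂ ≤ r := by rw [hrdef]; exact le_max_right _ _
  have hs1r : v s₁ ≤ r :=
    le_trans hs1 (le_trans (pow_le_of_le_one zero_le (le_of_lt ht1) (by norm_num)) h1r)
  have hs2r : v s₂ ≤ r :=
    le_trans hs2 (le_trans (pow_le_of_le_one zero_le (le_of_lt ht2) (by norm_num)) h2r)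
  have hD1 : v (1 - h8_phiB a₂ a₄ a₆ t₁ s₁ s₂) = 1 :=
    h8_v_one_sub_phiB v hr h2 h4 h6 h1r hs1r hs2r
  have hD : 1 - h8_phiB a₂ a₄ a₆ t₁ s₁ s₂ ≠ 0 := by
    intro h; rw [h, map_zero] at hD1; exact zero_ne_one hD1
  have hA : v (h8_phiA a₂ a₄ t₁ t₂ s₂) ≤ r ^ 2 := h8_v_phiA_le v h2 h4 h1r h2r hs2r
  obtain ⟨α, hαdef⟩ : ∃ α : L,
      α = h8_phiA a₂ a₄ t₁ t₂ s₂ / (1 - h8_phiB a₂ a₄ a₆ t₁ s₁ s₂) := ⟨_, rfl⟩
  have hαeq : (1 - h8_phiB a₂ a₄ a₆ t₁ s₁ s₂) * α = h8_phiA a₂ a₄ t₁ t₂ s₂ := by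
    rw [hαdef]; field_simp
  have hvα : v α < 1 := by
    rw [hαdef, map_div₀, hD1, div_one]
    exact lt_of_le_of_lt hA (pow_lt_one₀ zero_le hr (by norm_num))
  have hC : h8_phiC a₂ a₄ a₆ α ≠ 0 := by
    intro h0
    have := h8_v_phiC v h2 h4 h6 hvα
    rw [h0, map_zero] at this
    exact zero_ne_one this
  have key := h8_phi_key C1 C2
  have l1 : s₁ = α * t₁ + 0 := by
    rw [hαdef, add_zero]
    field_simp
    linear_combination hl1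
  have l2 : s₂ = α * t₂ + 0 := by
    rw [hαdef, add_zero]
    field_simp
    linear_combination key + hl1
  refine h8_addExact_of_line hD hαeq hC l1 l2 ?_ ?_
  · rw [hs3, ht3, l1, l2]; ring
  · rw [ht3]; ring

variable [DecidableEq L]

/-- **(E-a)** The exact addition law on the kernel of reduction. -/
theorem h8_ker_add_exact (h1 : W.a₁ = 0) (h3 : W.a₃ = 0) (h2 : v W.a₂ ≤ 1) (h4 : v W.a₄ ≤ 1)
    (h6 : v W.a₆ ≤ 1) (P Q : W.toAffine.Point) (hP : KtKer v W P) (hQ : KtKer v W Q) :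
    h8_AddExact W.a₂ W.a₄ W.a₆ (ktT W P) (h8_ktS W P) (ktT W Q) (h8_ktS W Q)
      (ktT W (P + Q)) (h8_ktS W (P + Q)) := by
  obtain ⟨CP, htP, hsP⟩ := h8_ker_onCurve v W h1 h3 h2 h4 h6 P hP
  obtain ⟨CQ, htQ, hsQ⟩ := h8_ker_onCurve v W h1 h3 h2 h4 h6 Q hQ
  rcases P with _ | ⟨X1, Y1, hP'⟩
  · have : (Affine.Point.zero : W.toAffine.Point) + Q = Q := zero_add Q
    rw [this]
    refine h8_addExact_degenerate v h2 h4 h6 CP CQ htP htQ hsP hsQ ?_ ?_ ?_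
    · show (0 : L) * _ = 0 * _
      ring
    · show ktT W Q = 0 + ktT W Q
      ring
    · show h8_ktS W Q = 0 + h8_ktS W Q
      ring
  rcases Q with _ | ⟨X2, Y2, hQ'⟩
  · have : Affine.Point.some X1 Y1 hP' + (Affine.Point.zero : W.toAffine.Point)
        = Affine.Point.some X1 Y1 hP' := add_zero _
    rw [this]
    refine h8_addExact_degenerate v h2 h4 h6 CP CQ htP htQ hsP hsQ ?_ ?_ ?_
    · have C1 : h8_onCurve W.a₂ W.a₄ W.a₆ (X1 / Y1) (1 / Y1) := CP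
      show (1 / Y1) * (1 - h8_phiB W.a₂ W.a₄ W.a₆ (X1 / Y1) (1 / Y1) 0)
        = (X1 / Y1) * h8_phiA W.a₂ W.a₄ (X1 / Y1) 0 0
      unfold h8_onCurve at C1
      unfold h8_phiA h8_phiB
      linear_combination C1
    · show X1 / Y1 = X1 / Y1 + 0
      ring
    · show 1 / Y1 = 1 / Y1 + 0
      ring
  have hE1 := kt_equation W h1 h3 hP'.1
  have hE2 := kt_equation W h1 h3 hQ'.1
  have hk1 : 1 < v X1 := hP
  have hk2 : 1 < v X2 := hQ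
  have hnegY : ∀ x y : L, W.toAffine.negY x y = -y := by
    intro x y; simp only [Affine.negY, h1, h3]; ring
  by_cases hX : X1 = X2
  · by_cases hY : Y1 = W.toAffine.negY X2 Y2
    · -- opposite points
      rw [Affine.Point.add_of_Y_eq hX hY]
      have C1 : h8_onCurve W.a₂ W.a₄ W.a₆ (X1 / Y1) (1 / Y1) := CP
      have hY' : Y2 = -Y1 := by rw [hY, hnegY]; ring
      refine h8_addExact_degenerate v h2 h4 h6 CP CQ htP htQ hsP hsQ ?_ ?_ ?_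
      · show (1 / Y1) * (1 - h8_phiB W.a₂ W.a₄ W.a₆ (X1 / Y1) (1 / Y1) (1 / Y2))
          = (X1 / Y1) * h8_phiA W.a₂ W.a₄ (X1 / Y1) (X2 / Y2) (1 / Y2)
        rw [← hX, hY']
        unfold h8_onCurve at C1
        unfold h8_phiA h8_phiB
        have e1 : X1 / -Y1 = -(X1 / Y1) := div_neg _
        have e2 : 1 / -Y1 = -(1 / Y1) := div_neg _
        rw [e1, e2]
        linear_combination C1
      · show (0 : L) = X1 / Y1 + X2 / Y2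
        rw [← hX, hY', div_neg]; ring
      · show (0 : L) = 1 / Y1 + 1 / Y2
        rw [hY', div_neg]; ring
    · -- doubling
      have hYeq : Y1 = Y2 := Affine.Y_eq_of_Y_ne hP'.1 hQ'.1 hX hY
      subst hX
      subst hYeq
      rw [Affine.Point.add_of_Y_ne hY]
      have hYY : Y1 + Y1 ≠ 0 := by
        intro h0
        apply hY
        rw [hnegY]
        linear_combination h0
      have hslope : W.toAffine.slope X1 X1 Y1 Y1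
          = (3 * X1 ^ 2 + 2 * W.a₂ * X1 + W.a₄) / (Y1 + Y1) := by
        rw [Affine.slope_of_Y_ne rfl hY, hnegY, h1]
        congr 1 <;> ring
      have hX3 : W.toAffine.addX X1 X1 (W.toAffine.slope X1 X1 Y1 Y1)
          = (W.toAffine.slope X1 X1 Y1 Y1) ^ 2 - W.a₂ - X1 - X1 := by
        simp only [Affine.addX, h1]; ring
      have hY3 : W.toAffine.addY X1 X1 Y1 (W.toAffine.slope X1 X1 Y1 Y1)
          = -((W.toAffine.slope X1 X1 Y1 Y1)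
              * (W.toAffine.addX X1 X1 (W.toAffine.slope X1 X1 Y1 Y1) - X1) + Y1) := by
        simp only [Affine.addY, Affine.negAddY, hnegY]
      exact (h8_tangent_exact v h2 h4 h6 hE1 hk1 hYY hslope hX3 hY3).2
  · rw [Affine.Point.add_of_X_ne hX]
    have hslope : W.toAffine.slope X1 X2 Y1 Y2 = (Y1 - Y2) / (X1 - X2) :=
      Affine.slope_of_X_ne hX
    have hX3 : W.toAffine.addX X1 X2 (W.toAffine.slope X1 X2 Y1 Y2)
        = (W.toAffine.slope X1 X2 Y1 Y2) ^ 2 - W.a₂ - X1 - X2 := by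
      simp only [Affine.addX, h1]; ring
    have hY3 : W.toAffine.addY X1 X2 Y1 (W.toAffine.slope X1 X2 Y1 Y2)
        = -((W.toAffine.slope X1 X2 Y1 Y2)
            * (W.toAffine.addX X1 X2 (W.toAffine.slope X1 X2 Y1 Y2) - X1) + Y1) := by
      simp only [Affine.addY, Affine.negAddY, hnegY]
    exact (h8_chord_exact v h2 h4 h6 hE1 hE2 hk1 hk2 hX hslope hX3 hY3).2

end points

end Fermat.Agent.Lib.S13
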