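/-
S13 project, stream (E) (helper8): bridges.

* `h8_T_eq`, `h8_Ker_iff` : helper9's `h9k_T`, `h9k_Ker` agree with S05's `ktT`, `KtKer`.
* `h8_addRel_of_addExact` : for `a₆ = 0`, `h8_AddExact` (EKerExact) is helper4's `h4AddRel` (FGRel).
* `h8_point_addRel` : (E-i) the `(t, s)`-coordinates of `P + Q` on the kernel of reduction of
  `Y² = X³ + aX² + bX` satisfy `h4AddRel`.
-/
import Mathlib
import Fermat.Agent.Lib.S13.EKerExact
import Fermat.Agent.Lib.S13.FGRel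
import Fermat.Agent.Lib.S13.KerTorsion

set_option autoImplicit false

namespace Fermat.Agent.Lib.S13

open Fermat.Agent.Lib.S05 WeierstrassCurve

section bridge

variable {L : Type*} [Field L] {Γ₀ : Type*} [LinearOrderedCommGroupWithZero Γ₀]
  (v : Valuation L Γ₀) (W : WeierstrassCurve L)

theorem h8_T_eq (P : W.toAffine.Point) : h9k_T W P = ktT W P := by
  rcases P with _ | ⟨x, y, h⟩ <;> rfl

theorem h8_Ker_iff (P : W.toAffine.Point) : h9k_Ker v W P ↔ KtKer v W P := by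
  rcases P with _ | ⟨x, y, h⟩ <;> exact Iff.rfl

theorem h8_onCurve_iff {a b t s : L} : h8_onCurve a b 0 t s ↔ h4Curve a b t s := by
  unfold h8_onCurve h4Curve
  constructor
  · intro h; linear_combination h
  · intro h; linear_combination h

/-- For `a₆ = 0` the exact addition law is helper4's relation. -/
theorem h8_addRel_of_addExact {a b t1 s1 t2 s2 t3 s3 : L}
    (C1 : h8_onCurve a b 0 t1 s1) (C2 : h8_onCurve a b 0 t2 s2)
    (h : h8_AddExact a b 0 t1 s1 t2 s2 t3 s3) : h4AddRel a b t1 s1 t2 s2 t3 s3 := by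
  obtain ⟨hD, hC, ht, hs⟩ := h
  have key := h8_phi_key C1 C2
  set A := h8_phiA a b t1 t2 s2 with hA
  set B := h8_phiB a b 0 t1 s1 s2 with hB
  set α := A / (1 - B) with hα
  have hαD : α * (1 - B) = A := by rw [hα]; field_simp
  -- the line passes through both points
  have hν : s2 - α * t2 = s1 - α * t1 := by
    have : (s2 - s1) * (1 - B) = (t2 - t1) * α * (1 - B) := by
      rw [key]; rw [← hαD]; ring
    have h2 := mul_right_cancel₀ hD this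
    linear_combination h2
  have hBv : 1 - B = 1 - (a * t1 ^ 2 + b * (t1 * (s1 + s2))) := by
    rw [hB]; unfold h8_phiB; ring
  have hAv : A = t2 ^ 2 + t1 * t2 + t1 ^ 2 + a * ((t1 + t2) * s2) + b * s2 ^ 2 := by
    rw [hA]; unfold h8_phiA; ring
  have hCv : h8_phiC a b 0 α = 1 + a * α + b * α ^ 2 := by
    unfold h8_phiC; ring
  have hNv : h8_phiN a b 0 α = a + 2 * b * α := by
    unfold h8_phiN; ring
  refine ⟨(1 - B)⁻¹, α, (h8_phiC a b 0 α)⁻¹, ?_, ?_, ?_, ?_, ?_⟩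
  · rw [← hBv]; exact mul_inv_cancel₀ hD
  · rw [← hAv, hα, div_eq_mul_inv]
  · rw [← hCv]; exact mul_inv_cancel₀ hC
  · rw [← hν, ← hNv]
    have : t3 - t1 - t2 = (s2 - α * t2) * h8_phiN a b 0 α * (h8_phiC a b 0 α)⁻¹ := by
      rw [eq_mul_inv_iff_mul_eq₀ hC]
      linear_combination ht
    linear_combination this
  · rw [hs]; linear_combination (-2 : L) * hν

variable [DecidableEq L]

/-- **(E-i)**: on the kernel of reduction of `Y² = X³ + aX² + bX`, the `(t, s)`-coordinates of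
`P + Q` are given by helper4's addition relation. -/
theorem h8_point_addRel {a b : L} (ha : v a ≤ 1) (hb : v b ≤ 1)
    (P Q : (⟨0, a, 0, b, 0⟩ : WeierstrassCurve L).toAffine.Point)
    (hP : h9k_Ker v ⟨0, a, 0, b, 0⟩ P) (hQ : h9k_Ker v ⟨0, a, 0, b, 0⟩ Q) :
    h4AddRel a b (h9k_T ⟨0, a, 0, b, 0⟩ P) (h8_ktS ⟨0, a, 0, b, 0⟩ P)
      (h9k_T ⟨0, a, 0, b, 0⟩ Q) (h8_ktS ⟨0, a, 0, b, 0⟩ Q)
      (h9k_T ⟨0, a, 0, b, 0⟩ (P + Q)) (h8_ktS ⟨0, a, 0, b, 0⟩ (P + Q)) := by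
  have h6 : v (⟨0, a, 0, b, 0⟩ : WeierstrassCurve L).a₆ ≤ 1 := by
    show v (0 : L) ≤ 1
    rw [map_zero]; exact zero_le_one
  have hP' := (h8_Ker_iff v _ P).mp hP
  have hQ' := (h8_Ker_iff v _ Q).mp hQ
  have hex := h8_ker_add_exact v _ rfl rfl ha hb h6 P Q hP' hQ'
  have hC1 := (h8_ker_onCurve v _ rfl rfl ha hb h6 P hP').1
  have hC2 := (h8_ker_onCurve v _ rfl rfl ha hb h6 Q hQ').1
  rw [h8_T_eq, h8_T_eq, h8_T_eq]
  exact h8_addRel_of_addExact hC1 hC2 hex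

omit [DecidableEq L] in
/-- Points of the kernel lie on helper4's curve, with `v t < 1` and `v s ≤ v t ^ 3`. -/
theorem h8_point_curve {a b : L} (ha : v a ≤ 1) (hb : v b ≤ 1)
    (P : (⟨0, a, 0, b, 0⟩ : WeierstrassCurve L).toAffine.Point)
    (hP : h9k_Ker v ⟨0, a, 0, b, 0⟩ P) :
    h4Curve a b (h9k_T ⟨0, a, 0, b, 0⟩ P) (h8_ktS ⟨0, a, 0, b, 0⟩ P) ∧
      v (h9k_T ⟨0, a, 0, b, 0⟩ P) < 1 ∧
      v (h8_ktS ⟨0, a, 0, b, 0⟩ P) ≤ v (h9k_T ⟨0, a, 0, b, 0⟩ P) ^ 3 := by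
  have h6 : v (⟨0, a, 0, b, 0⟩ : WeierstrassCurve L).a₆ ≤ 1 := by
    show v (0 : L) ≤ 1
    rw [map_zero]; exact zero_le_one
  have hP' := (h8_Ker_iff v _ P).mp hP
  obtain ⟨h1, h2, h3⟩ := h8_ker_onCurve v _ rfl rfl ha hb h6 P hP'
  rw [h8_T_eq]
  exact ⟨h8_onCurve_iff.mp h1, h2, h3⟩

end bridge

end Fermat.Agent.Lib.S13
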