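/-
S13 project, stream (E) (helper4): the formal-group input in the exact shape `FGStatement`
consumed by helper8's local theorem `h8_localTheorem_of`.
-/
import Mathlib
import Fermat.Agent.Lib.S13.FGMain
import Fermat.Agent.Lib.S13.ELocal

set_option autoImplicit false

namespace Fermat.Agent.Lib.S13

/-- `(FG)` in helper8's contract shape. -/
theorem h4_fgStatement : FGStatement :=
  fun v _ _ ha hb _ hp => h4_fg v ha hb hp

end Fermat.Agent.Lib.S13
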