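import Mathlib
import Fermat.Agent.Lib.S13.EFwdDiff
import Fermat.Agent.Lib.S13.FGRel

/-!
# Project S13 (FG-ii): the generic multiplication-by-`n` series of `Y² = X³ + aX² + bX`

Owner: helper7 (hedge for helper4's polynomial-function route; built on `EFwdDiff`).

Over any commutative ring `R` with `a b : R`, in `R⟦X⟧`:
* `w` with `w = X³ + a X² w + b X w²` (the `s`-coordinate as a series in `t = X`);
* sequences `θ n, σ n` with `(θ 0, σ 0) = (0, 0)` and `(X, w) + (θ n, σ n) = (θ (n+1), σ (n+1))`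
  for helper4's addition relation `h4AddRel`;
* `X ^ m ∣ Δ^m θ n`, hence for `p` prime `coeff 1 (θ p) = p` and `p ∣ coeff k (θ p)` for
  `k < p`, `k ≠ 1`.
-/

set_option autoImplicit false

namespace Fermat.Agent.Lib.S13

open PowerSeries

variable {R : Type*} [CommRing R] (a b : R)

/-! ### The series `w` -/

/-- The contraction whose fixed point is `w`. -/
noncomputable def h7g_F (u : PowerSeries R) : PowerSeries R :=
  X ^ 3 + C a * X ^ 2 * u + C b * X * u ^ 2

theorem h7g_F_sub (u u' : PowerSeries R) :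
    h7g_F a b u - h7g_F a b u' = X * ((C a * X + C b * (u + u')) * (u - u')) := by
  unfold h7g_F
  ring

theorem h7g_F_dvd {k : ℕ} {u u' : PowerSeries R} (h : (X : PowerSeries R) ^ k ∣ u - u') :
    (X : PowerSeries R) ^ (k + 1) ∣ h7g_F a b u - h7g_F a b u' := by
  rw [h7g_F_sub, pow_succ']
  exact mul_dvd_mul_left _ (Dvd.dvd.mul_left h _)

/-- The iterates of the contraction. -/
noncomputable def h7g_wIter (k : ℕ) : PowerSeries R := (h7g_F a b)^[k] 0

theorem h7g_wIter_succ (k : ℕ) : h7g_wIter a b (k + 1) = h7g_F a b (h7g_wIter a b k) := by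
  unfold h7g_wIter
  rw [Function.iterate_succ_apply']

theorem h7g_wIter_step (k : ℕ) :
    (X : PowerSeries R) ^ k ∣ h7g_wIter a b (k + 1) - h7g_wIter a b k := by
  induction k with
  | zero => simp
  | succ k ih =>
    have := h7g_F_dvd a b ih
    rwa [← h7g_wIter_succ, ← h7g_wIter_succ] at this

theorem h7g_wIter_stable (k j : ℕ) (hkj : k ≤ j) :
    (X : PowerSeries R) ^ k ∣ h7g_wIter a b j - h7g_wIter a b k := by
  induction j, hkj using Nat.le_induction with
  | base => simp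
  | succ j hkj ih =>
    have h1 : (X : PowerSeries R) ^ k ∣ h7g_wIter a b (j + 1) - h7g_wIter a b j :=
      (pow_dvd_pow _ hkj).trans (h7g_wIter_step a b j)
    have e : h7g_wIter a b (j + 1) - h7g_wIter a b k
        = (h7g_wIter a b (j + 1) - h7g_wIter a b j) + (h7g_wIter a b j - h7g_wIter a b k) := by
      ring
    rw [e]
    exact dvd_add h1 ih

/-- The `s`-coordinate as a power series in `t = X`. -/
noncomputable def h7g_w : PowerSeries R :=
  PowerSeries.mk fun n => coeff n (h7g_wIter a b (n + 1))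

theorem h7g_w_approx (k : ℕ) : (X : PowerSeries R) ^ k ∣ h7g_w a b - h7g_wIter a b k := by
  rw [X_pow_dvd_iff]
  intro m hm
  have h := h7g_wIter_stable a b (m + 1) k hm
  rw [X_pow_dvd_iff] at h
  have h' := h m (Nat.lt_succ_self m)
  rw [map_sub] at h' ⊢
  rw [h7g_w, coeff_mk]
  rw [sub_eq_zero] at h' ⊢
  exact h'.symm

theorem h7g_w_fixed : h7g_F a b (h7g_w a b) = h7g_w a b := by
  have key : ∀ k : ℕ, (X : PowerSeries R) ^ (k + 1) ∣ h7g_F a b (h7g_w a b) - h7g_w a b := by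
    intro k
    have h1 := h7g_F_dvd a b (h7g_w_approx a b k)
    rw [← h7g_wIter_succ] at h1
    have h2 := h7g_w_approx a b (k + 1)
    have e : h7g_F a b (h7g_w a b) - h7g_w a b
        = (h7g_F a b (h7g_w a b) - h7g_wIter a b (k + 1))
          - (h7g_w a b - h7g_wIter a b (k + 1)) := by ring
    rw [e]
    exact dvd_sub h1 h2
  rw [← sub_eq_zero]
  ext n
  have := key n
  rw [X_pow_dvd_iff] at this
  rw [this n (Nat.lt_succ_self n), map_zero]

theorem h7g_w_curve : h4Curve (C a) (C b) X (h7g_w a b) := by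
  unfold h4Curve
  have := h7g_w_fixed a b
  unfold h7g_F at this
  exact this.symm

/-- `w = X * w₁`. -/
noncomputable def h7g_w1 : PowerSeries R :=
  X ^ 2 + C a * X * h7g_w a b + C b * h7g_w a b ^ 2

theorem h7g_w_eq : h7g_w a b = X * h7g_w1 a b := by
  have h := h7g_w_curve a b
  unfold h4Curve at h
  unfold h7g_w1
  conv_lhs => rw [h]
  ring

/-! ### The sequences `θ n`, `σ n` -/

/-- `D` for the sum `(X, w) + (θ, σ)`. -/
noncomputable def h7g_D (σ : PowerSeries R) : PowerSeries R :=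
  1 - (C a * X ^ 2 + C b * (X * (h7g_w a b + σ)))

noncomputable def h7g_D' (σ : PowerSeries R) : PowerSeries R := invOfUnit (h7g_D a b σ) 1

noncomputable def h7g_lam (θ σ : PowerSeries R) : PowerSeries R :=
  (θ ^ 2 + X * θ + X ^ 2 + C a * ((X + θ) * σ) + C b * σ ^ 2) * h7g_D' a b σ

noncomputable def h7g_E (θ σ : PowerSeries R) : PowerSeries R :=
  1 + C a * h7g_lam a b θ σ + C b * h7g_lam a b θ σ ^ 2

noncomputable def h7g_E' (θ σ : PowerSeries R) : PowerSeries R := invOfUnit (h7g_E a b θ σ) 1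

noncomputable def h7g_nextT (θ σ : PowerSeries R) : PowerSeries R :=
  X + θ + (h7g_w a b - h7g_lam a b θ σ * X) * (C a + 2 * C b * h7g_lam a b θ σ) * h7g_E' a b θ σ

noncomputable def h7g_nextS (θ σ : PowerSeries R) : PowerSeries R :=
  h7g_lam a b θ σ * h7g_nextT a b θ σ - (h7g_w a b - h7g_lam a b θ σ * X)

/-- The pair `(θ n, σ n) = n • (X, w)`. -/
noncomputable def h7g_seq : ℕ → PowerSeries R × PowerSeries R
  | 0 => (0, 0)
  | n + 1 => (h7g_nextT a b (h7g_seq n).1 (h7g_seq n).2, h7g_nextS a b (h7g_seq n).1 (h7g_seq n).2)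

noncomputable def h7g_theta (n : ℕ) : PowerSeries R := (h7g_seq a b n).1

noncomputable def h7g_sigma (n : ℕ) : PowerSeries R := (h7g_seq a b n).2

theorem h7g_theta_zero : h7g_theta a b 0 = 0 := rfl

theorem h7g_sigma_zero : h7g_sigma a b 0 = 0 := rfl

theorem h7g_theta_succ (n : ℕ) :
    h7g_theta a b (n + 1) = h7g_nextT a b (h7g_theta a b n) (h7g_sigma a b n) := rfl

theorem h7g_sigma_succ (n : ℕ) :
    h7g_sigma a b (n + 1) = h7g_nextS a b (h7g_theta a b n) (h7g_sigma a b n) := rfl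

theorem h7g_cc_w : constantCoeff (h7g_w a b) = 0 := by
  rw [h7g_w_eq, map_mul, constantCoeff_X, zero_mul]

theorem h7g_cc_D (σ : PowerSeries R) : constantCoeff (h7g_D a b σ) = 1 := by
  simp [h7g_D]

theorem h7g_D_mul (σ : PowerSeries R) : h7g_D a b σ * h7g_D' a b σ = 1 :=
  mul_invOfUnit _ 1 (by rw [h7g_cc_D]; rfl)

theorem h7g_cc_lam {θ σ : PowerSeries R} (hθ : constantCoeff θ = 0) (hσ : constantCoeff σ = 0) :
    constantCoeff (h7g_lam a b θ σ) = 0 := by
  simp [h7g_lam, hθ, hσ]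

theorem h7g_cc_E {θ σ : PowerSeries R} (hθ : constantCoeff θ = 0) (hσ : constantCoeff σ = 0) :
    constantCoeff (h7g_E a b θ σ) = 1 := by
  simp [h7g_E, h7g_cc_lam a b hθ hσ]

theorem h7g_E_mul {θ σ : PowerSeries R} (hθ : constantCoeff θ = 0) (hσ : constantCoeff σ = 0) :
    h7g_E a b θ σ * h7g_E' a b θ σ = 1 :=
  mul_invOfUnit _ 1 (by rw [h7g_cc_E a b hθ hσ]; rfl)

theorem h7g_cc_nextT {θ σ : PowerSeries R} (hθ : constantCoeff θ = 0) (hσ : constantCoeff σ = 0) :
    constantCoeff (h7g_nextT a b θ σ) = 0 := by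
  simp [h7g_nextT, hθ, h7g_cc_w, h7g_cc_lam a b hθ hσ]

theorem h7g_cc_nextS {θ σ : PowerSeries R} (hθ : constantCoeff θ = 0) (hσ : constantCoeff σ = 0) :
    constantCoeff (h7g_nextS a b θ σ) = 0 := by
  simp [h7g_nextS, h7g_cc_w, h7g_cc_lam a b hθ hσ]

theorem h7g_cc_seq (n : ℕ) :
    constantCoeff (h7g_theta a b n) = 0 ∧ constantCoeff (h7g_sigma a b n) = 0 := by
  induction n with
  | zero => exact ⟨map_zero _, map_zero _⟩
  | succ n ih =>
    exact ⟨h7g_cc_nextT a b ih.1 ih.2, h7g_cc_nextS a b ih.1 ih.2⟩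

/-- The recursion is helper4's addition relation. -/
theorem h7g_addRel (n : ℕ) :
    h4AddRel (C a) (C b) X (h7g_w a b) (h7g_theta a b n) (h7g_sigma a b n)
      (h7g_theta a b (n + 1)) (h7g_sigma a b (n + 1)) := by
  obtain ⟨hθ, hσ⟩ := h7g_cc_seq a b n
  exact ⟨h7g_D' a b (h7g_sigma a b n), h7g_lam a b (h7g_theta a b n) (h7g_sigma a b n),
    h7g_E' a b (h7g_theta a b n) (h7g_sigma a b n), h7g_D_mul a b _, rfl,
    h7g_E_mul a b hθ hσ, rfl, rfl⟩

theorem h7g_curve_seq (n : ℕ) :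
    h4Curve (C a) (C b) (h7g_theta a b n) (h7g_sigma a b n) := by
  induction n with
  | zero =>
    unfold h4Curve
    rw [h7g_theta_zero, h7g_sigma_zero]
    ring
  | succ n ih => exact h4AddRel_curve (h7g_w_curve a b) ih (h7g_addRel a b n)

/-- `σ n = λ θ n + ν`. -/
theorem h7g_line (n : ℕ) :
    h7g_sigma a b n = h7g_lam a b (h7g_theta a b n) (h7g_sigma a b n) * h7g_theta a b n
      + (h7g_w a b - h7g_lam a b (h7g_theta a b n) (h7g_sigma a b n) * X) :=
  h4_line_second (h7g_w_curve a b) (h7g_curve_seq a b n) (h7g_D_mul a b _) rfl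

/-- `θ 1 = X`. -/
theorem h7g_theta_one : h7g_theta a b 1 = X := by
  have hD := h7g_D_mul a b (0 : PowerSeries R)
  have hw := h7g_w_curve a b
  unfold h4Curve at hw
  -- `w * D 0 = X ^ 3`
  have h1 : h7g_w a b * h7g_D a b 0 = X ^ 3 := by
    unfold h7g_D
    linear_combination hw
  have h2 : h7g_lam a b 0 0 * X = h7g_w a b := by
    have : h7g_lam a b 0 0 * X = X ^ 3 * h7g_D' a b 0 := by
      unfold h7g_lam
      ring
    rw [this, ← h1, mul_assoc, hD, mul_one]
  show h7g_nextT a b 0 0 = X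
  unfold h7g_nextT
  rw [h2]
  ring

/-! ### Finite differences -/

theorem h7g_FD_congr {S : Type*} [CommRing S] {Y : S} {M j : ℕ} {f g : ℕ → S}
    (h : ∀ n, f n = g n) (hf : h7_FD Y M j f) : h7_FD Y M j g := by
  have : f = g := funext h
  rwa [← this]

theorem h7g_FD_mul0 {S : Type*} [CommRing S] {Y : S} {M : ℕ} {f g : ℕ → S}
    (hf : h7_FD Y M 0 f) (hg : h7_FD Y M 0 g) : h7_FD Y M 0 (fun n => f n * g n) := by
  simpa using hf.mul hg

/-- The cofactor of `Δ θ n = X * A n`. -/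
noncomputable def h7g_A (n : ℕ) : PowerSeries R :=
  1 + (h7g_w1 a b - h7g_lam a b (h7g_theta a b n) (h7g_sigma a b n))
    * (C a + 2 * C b * h7g_lam a b (h7g_theta a b n) (h7g_sigma a b n))
    * h7g_E' a b (h7g_theta a b n) (h7g_sigma a b n)

theorem h7g_fwdDiff_theta : fwdDiff 1 (h7g_theta a b) = fun n => X * h7g_A a b n := by
  funext n
  show h7g_theta a b (n + 1) - h7g_theta a b n = X * h7g_A a b n
  rw [h7g_theta_succ]
  unfold h7g_nextT h7g_A
  have hw := h7g_w_eq a b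
  generalize h7g_lam a b (h7g_theta a b n) (h7g_sigma a b n) = lam
  generalize h7g_E' a b (h7g_theta a b n) (h7g_sigma a b n) = E'
  generalize h7g_w1 a b = w1 at hw ⊢
  generalize h7g_w a b = w at hw ⊢
  subst hw
  ring

theorem h7g_fwdDiff_sigma : fwdDiff 1 (h7g_sigma a b) = fun n =>
    X * (h7g_lam a b (h7g_theta a b n) (h7g_sigma a b n) * h7g_A a b n
      - 2 * (h7g_w1 a b - h7g_lam a b (h7g_theta a b n) (h7g_sigma a b n))) := by
  funext n
  show h7g_sigma a b (n + 1) - h7g_sigma a b n = _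
  have hθ : h7g_theta a b (n + 1) = h7g_theta a b n + X * h7g_A a b n := by
    have := congrFun (h7g_fwdDiff_theta a b) n
    simp only [fwdDiff] at this
    rw [← this]
    ring
  have hline := h7g_line a b n
  have hs : h7g_sigma a b (n + 1)
      = h7g_lam a b (h7g_theta a b n) (h7g_sigma a b n) * h7g_theta a b (n + 1)
        - (h7g_w a b - h7g_lam a b (h7g_theta a b n) (h7g_sigma a b n) * X) := rfl
  rw [hs, hθ]
  have hw := h7g_w_eq a b
  generalize h7g_lam a b (h7g_theta a b n) (h7g_sigma a b n) = lam at hline ⊢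
  generalize h7g_A a b n = A
  generalize h7g_w1 a b = w1 at hw ⊢
  generalize h7g_w a b = w at hw hline ⊢
  subst hw
  linear_combination (-1 : PowerSeries R) * hline

theorem h7g_FD_step (M : ℕ) (hθ : h7_FD (X : PowerSeries R) M 0 (h7g_theta a b))
    (hσ : h7_FD (X : PowerSeries R) M 0 (h7g_sigma a b)) :
    h7_FD (X : PowerSeries R) M 1 (fwdDiff 1 (h7g_theta a b)) ∧
      h7_FD (X : PowerSeries R) M 1 (fwdDiff 1 (h7g_sigma a b)) := by
  have c : ∀ z : PowerSeries R, h7_FD (X : PowerSeries R) M 0 (fun _ => z) :=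
    fun z => h7_FD_const_zero z
  -- `D`
  have hD : h7_FD (X : PowerSeries R) M 0 (fun n => h7g_D a b (h7g_sigma a b n)) :=
    (c 1).sub ((c (C a * X ^ 2)).add (h7g_FD_mul0 (c (C b)) (h7g_FD_mul0 (c X)
      ((c (h7g_w a b)).add hσ))))
  have hD' : h7_FD (X : PowerSeries R) M 0 (fun n => h7g_D' a b (h7g_sigma a b n)) :=
    h7_FD.inv hD (fun n => by rw [mul_comm]; exact h7g_D_mul a b _)
  -- `λ`
  have hlam : h7_FD (X : PowerSeries R) M 0
      (fun n => h7g_lam a b (h7g_theta a b n) (h7g_sigma a b n)) := by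
    have h1 : h7_FD (X : PowerSeries R) M 0 (fun n => h7g_theta a b n ^ 2) := by
      simpa using hθ.pow 2
    have h2 : h7_FD (X : PowerSeries R) M 0 (fun n => h7g_sigma a b n ^ 2) := by
      simpa using hσ.pow 2
    exact h7g_FD_mul0 ((((h1.add (h7g_FD_mul0 (c X) hθ)).add (c (X ^ 2))).add
      (h7g_FD_mul0 (c (C a)) (h7g_FD_mul0 ((c X).add hθ) hσ))).add (h7g_FD_mul0 (c (C b)) h2)) hD'
  -- `E`
  have hlam2 : h7_FD (X : PowerSeries R) M 0
      (fun n => h7g_lam a b (h7g_theta a b n) (h7g_sigma a b n) ^ 2) := by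
    simpa using hlam.pow 2
  have hE : h7_FD (X : PowerSeries R) M 0
      (fun n => h7g_E a b (h7g_theta a b n) (h7g_sigma a b n)) :=
    ((c 1).add (h7g_FD_mul0 (c (C a)) hlam)).add (h7g_FD_mul0 (c (C b)) hlam2)
  have hE' : h7_FD (X : PowerSeries R) M 0
      (fun n => h7g_E' a b (h7g_theta a b n) (h7g_sigma a b n)) :=
    h7_FD.inv hE (fun n => by
      rw [mul_comm]
      exact h7g_E_mul a b (h7g_cc_seq a b n).1 (h7g_cc_seq a b n).2)
  -- `A`
  have hA : h7_FD (X : PowerSeries R) M 0 (fun n => h7g_A a b n) :=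
    (c 1).add (h7g_FD_mul0 (h7g_FD_mul0 ((c (h7g_w1 a b)).sub hlam)
      ((c (C a)).add (h7g_FD_mul0 (c (2 * C b)) hlam))) hE')
  constructor
  · rw [h7g_fwdDiff_theta]
    simpa using hA.X_mul
  · rw [h7g_fwdDiff_sigma]
    have h3 : h7_FD (X : PowerSeries R) M 0 (fun n =>
        h7g_lam a b (h7g_theta a b n) (h7g_sigma a b n) * h7g_A a b n
          - 2 * (h7g_w1 a b - h7g_lam a b (h7g_theta a b n) (h7g_sigma a b n))) :=
      (h7g_FD_mul0 hlam hA).sub (h7g_FD_mul0 (c 2) ((c (h7g_w1 a b)).sub hlam))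
    simpa using h3.X_mul

theorem h7g_FD_all (M : ℕ) :
    h7_FD (X : PowerSeries R) M 0 (h7g_theta a b) ∧ h7_FD (X : PowerSeries R) M 0 (h7g_sigma a b) := by
  have key := h7_FD_of_step (X : PowerSeries R)
    (fun i : Bool => if i then h7g_theta a b else h7g_sigma a b)
    (fun M h i => by
      have hθ := h true
      have hσ := h false
      simp only [if_true] at hθ
      simp only [Bool.false_eq_true, if_false] at hσ
      obtain ⟨h1, h2⟩ := h7g_FD_step a b M hθ hσ
      cases i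
      · simpa using h2
      · simpa using h1) M
  have h1 := key true
  have h2 := key false
  simp only [if_true] at h1
  simp only [Bool.false_eq_true, if_false] at h2
  exact ⟨h1, h2⟩

/-- **(FG-ii)** the generic package. -/
theorem h7g_generic (a b : R) : ∃ (w : PowerSeries R) (θ σ : ℕ → PowerSeries R),
    h4Curve (C a) (C b) X w ∧ θ 0 = 0 ∧ σ 0 = 0 ∧
    (∀ n, h4AddRel (C a) (C b) X w (θ n) (σ n) (θ (n + 1)) (σ (n + 1))) ∧
    ∀ p : ℕ, p.Prime → (coeff 1 (θ p) = (p : R) ∧ ∀ k < p, k ≠ 1 → (p : R) ∣ coeff k (θ p)) := by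
  refine ⟨h7g_w a b, h7g_theta a b, h7g_sigma a b, h7g_w_curve a b, rfl, rfl, h7g_addRel a b, ?_⟩
  intro p hp
  obtain ⟨U, G, hUG⟩ := h7_FD_newton hp (h7g_FD_all a b p).1 (h7g_theta_zero a b)
    (h7g_theta_one a b)
  have hp2 : 2 ≤ p := hp.two_le
  have hG : ∀ k < p, coeff k ((X : PowerSeries R) ^ p * G) = 0 := by
    intro k hk
    have : (X : PowerSeries R) ^ p ∣ X ^ p * G := dvd_mul_right _ _
    exact (X_pow_dvd_iff.mp this) k hk
  have hrew : h7g_theta a b p = C (p : R) * (X * (1 + X * U)) + X ^ p * G := by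
    rw [hUG, map_natCast]
    ring
  constructor
  · rw [hrew, map_add, hG 1 (by omega), add_zero, coeff_C_mul]
    have : coeff 1 ((X : PowerSeries R) * (1 + X * U)) = 1 := by
      rw [show (1 : ℕ) = 0 + 1 from rfl, coeff_succ_X_mul]
      simp
    rw [this, mul_one]
  · intro k hk _
    rw [hrew, map_add, hG k hk, add_zero, coeff_C_mul]
    exact dvd_mul_right _ _

end Fermat.Agent.Lib.S13
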