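/-
S13 project (lead): contract (O), the action of `G_ℚ` on `E[p]` factors through a finite level.
-/
import Mathlib
import Fermat.Agent.Lib.S13.Defs

set_option autoImplicit false

open WeierstrassCurve WeierstrassCurve.Affine WeierstrassCurve.Affine.Point

namespace Fermat.Agent.Lib.S13

/-- The set of coordinates of an affine point. -/
def lead_s13_coords {W : Affine Qbar} : W.Point → Set Qbar
  | .zero => ∅
  | .some x y _ => {x, y}

theorem lead_s13_coords_finite {W : Affine Qbar} (Q : W.Point) : (lead_s13_coords Q).Finite := by
  cases Q with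
  | zero => exact Set.finite_empty
  | some x y h => exact (Set.finite_singleton y).insert x

/-- An automorphism fixing the coordinates of a point fixes the point. -/
theorem lead_s13_smul_eq_of_coords (W' : Affine ℚ) (σ : GQ) (Q : (W'⁄Qbar).Point)
    (h : ∀ t ∈ lead_s13_coords Q, σ t = t) : σ • Q = Q := by
  cases Q with
  | zero => rfl
  | some x y hxy =>
    have hx : σ x = x := h x (by simp [lead_s13_coords])
    have hy : σ y = y := h y (by simp [lead_s13_coords])
    rw [algEquiv_smul_def, map_some, Point.some.injEq]
    exact ⟨hx, hy⟩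

theorem lead_s13_isAlgebraic_Qbar : Algebra.IsAlgebraic ℚ Qbar := by
  have h : (DivisionRing.toRatAlgebra : Algebra ℚ Qbar) =
      AlgebraicClosure.instAlgebra (k := ℚ) (R := ℚ) := Subsingleton.elim _ _
  rw [h]
  exact AlgebraicClosure.isAlgebraic ℚ

/-- (O): the action on `V` factors through a finite level. -/
theorem lead_s13_openKernel : OpenKernelStatement := by
  intro P hV
  have : Fact P.p.Prime := ⟨P.pp⟩
  have hfin : Module.Finite (ZMod P.p) (FreyV P) := Module.finite_of_finrank_pos (by omega)
  have hfinV : Finite (FreyV P) := Module.finite_of_finite (ZMod P.p)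
  let S : Set Qbar := ⋃ x : FreyV P, lead_s13_coords (x : (P.freyCurve⁄Qbar).Point)
  have hS : S.Finite := Set.finite_iUnion fun x => lead_s13_coords_finite _
  have : Finite S := hS
  refine ⟨IntermediateField.adjoin ℚ S,
    IntermediateField.finiteDimensional_adjoin fun x _ => (lead_s13_isAlgebraic_Qbar.isAlgebraic x).isIntegral,
    fun σ hσ x => ?_⟩
  rw [IntermediateField.mem_fixingSubgroup_iff] at hσ
  apply Subtype.ext
  show σ • (x : (P.freyCurve⁄Qbar).Point) = x
  apply lead_s13_smul_eq_of_coords
  intro t ht
  apply hσ
  apply IntermediateField.subset_adjoin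
  exact Set.mem_iUnion.2 ⟨x, ht⟩

end Fermat.Agent.Lib.S13
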