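/-
S13 project, stream (T), piece (T5) (helper3): every `(A, B)` with `A³ - 27B² ≠ 0` is `(g₂, g₃)` of a
lattice (`PeriodPair`).  Route: `L = c(ℤτ + ℤ)` has `G_k(L) = c⁻ᵏ · 2ζ(k) E_k(τ)`, so
`g₂ = c⁻⁴ (4π⁴/3) E₄(τ)`, `g₃ = c⁻⁶ (8π⁶/27) E₆(τ)`; choose `τ` with the right `j` (`h3_jFun_surjective`)
and then `c`.
-/
import Mathlib
import Fermat.Agent.Lib.X0.JOrder

set_option autoImplicit false
open Complex Real UpperHalfPlane EisensteinSeries ModularForm
open scoped MatrixGroups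

namespace Fermat.Agent.Lib.S13

open Fermat.Agent.Lib.X0

theorem h3_bernoulli'_five : bernoulli' 5 = 0 := by
  have h1 : Nat.choose 5 2 = 10 := by decide
  have h2 : Nat.choose 5 3 = 10 := by decide
  have h3 : Nat.choose 5 4 = 5 := by decide
  rw [bernoulli'_def]
  norm_num [Finset.sum_range_succ, Finset.sum_range_zero, h1, h2, h3]

theorem h3_bernoulli'_six : bernoulli' 6 = 1 / 42 := by
  have h1 : Nat.choose 6 2 = 15 := by decide
  have h2 : Nat.choose 6 3 = 20 := by decide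
  have h3 : Nat.choose 6 4 = 15 := by decide
  have h4 : Nat.choose 6 5 = 6 := by decide
  rw [bernoulli'_def]
  norm_num [Finset.sum_range_succ, Finset.sum_range_zero, h1, h2, h3, h4, h3_bernoulli'_five]

theorem h3_riemannZeta_six : riemannZeta 6 = (π : ℂ) ^ 6 / 945 := by
  have h := riemannZeta_two_mul_nat (k := 3) (by norm_num)
  have hb : bernoulli (2 * 3) = 1 / 42 := by
    rw [bernoulli_eq_bernoulli'_of_ne_one (by norm_num)]
    exact h3_bernoulli'_six
  rw [hb] at h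
  have e : ((2 : ℂ) * ((3 : ℕ) : ℂ)) = 6 := by norm_num
  rw [e] at h
  rw [h]
  have hf : ((2 * 3).factorial : ℂ) = 720 := by
    norm_num [Nat.factorial]
  rw [hf]
  push_cast
  ring

/-- The period pair `(cτ, c)`; its lattice is `c(ℤτ + ℤ)`. -/
noncomputable def h3_pp (c : ℂ) (hc : c ≠ 0) (τ : ℍ) : PeriodPair where
  ω₁ := c * τ
  ω₂ := c
  indep := by
    rw [LinearIndependent.pair_iff]
    intro s t h
    have h1 : c * ((s : ℂ) * τ + t) = 0 := by
      have : (s : ℂ) * (c * τ) + (t : ℂ) * c = 0 := by simpa using h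
      linear_combination this
    have h2 : (s : ℂ) * τ + t = 0 := (mul_eq_zero.mp h1).resolve_left hc
    have him := congrArg Complex.im h2
    simp only [add_im, mul_im, ofReal_re, ofReal_im, zero_mul, add_zero, zero_im, coe_im] at him
    have hs : s = 0 := by
      rcases mul_eq_zero.mp him with h | h
      · exact h
      · exact absurd h τ.im_pos.ne'
    subst hs
    have : (t : ℂ) = 0 := by simpa using h2
    exact ⟨rfl, by exact_mod_cast this⟩

theorem h3_pp_G (c : ℂ) (hc : c ≠ 0) (τ : ℍ) (k : ℕ) (hk : 3 ≤ k) :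
    (h3_pp c hc τ).G k = (c ^ k)⁻¹ * (riemannZeta k * (2 * E hk τ)) := by
  set L := h3_pp c hc τ with hL
  have h1 : L.G k = ∑' x : ℤ × ℤ, (((L.latticeEquivProd.symm x : L.lattice) : ℂ) ^ k)⁻¹ := by
    unfold PeriodPair.G
    exact (L.latticeEquivProd.symm.toEquiv.tsum_eq (fun l : L.lattice => ((l : ℂ) ^ k)⁻¹)).symm
  rw [h1]
  have h2 : ∀ x : ℤ × ℤ, (((L.latticeEquivProd.symm x : L.lattice) : ℂ) ^ k)⁻¹
      = (c ^ k)⁻¹ * eisSummand k ![x.1, x.2] τ := by
    intro x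
    rw [PeriodPair.latticeEquiv_symm_apply]
    simp only [eisSummand, hL, h3_pp, Matrix.cons_val_zero, Matrix.cons_val_one, zpow_neg,
      zpow_natCast]
    rw [← mul_inv, ← mul_pow]
    congr 2
    ring
  simp_rw [h2]
  rw [tsum_mul_left]
  congr 1
  have h3 := tsum_eisSummand_eq_riemannZeta_mul_eisensteinSeries hk τ
  have h4 : ∑' x : ℤ × ℤ, eisSummand k ![x.1, x.2] τ = ∑' v : Fin 2 → ℤ, eisSummand k v τ := by
    rw [← (finTwoArrowEquiv ℤ).symm.tsum_eq]
    simp [finTwoArrowEquiv_symm_apply]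
  rw [h4, h3]
  congr 1
  rw [show E hk τ = (1 / 2 : ℂ) • eisensteinSeriesSIF (N := 1) 0 k τ from rfl,
    eisensteinSeriesSIF_apply 0 k τ]
  simp only [smul_eq_mul]
  ring

theorem h3_pp_g₂ (c : ℂ) (hc : c ≠ 0) (τ : ℍ) :
    (h3_pp c hc τ).g₂ = (c ^ 4)⁻¹ * ((4 * (π : ℂ) ^ 4 / 3) * E₄ τ) := by
  unfold PeriodPair.g₂
  rw [h3_pp_G c hc τ 4 (by norm_num)]
  have : riemannZeta ((4 : ℕ) : ℂ) = (π : ℂ) ^ 4 / 90 := by
    have := riemannZeta_four
    simpa using this
  rw [this]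
  ring

theorem h3_pp_g₃ (c : ℂ) (hc : c ≠ 0) (τ : ℍ) :
    (h3_pp c hc τ).g₃ = (c ^ 6)⁻¹ * ((8 * (π : ℂ) ^ 6 / 27) * E₆ τ) := by
  unfold PeriodPair.g₃
  rw [h3_pp_G c hc τ 6 (by norm_num)]
  have : riemannZeta ((6 : ℕ) : ℂ) = (π : ℂ) ^ 6 / 945 := by
    have := h3_riemannZeta_six
    simpa using this
  rw [this]
  ring

/-- **(T5)** Every pair `(A, B)` with `A³ - 27B² ≠ 0` is `(g₂, g₃)` of a lattice. -/
theorem h3_exists_periodPair_g (A B : ℂ) (h : A ^ 3 - 27 * B ^ 2 ≠ 0) :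
    ∃ L : PeriodPair, L.g₂ = A ∧ L.g₃ = B := by
  obtain ⟨τ, hτ⟩ := h3_jFun_surjective (1728 * A ^ 3 / (A ^ 3 - 27 * B ^ 2))
  set e4 := E₄ τ with he4
  set e6 := E₆ τ with he6
  have hΔ : ModularForm.discriminant τ ≠ 0 := discriminant_ne_zero τ
  have hD : e4 ^ 3 - e6 ^ 2 = 1728 * ModularForm.discriminant τ := by
    have := h3_E₄_cube_sub τ
    rw [he4, he6]; linear_combination this
  have hD0 : e4 ^ 3 - e6 ^ 2 ≠ 0 := by
    rw [hD]; exact mul_ne_zero (by norm_num) hΔ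
  -- the key relation
  have hkey : 27 * B ^ 2 * e4 ^ 3 = A ^ 3 * e6 ^ 2 := by
    unfold jFun at hτ
    rw [← he4] at hτ
    have h1 : e4 ^ 3 * (A ^ 3 - 27 * B ^ 2) = 1728 * A ^ 3 * ModularForm.discriminant τ := by
      field_simp at hτ
      linear_combination hτ
    have h2 : 1728 * ModularForm.discriminant τ = e4 ^ 3 - e6 ^ 2 := hD.symm
    linear_combination (-1 : ℂ) * h1 - A ^ 3 * h2
  have hπ : (π : ℂ) ≠ 0 := by exact_mod_cast Real.pi_ne_zero
  obtain ⟨α, hα⟩ : ∃ α : ℂ, α = 4 * (π : ℂ) ^ 4 / 3 := ⟨_, rfl⟩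
  obtain ⟨β, hβ⟩ : ∃ β : ℂ, β = 8 * (π : ℂ) ^ 6 / 27 := ⟨_, rfl⟩
  have hα0 : α ≠ 0 := by
    rw [hα]; exact div_ne_zero (mul_ne_zero (by norm_num) (pow_ne_zero _ hπ)) (by norm_num)
  have hβ0 : β ≠ 0 := by
    rw [hβ]; exact div_ne_zero (mul_ne_zero (by norm_num) (pow_ne_zero _ hπ)) (by norm_num)
  have hαβ : α ^ 3 = 27 * β ^ 2 := by rw [hα, hβ]; ring
  -- it suffices to find `u ≠ 0` with `u²αe4 = A`, `u³βe6 = B`
  suffices hu : ∃ u : ℂ, u ≠ 0 ∧ u ^ 2 * (α * e4) = A ∧ u ^ 3 * (β * e6) = B by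
    obtain ⟨u, hu0, hu2, hu3⟩ := hu
    obtain ⟨c, hc⟩ := IsAlgClosed.exists_pow_nat_eq (u⁻¹) (n := 2) (by norm_num)
    have hc0 : c ≠ 0 := by
      rintro rfl
      have : (0 : ℂ) ^ 2 = u⁻¹ := hc
      rw [zero_pow (by norm_num)] at this
      exact inv_ne_zero hu0 this.symm
    refine ⟨h3_pp c hc0 τ, ?_, ?_⟩
    · rw [h3_pp_g₂, ← hu2, ← hα, ← he4]
      have : (c ^ 4)⁻¹ = u ^ 2 := by
        have : c ^ 4 = (c ^ 2) ^ 2 := by ring
        rw [this, hc]; simp
      rw [this]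
    · rw [h3_pp_g₃, ← hu3, ← hβ, ← he6]
      have : (c ^ 6)⁻¹ = u ^ 3 := by
        have : c ^ 6 = (c ^ 2) ^ 3 := by ring
        rw [this, hc]; simp
      rw [this]
  by_cases h4 : e4 = 0
  · -- `e4 = 0`: then `A = 0`, `e6 ≠ 0`, `B ≠ 0`
    have h6 : e6 ≠ 0 := by
      intro h6; apply hD0; rw [h4, h6]; ring
    have hA : A = 0 := by
      rw [h4] at hkey
      have : A ^ 3 * e6 ^ 2 = 0 := by rw [← hkey]; ring
      rcases mul_eq_zero.mp this with h' | h'
      · exact pow_eq_zero_iff (by norm_num) |>.mp h'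
      · exact absurd (pow_eq_zero_iff (by norm_num) |>.mp h') h6
    have hB : B ≠ 0 := by
      intro hB; apply h; rw [hA, hB]; ring
    obtain ⟨u, hu⟩ := IsAlgClosed.exists_pow_nat_eq (B / (β * e6)) (n := 3) (by norm_num)
    have hu0 : u ≠ 0 := by
      rintro rfl
      rw [zero_pow (by norm_num)] at hu
      exact div_ne_zero hB (mul_ne_zero hβ0 h6) hu.symm
    refine ⟨u, hu0, ?_, ?_⟩
    · rw [h4, hA]; ring
    · rw [hu]; field_simp
  · by_cases h6 : e6 = 0
    · have hB : B = 0 := by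
        rw [h6] at hkey
        have : 27 * B ^ 2 * e4 ^ 3 = 0 := by rw [hkey]; ring
        have h' : B ^ 2 = 0 := by
          rcases mul_eq_zero.mp this with h' | h'
          · rcases mul_eq_zero.mp h' with h'' | h''
            · norm_num at h''
            · exact h''
          · exact absurd (pow_eq_zero_iff (by norm_num) |>.mp h') h4
        exact pow_eq_zero_iff (by norm_num) |>.mp h'
      have hA : A ≠ 0 := by
        intro hA; apply h; rw [hA, hB]; ring
      obtain ⟨u, hu⟩ := IsAlgClosed.exists_pow_nat_eq (A / (α * e4)) (n := 2) (by norm_num)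
      have hu0 : u ≠ 0 := by
        rintro rfl
        rw [zero_pow (by norm_num)] at hu
        exact div_ne_zero hA (mul_ne_zero hα0 h4) hu.symm
      refine ⟨u, hu0, ?_, ?_⟩
      · rw [hu]; field_simp
      · rw [h6, hB]; ring
    · have hA : A ≠ 0 := by
        intro hA
        rw [hA] at hkey
        have : 27 * B ^ 2 * e4 ^ 3 = 0 := by rw [hkey]; ring
        have hB : B = 0 := by
          have h' : B ^ 2 = 0 := by
            rcases mul_eq_zero.mp this with h' | h'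
            · rcases mul_eq_zero.mp h' with h'' | h''
              · norm_num at h''
              · exact h''
            · exact absurd (pow_eq_zero_iff (by norm_num) |>.mp h') h4
          exact pow_eq_zero_iff (by norm_num) |>.mp h'
        apply h; rw [hA, hB]; ring
      have hB : B ≠ 0 := by
        intro hB
        rw [hB] at hkey
        have : A ^ 3 * e6 ^ 2 = 0 := by rw [← hkey]; ring
        rcases mul_eq_zero.mp this with h' | h'
        · exact hA (pow_eq_zero_iff (by norm_num) |>.mp h')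
        · exact h6 (pow_eq_zero_iff (by norm_num) |>.mp h')
      refine ⟨B * α * e4 / (A * β * e6), ?_, ?_, ?_⟩
      · exact div_ne_zero (mul_ne_zero (mul_ne_zero hB hα0) h4)
          (mul_ne_zero (mul_ne_zero hA hβ0) h6)
      · have hden : (A * β * e6) ^ 2 ≠ 0 :=
          pow_ne_zero _ (mul_ne_zero (mul_ne_zero hA hβ0) h6)
        rw [div_pow, div_mul_eq_mul_div, div_eq_iff hden]
        linear_combination (β ^ 2) * hkey + (B ^ 2 * e4 ^ 3) * hαβ
      · have hden : (A * β * e6) ^ 3 ≠ 0 :=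
          pow_ne_zero _ (mul_ne_zero (mul_ne_zero hA hβ0) h6)
        rw [div_pow, div_mul_eq_mul_div, div_eq_iff hden]
        linear_combination (B * β * e6) * ((β ^ 2) * hkey + (B ^ 2 * e4 ^ 3) * hαβ)

/-- **(T4)** in helper1's shape: the short Weierstrass curve `y² = x³ + Ax + B` with
`4A³ + 27B² ≠ 0` is `y² = x³ - (g₂/4)x - g₃/4` for a lattice. -/
theorem h3_exists_periodPair (A B : ℂ) (h : 4 * A ^ 3 + 27 * B ^ 2 ≠ 0) :
    ∃ L : PeriodPair, L.g₂ = -4 * A ∧ L.g₃ = -4 * B := by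
  apply h3_exists_periodPair_g
  intro h0
  apply h
  linear_combination (-1 / 16 : ℂ) * h0

end Fermat.Agent.Lib.S13
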