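import Fermat.Agent.Lib.S13.WPBasic

/-!
# Project S13 (T2): the addition theorem for the Weierstrass `℘`-function

Owner: helper7.

The proof is by uniqueness for the analytic ODE `u'' = 6 u² - g₂/2`: for fixed `w ∉ Λ`, the chord
formula `R z = λ² - ℘ z - ℘ w`, `λ = (℘' z - ℘' w) / (2 (℘ z - ℘ w))`, satisfies `R'' = 6 R² - g₂/2`
(pure algebra from `℘'² = 4℘³ - g₂℘ - g₃`), extends analytically to `z = 0` with
`(R 0, R' 0) = (℘ w, ℘' w)`, hence agrees with `℘ (z + w)` near `0`, hence everywhere by the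
identity theorem.

Main exports (`Λ := L.lattice`):
* `h7_wp_add_poly` : for `z, w, z + w ∉ Λ`, the two division-free identities
  `(℘(z+w) + ℘z + ℘w) * (4 (℘z - ℘w)²) = (℘'z - ℘'w)²` and
  `(℘'(z+w) + ℘'z) (℘z - ℘w) + (℘'z - ℘'w) (℘(z+w) - ℘z) = 0`.
* `h7_wp_add'` : chord formulas, hypothesis `℘ z ≠ ℘ w`.
* `h7_wp_add` : chord formulas, hypotheses `z ± w ∉ Λ`.
* `h7_wp_dup_poly`, `h7_wp_dup`, `h7_wp_add_tangent` : duplication (tangent) formulas.
-/

set_option autoImplicit false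

namespace Fermat.Agent.Lib.S13

open PeriodPair Filter Topology

variable (L : PeriodPair)

theorem h7_countable_lattice : (L.lattice : Set ℂ).Countable := by
  have : Countable L.lattice := L.latticeEquivProd.toEquiv.countable_iff.mpr inferInstance
  exact Set.countable_coe_iff.mp this

theorem h7_isOpen_compl_lattice : IsOpen (L.lattice : Set ℂ)ᶜ := L.isClosed_lattice.isOpen_compl

theorem h7_isConnected_compl_lattice : IsConnected (L.lattice : Set ℂ)ᶜ :=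
  (h7_countable_lattice L).isConnected_compl_of_one_lt_rank (by rw [Complex.rank_real_complex]; norm_num)

theorem h7_hasDerivAt_wp {z : ℂ} (hz : z ∉ L.lattice) : HasDerivAt ℘[L] (℘'[L] z) z := by
  have h := (L.differentiableOn_weierstrassP.differentiableAt
    ((h7_isOpen_compl_lattice L).mem_nhds hz)).hasDerivAt
  rwa [L.deriv_weierstrassP] at h

theorem h7_differentiableAt_dwp {z : ℂ} (hz : z ∉ L.lattice) : DifferentiableAt ℂ ℘'[L] z :=
  L.differentiableOn_derivWeierstrassP.differentiableAt ((h7_isOpen_compl_lattice L).mem_nhds hz)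

/-- `℘'` does not vanish identically off the lattice. -/
theorem h7_dwp_not_identically_zero : ¬ ∀ z ∈ (L.lattice : Set ℂ)ᶜ, ℘'[L] z = 0 := by
  intro h
  -- `℘'[L - 0] z = 2 / z ^ 3` near `0`, but the left side is continuous at `0`
  have hcont : ContinuousAt ℘'[L - (0 : ℂ)] 0 := (L.analyticAt_derivWeierstrassPExcept 0).continuousAt
  have hev : ∀ᶠ z in 𝓝[≠] (0 : ℂ), ℘'[L - (0 : ℂ)] z = 2 / z ^ 3 := by
    have h1 : ∀ᶠ z in 𝓝[≠] (0 : ℂ), z ∈ ((L.lattice : Set ℂ) \ {0})ᶜ :=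
      mem_nhdsWithin_of_mem_nhds (L.compl_lattice_sdiff_singleton_mem_nhds 0)
    filter_upwards [h1, self_mem_nhdsWithin] with z hz hz0
    have hzL : z ∉ L.lattice := by
      intro hmem
      exact hz ⟨hmem, hz0⟩
    have := L.derivWeierstrassPExcept_def (0 : L.lattice) z
    simp only [ZeroMemClass.coe_zero, sub_zero] at this
    rw [this, h z hzL, zero_add]
  -- so `z ^ 3 * ℘'[L - 0] z = 2` near zero, but tends to `0`
  have h2 : Tendsto (fun z : ℂ => z ^ 3 * ℘'[L - (0 : ℂ)] z) (𝓝[≠] 0) (𝓝 (0 ^ 3 * ℘'[L - (0 : ℂ)] 0)) :=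
    ((continuousAt_id.pow 3).mul hcont).tendsto.mono_left nhdsWithin_le_nhds
  have h3 : Tendsto (fun z : ℂ => z ^ 3 * ℘'[L - (0 : ℂ)] z) (𝓝[≠] 0) (𝓝 2) := by
    apply tendsto_const_nhds.congr'
    filter_upwards [hev, self_mem_nhdsWithin] with z hz hz0
    have hz0' : z ≠ 0 := hz0
    rw [hz]
    field_simp
  have := tendsto_nhds_unique h2 h3
  norm_num at this

/-- `℘'' = 6 ℘² - g₂ / 2`. -/
theorem h7_hasDerivAt_dwp {z : ℂ} (hz : z ∉ L.lattice) :
    HasDerivAt ℘'[L] (6 * ℘[L] z ^ 2 - L.g₂ / 2) z := by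
  have hmul : ∀ z ∈ (L.lattice : Set ℂ)ᶜ,
      ℘'[L] z * (deriv ℘'[L] z - (6 * ℘[L] z ^ 2 - L.g₂ / 2)) = 0 := by
    intro z hz
    have hz' : z ∉ L.lattice := hz
    have hA : HasDerivAt (fun z => ℘'[L] z ^ 2) (2 * ℘'[L] z * deriv ℘'[L] z) z := by
      have h0 := (h7_differentiableAt_dwp L hz').hasDerivAt
      have := h0.mul h0
      refine (this.congr_of_eventuallyEq ?_).congr_deriv ?_
      · filter_upwards with u
        simp [pow_two]
      · ring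
    have hB : HasDerivAt (fun z => 4 * ℘[L] z ^ 3 - L.g₂ * ℘[L] z - L.g₃)
        (4 * (3 * ℘[L] z ^ 2 * ℘'[L] z) - L.g₂ * ℘'[L] z) z := by
      have h1 := (h7_hasDerivAt_wp L hz').pow 3
      have h2 := ((h1.const_mul 4).sub ((h7_hasDerivAt_wp L hz').const_mul L.g₂)).sub_const L.g₃
      simpa using h2
    have heq : (fun z => ℘'[L] z ^ 2) =ᶠ[𝓝 z] fun z => 4 * ℘[L] z ^ 3 - L.g₂ * ℘[L] z - L.g₃ := by
      filter_upwards [(h7_isOpen_compl_lattice L).mem_nhds hz] with w hw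
      exact L.derivWeierstrassP_sq w hw
    have := (hA.congr_of_eventuallyEq heq.symm).unique hB
    linear_combination (1 / 2 : ℂ) * this
  have han1 : AnalyticOnNhd ℂ ℘'[L] (L.lattice : Set ℂ)ᶜ := L.analyticOnNhd_derivWeierstrassP
  have han2 : AnalyticOnNhd ℂ (fun z => deriv ℘'[L] z - (6 * ℘[L] z ^ 2 - L.g₂ / 2))
      (L.lattice : Set ℂ)ᶜ := by
    intro w hw
    have h1 : AnalyticAt ℂ ℘'[L] w := L.analyticOnNhd_derivWeierstrassP w hw
    have h2 : AnalyticAt ℂ ℘[L] w := L.analyticOnNhd_weierstrassP w hw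
    exact h1.deriv.sub ((analyticAt_const.mul (h2.pow 2)).sub analyticAt_const)
  rcases AnalyticOnNhd.eq_zero_or_eq_zero_of_mul_eq_zero han1 han2 hmul
    (h7_isConnected_compl_lattice L).isPreconnected with h | h
  · exact absurd h (h7_dwp_not_identically_zero L)
  · have := h z hz
    have h2 := (h7_differentiableAt_dwp L hz).hasDerivAt
    rw [sub_eq_zero.mp this] at h2
    exact h2

section Algebra

variable (a b : ℂ)

/-- The slope of the chord through `(℘ z, ℘' z)` and `(a, b)`. -/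
noncomputable def h7_slope (z : ℂ) : ℂ := (℘'[L] z - b) / (2 * (℘[L] z - a))

/-- The `x`-coordinate of the sum. -/
noncomputable def h7_sumX (z : ℂ) : ℂ := h7_slope L a b z ^ 2 - ℘[L] z - a

/-- The `℘'`-coordinate of the sum. -/
noncomputable def h7_sumY (z : ℂ) : ℂ :=
  -2 * h7_slope L a b z * (h7_sumX L a b z - ℘[L] z) - ℘'[L] z

variable {a b}

theorem h7_hasDerivAt_slope (hab : b ^ 2 = 4 * a ^ 3 - L.g₂ * a - L.g₃) {z : ℂ}
    (hz : z ∉ L.lattice) (hne : ℘[L] z ≠ a) :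
    HasDerivAt (h7_slope L a b) (2 * ℘[L] z + a - h7_slope L a b z ^ 2) z := by
  have hp := h7_hasDerivAt_wp L hz
  have hq := h7_hasDerivAt_dwp L hz
  have hsq := L.derivWeierstrassP_sq z hz
  have hne' : ℘[L] z - a ≠ 0 := sub_ne_zero.mpr hne
  have h1 : HasDerivAt (fun z => ℘'[L] z - b) (6 * ℘[L] z ^ 2 - L.g₂ / 2) z := hq.sub_const b
  have h2 : HasDerivAt (fun z => 2 * (℘[L] z - a)) (2 * ℘'[L] z) z := (hp.sub_const a).const_mul 2
  have h3 := h1.div h2 (mul_ne_zero two_ne_zero hne')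
  refine h3.congr_deriv ?_
  unfold h7_slope
  field_simp
  linear_combination (-1 : ℂ) * hsq + hab

theorem h7_hasDerivAt_sumX (hab : b ^ 2 = 4 * a ^ 3 - L.g₂ * a - L.g₃) {z : ℂ}
    (hz : z ∉ L.lattice) (hne : ℘[L] z ≠ a) :
    HasDerivAt (h7_sumX L a b) (h7_sumY L a b z) z := by
  have hp := h7_hasDerivAt_wp L hz
  have hl := h7_hasDerivAt_slope L hab hz hne
  have h1 := ((hl.pow 2).sub hp).sub_const a
  refine (h1.congr_of_eventuallyEq ?_).congr_deriv ?_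
  · filter_upwards with u
    rfl
  · unfold h7_sumY h7_sumX
    simp only [Nat.cast_ofNat, Nat.add_one_sub_one, pow_one]
    ring

theorem h7_hasDerivAt_sumY (hab : b ^ 2 = 4 * a ^ 3 - L.g₂ * a - L.g₃) {z : ℂ}
    (hz : z ∉ L.lattice) (hne : ℘[L] z ≠ a) :
    HasDerivAt (h7_sumY L a b) (6 * h7_sumX L a b z ^ 2 - L.g₂ / 2) z := by
  have hp := h7_hasDerivAt_wp L hz
  have hq := h7_hasDerivAt_dwp L hz
  have hl := h7_hasDerivAt_slope L hab hz hne
  have hX := h7_hasDerivAt_sumX L hab hz hne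
  have hsq := L.derivWeierstrassP_sq z hz
  have hne' : ℘[L] z - a ≠ 0 := sub_ne_zero.mpr hne
  have h1 := ((hl.const_mul (-2)).mul (hX.sub hp)).sub hq
  refine (h1.congr_of_eventuallyEq ?_).congr_deriv ?_
  · filter_upwards with u
    rfl
  · -- the algebraic identity
    have hlam : h7_slope L a b z * (2 * (℘[L] z - a)) = ℘'[L] z - b := by
      unfold h7_slope
      field_simp
    have hXval : h7_sumX L a b z = h7_slope L a b z ^ 2 - ℘[L] z - a := rfl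
    have hYval : h7_sumY L a b z
        = -2 * h7_slope L a b z * (h7_sumX L a b z - ℘[L] z) - ℘'[L] z := rfl
    simp only [Pi.sub_apply]
    rw [hYval, hXval]
    set lam := h7_slope L a b z with hlamdef
    set p := ℘[L] z
    set q := ℘'[L] z
    -- expression = -4 (p - a) lam² + 4 lam q - 4 (p² + p a + a²) + g₂ = 0
    have key : -4 * (p - a) * lam ^ 2 + 4 * lam * q - 4 * (p ^ 2 + p * a + a ^ 2) + L.g₂ = 0 := by
      have e1 : (p - a) * (-4 * (p - a) * lam ^ 2 + 4 * lam * q - 4 * (p ^ 2 + p * a + a ^ 2) + L.g₂)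
          = 0 := by
        have : (p - a) * (-4 * (p - a) * lam ^ 2 + 4 * lam * q - 4 * (p ^ 2 + p * a + a ^ 2) + L.g₂)
            = -(lam * (2 * (p - a))) ^ 2 + 2 * q * (lam * (2 * (p - a)))
              - 4 * (p ^ 3 - a ^ 3) + L.g₂ * (p - a) := by ring
        rw [this, hlam]
        linear_combination hsq - hab
      rcases mul_eq_zero.mp e1 with h | h
      · exact absurd h hne'
      · exact h
    linear_combination key

end Algebra

section Local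

variable (a b : ℂ)

/-- The analytic continuation of `h7_sumX` to `z = 0`. -/
noncomputable def h7_sumXExt (z : ℂ) : ℂ :=
  (-4 * z * (℘'[L - (0 : ℂ)] z - b) + z ^ 4 * (℘'[L - (0 : ℂ)] z - b) ^ 2
      - 8 * (℘[L - (0 : ℂ)] z - a) - 4 * z ^ 2 * (℘[L - (0 : ℂ)] z - a) ^ 2)
    / (4 * (1 + z ^ 2 * (℘[L - (0 : ℂ)] z - a)) ^ 2) - ℘[L - (0 : ℂ)] z - a

theorem h7_wp_eq_except {z : ℂ} (_hz : z ∉ L.lattice) :
    ℘[L] z = ℘[L - (0 : ℂ)] z + 1 / z ^ 2 := by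
  have := L.weierstrassPExcept_def (0 : L.lattice) z
  simp only [ZeroMemClass.coe_zero, sub_zero] at this
  rw [this]
  simp

theorem h7_dwp_eq_except {z : ℂ} (_hz : z ∉ L.lattice) :
    ℘'[L] z = ℘'[L - (0 : ℂ)] z - 2 / z ^ 3 := by
  have := L.derivWeierstrassPExcept_def (0 : L.lattice) z
  simp only [ZeroMemClass.coe_zero, sub_zero] at this
  rw [this]
  ring

theorem h7_except_zero : ℘[L - (0 : ℂ)] 0 = 0 := L.weierstrassPExcept_zero 0

theorem h7_dexcept_zero : ℘'[L - (0 : ℂ)] 0 = 0 := by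
  have := L.derivWeierstrassPExcept_neg 0 0
  simp only [neg_zero] at this
  exact self_eq_neg.mp this

theorem h7_hasDerivAt_except_zero : HasDerivAt ℘[L - (0 : ℂ)] 0 0 := by
  have h := (L.analyticAt_weierstrassPExcept 0).differentiableAt.hasDerivAt
  rwa [L.deriv_weierstrassPExcept_same, h7_dexcept_zero] at h

theorem h7_sumXExt_eq_aux (z h h₁ a b D : ℂ) (hz0 : z ≠ 0) (hD : D ≠ 0)
    (hDdef : D = 1 + z ^ 2 * (h - a)) :
    ((h₁ - 2 / z ^ 3 - b) / (2 * (h + 1 / z ^ 2 - a))) ^ 2 - (h + 1 / z ^ 2) - a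
      = (-4 * z * (h₁ - b) + z ^ 4 * (h₁ - b) ^ 2 - 8 * (h - a) - 4 * z ^ 2 * (h - a) ^ 2)
          / (4 * D ^ 2) - h - a := by
  have h1 : h + 1 / z ^ 2 - a = D / z ^ 2 := by
    rw [hDdef]
    field_simp
    ring
  have h2 : h₁ - 2 / z ^ 3 - b = (z ^ 3 * (h₁ - b) - 2) / z ^ 3 := by
    field_simp
    ring
  rw [h1, h2]
  have h3 : (z ^ 3 * (h₁ - b) - 2) / z ^ 3 / (2 * (D / z ^ 2)) = (z ^ 3 * (h₁ - b) - 2) / (2 * z * D) := by
    field_simp
  rw [h3]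
  have h4 : ((z ^ 3 * (h₁ - b) - 2) / (2 * z * D)) ^ 2 - 1 / z ^ 2
      = (-4 * z * (h₁ - b) + z ^ 4 * (h₁ - b) ^ 2 - 8 * (h - a) - 4 * z ^ 2 * (h - a) ^ 2)
          / (4 * D ^ 2) := by
    rw [div_pow, div_sub_div _ _ (pow_ne_zero 2 (mul_ne_zero (mul_ne_zero two_ne_zero hz0) hD))
      (pow_ne_zero 2 hz0), div_eq_div_iff (mul_ne_zero (pow_ne_zero 2 (mul_ne_zero
      (mul_ne_zero two_ne_zero hz0) hD)) (pow_ne_zero 2 hz0))
      (mul_ne_zero (by norm_num : (4 : ℂ) ≠ 0) (pow_ne_zero 2 hD))]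
    rw [hDdef]
    ring
  linear_combination h4

theorem h7_sumXExt_eq {z : ℂ} (hz : z ∉ L.lattice)
    (hD : 1 + z ^ 2 * (℘[L - (0 : ℂ)] z - a) ≠ 0) :
    h7_sumX L a b z = h7_sumXExt L a b z := by
  have hz0 : z ≠ 0 := by
    rintro rfl
    exact hz (zero_mem _)
  unfold h7_sumX h7_slope h7_sumXExt
  rw [h7_wp_eq_except L hz, h7_dwp_eq_except L hz]
  exact h7_sumXExt_eq_aux z _ _ a b _ hz0 hD rfl

theorem h7_sumXExt_zero : h7_sumXExt L a b 0 = a := by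
  unfold h7_sumXExt
  rw [h7_except_zero, h7_dexcept_zero]
  norm_num
  ring

theorem h7_analyticAt_sumXExt : AnalyticAt ℂ (h7_sumXExt L a b) 0 := by
  have h1 : AnalyticAt ℂ ℘[L - (0 : ℂ)] 0 := L.analyticAt_weierstrassPExcept 0
  have h2 : AnalyticAt ℂ ℘'[L - (0 : ℂ)] 0 := L.analyticAt_derivWeierstrassPExcept 0
  unfold h7_sumXExt
  have hden : (4 * (1 + (0 : ℂ) ^ 2 * (℘[L - (0 : ℂ)] 0 - a)) ^ 2) ≠ 0 := by norm_num
  have hid : AnalyticAt ℂ (fun z : ℂ => z) 0 := analyticAt_id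
  refine AnalyticAt.sub (AnalyticAt.sub (AnalyticAt.div ?_ ?_ hden) h1) analyticAt_const
  · fun_prop
  · fun_prop

theorem h7_hasDerivAt_sumXExt_zero : HasDerivAt (h7_sumXExt L a b) b 0 := by
  have hh := h7_hasDerivAt_except_zero L
  have hh1 : HasDerivAt ℘'[L - (0 : ℂ)] (deriv ℘'[L - (0 : ℂ)] 0) 0 :=
    (L.analyticAt_derivWeierstrassPExcept 0).differentiableAt.hasDerivAt
  have hid : HasDerivAt (fun z : ℂ => z) 1 0 := hasDerivAt_id 0
  have hα : HasDerivAt (fun z => ℘[L - (0 : ℂ)] z - a) 0 0 := hh.sub_const a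
  have hβ : HasDerivAt (fun z => ℘'[L - (0 : ℂ)] z - b) (deriv ℘'[L - (0 : ℂ)] 0) 0 :=
    hh1.sub_const b
  have hnum := ((((hid.const_mul (-4)).mul hβ).add ((hid.pow 4).mul (hβ.pow 2))).sub
    (hα.const_mul 8)).sub (((hid.pow 2).const_mul 4).mul (hα.pow 2))
  have hden := (((hid.pow 2).mul hα).const_add 1).pow 2 |>.const_mul 4
  have hden0 : (4 * (1 + (0 : ℂ) ^ 2 * (℘[L - (0 : ℂ)] 0 - a)) ^ 2) ≠ 0 := by norm_num
  have hquot := (hnum.div hden hden0).sub hh |>.sub_const a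
  refine (hquot.congr_of_eventuallyEq ?_).congr_deriv ?_
  · filter_upwards with z
    simp only [h7_sumXExt, Pi.mul_apply, Pi.add_apply, Pi.sub_apply, Pi.pow_apply, Pi.div_apply]
  · simp only [Pi.mul_apply, Pi.add_apply, Pi.sub_apply, Pi.pow_apply]
    rw [h7_except_zero, h7_dexcept_zero]
    norm_num
    ring

end Local

section Unique

/-- Uniqueness for the analytic ODE `u'' = φ u` with zero initial data. -/
theorem h7_ode_unique {u φ : ℂ → ℂ} {z₀ : ℂ} (hu : AnalyticAt ℂ u z₀) (hφ : AnalyticAt ℂ φ z₀)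
    (h0 : u z₀ = 0) (h1 : deriv u z₀ = 0)
    (hode : ∀ᶠ z in 𝓝[≠] z₀, deriv (deriv u) z = φ z * u z) : ∀ᶠ z in 𝓝 z₀, u z = 0 := by
  by_contra hne
  have hfin : analyticOrderAt u z₀ ≠ ⊤ := by rwa [Ne, analyticOrderAt_eq_top]
  have hode' : deriv (deriv u) =ᶠ[𝓝 z₀] fun z => φ z * u z := by
    rcases (hu.deriv.deriv).eventually_eq_or_eventually_ne (hφ.mul hu) with h | h
    · exact h
    · exfalso
      obtain ⟨z, hz1, hz2⟩ := (hode.and h).exists
      exact hz2 hz1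
  obtain ⟨m, hm⟩ := ENat.ne_top_iff_exists.mp hfin
  have hm0 : m ≠ 0 := by
    intro h
    have : analyticOrderAt u z₀ = 0 := by rw [← hm, h]; rfl
    exact (hu.analyticOrderAt_eq_zero.mp this) h0
  obtain ⟨k, rfl⟩ := Nat.exists_eq_succ_of_ne_zero hm0
  have hk : analyticOrderAt (deriv u) z₀ = k :=
    analyticOrderAt_deriv_of_pos hu (by rw [← hm]; push_cast; rfl)
  have hk0 : k ≠ 0 := by
    intro h
    have : analyticOrderAt (deriv u) z₀ = 0 := by rw [hk, h]; rfl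
    exact (hu.deriv.analyticOrderAt_eq_zero.mp this) h1
  obtain ⟨j, rfl⟩ := Nat.exists_eq_succ_of_ne_zero hk0
  have hj : analyticOrderAt (deriv (deriv u)) z₀ = j :=
    analyticOrderAt_deriv_of_pos hu.deriv (by rw [hk]; push_cast; rfl)
  have hmul : analyticOrderAt (fun z => φ z * u z) z₀
      = analyticOrderAt φ z₀ + analyticOrderAt u z₀ := analyticOrderAt_mul hφ hu
  rw [← analyticOrderAt_congr hode', hj, ← hm] at hmul
  have h2 : ((j + 1 + 1 : ℕ) : ℕ∞) ≤ (j : ℕ∞) := by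
    rw [hmul]
    exact le_add_self
  have h3 : j + 1 + 1 ≤ j := by exact_mod_cast h2
  omega

end Unique

section Main

variable {w : ℂ}

theorem h7_hasDerivAt_wp_add {z : ℂ} (h : z + w ∉ L.lattice) :
    HasDerivAt (fun z => ℘[L] (z + w)) (℘'[L] (z + w)) z :=
  (h7_hasDerivAt_wp L h).comp_add_const z w

theorem h7_hasDerivAt_dwp_add {z : ℂ} (h : z + w ∉ L.lattice) :
    HasDerivAt (fun z => ℘'[L] (z + w)) (6 * ℘[L] (z + w) ^ 2 - L.g₂ / 2) z :=
  (h7_hasDerivAt_dwp L h).comp_add_const z w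

theorem h7_wp_sub_eq (a : ℂ) {z : ℂ} (hz : z ∉ L.lattice) :
    ℘[L] z - a = (1 + z ^ 2 * (℘[L - (0 : ℂ)] z - a)) / z ^ 2 := by
  have hz0 : z ≠ 0 := by
    rintro rfl
    exact hz (zero_mem _)
  rw [h7_wp_eq_except L hz]
  field_simp
  ring

/-- The addition theorem, near `z = 0`. -/
theorem h7_wp_add_local (hw : w ∉ L.lattice) :
    ∃ ε : ℝ, 0 < ε ∧ ∀ z ∈ Metric.ball (0 : ℂ) ε, z ≠ 0 →
      z ∉ L.lattice ∧ z + w ∉ L.lattice ∧ ℘[L] z ≠ ℘[L] w ∧
      ℘[L] (z + w) = h7_sumX L (℘[L] w) (℘'[L] w) z ∧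
      ℘'[L] (z + w) = h7_sumY L (℘[L] w) (℘'[L] w) z := by
  set a := ℘[L] w with ha
  set b := ℘'[L] w with hb
  have hab : b ^ 2 = 4 * a ^ 3 - L.g₂ * a - L.g₃ := L.derivWeierstrassP_sq w hw
  have hN1 : ∀ᶠ z in 𝓝 (0 : ℂ), z ∈ ((L.lattice : Set ℂ) \ {0})ᶜ :=
    L.compl_lattice_sdiff_singleton_mem_nhds 0
  have hN2 : ∀ᶠ z in 𝓝 (0 : ℂ), z + w ∉ L.lattice := by
    have hc : ContinuousAt (fun z : ℂ => z + w) 0 := by fun_prop
    have h0 : (0 : ℂ) + w ∈ (L.lattice : Set ℂ)ᶜ := by simpa using hw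
    exact hc.preimage_mem_nhds ((h7_isOpen_compl_lattice L).mem_nhds h0)
  have hN3 : ∀ᶠ z in 𝓝 (0 : ℂ), 1 + z ^ 2 * (℘[L - (0 : ℂ)] z - a) ≠ 0 := by
    have hc : ContinuousAt (fun z : ℂ => 1 + z ^ 2 * (℘[L - (0 : ℂ)] z - a)) 0 := by
      have := (L.analyticAt_weierstrassPExcept 0).continuousAt
      fun_prop
    have h0 : (1 : ℂ) + 0 ^ 2 * (℘[L - (0 : ℂ)] 0 - a) ≠ 0 := by norm_num
    exact hc.eventually_ne h0
  -- the ODE comparison
  let X : ℂ → ℂ := h7_sumXExt L a b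
  let Y : ℂ → ℂ := fun z => ℘[L] (z + w)
  have hXan : AnalyticAt ℂ X 0 := h7_analyticAt_sumXExt L a b
  have hYan : AnalyticAt ℂ Y 0 := by
    have h1 : AnalyticAt ℂ ℘[L] ((0 : ℂ) + w) := by
      rw [zero_add]
      exact L.analyticOnNhd_weierstrassP w hw
    exact h1.comp_of_eq (analyticAt_id.add analyticAt_const) rfl
  obtain ⟨ε, hε, hball⟩ := Metric.eventually_nhds_iff_ball.mp (hN1.and (hN2.and hN3))
  have hgood : ∀ z ∈ Metric.ball (0 : ℂ) ε, z ≠ 0 →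
      z ∉ L.lattice ∧ z + w ∉ L.lattice ∧ ℘[L] z ≠ a ∧ h7_sumX L a b z = X z := by
    intro z hz hz0
    obtain ⟨h1, h2, h3⟩ := hball z hz
    have hzL : z ∉ L.lattice := fun hmem => h1 ⟨hmem, hz0⟩
    refine ⟨hzL, h2, ?_, h7_sumXExt_eq L a b hzL h3⟩
    intro heq
    have := h7_wp_sub_eq L a hzL
    rw [heq, sub_self] at this
    have hz2 : z ^ 2 ≠ 0 := pow_ne_zero 2 hz0
    exact h3 (by
      have h4 := this.symm
      rw [div_eq_zero_iff] at h4
      exact h4.resolve_right hz2)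
  -- the punctured ball is open
  have hOopen : IsOpen (Metric.ball (0 : ℂ) ε \ {0}) := Metric.isOpen_ball.sdiff isClosed_singleton
  have hXd : ∀ z ∈ Metric.ball (0 : ℂ) ε \ {0}, HasDerivAt X (h7_sumY L a b z) z := by
    intro z hz
    obtain ⟨h1, h2, h3, h4⟩ := hgood z hz.1 hz.2
    have hd := h7_hasDerivAt_sumX L hab h1 h3
    refine hd.congr_of_eventuallyEq ?_
    filter_upwards [hOopen.mem_nhds hz] with z' hz'
    exact ((hgood z' hz'.1 hz'.2).2.2.2).symm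
  have hXdd : ∀ z ∈ Metric.ball (0 : ℂ) ε \ {0},
      HasDerivAt (deriv X) (6 * X z ^ 2 - L.g₂ / 2) z := by
    intro z hz
    obtain ⟨h1, h2, h3, h4⟩ := hgood z hz.1 hz.2
    have hd := h7_hasDerivAt_sumY L hab h1 h3
    rw [h4] at hd
    refine hd.congr_of_eventuallyEq ?_
    filter_upwards [hOopen.mem_nhds hz] with z' hz'
    exact (hXd z' hz').deriv
  have hYd : ∀ z ∈ Metric.ball (0 : ℂ) ε \ {0}, HasDerivAt Y (℘'[L] (z + w)) z := by
    intro z hz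
    exact h7_hasDerivAt_wp_add L (hgood z hz.1 hz.2).2.1
  have hYdd : ∀ z ∈ Metric.ball (0 : ℂ) ε \ {0},
      HasDerivAt (deriv Y) (6 * Y z ^ 2 - L.g₂ / 2) z := by
    intro z hz
    have hd := h7_hasDerivAt_dwp_add L (hgood z hz.1 hz.2).2.1
    refine hd.congr_of_eventuallyEq ?_
    filter_upwards [hOopen.mem_nhds hz] with z' hz'
    exact (hYd z' hz').deriv
  have hu0 : (X - Y) 0 = 0 := by
    show h7_sumXExt L a b 0 - ℘[L] (0 + w) = 0
    rw [zero_add, h7_sumXExt_zero, sub_self]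
  have hu1 : deriv (X - Y) 0 = 0 := by
    have h1 : HasDerivAt X b 0 := h7_hasDerivAt_sumXExt_zero L a b
    have h2 : HasDerivAt Y (℘'[L] (0 + w)) 0 := h7_hasDerivAt_wp_add L (by simpa using hw)
    have h3 := (h1.sub h2).deriv
    rw [h3, zero_add, sub_self]
  have hode : ∀ᶠ z in 𝓝[≠] (0 : ℂ),
      deriv (deriv (X - Y)) z = (fun z => 6 * (X z + Y z)) z * (X - Y) z := by
    have hmem : Metric.ball (0 : ℂ) ε \ {0} ∈ 𝓝[≠] (0 : ℂ) := by
      rw [Set.sdiff_eq, Set.inter_comm]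
      exact inter_mem_nhdsWithin _ (Metric.ball_mem_nhds (0 : ℂ) hε)
    filter_upwards [hmem] with z hz
    have h1 : deriv (X - Y) =ᶠ[𝓝 z] fun z' => deriv X z' - deriv Y z' := by
      filter_upwards [hOopen.mem_nhds hz] with z' hz'
      exact ((hXd z' hz').sub (hYd z' hz')).deriv.trans
        (by rw [(hXd z' hz').deriv, (hYd z' hz').deriv])
    rw [h1.deriv_eq]
    have h2 : deriv (fun z' => deriv X z' - deriv Y z') z
        = (6 * X z ^ 2 - L.g₂ / 2) - (6 * Y z ^ 2 - L.g₂ / 2) :=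
      ((hXdd z hz).sub (hYdd z hz)).deriv
    rw [h2]
    show _ = 6 * (X z + Y z) * (X z - Y z)
    ring
  have hzero := h7_ode_unique (hXan.sub hYan) ((hXan.add hYan).const_smul (c := (6 : ℂ)) |>.congr
    (by filter_upwards with z; simp)) hu0 hu1 hode
  obtain ⟨ε', hε', hball'⟩ := Metric.eventually_nhds_iff_ball.mp hzero
  refine ⟨min ε ε', lt_min hε hε', fun z hz hz0 => ?_⟩
  have hz1 : z ∈ Metric.ball (0 : ℂ) ε := Metric.ball_subset_ball (min_le_left _ _) hz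
  have hz2 : z ∈ Metric.ball (0 : ℂ) ε' := Metric.ball_subset_ball (min_le_right _ _) hz
  obtain ⟨h1, h2, h3, h4⟩ := hgood z hz1 hz0
  have hXY : ∀ z' ∈ Metric.ball (0 : ℂ) ε', X z' = Y z' := fun z' hz' =>
    sub_eq_zero.mp (hball' z' hz')
  refine ⟨h1, h2, h3, ?_, ?_⟩
  · rw [h4]
    exact (hXY z hz2).symm
  · -- derivatives of `X` and `Y` agree
    have hO' : IsOpen ((Metric.ball (0 : ℂ) ε \ {0}) ∩ Metric.ball (0 : ℂ) ε') :=
      hOopen.inter Metric.isOpen_ball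
    have hzO : z ∈ (Metric.ball (0 : ℂ) ε \ {0}) ∩ Metric.ball (0 : ℂ) ε' := ⟨⟨hz1, hz0⟩, hz2⟩
    have e1 : X =ᶠ[𝓝 z] Y := by
      filter_upwards [hO'.mem_nhds hzO] with z' hz'
      exact hXY z' hz'.2
    have e2 := e1.deriv_eq
    rw [(hXd z ⟨hz1, hz0⟩).deriv, (hYd z ⟨hz1, hz0⟩).deriv] at e2
    exact e2.symm

end Main

section Global

variable {w : ℂ}

/-- The common domain of `z ↦ ℘ z` and `z ↦ ℘ (z + w)`. -/
def h7_dom (w : ℂ) : Set ℂ := {z | z ∉ L.lattice ∧ z + w ∉ L.lattice}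

theorem h7_isOpen_dom : IsOpen (h7_dom L w) := by
  have h1 : IsOpen {z : ℂ | z ∉ L.lattice} := h7_isOpen_compl_lattice L
  have h2 : IsOpen {z : ℂ | z + w ∉ L.lattice} :=
    (h7_isOpen_compl_lattice L).preimage (by fun_prop : Continuous fun z : ℂ => z + w)
  exact h1.inter h2

theorem h7_isPreconnected_dom : IsPreconnected (h7_dom L w) := by
  have hc : ((L.lattice : Set ℂ) ∪ (fun z => z + w) ⁻¹' (L.lattice : Set ℂ)).Countable := by
    refine (h7_countable_lattice L).union ?_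
    exact (h7_countable_lattice L).preimage_of_injOn (add_left_injective w).injOn
  have := hc.isConnected_compl_of_one_lt_rank (by rw [Complex.rank_real_complex]; norm_num)
  convert this.isPreconnected using 1
  ext z
  simp [h7_dom]

theorem h7_analyticAt_wp {z : ℂ} (hz : z ∉ L.lattice) : AnalyticAt ℂ ℘[L] z :=
  L.analyticOnNhd_weierstrassP z hz

theorem h7_analyticAt_dwp {z : ℂ} (hz : z ∉ L.lattice) : AnalyticAt ℂ ℘'[L] z :=
  L.analyticOnNhd_derivWeierstrassP z hz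

theorem h7_analyticAt_wp_add {z : ℂ} (hz : z + w ∉ L.lattice) :
    AnalyticAt ℂ (fun z => ℘[L] (z + w)) z :=
  (h7_analyticAt_wp L hz).comp_of_eq (analyticAt_id.add analyticAt_const) rfl

theorem h7_analyticAt_dwp_add {z : ℂ} (hz : z + w ∉ L.lattice) :
    AnalyticAt ℂ (fun z => ℘'[L] (z + w)) z :=
  (h7_analyticAt_dwp L hz).comp_of_eq (analyticAt_id.add analyticAt_const) rfl

/-- The two division-free forms of the addition theorem. -/
theorem h7_wp_add_poly {z w : ℂ} (hz : z ∉ L.lattice) (hw : w ∉ L.lattice)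
    (hzw : z + w ∉ L.lattice) :
    (℘[L] (z + w) + ℘[L] z + ℘[L] w) * (4 * (℘[L] z - ℘[L] w) ^ 2)
        = (℘'[L] z - ℘'[L] w) ^ 2 ∧
    (℘'[L] (z + w) + ℘'[L] z) * (℘[L] z - ℘[L] w)
        + (℘'[L] z - ℘'[L] w) * (℘[L] (z + w) - ℘[L] z) = 0 := by
  set a := ℘[L] w with ha
  set b := ℘'[L] w with hb
  let Ψ₁ : ℂ → ℂ := fun z =>
    (℘[L] (z + w) + ℘[L] z + a) * (4 * (℘[L] z - a) ^ 2) - (℘'[L] z - b) ^ 2
  let Ψ₂ : ℂ → ℂ := fun z =>
    (℘'[L] (z + w) + ℘'[L] z) * (℘[L] z - a) + (℘'[L] z - b) * (℘[L] (z + w) - ℘[L] z)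
  have hΨ₁ : AnalyticOnNhd ℂ Ψ₁ (h7_dom L w) := by
    intro z hz
    have h1 := h7_analyticAt_wp L hz.1
    have h2 := h7_analyticAt_dwp L hz.1
    have h3 := h7_analyticAt_wp_add L hz.2
    exact (((h3.add h1).add analyticAt_const).mul
      (analyticAt_const.mul ((h1.sub analyticAt_const).pow 2))).sub
      ((h2.sub analyticAt_const).pow 2)
  have hΨ₂ : AnalyticOnNhd ℂ Ψ₂ (h7_dom L w) := by
    intro z hz
    have h1 := h7_analyticAt_wp L hz.1
    have h2 := h7_analyticAt_dwp L hz.1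
    have h3 := h7_analyticAt_wp_add L hz.2
    have h4 := h7_analyticAt_dwp_add L hz.2
    exact ((h4.add h2).mul (h1.sub analyticAt_const)).add
      ((h2.sub analyticAt_const).mul (h3.sub h1))
  obtain ⟨ε, hε, hloc⟩ := h7_wp_add_local L hw
  -- the base point
  set z₀ : ℂ := ((ε / 2 : ℝ) : ℂ) with hz₀
  have hz₀ball : z₀ ∈ Metric.ball (0 : ℂ) ε := by
    rw [Metric.mem_ball, dist_zero_right, hz₀, Complex.norm_real, Real.norm_eq_abs,
      abs_of_pos (by positivity)]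
    linarith
  have hz₀0 : z₀ ≠ 0 := by
    rw [hz₀]
    exact_mod_cast (by positivity : (ε / 2 : ℝ) ≠ 0)
  have hz₀dom : z₀ ∈ h7_dom L w := ⟨(hloc z₀ hz₀ball hz₀0).1, (hloc z₀ hz₀ball hz₀0).2.1⟩
  have hnhds : Metric.ball (0 : ℂ) ε \ {0} ∈ 𝓝 z₀ :=
    (Metric.isOpen_ball.sdiff isClosed_singleton).mem_nhds ⟨hz₀ball, hz₀0⟩
  have hzero : ∀ z ∈ Metric.ball (0 : ℂ) ε \ {0}, Ψ₁ z = 0 ∧ Ψ₂ z = 0 := by
    intro z hz
    obtain ⟨h1, h2, h3, h4, h5⟩ := hloc z hz.1 hz.2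
    have hne' : ℘[L] z - a ≠ 0 := sub_ne_zero.mpr h3
    have hlam : h7_slope L a b z * (2 * (℘[L] z - a)) = ℘'[L] z - b := by
      unfold h7_slope
      field_simp
    have hX : ℘[L] (z + w) = h7_slope L a b z ^ 2 - ℘[L] z - a := h4
    have hY : ℘'[L] (z + w)
        = -2 * h7_slope L a b z * (h7_sumX L a b z - ℘[L] z) - ℘'[L] z := h5
    rw [← h4] at hY
    constructor
    · show (℘[L] (z + w) + ℘[L] z + a) * (4 * (℘[L] z - a) ^ 2) - (℘'[L] z - b) ^ 2 = 0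
      rw [← hlam, hX]
      ring
    · show (℘'[L] (z + w) + ℘'[L] z) * (℘[L] z - a)
        + (℘'[L] z - b) * (℘[L] (z + w) - ℘[L] z) = 0
      rw [← hlam, hY]
      ring
  have e1 : Ψ₁ =ᶠ[𝓝 z₀] 0 := by
    filter_upwards [hnhds] with z hz
    exact (hzero z hz).1
  have e2 : Ψ₂ =ᶠ[𝓝 z₀] 0 := by
    filter_upwards [hnhds] with z hz
    exact (hzero z hz).2
  have r1 := hΨ₁.eqOn_zero_of_preconnected_of_eventuallyEq_zero (h7_isPreconnected_dom L) hz₀dom e1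
  have r2 := hΨ₂.eqOn_zero_of_preconnected_of_eventuallyEq_zero (h7_isPreconnected_dom L) hz₀dom e2
  have hzdom : z ∈ h7_dom L w := ⟨hz, hzw⟩
  constructor
  · have := r1 hzdom
    exact sub_eq_zero.mp this
  · exact r2 hzdom

/-- The addition theorem for `℘` and `℘'`. -/
theorem h7_wp_add' {z w : ℂ} (hz : z ∉ L.lattice) (hw : w ∉ L.lattice)
    (hzw : z + w ∉ L.lattice) (hne : ℘[L] z ≠ ℘[L] w) :
    ℘[L] (z + w) = ((℘'[L] z - ℘'[L] w) / (2 * (℘[L] z - ℘[L] w))) ^ 2 - ℘[L] z - ℘[L] w ∧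
    ℘'[L] (z + w) / 2 = -(((℘'[L] z - ℘'[L] w) / (2 * (℘[L] z - ℘[L] w)))
      * (℘[L] (z + w) - ℘[L] z) + ℘'[L] z / 2) := by
  obtain ⟨h1, h2⟩ := h7_wp_add_poly L hz hw hzw
  have hne' : ℘[L] z - ℘[L] w ≠ 0 := sub_ne_zero.mpr hne
  constructor
  · field_simp
    linear_combination h1
  · field_simp
    linear_combination h2

end Global

section Dup

/-- The division-free duplication formulas. -/
theorem h7_wp_dup_poly {z : ℂ} (hz : z ∉ L.lattice) (h2z : z + z ∉ L.lattice) :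
    (℘[L] (z + z) + 2 * ℘[L] z) * (4 * ℘'[L] z ^ 2) = (6 * ℘[L] z ^ 2 - L.g₂ / 2) ^ 2 ∧
    (℘'[L] (z + z) + ℘'[L] z) * ℘'[L] z
      + (6 * ℘[L] z ^ 2 - L.g₂ / 2) * (℘[L] (z + z) - ℘[L] z) = 0 := by
  have hs1 : Tendsto (slope ℘[L] z) (𝓝[≠] z) (𝓝 (℘'[L] z)) :=
    (h7_hasDerivAt_wp L hz).tendsto_slope
  have hs2 : Tendsto (slope ℘'[L] z) (𝓝[≠] z) (𝓝 (6 * ℘[L] z ^ 2 - L.g₂ / 2)) :=
    (h7_hasDerivAt_dwp L hz).tendsto_slope
  have hc1 : Tendsto (fun w => ℘[L] (z + w)) (𝓝[≠] z) (𝓝 (℘[L] (z + z))) := by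
    have h1 : ContinuousAt ℘[L] (z + z) := (h7_analyticAt_wp L h2z).continuousAt
    have h2 : ContinuousAt (fun w : ℂ => z + w) z := by fun_prop
    exact (ContinuousAt.comp (f := fun w : ℂ => z + w) (g := ℘[L]) h1 h2).tendsto.mono_left
      nhdsWithin_le_nhds
  have hc2 : Tendsto (fun w => ℘'[L] (z + w)) (𝓝[≠] z) (𝓝 (℘'[L] (z + z))) := by
    have h1 : ContinuousAt ℘'[L] (z + z) := (h7_analyticAt_dwp L h2z).continuousAt
    have h2 : ContinuousAt (fun w : ℂ => z + w) z := by fun_prop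
    exact (ContinuousAt.comp (f := fun w : ℂ => z + w) (g := ℘'[L]) h1 h2).tendsto.mono_left
      nhdsWithin_le_nhds
  have hc3 : Tendsto ℘[L] (𝓝[≠] z) (𝓝 (℘[L] z)) :=
    (h7_analyticAt_wp L hz).continuousAt.tendsto.mono_left nhdsWithin_le_nhds
  have hev : ∀ᶠ w in 𝓝[≠] z, w ≠ z ∧ w ∉ L.lattice ∧ z + w ∉ L.lattice := by
    have h1 : ∀ᶠ w in 𝓝 z, w ∉ L.lattice := (h7_isOpen_compl_lattice L).mem_nhds hz
    have h2 : ∀ᶠ w in 𝓝 z, z + w ∉ L.lattice := by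
      have hc : ContinuousAt (fun w : ℂ => z + w) z := by fun_prop
      exact hc.preimage_mem_nhds ((h7_isOpen_compl_lattice L).mem_nhds h2z)
    filter_upwards [self_mem_nhdsWithin, mem_nhdsWithin_of_mem_nhds h1,
      mem_nhdsWithin_of_mem_nhds h2] with w hw1 hw2 hw3
    exact ⟨hw1, hw2, hw3⟩
  constructor
  · have hF : Tendsto (fun w => (℘[L] (z + w) + ℘[L] z + ℘[L] w) * (4 * slope ℘[L] z w ^ 2))
        (𝓝[≠] z) (𝓝 ((℘[L] (z + z) + ℘[L] z + ℘[L] z) * (4 * ℘'[L] z ^ 2))) :=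
      ((hc1.add tendsto_const_nhds).add hc3).mul (tendsto_const_nhds.mul (hs1.pow 2))
    have hG : Tendsto (fun w => slope ℘'[L] z w ^ 2) (𝓝[≠] z)
        (𝓝 ((6 * ℘[L] z ^ 2 - L.g₂ / 2) ^ 2)) := hs2.pow 2
    have heq : (fun w => (℘[L] (z + w) + ℘[L] z + ℘[L] w) * (4 * slope ℘[L] z w ^ 2))
        =ᶠ[𝓝[≠] z] fun w => slope ℘'[L] z w ^ 2 := by
      filter_upwards [hev] with w ⟨hw1, hw2, hw3⟩
      have hne : w - z ≠ 0 := sub_ne_zero.mpr hw1
      have hA := (h7_wp_add_poly L hz hw2 hw3).1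
      rw [slope_def_field, slope_def_field]
      field_simp
      linear_combination hA
    have := tendsto_nhds_unique_of_eventuallyEq hF hG heq
    rw [← this]
    ring
  · have hF : Tendsto (fun w => (℘'[L] (z + w) + ℘'[L] z) * slope ℘[L] z w
        + slope ℘'[L] z w * (℘[L] (z + w) - ℘[L] z))
        (𝓝[≠] z) (𝓝 ((℘'[L] (z + z) + ℘'[L] z) * ℘'[L] z
          + (6 * ℘[L] z ^ 2 - L.g₂ / 2) * (℘[L] (z + z) - ℘[L] z))) :=
      ((hc2.add tendsto_const_nhds).mul hs1).add (hs2.mul (hc1.sub tendsto_const_nhds))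
    have heq : (fun w => (℘'[L] (z + w) + ℘'[L] z) * slope ℘[L] z w
        + slope ℘'[L] z w * (℘[L] (z + w) - ℘[L] z)) =ᶠ[𝓝[≠] z] fun _ => (0 : ℂ) := by
      filter_upwards [hev] with w ⟨hw1, hw2, hw3⟩
      have hne : w - z ≠ 0 := sub_ne_zero.mpr hw1
      have hA := (h7_wp_add_poly L hz hw2 hw3).2
      rw [slope_def_field, slope_def_field]
      field_simp
      linear_combination (-1 : ℂ) * hA
    exact tendsto_nhds_unique_of_eventuallyEq hF tendsto_const_nhds heq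

end Dup

section Final

/-- **(T2)** The addition theorem, in the shape used by `WPGroup` (the hypothesis `_h2w` is not
needed). -/
theorem h7_wp_add {z w : ℂ} (hz : z ∉ L.lattice) (hw : w ∉ L.lattice)
    (hzw : z + w ∉ L.lattice) (hzw' : z - w ∉ L.lattice) (_h2w : 2 * w ∉ L.lattice) :
    ℘[L] (z + w) = ((℘'[L] z - ℘'[L] w) / (2 * (℘[L] z - ℘[L] w))) ^ 2 - ℘[L] z - ℘[L] w ∧
    ℘'[L] (z + w) / 2 = -(((℘'[L] z - ℘'[L] w) / (2 * (℘[L] z - ℘[L] w)))
      * (℘[L] (z + w) - ℘[L] z) + ℘'[L] z / 2) :=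
  h7_wp_add' L hz hw hzw (fun h => by
    rcases (h1_wp_eq_iff L hz hw).mp h with h | h
    · exact hzw' h
    · exact hzw h)

/-- The duplication formula. -/
theorem h7_wp_dup {z : ℂ} (hz : z ∉ L.lattice) (h2z : z + z ∉ L.lattice) :
    ℘'[L] z ≠ 0 ∧
    ℘[L] (z + z) = ((3 * ℘[L] z ^ 2 - L.g₂ / 4) / ℘'[L] z) ^ 2 - ℘[L] z - ℘[L] z ∧
    ℘'[L] (z + z) / 2 = -(((3 * ℘[L] z ^ 2 - L.g₂ / 4) / ℘'[L] z)
      * (℘[L] (z + z) - ℘[L] z) + ℘'[L] z / 2) := by
  have hne : ℘'[L] z ≠ 0 := by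
    intro h
    have := (h1_dwp_eq_zero_iff L hz).mp h
    rw [two_mul] at this
    exact h2z this
  obtain ⟨h1, h2⟩ := h7_wp_dup_poly L hz h2z
  generalize ℘[L] (z + z) = P2 at h1 h2 ⊢
  generalize ℘'[L] (z + z) = Q2 at h1 h2 ⊢
  refine ⟨hne, ?_, ?_⟩
  · field_simp
    linear_combination 4 * h1
  · field_simp
    linear_combination 4 * h2

/-- The tangent case of the addition theorem: `z ≡ w mod Λ`. -/
theorem h7_wp_add_tangent {z w : ℂ} (hz : z ∉ L.lattice) (_hw : w ∉ L.lattice)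
    (hzw : z + w ∉ L.lattice) (hsub : z - w ∈ L.lattice) :
    ℘'[L] z ≠ 0 ∧ ℘[L] w = ℘[L] z ∧ ℘'[L] w = ℘'[L] z ∧
    ℘[L] (z + w) = ((3 * ℘[L] z ^ 2 - L.g₂ / 4) / ℘'[L] z) ^ 2 - ℘[L] z - ℘[L] w ∧
    ℘'[L] (z + w) / 2 = -(((3 * ℘[L] z ^ 2 - L.g₂ / 4) / ℘'[L] z)
      * (℘[L] (z + w) - ℘[L] z) + ℘'[L] z / 2) := by
  have e1 : w = z - ((⟨z - w, hsub⟩ : L.lattice) : ℂ) := by simp
  have e2 : z + w = (z + z) - ((⟨z - w, hsub⟩ : L.lattice) : ℂ) := by
    show z + w = (z + z) - (z - w)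
    ring
  have h2z : z + z ∉ L.lattice := by
    intro h
    apply hzw
    rw [e2]
    exact sub_mem h hsub
  have hw1 : ℘[L] w = ℘[L] z := by
    conv_lhs => rw [e1]
    exact L.weierstrassP_sub_coe z _
  have hw2 : ℘'[L] w = ℘'[L] z := by
    conv_lhs => rw [e1]
    exact L.derivWeierstrassP_sub_coe z _
  have hw3 : ℘[L] (z + w) = ℘[L] (z + z) := by
    rw [e2]
    exact L.weierstrassP_sub_coe (z + z) _
  have hw4 : ℘'[L] (z + w) = ℘'[L] (z + z) := by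
    rw [e2]
    exact L.derivWeierstrassP_sub_coe (z + z) _
  obtain ⟨h0, h1, h2⟩ := h7_wp_dup L hz h2z
  refine ⟨h0, hw1, hw2, ?_, ?_⟩
  · rw [hw3, hw1]
    exact h1
  · rw [hw4, hw3]
    exact h2

end Final

end Fermat.Agent.Lib.S13
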