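/-
Lib/S13/WPGroup.lean  (Owner: helper1)   Stream (T), piece (T3).

The complex uniformisation `ℂ/Λ ≃ E_Λ(ℂ)` as a group homomorphism and the count of
`n`-torsion points of `E_Λ : y² = x³ - (g₂/4) x - g₃/4`:

* `h1_curve L`            : the Weierstrass curve attached to a period pair `L`
* `h1_Phi L z`            : the point `(℘ z, ℘' z / 2)` (or `0` for `z ∈ Λ`)
* `h1_Phi_add`            : `Φ (z + w) = Φ z + Φ w`    (from the addition theorem, WPAdd)
* `h1_Phi_eq_iff`         : `Φ z = Φ w ↔ z - w ∈ Λ`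
* `h1_Phi_surjective`
* `h1_card_torsion`       : `#E_Λ(ℂ)[n] = n²`

Imports Mathlib + WPAdd only; sorry-free.
-/
import Mathlib
import Fermat.Agent.Lib.S13.WPAdd

set_option autoImplicit false

noncomputable section

namespace Fermat.Agent.Lib.S13

open PeriodPair WeierstrassCurve WeierstrassCurve.Affine

variable (L : PeriodPair)

/-- The Weierstrass curve `y² = x³ - (g₂/4) x - g₃/4` attached to a lattice. -/
def h1_curve : WeierstrassCurve ℂ := ⟨0, 0, 0, -L.g₂ / 4, -L.g₃ / 4⟩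

@[simp] theorem h1_curve_a₁ : (h1_curve L).a₁ = 0 := rfl
@[simp] theorem h1_curve_a₂ : (h1_curve L).a₂ = 0 := rfl
@[simp] theorem h1_curve_a₃ : (h1_curve L).a₃ = 0 := rfl
@[simp] theorem h1_curve_a₄ : (h1_curve L).a₄ = -L.g₂ / 4 := rfl
@[simp] theorem h1_curve_a₆ : (h1_curve L).a₆ = -L.g₃ / 4 := rfl

theorem h1_curve_Δ : (h1_curve L).Δ = L.g₂ ^ 3 - 27 * L.g₃ ^ 2 := by
  simp only [WeierstrassCurve.Δ, WeierstrassCurve.b₂, WeierstrassCurve.b₄, WeierstrassCurve.b₆,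
    WeierstrassCurve.b₈, h1_curve_a₁, h1_curve_a₂, h1_curve_a₃, h1_curve_a₄, h1_curve_a₆]
  ring

theorem h1_curve_Δ_ne_zero : (h1_curve L).Δ ≠ 0 := by
  rw [h1_curve_Δ]; exact h1_disc_ne_zero L

theorem h1_equation {z : ℂ} (hz : z ∉ L.lattice) :
    (h1_curve L).toAffine.Equation (℘[L] z) (℘'[L] z / 2) := by
  rw [Affine.equation_iff]
  simp only [h1_curve_a₁, h1_curve_a₂, h1_curve_a₃, h1_curve_a₄, h1_curve_a₆]
  have := L.derivWeierstrassP_sq z hz
  linear_combination (1 / 4 : ℂ) * this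

theorem h1_nonsingular {z : ℂ} (hz : z ∉ L.lattice) :
    (h1_curve L).toAffine.Nonsingular (℘[L] z) (℘'[L] z / 2) :=
  (Affine.equation_iff_nonsingular_of_Δ_ne_zero (h1_curve_Δ_ne_zero L)).mp (h1_equation L hz)

open Classical in
/-- The uniformisation map `ℂ → E_Λ(ℂ)`. -/
def h1_Phi (z : ℂ) : (h1_curve L).toAffine.Point :=
  if h : z ∈ L.lattice then 0 else Point.some _ _ (h1_nonsingular L h)

theorem h1_Phi_of_mem {z : ℂ} (hz : z ∈ L.lattice) : h1_Phi L z = 0 := by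
  simp [h1_Phi, hz]

theorem h1_Phi_of_notMem {z : ℂ} (hz : z ∉ L.lattice) :
    h1_Phi L z = Point.some _ _ (h1_nonsingular L hz) := by
  simp [h1_Phi, hz]

theorem h1_Phi_eq_zero_iff {z : ℂ} : h1_Phi L z = 0 ↔ z ∈ L.lattice := by
  constructor
  · intro h
    by_contra hz
    rw [h1_Phi_of_notMem L hz] at h
    exact Point.some_ne_zero _ h
  · exact h1_Phi_of_mem L

theorem h1_Phi_congr {z w : ℂ} (hz : z ∉ L.lattice) (hw : w ∉ L.lattice)
    (h1 : ℘[L] z = ℘[L] w) (h2 : ℘'[L] z = ℘'[L] w) : h1_Phi L z = h1_Phi L w := by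
  rw [h1_Phi_of_notMem L hz, h1_Phi_of_notMem L hw]
  simp only [Point.some.injEq]
  exact ⟨h1, by rw [h2]⟩

theorem h1_add_mem_iff {z l : ℂ} (hl : l ∈ L.lattice) : z + l ∈ L.lattice ↔ z ∈ L.lattice :=
  ⟨fun h => by simpa using sub_mem h hl, fun h => add_mem h hl⟩

theorem h1_Phi_add_lattice (z : ℂ) {l : ℂ} (hl : l ∈ L.lattice) : h1_Phi L (z + l) = h1_Phi L z := by
  by_cases hz : z ∈ L.lattice
  · rw [h1_Phi_of_mem L hz, h1_Phi_of_mem L ((h1_add_mem_iff L hl).mpr hz)]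
  · have hz' : z + l ∉ L.lattice := fun h => hz ((h1_add_mem_iff L hl).mp h)
    refine h1_Phi_congr L hz' hz ?_ ?_
    · exact L.weierstrassP_add_coe z ⟨l, hl⟩
    · exact L.derivWeierstrassP_add_coe z ⟨l, hl⟩

theorem h1_Phi_neg (z : ℂ) : h1_Phi L (-z) = -h1_Phi L z := by
  by_cases hz : z ∈ L.lattice
  · rw [h1_Phi_of_mem L hz, h1_Phi_of_mem L (neg_mem hz), neg_zero]
  · have hz' : -z ∉ L.lattice := h1_neg_notMem L hz
    rw [h1_Phi_of_notMem L hz, h1_Phi_of_notMem L hz', Point.neg_some]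
    simp only [Point.some.injEq]
    refine ⟨L.weierstrassP_neg z, ?_⟩
    rw [L.derivWeierstrassP_neg]
    simp [Affine.negY]
    ring

/-- **The uniformisation map is additive.** -/
theorem h1_Phi_add (z w : ℂ) : h1_Phi L (z + w) = h1_Phi L z + h1_Phi L w := by
  by_cases hz : z ∈ L.lattice
  · rw [h1_Phi_of_mem L hz, zero_add, add_comm, h1_Phi_add_lattice L w hz]
  by_cases hw : w ∈ L.lattice
  · rw [h1_Phi_of_mem L hw, add_zero, h1_Phi_add_lattice L z hw]
  by_cases hzw : z + w ∈ L.lattice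
  · -- `w ≡ -z`
    rw [h1_Phi_of_mem L hzw]
    have e : w = -z + (z + w) := by ring
    have : h1_Phi L w = -h1_Phi L z := by
      rw [e, h1_Phi_add_lattice L _ hzw, h1_Phi_neg]
    rw [this, add_neg_cancel]
  rw [h1_Phi_of_notMem L hz, h1_Phi_of_notMem L hw, h1_Phi_of_notMem L hzw]
  by_cases hne : ℘[L] z = ℘[L] w
  · -- tangent case
    have hsub : z - w ∈ L.lattice := by
      rcases (h1_wp_eq_iff L hz hw).mp hne with h | h
      · exact h
      · exact absurd h hzw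
    obtain ⟨h0, h1, h2, h3, h4⟩ := h7_wp_add_tangent L hz hw hzw hsub
    have hy : ℘'[L] z / 2 ≠ (h1_curve L).toAffine.negY (℘[L] w) (℘'[L] w / 2) := by
      simp only [Affine.negY, h1_curve_a₁, h1_curve_a₃, h2]
      intro h
      apply h0
      linear_combination h
    rw [Point.add_of_Y_ne hy]
    simp only [Point.some.injEq]
    rw [Affine.slope_of_Y_ne hne hy]
    simp only [Affine.addX, Affine.addY, Affine.negAddY, Affine.negY, h1_curve_a₁, h1_curve_a₂,
      h1_curve_a₃, h1_curve_a₄]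
    have hs : (3 * ℘[L] z ^ 2 + 2 * 0 * ℘[L] z + -L.g₂ / 4 - 0 * (℘'[L] z / 2)) /
        (℘'[L] z / 2 - (-(℘'[L] z / 2) - 0 * ℘[L] z - 0))
        = (3 * ℘[L] z ^ 2 - L.g₂ / 4) / ℘'[L] z := by
      congr 1 <;> ring
    rw [hs]
    constructor
    · rw [h3]; ring
    · rw [h4]
      rw [h3]
      ring
  · -- chord case
    obtain ⟨h3, h4⟩ := h7_wp_add' L hz hw hzw hne
    rw [Point.add_of_X_ne hne]
    simp only [Point.some.injEq]
    rw [Affine.slope_of_X_ne hne]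
    simp only [Affine.addX, Affine.addY, Affine.negAddY, Affine.negY, h1_curve_a₁, h1_curve_a₂,
      h1_curve_a₃]
    have hs : (℘'[L] z / 2 - ℘'[L] w / 2) / (℘[L] z - ℘[L] w)
        = (℘'[L] z - ℘'[L] w) / (2 * (℘[L] z - ℘[L] w)) := by
      have : ℘[L] z - ℘[L] w ≠ 0 := sub_ne_zero.mpr hne
      field_simp
    rw [hs]
    constructor
    · rw [h3]; ring
    · rw [h4, h3]; ring


/-- The uniformisation map as an additive homomorphism. -/
def h1_PhiHom : ℂ →+ (h1_curve L).toAffine.Point where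
  toFun := h1_Phi L
  map_zero' := h1_Phi_of_mem L (zero_mem _)
  map_add' := h1_Phi_add L

@[simp] theorem h1_PhiHom_apply (z : ℂ) : h1_PhiHom L z = h1_Phi L z := rfl

theorem h1_Phi_eq_iff {z w : ℂ} : h1_Phi L z = h1_Phi L w ↔ z - w ∈ L.lattice := by
  rw [← h1_Phi_eq_zero_iff L]
  show h1_PhiHom L z = h1_PhiHom L w ↔ h1_PhiHom L (z - w) = 0
  rw [map_sub, sub_eq_zero]

/-- **The uniformisation map is surjective.** -/
theorem h1_Phi_surjective : Function.Surjective (h1_Phi L) := by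
  rintro (_ | ⟨x, y, hxy⟩)
  · exact ⟨0, h1_Phi_of_mem L (zero_mem _)⟩
  · obtain ⟨z, hz, hx⟩ := h1_wp_surjective L x
    have heq := hxy.left
    rw [Affine.equation_iff] at heq
    simp only [h1_curve_a₁, h1_curve_a₂, h1_curve_a₃, h1_curve_a₄, h1_curve_a₆] at heq
    have hode := L.derivWeierstrassP_sq z hz
    rw [hx] at hode
    have hsq : (℘'[L] z / 2) ^ 2 = y ^ 2 := by linear_combination (1 / 4 : ℂ) * hode - heq
    rcases sq_eq_sq_iff_eq_or_eq_neg.mp hsq with h | h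
    · refine ⟨z, ?_⟩
      rw [h1_Phi_of_notMem L hz]
      simp only [Point.some.injEq]
      exact ⟨hx, h⟩
    · refine ⟨-z, ?_⟩
      rw [h1_Phi_of_notMem L (h1_neg_notMem L hz)]
      simp only [Point.some.injEq]
      refine ⟨by rw [L.weierstrassP_neg, hx], ?_⟩
      rw [L.derivWeierstrassP_neg]
      linear_combination -h

theorem h1_Phi_nsmul (n : ℕ) (z : ℂ) : h1_Phi L ((n : ℂ) * z) = n • h1_Phi L z := by
  rw [← h1_PhiHom_apply, ← h1_PhiHom_apply, ← map_nsmul, nsmul_eq_mul]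

/-- Division points. -/
def h1_divPt (n : ℕ) (ab : Fin n × Fin n) : ℂ :=
  ((ab.1 : ℕ) : ℂ) / n * L.ω₁ + ((ab.2 : ℕ) : ℂ) / n * L.ω₂

theorem h1_divPt_mul (n : ℕ) (hn : 0 < n) (ab : Fin n × Fin n) :
    (n : ℂ) * h1_divPt L n ab = ((ab.1 : ℕ) : ℂ) * L.ω₁ + ((ab.2 : ℕ) : ℂ) * L.ω₂ := by
  have : (n : ℂ) ≠ 0 := Nat.cast_ne_zero.mpr hn.ne'
  simp only [h1_divPt]
  field_simp

theorem h1_natCast_mul_mem (a b : ℤ) : (a : ℂ) * L.ω₁ + (b : ℂ) * L.ω₂ ∈ L.lattice := by
  have := (PeriodPair.mul_ω₁_add_mul_ω₂_mem_lattice (L := L) (α := (a : ℚ)) (β := (b : ℚ))).mpr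
    ⟨by simp, by simp⟩
  simpa using this

/-- **The `n`-torsion of `E_Λ(ℂ)` has `n²` elements.** -/
theorem h1_card_torsion (n : ℕ) (hn : 0 < n) :
    Nat.card {P : (h1_curve L).toAffine.Point // n • P = 0} = n ^ 2 := by
  have hn0 : (n : ℂ) ≠ 0 := Nat.cast_ne_zero.mpr hn.ne'
  have hnQ : (n : ℚ) ≠ 0 := Nat.cast_ne_zero.mpr hn.ne'
  let ψ : Fin n × Fin n → {P : (h1_curve L).toAffine.Point // n • P = 0} := fun ab =>
    ⟨h1_Phi L (h1_divPt L n ab), by
      rw [← h1_Phi_nsmul, h1_divPt_mul L n hn, h1_Phi_eq_zero_iff]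
      exact_mod_cast h1_natCast_mul_mem L (ab.1 : ℕ) (ab.2 : ℕ)⟩
  have hinj : Function.Injective ψ := by
    intro ab ab' h
    have h1 : h1_Phi L (h1_divPt L n ab) = h1_Phi L (h1_divPt L n ab') := congrArg Subtype.val h
    rw [h1_Phi_eq_iff] at h1
    have e : h1_divPt L n ab - h1_divPt L n ab'
        = (((((ab.1 : ℕ) : ℤ) - ((ab'.1 : ℕ) : ℤ) : ℤ) : ℚ) / (n : ℚ) : ℚ) * L.ω₁
          + (((((ab.2 : ℕ) : ℤ) - ((ab'.2 : ℕ) : ℤ) : ℤ) : ℚ) / (n : ℚ) : ℚ) * L.ω₂ := by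
      simp only [h1_divPt]
      push_cast
      ring
    rw [e, PeriodPair.mul_ω₁_add_mul_ω₂_mem_lattice] at h1
    have key : ∀ a a' : Fin n,
        ((((((a : ℕ) : ℤ) - ((a' : ℕ) : ℤ) : ℤ) : ℚ) / (n : ℚ) : ℚ)).den = 1 → a = a' := by
      intro a a' hden
      have hint : ∃ k : ℤ, ((((a : ℕ) : ℤ) - ((a' : ℕ) : ℤ) : ℤ) : ℚ) / (n : ℚ) = (k : ℚ) :=
        ⟨_, ((Rat.den_eq_one_iff _).mp hden).symm⟩
      obtain ⟨k, hk⟩ := hint
      have hk' : (((a : ℕ) : ℤ) - ((a' : ℕ) : ℤ) : ℤ) = k * n := by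
        have : ((((a : ℕ) : ℤ) - ((a' : ℕ) : ℤ) : ℤ) : ℚ) = (k : ℚ) * (n : ℚ) := by
          field_simp at hk
          linear_combination hk
        exact_mod_cast this
      have ha := a.2
      have ha' := a'.2
      have hk0 : k = 0 := by
        by_contra hne
        rcases lt_or_gt_of_ne hne with hlt | hgt
        · have : k * (n : ℤ) ≤ -1 * n := by
            have : k ≤ -1 := by omega
            exact mul_le_mul_of_nonneg_right this (by positivity)
          omega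
        · have : 1 * (n : ℤ) ≤ k * n := by
            have : 1 ≤ k := by omega
            exact mul_le_mul_of_nonneg_right this (by positivity)
          omega
      rw [hk0, zero_mul] at hk'
      apply Fin.ext
      omega
    exact Prod.ext (key _ _ h1.1) (key _ _ h1.2)
  have hsurj : Function.Surjective ψ := by
    rintro ⟨P, hP⟩
    obtain ⟨z, rfl⟩ := h1_Phi_surjective L P
    rw [← h1_Phi_nsmul, h1_Phi_eq_zero_iff, PeriodPair.mem_lattice] at hP
    obtain ⟨m, k, hmk⟩ := hP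
    have hnpos : (0 : ℤ) < n := by exact_mod_cast hn
    let a : Fin n := ⟨(m % n).toNat, by
      have h1 := Int.emod_nonneg m hnpos.ne'
      have h2 := Int.emod_lt_of_pos m hnpos
      omega⟩
    let b : Fin n := ⟨(k % n).toNat, by
      have h1 := Int.emod_nonneg k hnpos.ne'
      have h2 := Int.emod_lt_of_pos k hnpos
      omega⟩
    refine ⟨(a, b), Subtype.ext ?_⟩
    show h1_Phi L (h1_divPt L n (a, b)) = h1_Phi L z
    rw [h1_Phi_eq_iff]
    have ha : ((a : ℕ) : ℤ) = m % n := Int.toNat_of_nonneg (Int.emod_nonneg m hnpos.ne')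
    have hb : ((b : ℕ) : ℤ) = k % n := Int.toNat_of_nonneg (Int.emod_nonneg k hnpos.ne')
    have hz : z = ((m : ℂ) * L.ω₁ + (k : ℂ) * L.ω₂) / n := by
      field_simp
      linear_combination -hmk
    have e : h1_divPt L n (a, b) - z = ((-(m / n) : ℤ) : ℂ) * L.ω₁ + ((-(k / n) : ℤ) : ℂ) * L.ω₂ := by
      have hm : (m : ℂ) = ((a : ℕ) : ℂ) + (n : ℂ) * ((m / n : ℤ) : ℂ) := by
        have : m = m % n + n * (m / n) := (Int.emod_add_mul_ediv m n).symm
        have h2 : (m : ℤ) = ((a : ℕ) : ℤ) + n * (m / n) := by rw [ha]; exact this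
        exact_mod_cast h2
      have hk : (k : ℂ) = ((b : ℕ) : ℂ) + (n : ℂ) * ((k / n : ℤ) : ℂ) := by
        have : k = k % n + n * (k / n) := (Int.emod_add_mul_ediv k n).symm
        have h2 : (k : ℤ) = ((b : ℕ) : ℤ) + n * (k / n) := by rw [hb]; exact this
        exact_mod_cast h2
      rw [hz, hm, hk]
      simp only [h1_divPt]
      push_cast
      field_simp
      ring
    rw [e]
    exact h1_natCast_mul_mem L _ _
  rw [Nat.card_eq_of_bijective ψ ⟨hinj, hsurj⟩ |>.symm]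
  simp [Nat.card_eq_fintype_card, sq]

end Fermat.Agent.Lib.S13
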