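/-
Lib/S13/TorsionRank.lean  (helper1 + helper9)   Stream (T), final assembly.

`h9_torsionRank : TorsionRankStatement`  — contract (T) of `Lib/S13/Defs.lean`:
for every Frey package `P`, the `p`-torsion of the Frey curve over `ℚ̄` has `ZMod p`-rank `2`.

Assembled from (T3) `h1_card_torsion` (WPGroup), (T4) `h3_exists_periodPair_g` (Lattice) and
(T5) `h9d_torsionRank_of_lattice` (TorsionDescent).  Sorry-free.
-/
import Mathlib
import Fermat.Agent.Lib.S13.Lattice
import Fermat.Agent.Lib.S13.WPGroup
import Fermat.Agent.Lib.S13.TorsionDescent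

set_option autoImplicit false

namespace Fermat.Agent.Lib.S13

theorem h9_torsionRank : TorsionRankStatement :=
  h9d_torsionRank_of_lattice h3_exists_periodPair_g (fun L n hn => h1_card_torsion L n hn)

end Fermat.Agent.Lib.S13
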