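/-
S13 project (lead): everything that is closed so far, plugged into the assembly.  What remains are the
contracts (D1), (D2) and (E).
-/
import Mathlib
import Fermat.Agent.S05
import Fermat.Agent.Lib.S13.Assembly
import Fermat.Agent.Lib.S13.OpenKernel
import Fermat.Agent.Lib.S13.TorsionRank
import Fermat.Agent.Lib.S13.InertiaField
import Fermat.Agent.Lib.S13.Unramified

set_option autoImplicit false

open WeierstrassCurve WeierstrassCurve.Affine WeierstrassCurve.Affine.Point

namespace Fermat.Agent.Lib.S13

/-- (L2) in helper5's packaged form. -/
theorem lead_s13_inertiaFieldStatement : InertiaFieldStatement :=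
  fun N _ _ _ P _ hP => lead_inertiaField_ramificationIdx N P hP

/-- (B). -/
theorem lead_s13_global : GlobalStatement := h5_global_of lead_s13_inertiaFieldStatement

/-- (C) = statement S05. -/
theorem lead_s13_unramifiedOdd : UnramifiedOddStatement :=
  fun P _ hq hq2 hqp => Fermat.Agent.S05.result P hq hq2 hqp

/-- S13 from the three remaining contracts. -/
theorem lead_s13_of_D_E (hD1 : UnipotentAtTwoStatement) (hD2 : NoFixedPointStatement)
    (hE : LocalAtPStatement) (P : FreyPackage)
    (hred : ¬ GaloisRepIsIrreducible (K := Qbar) ℚ P.freyCurve P.p) :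
    HasGaloisStableCofixedLine (K := Qbar) ℚ P.freyCurve P.p :=
  s13_of_contracts h9_torsionRank lead_s13_global hD1 hD2 hE lead_s13_unramifiedOdd
    lead_s13_openKernel P hred

end Fermat.Agent.Lib.S13
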