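import Mathlib
import Fermat.Agent.Lib.S05.KernelTorsion
import Fermat.Agent.Lib.S13.KerTorsion

/-!
# Project S13: bridge between S05's `KtKer` / `ktT` and helper9's `h9k_Ker` / `h9k_T`

Owner: helper7.
-/

set_option autoImplicit false

open WeierstrassCurve

namespace Fermat.Agent.Lib.S13

open Fermat.Agent.Lib.S05

variable {L : Type*} [Field L] {Γ₀ : Type*} [LinearOrderedCommGroupWithZero Γ₀]
  (v : Valuation L Γ₀) (W : WeierstrassCurve L)

theorem h7_ktKer_iff (P : W.toAffine.Point) : KtKer v W P ↔ h9k_Ker v W P := by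
  rcases P with _ | ⟨x, y, h⟩
  · exact Iff.rfl
  · exact Iff.rfl

theorem h7_ktT_eq (P : W.toAffine.Point) : ktT W P = h9k_T W P := by
  rcases P with _ | ⟨x, y, h⟩
  · rfl
  · rfl

end Fermat.Agent.Lib.S13
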