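import Fermat.Agent.Lib.S13.NodeDefs

set_option autoImplicit false

namespace Fermat.Agent.Lib.S13

open WeierstrassCurve WeierstrassCurve.Affine

section alg

variable {L : Type*} [Field L] {t₁ t₂ b x₁ y₁ x₂ y₂ ℓ ν x₃ y₃ : L}

/-- `ν (y₁ x₂ + y₂ x₁ - (t₁+t₂) x₁ x₂) = x₁ x₂ (b - x₁ x₂)`. -/
theorem NodeChord.nu_mul (h : NodeChord t₁ t₂ b x₁ y₁ x₂ y₂ ℓ ν x₃ y₃) :
    ν * (y₁ * x₂ + y₂ * x₁ - (t₁ + t₂) * (x₁ * x₂)) = x₁ * x₂ * (b - x₁ * x₂) := by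
  rw [h.line₁, h.line₂]
  linear_combination (x₁ * x₂) * h.e2 - (x₁ + x₂) * h.e3

theorem NodeChord.x₃_ne_zero (h : NodeChord t₁ t₂ b x₁ y₁ x₂ y₂ ℓ ν x₃ y₃) (hν : ν ≠ 0) :
    x₃ ≠ 0 := by
  intro h0
  have := h.e3
  rw [h0, mul_zero] at this
  exact hν ((pow_eq_zero_iff (two_ne_zero)).mp this.symm)

/-- `ν / x₃ = x₁ x₂ / ν`. -/
theorem NodeChord.nu_div_x₃ (h : NodeChord t₁ t₂ b x₁ y₁ x₂ y₂ ℓ ν x₃ y₃) (hν : ν ≠ 0) :
    ν / x₃ = x₁ * x₂ / ν := by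
  rw [div_eq_div_iff (h.x₃_ne_zero hν) hν]
  linear_combination -h.e3

/-- `y₃ - t₁ x₃ = -((ℓ - t₂) x₃ + ν)`. -/
theorem NodeChord.A₃ (h : NodeChord t₁ t₂ b x₁ y₁ x₂ y₂ ℓ ν x₃ y₃) :
    y₃ - t₁ * x₃ = -((ℓ - t₂) * x₃ + ν) := by
  rw [h.line₃]; ring

/-- `y₃ - t₂ x₃ = -((ℓ - t₁) x₃ + ν)`. -/
theorem NodeChord.B₃ (h : NodeChord t₁ t₂ b x₁ y₁ x₂ y₂ ℓ ν x₃ y₃) :
    y₃ - t₂ * x₃ = -((ℓ - t₁) * x₃ + ν) := by
  rw [h.line₃]; ring

/-- `ℓ x₁ = y₁ - ν`. -/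
theorem NodeChord.ell_mul₁ (h : NodeChord t₁ t₂ b x₁ y₁ x₂ y₂ ℓ ν x₃ y₃) :
    ℓ * x₁ = y₁ - ν := by
  rw [h.line₁]; ring

theorem NodeChord.ell_mul₂ (h : NodeChord t₁ t₂ b x₁ y₁ x₂ y₂ ℓ ν x₃ y₃) :
    ℓ * x₂ = y₂ - ν := by
  rw [h.line₂]; ring

/-- The symmetric chord data (swap the two tangent directions). -/
theorem NodeChord.swap (h : NodeChord t₁ t₂ b x₁ y₁ x₂ y₂ ℓ ν x₃ y₃) :
    NodeChord t₂ t₁ b x₁ y₁ x₂ y₂ ℓ ν x₃ y₃ :=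
  ⟨h.line₁, h.line₂, by rw [h.line₃]; ring, by rw [h.e1]; ring, by rw [h.e2]; ring, h.e3⟩

/-- The symmetric chord data (swap the two points). -/
theorem NodeChord.comm (h : NodeChord t₁ t₂ b x₁ y₁ x₂ y₂ ℓ ν x₃ y₃) :
    NodeChord t₁ t₂ b x₂ y₂ x₁ y₁ ℓ ν x₃ y₃ :=
  ⟨h.line₂, h.line₁, h.line₃, by rw [← h.e1]; ring, by rw [← h.e2]; ring, by rw [← h.e3]; ring⟩

end alg

section val

variable {L : Type*} [Field L] {Γ₀ : Type*} [LinearOrderedCommGroupWithZero Γ₀]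
  {v : Valuation L Γ₀} {t₁ t₂ b : L}

theorem h6n_v_sq_add_lt {x : L} (hb : v b < v x) (h1 : v x < 1) :
    v (x ^ 2 + b) < v x := by
  have hx0 : 0 < v x := lt_of_le_of_lt zero_le hb
  refine lt_of_le_of_lt (v.map_add _ _) (max_lt ?_ hb)
  rw [map_pow, sq]
  calc v x * v x < v x * 1 := mul_lt_mul_of_pos_left h1 hx0
    _ = v x := mul_one _

/-- A point cannot be on both branches. -/
theorem h6n_not_both (hS : NodeSetting v t₁ t₂ b) {x y : L}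
    (h1 : v (y - t₁ * x) < v x) (h2 : v (y - t₂ * x) < v x) : False := by
  have e : (y - t₂ * x) - (y - t₁ * x) = (t₁ - t₂) * x := by ring
  have h3 : v ((t₁ - t₂) * x) < v x := by
    rw [← e]
    exact lt_of_le_of_lt (v.map_sub _ _) (max_lt h2 h1)
  rw [map_mul, hS.vδ, one_mul] at h3
  exact lt_irrefl _ h3

/-- On the `t₁`-branch, `v (y - t₂ x) = v x`. -/
theorem h6n_other_branch (hS : NodeSetting v t₁ t₂ b) {x y : L}
    (h1 : v (y - t₁ * x) < v x) : v (y - t₂ * x) = v x := by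
  have e : y - t₂ * x = (t₁ - t₂) * x + (y - t₁ * x) := by ring
  rw [e, Valuation.map_add_eq_of_lt_left, map_mul, hS.vδ, one_mul]
  rw [map_mul, hS.vδ, one_mul]; exact h1

/-- An intermediate point lies on one of the two branches. -/
theorem h6n_branch_or (hS : NodeSetting v t₁ t₂ b) {x y : L}
    (hE : (y - t₁ * x) * (y - t₂ * x) = x ^ 3 + b * x) (hb : v b < v x) (h1 : v x < 1) :
    IsNBranch v b t₁ x y ∨ IsNBranch v b t₂ x y := by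
  have hx0 : 0 < v x := lt_of_le_of_lt zero_le hb
  by_contra hcon
  rw [not_or] at hcon
  have hA : v x ≤ v (y - t₁ * x) := by
    by_contra h; exact hcon.1 ⟨hb, h1, not_le.mp h⟩
  have hB : v x ≤ v (y - t₂ * x) := by
    by_contra h; exact hcon.2 ⟨hb, h1, not_le.mp h⟩
  have h3 : v ((y - t₁ * x) * (y - t₂ * x)) < v x * v x := by
    rw [hE, show x ^ 3 + b * x = x * (x ^ 2 + b) by ring, map_mul]
    exact mul_lt_mul_of_pos_left (h6n_v_sq_add_lt hb h1) hx0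
  rw [map_mul] at h3
  exact absurd (mul_le_mul' hA hB) (not_le.mpr h3)

/-- `v (y - t₁ x) = v (x² + b)` on the `t₁`-branch. -/
theorem h6n_v_branch (hS : NodeSetting v t₁ t₂ b) {x y : L}
    (hE : (y - t₁ * x) * (y - t₂ * x) = x ^ 3 + b * x) (hx : x ≠ 0)
    (h1 : v (y - t₁ * x) < v x) : v (y - t₁ * x) = v (x ^ 2 + b) := by
  have hx0 : v x ≠ 0 := (Valuation.ne_zero_iff v).mpr hx
  have h := congrArg v hE
  rw [map_mul, h6n_other_branch hS h1, show x ^ 3 + b * x = (x ^ 2 + b) * x by ring, map_mul] at h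
  exact mul_right_cancel₀ hx0 h

end val

end Fermat.Agent.Lib.S13
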