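/-
S13 project, stream (D), piece (D-C) (helper6): the split nodal model
`Wnode t₁ t₂ b : (Y - t₁ X)(Y - t₂ X) = X³ + b X` over a valued field `(L, v)` with
`v (t₁ - t₂) = 1`, `v t₁ ≤ 1`, `v t₂ ≤ 1`, `0 < v b < 1`.  No hypothesis on `v 2`.

The reduction is a nodal cubic with node `(0,0)` and tangent directions `Y = t₁ X`, `Y = t₂ X`.
An affine point `(x, y)` is
* of identity type if `1 ≤ v x`,
* a `t`-branch point (`t = t₁`: plus, `t = t₂`: minus) if `v b < v x < 1` and `v (y - t x) < v x`,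
* near `T = (0,0)` if `v x ≤ v b`.

This file: definitions, exact chord identities for Mathlib's addition law, the classification of
points, translation by `T`.
-/
import Mathlib

set_option autoImplicit false

namespace Fermat.Agent.Lib.S13

open WeierstrassCurve WeierstrassCurve.Affine

/-- The curve `(Y - t₁ X)(Y - t₂ X) = X³ + b X`. -/
def Wnode {L : Type*} [CommRing L] (t₁ t₂ b : L) : WeierstrassCurve L :=
  ⟨-(t₁ + t₂), -(t₁ * t₂), 0, b, 0⟩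

section defs

variable {L : Type*} [Field L] {Γ₀ : Type*} [LinearOrderedCommGroupWithZero Γ₀]

/-- The standing hypotheses. -/
structure NodeSetting (v : Valuation L Γ₀) (t₁ t₂ b : L) : Prop where
  vδ : v (t₁ - t₂) = 1
  vt₁ : v t₁ ≤ 1
  vt₂ : v t₂ ≤ 1
  vb : v b < 1
  b0 : b ≠ 0

theorem NodeSetting.symm {v : Valuation L Γ₀} {t₁ t₂ b : L} (h : NodeSetting v t₁ t₂ b) :
    NodeSetting v t₂ t₁ b :=
  ⟨by rw [← Valuation.map_neg, neg_sub]; exact h.vδ, h.vt₂, h.vt₁, h.vb, h.b0⟩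

variable (v : Valuation L Γ₀) (t₁ t₂ b : L)

/-- `(x, y)` is an intermediate point on the branch `Y ≈ t X`. -/
def IsNBranch (t x y : L) : Prop := v b < v x ∧ v x < 1 ∧ v (y - t * x) < v x

/-- The point `P` is `0` or has `1 ≤ v x` (identity component). -/
def NIdent (P : (Wnode t₁ t₂ b).toAffine.Point) : Prop :=
  P = 0 ∨ ∃ (x y : L) (h : (Wnode t₁ t₂ b).toAffine.Nonsingular x y), P = .some x y h ∧ 1 ≤ v x

/-- The point `P` is intermediate, on the `t₁`-branch, with `v x = g`. -/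
def NPlus (P : (Wnode t₁ t₂ b).toAffine.Point) (g : Γ₀) : Prop :=
  ∃ (x y : L) (h : (Wnode t₁ t₂ b).toAffine.Nonsingular x y),
    P = .some x y h ∧ IsNBranch v b t₁ x y ∧ v x = g

/-- The point `P` is intermediate, on the `t₂`-branch, with `v x = g`. -/
def NMinus (P : (Wnode t₁ t₂ b).toAffine.Point) (g : Γ₀) : Prop :=
  ∃ (x y : L) (h : (Wnode t₁ t₂ b).toAffine.Nonsingular x y),
    P = .some x y h ∧ IsNBranch v b t₂ x y ∧ v x = g

/-- The point `P` is affine with `v x ≤ v b` (this includes `T = (0, 0)`). -/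
def NNearT (P : (Wnode t₁ t₂ b).toAffine.Point) : Prop :=
  ∃ (x y : L) (h : (Wnode t₁ t₂ b).toAffine.Nonsingular x y), P = .some x y h ∧ v x ≤ v b

end defs

section chord

variable {L : Type*} [Field L] (t₁ t₂ b : L)

theorem h6n_equation_iff (x y : L) :
    (Wnode t₁ t₂ b).toAffine.Equation x y ↔ (y - t₁ * x) * (y - t₂ * x) = x ^ 3 + b * x := by
  rw [Affine.equation_iff]
  simp only [Wnode]
  constructor <;> intro h <;> linear_combination h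

theorem h6n_negY (x y : L) : (Wnode t₁ t₂ b).toAffine.negY x y = -y + (t₁ + t₂) * x := by
  simp only [Affine.negY, Wnode]; ring

theorem h6n_nonsingular_T (hb : b ≠ 0) : (Wnode t₁ t₂ b).toAffine.Nonsingular 0 0 := by
  rw [Affine.nonsingular_zero]
  simp [Wnode, hb]

variable {t₁ t₂ b} {x₁ y₁ x₂ y₂ : L}

/-- The relations between two points `(x₁, y₁)`, `(x₂, y₂)`, the line `Y = ℓ X + ν` through them
and their sum `(x₃, y₃)`. -/
structure NodeChord (t₁ t₂ b x₁ y₁ x₂ y₂ ℓ ν x₃ y₃ : L) : Prop where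
  line₁ : y₁ = ℓ * x₁ + ν
  line₂ : y₂ = ℓ * x₂ + ν
  line₃ : y₃ = -(ℓ * x₃ + ν) + (t₁ + t₂) * x₃
  e1 : x₁ + x₂ + x₃ = (ℓ - t₁) * (ℓ - t₂)
  e2 : x₁ * x₂ + x₁ * x₃ + x₂ * x₃ = b - ν * (2 * ℓ - (t₁ + t₂))
  e3 : x₁ * x₂ * x₃ = ν ^ 2

variable [DecidableEq L]

theorem h6n_chord (h₁ : (Wnode t₁ t₂ b).toAffine.Equation x₁ y₁)
    (h₂ : (Wnode t₁ t₂ b).toAffine.Equation x₂ y₂)
    (hxy : ¬(x₁ = x₂ ∧ y₁ = (Wnode t₁ t₂ b).toAffine.negY x₂ y₂)) :
    NodeChord t₁ t₂ b x₁ y₁ x₂ y₂ ((Wnode t₁ t₂ b).toAffine.slope x₁ x₂ y₁ y₂)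
      (y₁ - (Wnode t₁ t₂ b).toAffine.slope x₁ x₂ y₁ y₂ * x₁)
      ((Wnode t₁ t₂ b).toAffine.addX x₁ x₂ ((Wnode t₁ t₂ b).toAffine.slope x₁ x₂ y₁ y₂))
      ((Wnode t₁ t₂ b).toAffine.addY x₁ x₂ y₁ ((Wnode t₁ t₂ b).toAffine.slope x₁ x₂ y₁ y₂)) := by
  have key := Affine.addPolynomial_slope h₁ h₂ hxy
  rw [Affine.addPolynomial_eq, neg_inj, Cubic.prod_X_sub_C_eq, Cubic.toPoly_injective] at key
  have hb := congrArg Cubic.b key
  have hc := congrArg Cubic.c key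
  have hd := congrArg Cubic.d key
  set ℓ := (Wnode t₁ t₂ b).toAffine.slope x₁ x₂ y₁ y₂ with hℓ
  simp only [Wnode] at hb hc hd
  have hline₂ : y₂ = ℓ * x₂ + (y₁ - ℓ * x₁) := by
    by_cases hx : x₁ = x₂
    · have hy : y₁ ≠ (Wnode t₁ t₂ b).toAffine.negY x₂ y₂ := fun h => hxy ⟨hx, h⟩
      have := Affine.Y_eq_of_Y_ne h₁ h₂ hx hy
      rw [hx, this]; ring
    · rw [hℓ, Affine.slope_of_X_ne hx]
      have : x₁ - x₂ ≠ 0 := sub_ne_zero.mpr hx
      field_simp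
      ring
  refine ⟨by ring, hline₂, ?_, ?_, ?_, ?_⟩
  · simp only [Affine.addY, Affine.negAddY, h6n_negY]; ring
  · simp only [Affine.addX, Wnode] at hb ⊢; linear_combination -hb
  · simp only [Affine.addX, Wnode] at hc ⊢
    linear_combination -hc
  · simp only [Affine.addX, Wnode] at hd ⊢
    linear_combination hd

/-- Point-level form: the sum of two affine points which are not opposite. -/
theorem h6n_add (h₁ : (Wnode t₁ t₂ b).toAffine.Nonsingular x₁ y₁)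
    (h₂ : (Wnode t₁ t₂ b).toAffine.Nonsingular x₂ y₂)
    (hxy : ¬(x₁ = x₂ ∧ y₁ = -y₂ + (t₁ + t₂) * x₂)) :
    ∃ (ℓ ν x₃ y₃ : L) (h₃ : (Wnode t₁ t₂ b).toAffine.Nonsingular x₃ y₃),
      Affine.Point.some x₁ y₁ h₁ + Affine.Point.some x₂ y₂ h₂ = Affine.Point.some x₃ y₃ h₃ ∧
        NodeChord t₁ t₂ b x₁ y₁ x₂ y₂ ℓ ν x₃ y₃ := by
  have hxy' : ¬(x₁ = x₂ ∧ y₁ = (Wnode t₁ t₂ b).toAffine.negY x₂ y₂) := by rwa [h6n_negY]
  exact ⟨_, _, _, _, Affine.nonsingular_add h₁ h₂ hxy', Affine.Point.add_some hxy',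
    h6n_chord h₁.1 h₂.1 hxy'⟩

/-- Opposite points add up to zero. -/
theorem h6n_add_eq_zero (h₁ : (Wnode t₁ t₂ b).toAffine.Nonsingular x₁ y₁)
    (h₂ : (Wnode t₁ t₂ b).toAffine.Nonsingular x₂ y₂) (hx : x₁ = x₂)
    (hy : y₁ = -y₂ + (t₁ + t₂) * x₂) :
    Affine.Point.some x₁ y₁ h₁ + Affine.Point.some x₂ y₂ h₂ = 0 :=
  Affine.Point.add_of_Y_eq hx (by rwa [h6n_negY])

end chord

end Fermat.Agent.Lib.S13
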