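import Fermat.Agent.Lib.S13.NodeBasic

set_option autoImplicit false

namespace Fermat.Agent.Lib.S13

open WeierstrassCurve WeierstrassCurve.Affine

section ip

variable {L : Type*} [Field L] {Γ₀ : Type*} [LinearOrderedCommGroupWithZero Γ₀]
  {v : Valuation L Γ₀} {t₁ t₂ b x₁ y₁ x₂ y₂ ℓ ν x₃ y₃ : L}

/-- `(ℓ - t₁)(x₁ - x₂) = A₁ - A₂`. -/
theorem NodeChord.slope_sub₁ (h : NodeChord t₁ t₂ b x₁ y₁ x₂ y₂ ℓ ν x₃ y₃) :
    (ℓ - t₁) * (x₁ - x₂) = (y₁ - t₁ * x₁) - (y₂ - t₁ * x₂) := by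
  rw [h.line₁, h.line₂]; ring

theorem NodeChord.slope_sub₂ (h : NodeChord t₁ t₂ b x₁ y₁ x₂ y₂ ℓ ν x₃ y₃) :
    (ℓ - t₂) * (x₁ - x₂) = (y₁ - t₂ * x₁) - (y₂ - t₂ * x₂) := by
  rw [h.line₁, h.line₂]; ring

/-- `ν = A₂ - (ℓ - t₁) x₂`. -/
theorem NodeChord.nu_eq₁ (h : NodeChord t₁ t₂ b x₁ y₁ x₂ y₂ ℓ ν x₃ y₃) :
    ν = (y₂ - t₁ * x₂) - (ℓ - t₁) * x₂ := by
  rw [h.line₂]; ring

/-- `ν = B₁ - (ℓ - t₂) x₁`. -/
theorem NodeChord.nu_eq₂ (h : NodeChord t₁ t₂ b x₁ y₁ x₂ y₂ ℓ ν x₃ y₃) :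
    ν = (y₁ - t₂ * x₁) - (ℓ - t₂) * x₁ := by
  rw [h.line₁]; ring

/-- The product identity `B₁ B₂ B₃' = ν (ν² + b (ℓ - t₂)²)`. -/
theorem NodeChord.prodB (h : NodeChord t₁ t₂ b x₁ y₁ x₂ y₂ ℓ ν x₃ y₃) :
    (y₁ - t₂ * x₁) * (y₂ - t₂ * x₂) * ((ℓ - t₂) * x₃ + ν) = ν * (ν ^ 2 + b * (ℓ - t₂) ^ 2) := by
  rw [h.line₁, h.line₂]
  linear_combination (ℓ - t₂) ^ 3 * h.e3 + (ℓ - t₂) ^ 2 * ν * h.e2 + (ℓ - t₂) * ν ^ 2 * h.e1

/-- A point of identity type: `v (y - t₁ x)² = v (y - t₂ x)² = (v x)³`. -/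
theorem h6n_ident_val (hS : NodeSetting v t₁ t₂ b) {x y : L}
    (hE : (y - t₁ * x) * (y - t₂ * x) = x ^ 3 + b * x) (hx : 1 ≤ v x) :
    v (y - t₁ * x) = v (y - t₂ * x) ∧ v (y - t₁ * x) ^ 2 = v x ^ 3 ∧ v x ≤ v (y - t₁ * x) := by
  have hx0 : 0 < v x := lt_of_lt_of_le zero_lt_one hx
  have hx2 : 1 ≤ v x ^ 2 := one_le_pow₀ hx
  have h1 : v (x ^ 3 + b * x) = v x ^ 3 := by
    rw [Valuation.map_add_eq_of_lt_left, map_pow]
    rw [map_mul, map_pow]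
    calc v b * v x < 1 * v x := mul_lt_mul_of_pos_right hS.vb hx0
      _ = v x := one_mul _
      _ ≤ v x * v x ^ 2 := le_mul_of_one_le_right zero_le hx2
      _ = v x ^ 3 := (pow_succ' (v x) 2).symm
  have hprod : v (y - t₁ * x) * v (y - t₂ * x) = v x ^ 3 := by
    rw [← map_mul, hE, h1]
  have hdiff : v ((y - t₂ * x) - (y - t₁ * x)) = v x := by
    rw [show (y - t₂ * x) - (y - t₁ * x) = (t₁ - t₂) * x by ring, map_mul, hS.vδ, one_mul]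
  have hx3 : v x ^ 3 = v x * v x ^ 2 := pow_succ' (v x) 2
  have heq : v (y - t₁ * x) = v (y - t₂ * x) := by
    rcases lt_trichotomy (v (y - t₁ * x)) (v (y - t₂ * x)) with hlt | heq | hgt
    · exfalso
      have hB : v (y - t₂ * x) = v x := by
        rw [← hdiff, Valuation.map_sub_eq_of_lt_left _ hlt]
      rw [hB] at hprod hlt
      have : v (y - t₁ * x) * v x = v x ^ 2 * v x := by rw [hprod, pow_succ (v x) 2]
      have hA := mul_right_cancel₀ hx0.ne' this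
      rw [hA] at hlt
      exact absurd (le_trans (le_mul_of_one_le_left zero_le hx) (le_of_eq (sq (v x)).symm))
        (not_le.mpr hlt)
    · exact heq
    · exfalso
      have hA : v (y - t₁ * x) = v x := by
        rw [← hdiff, Valuation.map_sub_eq_of_lt_right _ hgt]
      rw [hA] at hprod hgt
      have : v x * v (y - t₂ * x) = v x * v x ^ 2 := by rw [hprod, pow_succ' (v x) 2]
      have hB := mul_left_cancel₀ hx0.ne' this
      rw [hB] at hgt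
      exact absurd (le_trans (le_mul_of_one_le_left zero_le hx) (le_of_eq (sq (v x)).symm))
        (not_le.mpr hgt)
  refine ⟨heq, ?_, ?_⟩
  · rw [← heq, ← sq] at hprod; exact hprod
  · have h2 : v (y - t₁ * x) ^ 2 = v x ^ 3 := by rw [← heq, ← sq] at hprod; exact hprod
    by_contra hcon
    rw [not_le] at hcon
    have : v (y - t₁ * x) ^ 2 < v x ^ 2 := pow_lt_pow_left₀ hcon zero_le two_ne_zero
    rw [h2, hx3] at this
    exact absurd (le_mul_of_one_le_left zero_le hx) (not_le.mpr this)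

/-- identity type + plus = plus with the same `v x`, field level. -/
theorem h6n_ident_plus_core (hS : NodeSetting v t₁ t₂ b)
    (h : NodeChord t₁ t₂ b x₁ y₁ x₂ y₂ ℓ ν x₃ y₃)
    (hE : (y₁ - t₁ * x₁) * (y₁ - t₂ * x₁) = x₁ ^ 3 + b * x₁) (hx₁ : 1 ≤ v x₁)
    (hQ : IsNBranch v b t₁ x₂ y₂) :
    IsNBranch v b t₁ x₃ y₃ ∧ v x₃ = v x₂ := by
  obtain ⟨hb2, h21, hA2⟩ := hQ
  obtain ⟨hAB, hρ, hρx⟩ := h6n_ident_val hS hE hx₁
  have vb0 : 0 < v b := by rw [Valuation.pos_iff]; exact hS.b0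
  have vx1 : 0 < v x₁ := lt_of_lt_of_le zero_lt_one hx₁
  have vx2 : 0 < v x₂ := lt_trans vb0 hb2
  have hB2 : v (y₂ - t₂ * x₂) = v x₂ := h6n_other_branch hS hA2
  have hρ1 : 1 ≤ v (y₁ - t₁ * x₁) := le_trans hx₁ hρx
  -- `v (x₁ - x₂) = v x₁`
  have hD : v (x₁ - x₂) = v x₁ :=
    Valuation.map_sub_eq_of_lt_left _ (lt_of_lt_of_le h21 hx₁)
  -- `v (ℓ - t₁) * v x₁ = ρ`, `v (ℓ - t₂) * v x₁ = ρ`
  have hk1 : v (ℓ - t₁) * v x₁ = v (y₁ - t₁ * x₁) := by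
    rw [← hD, ← map_mul, h.slope_sub₁]
    exact Valuation.map_sub_eq_of_lt_left _ (lt_of_lt_of_le (lt_trans hA2 h21) hρ1)
  have hk2 : v (ℓ - t₂) * v x₁ = v (y₁ - t₁ * x₁) := by
    rw [← hD, ← map_mul, h.slope_sub₂, hAB]
    refine Valuation.map_sub_eq_of_lt_left _ ?_
    rw [hB2, ← hAB]; exact lt_of_lt_of_le h21 hρ1
  have hk1' : 1 ≤ v (ℓ - t₁) := by
    by_contra hcon
    rw [not_le] at hcon
    have : v (ℓ - t₁) * v x₁ < 1 * v x₁ := mul_lt_mul_of_pos_right hcon vx1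
    rw [hk1, one_mul] at this
    exact absurd hρx (not_le.mpr this)
  have hkpos : 0 < v (ℓ - t₁) := lt_of_lt_of_le zero_lt_one hk1'
  have hkk : v (ℓ - t₂) = v (ℓ - t₁) := by
    have : v (ℓ - t₂) * v x₁ = v (ℓ - t₁) * v x₁ := by rw [hk1, hk2]
    exact mul_right_cancel₀ vx1.ne' this
  -- `k² = v x₁`
  have hk : v (ℓ - t₁) ^ 2 = v x₁ := by
    have h1 : (v (ℓ - t₁) * v x₁) ^ 2 = v x₁ ^ 3 := by rw [hk1, hρ]
    have h2 : v (ℓ - t₁) ^ 2 * v x₁ ^ 2 = v x₁ * v x₁ ^ 2 := by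
      rw [← mul_pow, h1, pow_succ' (v x₁) 2]
    exact mul_right_cancel₀ (pow_pos vx1 2).ne' h2
  -- `v ν = k * v x₂`
  have hν : v ν = v (ℓ - t₁) * v x₂ := by
    rw [h.nu_eq₁, Valuation.map_sub_eq_of_lt_right, map_mul]
    rw [map_mul]
    exact lt_of_lt_of_le hA2 (le_mul_of_one_le_left zero_le hk1')
  have hν0 : ν ≠ 0 := by
    intro h0
    rw [h0, map_zero] at hν
    exact (mul_pos hkpos vx2).ne hν
  have hx₃0 : x₃ ≠ 0 := h.x₃_ne_zero hν0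
  -- `v x₃ = v x₂`
  have hvx₃ : v x₃ = v x₂ := by
    have e3 := congrArg v h.e3
    rw [map_mul, map_mul, map_pow, hν, mul_pow, hk] at e3
    have : v x₃ * (v x₁ * v x₂) = v x₂ * (v x₁ * v x₂) := by
      calc v x₃ * (v x₁ * v x₂) = v x₁ * v x₂ * v x₃ := mul_comm _ _
        _ = v x₁ * v x₂ ^ 2 := e3
        _ = v x₂ * (v x₁ * v x₂) := by rw [sq]; ac_rfl
    exact mul_right_cancel₀ (mul_pos vx1 vx2).ne' this
  refine ⟨⟨by rw [hvx₃]; exact hb2, by rw [hvx₃]; exact h21, ?_⟩, hvx₃⟩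
  -- the branch via the product identity
  have hprod := congrArg v h.prodB
  rw [map_mul, map_mul, map_mul, ← hAB, hB2] at hprod
  rw [h.A₃, Valuation.map_neg]
  have hsum : v (ν ^ 2 + b * (ℓ - t₂) ^ 2) < v x₁ * v x₂ := by
    refine lt_of_le_of_lt (v.map_add _ _) (max_lt ?_ ?_)
    · rw [map_pow, hν, mul_pow, hk, sq, ← mul_assoc]
      calc v x₁ * v x₂ * v x₂ < v x₁ * v x₂ * 1 :=
            mul_lt_mul_of_pos_left h21 (mul_pos vx1 vx2)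
        _ = v x₁ * v x₂ := mul_one _
    · rw [map_mul, map_pow, hkk, hk, mul_comm]
      exact mul_lt_mul_of_pos_left hb2 vx1
  -- conclude
  by_contra hcon
  rw [not_lt] at hcon
  have h1 : v (y₁ - t₁ * x₁) * v x₂ * v x₃
      ≤ v (y₁ - t₁ * x₁) * v x₂ * v ((ℓ - t₂) * x₃ + ν) := mul_le_mul_right hcon _
  rw [hprod, hν, hvx₃] at h1
  have h2 : v (ℓ - t₁) * v x₂ * v (ν ^ 2 + b * (ℓ - t₂) ^ 2)
      < v (ℓ - t₁) * v x₂ * (v x₁ * v x₂) :=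
    mul_lt_mul_of_pos_left hsum (mul_pos hkpos vx2)
  have h3 : v (y₁ - t₁ * x₁) * v x₂ * v x₂ = v (ℓ - t₁) * v x₂ * (v x₁ * v x₂) := by
    rw [← hk1]; ac_rfl
  rw [h3] at h1
  exact absurd h1 (not_le.mpr h2)

end ip

end Fermat.Agent.Lib.S13
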