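import Fermat.Agent.Lib.S13.NodeIdentPlus

set_option autoImplicit false

namespace Fermat.Agent.Lib.S13

open WeierstrassCurve WeierstrassCurve.Affine

section mp

variable {L : Type*} [Field L] {Γ₀ : Type*} [LinearOrderedCommGroupWithZero Γ₀]
  {v : Valuation L Γ₀} {t₁ t₂ b x₁ y₁ x₂ y₂ ℓ ν x₃ y₃ : L}

/-- minus + plus, field level. -/
theorem h6n_minus_plus_core (hS : NodeSetting v t₁ t₂ b)
    (h : NodeChord t₁ t₂ b x₁ y₁ x₂ y₂ ℓ ν x₃ y₃)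
    (hP : IsNBranch v b t₂ x₁ y₁) (hQ : IsNBranch v b t₁ x₂ y₂) :
    (v x₂ < v x₁ → IsNBranch v b t₁ x₃ y₃ ∧ v x₃ * v x₁ = v x₂) ∧
    (v x₁ < v x₂ → IsNBranch v b t₂ x₃ y₃ ∧ v x₃ * v x₂ = v x₁) ∧
    (v x₁ = v x₂ → 1 ≤ v x₃) := by
  obtain ⟨hb1, h11, hB1⟩ := hP
  obtain ⟨hb2, h21, hA2⟩ := hQ
  have vb0 : 0 < v b := by rw [Valuation.pos_iff]; exact hS.b0
  have vx1 : 0 < v x₁ := lt_trans vb0 hb1
  have vx2 : 0 < v x₂ := lt_trans vb0 hb2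
  have hB2 : v (y₂ - t₂ * x₂) = v x₂ := h6n_other_branch hS hA2
  have hA1 : v (y₁ - t₁ * x₁) = v x₁ := h6n_other_branch hS.symm hB1
  have hx₃e : v x₃ * (v x₁ * v x₂) = v ν ^ 2 := by
    rw [← map_mul, ← map_mul, ← map_pow, ← h.e3]; congr 1; ring
  refine ⟨fun hlt => ?_, fun hlt => ?_, fun heq => ?_⟩
  · -- `v x₂ < v x₁`
    have hD : v (x₁ - x₂) = v x₁ := Valuation.map_sub_eq_of_lt_left _ hlt
    have hk1 : v (ℓ - t₁) = 1 := by
      have h0 : v (ℓ - t₁) * v (x₁ - x₂) = v x₁ := by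
        rw [← map_mul, h.slope_sub₁, ← hA1]
        refine Valuation.map_sub_eq_of_lt_left _ ?_
        rw [hA1]; exact lt_trans hA2 hlt
      have : v (ℓ - t₁) * v x₁ = 1 * v x₁ := by rw [one_mul, ← hD, h0, hD]
      exact mul_right_cancel₀ vx1.ne' this
    have hk2 : v (ℓ - t₂) < 1 := by
      have h0 : v (ℓ - t₂) * v (x₁ - x₂) < v x₁ := by
        rw [← map_mul, h.slope_sub₂]
        refine lt_of_le_of_lt (v.map_sub _ _) (max_lt hB1 ?_)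
        rw [hB2]; exact hlt
      have : v (ℓ - t₂) * v x₁ < 1 * v x₁ := by rw [one_mul]; rw [hD] at h0; exact h0
      exact lt_of_mul_lt_mul_right this zero_le
    have hν : v ν = v x₂ := by
      rw [h.nu_eq₁, Valuation.map_sub_eq_of_lt_right, map_mul, hk1, one_mul]
      rw [map_mul, hk1, one_mul]; exact hA2
    have hvx₃ : v x₃ * v x₁ = v x₂ := by
      rw [hν, sq] at hx₃e
      have : v x₃ * v x₁ * v x₂ = v x₂ * v x₂ := by rw [← hx₃e]; ac_rfl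
      exact mul_right_cancel₀ vx2.ne' this
    have hvx₃' : v x₃ = v x₂ / v x₁ := by rw [eq_div_iff vx1.ne']; exact hvx₃
    have hx₃lt : v x₂ < v x₃ := by
      rw [hvx₃', lt_div_iff₀ vx1]
      calc v x₂ * v x₁ < v x₂ * 1 := mul_lt_mul_of_pos_left h11 vx2
        _ = v x₂ := mul_one _
    refine ⟨⟨lt_trans hb2 hx₃lt, ?_, ?_⟩, hvx₃⟩
    · rw [hvx₃', div_lt_one₀ vx1]; exact hlt
    · rw [h.A₃, Valuation.map_neg]
      refine lt_of_le_of_lt (v.map_add _ _) (max_lt ?_ ?_)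
      · rw [map_mul]
        calc v (ℓ - t₂) * v x₃ < 1 * v x₃ :=
              mul_lt_mul_of_pos_right hk2 (lt_trans vx2 hx₃lt)
          _ = v x₃ := one_mul _
      · rw [hν]; exact hx₃lt
  · -- `v x₁ < v x₂`
    have hD : v (x₁ - x₂) = v x₂ := Valuation.map_sub_eq_of_lt_right _ hlt
    have hk2 : v (ℓ - t₂) = 1 := by
      have h0 : v (ℓ - t₂) * v (x₁ - x₂) = v x₂ := by
        rw [← map_mul, h.slope_sub₂, ← hB2]
        refine Valuation.map_sub_eq_of_lt_right _ ?_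
        rw [hB2]; exact lt_trans hB1 hlt
      have : v (ℓ - t₂) * v x₂ = 1 * v x₂ := by rw [one_mul, ← hD, h0, hD]
      exact mul_right_cancel₀ vx2.ne' this
    have hk1 : v (ℓ - t₁) < 1 := by
      have h0 : v (ℓ - t₁) * v (x₁ - x₂) < v x₂ := by
        rw [← map_mul, h.slope_sub₁]
        refine lt_of_le_of_lt (v.map_sub _ _) (max_lt ?_ hA2)
        rw [hA1]; exact hlt
      have : v (ℓ - t₁) * v x₂ < 1 * v x₂ := by rw [one_mul]; rw [hD] at h0; exact h0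
      exact lt_of_mul_lt_mul_right this zero_le
    have hν : v ν = v x₁ := by
      rw [h.nu_eq₂, Valuation.map_sub_eq_of_lt_right, map_mul, hk2, one_mul]
      rw [map_mul, hk2, one_mul]; exact hB1
    have hvx₃ : v x₃ * v x₂ = v x₁ := by
      rw [hν, sq] at hx₃e
      have : v x₃ * v x₂ * v x₁ = v x₁ * v x₁ := by rw [← hx₃e]; ac_rfl
      exact mul_right_cancel₀ vx1.ne' this
    have hvx₃' : v x₃ = v x₁ / v x₂ := by rw [eq_div_iff vx2.ne']; exact hvx₃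
    have hx₃lt : v x₁ < v x₃ := by
      rw [hvx₃', lt_div_iff₀ vx2]
      calc v x₁ * v x₂ < v x₁ * 1 := mul_lt_mul_of_pos_left h21 vx1
        _ = v x₁ := mul_one _
    refine ⟨⟨lt_trans hb1 hx₃lt, ?_, ?_⟩, hvx₃⟩
    · rw [hvx₃', div_lt_one₀ vx2]; exact hlt
    · rw [h.B₃, Valuation.map_neg]
      refine lt_of_le_of_lt (v.map_add _ _) (max_lt ?_ ?_)
      · rw [map_mul]
        calc v (ℓ - t₁) * v x₃ < 1 * v x₃ :=
              mul_lt_mul_of_pos_right hk1 (lt_trans vx1 hx₃lt)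
          _ = v x₃ := one_mul _
      · rw [hν]; exact hx₃lt
  · -- `v x₁ = v x₂`
    have hA12 : v ((y₁ - t₁ * x₁) - (y₂ - t₁ * x₂)) = v x₁ := by
      rw [← hA1]
      refine Valuation.map_sub_eq_of_lt_left _ ?_
      rw [hA1, heq]; exact hA2
    have hB12 : v ((y₁ - t₂ * x₁) - (y₂ - t₂ * x₂)) = v x₁ := by
      rw [heq, ← hB2]
      refine Valuation.map_sub_eq_of_lt_right _ ?_
      rw [hB2, ← heq]; exact hB1
    have hDle : v (x₁ - x₂) ≤ v x₁ := by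
      refine le_trans (v.map_sub _ _) (max_le le_rfl ?_)
      rw [heq]
    have hD0 : x₁ - x₂ ≠ 0 := by
      intro h0
      have := h.slope_sub₁
      rw [h0, mul_zero] at this
      rw [← this, map_zero] at hA12
      exact vx1.ne hA12
    have hDpos : 0 < v (x₁ - x₂) := by rw [Valuation.pos_iff]; exact hD0
    have hk1 : v (ℓ - t₁) * v (x₁ - x₂) = v x₁ := by rw [← map_mul, h.slope_sub₁, hA12]
    have hk2 : v (ℓ - t₂) * v (x₁ - x₂) = v x₁ := by rw [← map_mul, h.slope_sub₂, hB12]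
    have hk1' : 1 ≤ v (ℓ - t₁) := by
      by_contra hcon
      rw [not_le] at hcon
      have : v (ℓ - t₁) * v (x₁ - x₂) < 1 * v (x₁ - x₂) := mul_lt_mul_of_pos_right hcon hDpos
      rw [hk1, one_mul] at this
      exact absurd hDle (not_le.mpr this)
    have hk2' : 1 ≤ v (ℓ - t₂) := by
      by_contra hcon
      rw [not_le] at hcon
      have : v (ℓ - t₂) * v (x₁ - x₂) < 1 * v (x₁ - x₂) := mul_lt_mul_of_pos_right hcon hDpos
      rw [hk2, one_mul] at this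
      exact absurd hDle (not_le.mpr this)
    have hRHS : 1 ≤ v ((ℓ - t₁) * (ℓ - t₂)) := by
      rw [map_mul]; exact one_le_mul_of_one_le_of_one_le hk1' hk2'
    -- `x₃ = (ℓ - t₁)(ℓ - t₂) - (x₁ + x₂)`
    have hx₃ : x₃ = (ℓ - t₁) * (ℓ - t₂) - (x₁ + x₂) := by rw [← h.e1]; ring
    have h12 : v (x₁ + x₂) < 1 := lt_of_le_of_lt (v.map_add _ _) (max_lt h11 h21)
    rw [hx₃, Valuation.map_sub_eq_of_lt_left _ (lt_of_lt_of_le h12 hRHS)]
    exact hRHS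

/-- identity type + identity type = identity type, field level. -/
theorem h6n_ident_ident_core (hS : NodeSetting v t₁ t₂ b)
    (h : NodeChord t₁ t₂ b x₁ y₁ x₂ y₂ ℓ ν x₃ y₃) (hx₁ : 1 ≤ v x₁) (hx₂ : 1 ≤ v x₂) :
    1 ≤ v x₃ := by
  by_contra hcon
  rw [not_le] at hcon
  have vx1 : 0 < v x₁ := lt_of_lt_of_le zero_lt_one hx₁
  have vx2 : 0 < v x₂ := lt_of_lt_of_le zero_lt_one hx₂
  have h12 : 1 ≤ v x₁ * v x₂ := one_le_mul_of_one_le_of_one_le hx₁ hx₂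
  have h2le : v (2 : L) ≤ 1 := by
    have : (2 : L) = 1 + 1 := by norm_num
    rw [this]; exact le_trans (v.map_add _ _) (by simp)
  have hs : v (t₁ + t₂) ≤ 1 := le_trans (v.map_add _ _) (max_le hS.vt₁ hS.vt₂)
  -- `M = max (v x₁) (v x₂) ≤ v x₁ * v x₂`
  have hM1 : v x₁ ≤ v x₁ * v x₂ := le_mul_of_one_le_right zero_le hx₂
  have hM2 : v x₂ ≤ v x₁ * v x₂ := le_mul_of_one_le_left zero_le hx₁
  -- `v c₁ = v x₁ * v x₂`
  have h3 : v (x₁ + x₂) ≤ v x₁ * v x₂ := le_trans (v.map_add _ _) (max_le hM1 hM2)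
  have h4 : v ((x₁ + x₂) * x₃) < v x₁ * v x₂ := by
    rw [map_mul]
    rcases eq_or_ne (v (x₁ + x₂)) 0 with h0 | h0
    · rw [h0, zero_mul]; exact lt_of_lt_of_le zero_lt_one h12
    · calc v (x₁ + x₂) * v x₃ < v (x₁ + x₂) * 1 :=
            mul_lt_mul_of_pos_left hcon (zero_lt_iff.mpr h0)
        _ = v (x₁ + x₂) := mul_one _
        _ ≤ v x₁ * v x₂ := h3
  have hc1 : v (x₁ * x₂ + x₁ * x₃ + x₂ * x₃) = v x₁ * v x₂ := by
    have e : x₁ * x₂ + x₁ * x₃ + x₂ * x₃ = x₁ * x₂ + (x₁ + x₂) * x₃ := by ring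
    rw [e, Valuation.map_add_eq_of_lt_left, map_mul]
    rw [v.map_mul x₁ x₂]; exact h4
  -- `v (ν (2ℓ - s)) = v x₁ * v x₂`
  have hνs : v (ν * (2 * ℓ - (t₁ + t₂))) = v x₁ * v x₂ := by
    have e : ν * (2 * ℓ - (t₁ + t₂)) = b - (x₁ * x₂ + x₁ * x₃ + x₂ * x₃) := by
      rw [h.e2]; ring
    rw [e, Valuation.map_sub_eq_of_lt_right, hc1]
    rw [hc1]; exact lt_of_lt_of_le hS.vb h12
  have hν2 : v ν ^ 2 = v x₁ * v x₂ * v x₃ := by
    rw [← map_pow, ← h.e3, map_mul, map_mul]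
  have hν0 : v ν ≠ 0 := by
    intro h0
    rw [map_mul, h0, zero_mul] at hνs
    exact (lt_of_lt_of_le zero_lt_one h12).ne hνs
  -- `v (2ℓ - s)² * v x₃ = v x₁ * v x₂`
  have hκ : v (2 * ℓ - (t₁ + t₂)) ^ 2 * v x₃ = v x₁ * v x₂ := by
    have h5 : v ν ^ 2 * (v (2 * ℓ - (t₁ + t₂)) ^ 2 * v x₃)
        = v ν ^ 2 * (v x₁ * v x₂) := by
      have h6 : (v ν * v (2 * ℓ - (t₁ + t₂))) ^ 2 = (v x₁ * v x₂) ^ 2 := by
        rw [← map_mul, hνs]
      calc v ν ^ 2 * (v (2 * ℓ - (t₁ + t₂)) ^ 2 * v x₃)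
          = (v ν * v (2 * ℓ - (t₁ + t₂))) ^ 2 * v x₃ := by rw [mul_pow]; ac_rfl
        _ = (v x₁ * v x₂) ^ 2 * v x₃ := by rw [h6]
        _ = v ν ^ 2 * (v x₁ * v x₂) := by rw [hν2, sq]; ac_rfl
    exact mul_left_cancel₀ (pow_ne_zero 2 hν0) h5
  have hx₃0 : 0 < v x₃ := by
    rw [zero_lt_iff]; intro h0
    rw [h0, mul_zero] at hκ
    exact (lt_of_lt_of_le zero_lt_one h12).ne hκ
  -- `v x₁ * v x₂ < v (2ℓ - s)²`
  have hκ' : v x₁ * v x₂ < v (2 * ℓ - (t₁ + t₂)) ^ 2 := by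
    have hpos : 0 < v (2 * ℓ - (t₁ + t₂)) ^ 2 := by
      rw [zero_lt_iff]; intro h0
      rw [h0, zero_mul] at hκ
      exact (lt_of_lt_of_le zero_lt_one h12).ne hκ
    calc v x₁ * v x₂ = v (2 * ℓ - (t₁ + t₂)) ^ 2 * v x₃ := hκ.symm
      _ < v (2 * ℓ - (t₁ + t₂)) ^ 2 * 1 := mul_lt_mul_of_pos_left hcon hpos
      _ = v (2 * ℓ - (t₁ + t₂)) ^ 2 := mul_one _
  have hκ1 : 1 < v (2 * ℓ - (t₁ + t₂)) := by
    by_contra hc
    rw [not_lt] at hc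
    have : v (2 * ℓ - (t₁ + t₂)) ^ 2 ≤ 1 := pow_le_one₀ zero_le hc
    exact absurd (lt_of_lt_of_le hκ' this) (not_lt.mpr h12)
  -- `v (2ℓ) = v (2ℓ - s)`, `1 < v ℓ`
  have h2ℓ : v (2 * ℓ) = v (2 * ℓ - (t₁ + t₂)) := by
    have e : 2 * ℓ = (2 * ℓ - (t₁ + t₂)) + (t₁ + t₂) := by ring
    rw [e, Valuation.map_add_eq_of_lt_left]
    · congr 1; ring
    · exact lt_of_le_of_lt hs hκ1
  have hℓ : v (2 * ℓ - (t₁ + t₂)) ≤ v ℓ := by
    rw [← h2ℓ, map_mul]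
    calc v 2 * v ℓ ≤ 1 * v ℓ := mul_le_mul_left h2le _
      _ = v ℓ := one_mul _
  have hℓ1 : 1 < v ℓ := lt_of_lt_of_le hκ1 hℓ
  have hℓt₁ : v (ℓ - t₁) = v ℓ :=
    Valuation.map_sub_eq_of_lt_left _ (lt_of_le_of_lt hS.vt₁ hℓ1)
  have hℓt₂ : v (ℓ - t₂) = v ℓ :=
    Valuation.map_sub_eq_of_lt_left _ (lt_of_le_of_lt hS.vt₂ hℓ1)
  -- `v ℓ ^ 2 = v (x₁ + x₂ + x₃) ≤ v x₁ * v x₂`
  have hsum : v (x₁ + x₂ + x₃) ≤ v x₁ * v x₂ :=
    le_trans (v.map_add _ _) (max_le h3 (le_trans (le_of_lt hcon) h12))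
  rw [h.e1, map_mul, hℓt₁, hℓt₂, ← sq] at hsum
  have : v (2 * ℓ - (t₁ + t₂)) ^ 2 ≤ v ℓ ^ 2 := pow_le_pow_left₀ zero_le hℓ 2
  exact absurd (lt_of_lt_of_le hκ' (le_trans this hsum)) (lt_irrefl _)

end mp

end Fermat.Agent.Lib.S13
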