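import Fermat.Agent.Lib.S13.NodeBasic

set_option autoImplicit false

namespace Fermat.Agent.Lib.S13

open WeierstrassCurve WeierstrassCurve.Affine

section pp

variable {L : Type*} [Field L] {Γ₀ : Type*} [LinearOrderedCommGroupWithZero Γ₀]
  {v : Valuation L Γ₀} {t₁ t₂ b x₁ y₁ x₂ y₂ ℓ ν x₃ y₃ : L}

/-- plus + plus, field level. -/
theorem h6n_plus_plus_core (hS : NodeSetting v t₁ t₂ b)
    (h : NodeChord t₁ t₂ b x₁ y₁ x₂ y₂ ℓ ν x₃ y₃)
    (hP : IsNBranch v b t₁ x₁ y₁) (hQ : IsNBranch v b t₁ x₂ y₂) :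
    (v b < v x₁ * v x₂ → IsNBranch v b t₁ x₃ y₃ ∧ v x₃ = v x₁ * v x₂) ∧
    (v x₁ * v x₂ < v b → IsNBranch v b t₂ x₃ y₃ ∧ v x₃ * (v x₁ * v x₂) = v b ^ 2) ∧
    (v x₁ * v x₂ = v b → v x₃ ≤ v b) := by
  obtain ⟨hb1, h11, hA1⟩ := hP
  obtain ⟨hb2, h21, hA2⟩ := hQ
  have vb0 : 0 < v b := by rw [Valuation.pos_iff]; exact hS.b0
  have vx1 : 0 < v x₁ := lt_trans vb0 hb1
  have vx2 : 0 < v x₂ := lt_trans vb0 hb2
  have x10 : x₁ ≠ 0 := (Valuation.pos_iff v).mp vx1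
  have x20 : x₂ ≠ 0 := (Valuation.pos_iff v).mp vx2
  have hB2 : v (y₂ - t₂ * x₂) = v x₂ := h6n_other_branch hS hA2
  have hx12 : v (x₁ * x₂) = v x₁ * v x₂ := map_mul _ _ _
  have hx12pos : 0 < v x₁ * v x₂ := mul_pos vx1 vx2
  -- `S' = A₁ x₂ + B₂ x₁` has valuation `v x₁ * v x₂`
  have hS'e : y₁ * x₂ + y₂ * x₁ - (t₁ + t₂) * (x₁ * x₂)
      = (y₂ - t₂ * x₂) * x₁ + (y₁ - t₁ * x₁) * x₂ := by ring
  have hS' : v (y₁ * x₂ + y₂ * x₁ - (t₁ + t₂) * (x₁ * x₂)) = v x₁ * v x₂ := by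
    rw [hS'e, Valuation.map_add_eq_of_lt_left, map_mul, hB2, mul_comm]
    rw [map_mul, map_mul, hB2, mul_comm (v x₂)]
    exact mul_lt_mul_of_pos_right hA1 vx2
  have hS'0 : y₁ * x₂ + y₂ * x₁ - (t₁ + t₂) * (x₁ * x₂) ≠ 0 := by
    intro h0; rw [h0, map_zero] at hS'; exact hx12pos.ne hS'
  have hvν : v ν = v (b - x₁ * x₂) := by
    have := congrArg v h.nu_mul
    rw [map_mul, hS', map_mul, hx12, mul_comm] at this
    exact mul_left_cancel₀ hx12pos.ne' this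
  have hvx₃ : v x₃ * (v x₁ * v x₂) = v ν ^ 2 := by
    rw [← hx12, ← map_mul, ← map_pow, ← h.e3]; congr 1; ring
  refine ⟨fun hlt => ?_, fun hlt => ?_, fun heq => ?_⟩
  · -- `v b < v (x₁ x₂)`
    have hN : v (b - x₁ * x₂) = v x₁ * v x₂ := by
      rw [Valuation.map_sub_eq_of_lt_right _ (by rw [hx12]; exact hlt), hx12]
    have hN0 : b - x₁ * x₂ ≠ 0 := by
      intro h0; rw [h0, map_zero] at hN; exact hx12pos.ne hN
    have hν0 : ν ≠ 0 := by
      intro h0; rw [h0, map_zero, hN] at hvν; exact hx12pos.ne hvν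
    have hvx₃' : v x₃ = v x₁ * v x₂ := by
      rw [hvν, hN, sq] at hvx₃
      exact mul_right_cancel₀ hx12pos.ne' hvx₃
    have hx₃0 : x₃ ≠ 0 := h.x₃_ne_zero hν0
    refine ⟨⟨by rw [hvx₃']; exact hlt, ?_, ?_⟩, hvx₃'⟩
    · rw [hvx₃']
      calc v x₁ * v x₂ < 1 * 1 := mul_lt_mul'' h11 h21 zero_le zero_le
        _ = 1 := one_mul 1
    · -- the key identity
      have e1 : x₁ * x₂ / ν
          = (y₁ * x₂ + y₂ * x₁ - (t₁ + t₂) * (x₁ * x₂)) / (b - x₁ * x₂) := by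
        rw [div_eq_div_iff hν0 hN0]
        linear_combination -h.nu_mul
      have e : y₃ - t₁ * x₃ = -x₃ * ((y₁ - t₁ * x₁) / x₁ - ν / x₁
          + ((y₁ - t₁ * x₁) * x₂ + (y₂ - t₁ * x₂) * x₁ + (t₁ - t₂) * b) / (b - x₁ * x₂)) := by
        have e2 : (ℓ - t₂) * x₃ + ν = x₃ * ((ℓ - t₂) + ν / x₃) := by field_simp
        have e3 : ℓ = (y₁ - ν) / x₁ := by rw [eq_div_iff x10]; exact h.ell_mul₁
        rw [h.A₃, e2, h.nu_div_x₃ hν0, e1, e3]
        field_simp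
        ring
      rw [e, map_mul, Valuation.map_neg]
      have hE : v ((y₁ - t₁ * x₁) / x₁ - ν / x₁
          + ((y₁ - t₁ * x₁) * x₂ + (y₂ - t₁ * x₂) * x₁ + (t₁ - t₂) * b) / (b - x₁ * x₂)) < 1 := by
        refine lt_of_le_of_lt (v.map_add _ _) (max_lt ?_ ?_)
        · refine lt_of_le_of_lt (v.map_sub _ _) (max_lt ?_ ?_)
          · rw [map_div₀, div_lt_one₀ vx1]; exact hA1
          · rw [map_div₀, hvν, hN, mul_comm, mul_div_assoc, div_self vx1.ne', mul_one]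
            exact h21
        · rw [map_div₀, hN, div_lt_one₀ hx12pos]
          refine lt_of_le_of_lt (v.map_add _ _) (max_lt ?_ ?_)
          · refine lt_of_le_of_lt (v.map_add _ _) (max_lt ?_ ?_)
            · rw [map_mul]; exact mul_lt_mul_of_pos_right hA1 vx2
            · rw [map_mul, mul_comm]; exact mul_lt_mul_of_pos_left hA2 vx1
          · rw [map_mul, hS.vδ, one_mul]; exact hlt
      calc v x₃ * _ < v x₃ * 1 := by
            apply mul_lt_mul_of_pos_left hE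
            rw [Valuation.pos_iff]; exact hx₃0
        _ = v x₃ := mul_one _
  · -- `v (x₁ x₂) < v b`
    have hN : v (b - x₁ * x₂) = v b := by
      rw [Valuation.map_sub_eq_of_lt_left _ (by rw [hx12]; exact hlt)]
    have hν0 : ν ≠ 0 := by
      intro h0; rw [h0, map_zero, hN] at hvν; exact vb0.ne hvν
    have hx₃0 : x₃ ≠ 0 := h.x₃_ne_zero hν0
    have hvx₃' : v x₃ * (v x₁ * v x₂) = v b ^ 2 := by rw [hvx₃, hvν, hN]
    have hvx₃'' : v x₃ = v b ^ 2 / (v x₁ * v x₂) := by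
      rw [eq_div_iff hx12pos.ne']; exact hvx₃'
    refine ⟨⟨?_, ?_, ?_⟩, hvx₃'⟩
    · rw [hvx₃'', lt_div_iff₀ hx12pos, sq]
      exact mul_lt_mul_of_pos_left hlt vb0
    · rw [hvx₃'', div_lt_one₀ hx12pos, sq]
      exact mul_lt_mul'' hb1 hb2 zero_le zero_le
    · have e : y₃ - t₂ * x₃ = -x₃ * ((y₁ - t₁ * x₁) / x₁ - ν / x₁ + x₁ * x₂ / ν) := by
        have e2 : (ℓ - t₁) * x₃ + ν = x₃ * ((ℓ - t₁) + ν / x₃) := by field_simp
        have e3 : ℓ = (y₁ - ν) / x₁ := by rw [eq_div_iff x10]; exact h.ell_mul₁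
        rw [h.B₃, e2, h.nu_div_x₃ hν0, e3]
        field_simp
        ring
      rw [e, map_mul, Valuation.map_neg]
      have hE : v ((y₁ - t₁ * x₁) / x₁ - ν / x₁ + x₁ * x₂ / ν) < 1 := by
        refine lt_of_le_of_lt (v.map_add _ _) (max_lt ?_ ?_)
        · refine lt_of_le_of_lt (v.map_sub _ _) (max_lt ?_ ?_)
          · rw [map_div₀, div_lt_one₀ vx1]; exact hA1
          · rw [map_div₀, hvν, hN, div_lt_one₀ vx1]; exact hb1
        · rw [map_div₀, hvν, hN, hx12, div_lt_one₀ vb0]; exact hlt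
      calc v x₃ * _ < v x₃ * 1 := by
            apply mul_lt_mul_of_pos_left hE
            rw [Valuation.pos_iff]; exact hx₃0
        _ = v x₃ := mul_one _
  · -- `v (x₁ x₂) = v b`
    have hN : v (b - x₁ * x₂) ≤ v b := by
      refine le_trans (v.map_sub _ _) (max_le le_rfl ?_)
      rw [hx12, heq]
    have h2 : v x₃ * v b ≤ v b * v b := by
      calc v x₃ * v b = v ν ^ 2 := by rw [← heq]; exact hvx₃
        _ ≤ v b ^ 2 := by rw [hvν]; exact pow_le_pow_left₀ zero_le hN 2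
        _ = v b * v b := sq _
    exact le_of_mul_le_mul_right h2 vb0

end pp

end Fermat.Agent.Lib.S13
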