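import Fermat.Agent.Lib.S13.NodeWalk

set_option autoImplicit false

namespace Fermat.Agent.Lib.S13

open WeierstrassCurve WeierstrassCurve.Affine

section tors

variable {L : Type*} [Field L] [DecidableEq L] {Γ₀ : Type*} [LinearOrderedCommGroupWithZero Γ₀]
  {v : Valuation L Γ₀} {t₁ t₂ b : L}

/-- The points of identity type are closed under multiples. -/
theorem h6w_ident_nsmul (hS : NodeSetting v t₁ t₂ b) {P : (Wnode t₁ t₂ b).toAffine.Point}
    (hP : NIdent v t₁ t₂ b P) (k : ℕ) : NIdent v t₁ t₂ b (k • P) := by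
  induction k with
  | zero => exact Or.inl (zero_nsmul P)
  | succ k ih => rw [succ_nsmul]; exact h6w_ident_add hS ih hP

/-- A torsion point of odd order is not near `T`. -/
theorem h6_node_odd_torsion_not_nearT (hS : NodeSetting v t₁ t₂ b)
    {P : (Wnode t₁ t₂ b).toAffine.Point} (n : ℕ) (hodd : Odd n) (hn : n • P = 0)
    (hP : NNearT v t₁ t₂ b P) : False := by
  obtain ⟨k, rfl⟩ := hodd
  have h1 := h6w_nearT_add_T hS hP
  have h2 : NIdent v t₁ t₂ b (2 • P) := by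
    have := h6w_ident_add hS h1 h1
    have e : P + nodeT t₁ t₂ b hS.b0 + (P + nodeT t₁ t₂ b hS.b0) = 2 • P := by
      rw [add_add_add_comm, h6w_T_add_T, add_zero, two_nsmul]
    rwa [e] at this
  have h3 : NIdent v t₁ t₂ b (-(k • (2 • P))) := h6w_neg_ident (h6w_ident_nsmul hS h2 k)
  have e : -(k • (2 • P)) = P := by
    rw [neg_eq_iff_add_eq_zero, ← hn, ← mul_nsmul, add_nsmul, one_nsmul, mul_comm]
  rw [e] at h3
  exact h6w_not_ident_nearT hS h3 hP

/-- A torsion point of order prime to `2m`, where `v b = γ ^ m` and `v x ∈ γ ^ ℤ`, is not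
intermediate. -/
theorem h6_node_torsion_not_intermediate (hS : NodeSetting v t₁ t₂ b)
    {P : (Wnode t₁ t₂ b).toAffine.Point} {g : Γ₀}
    (hP : NPlus v t₁ t₂ b P g ∨ NMinus v t₁ t₂ b P g) (n : ℕ) (hn : n • P = 0)
    (γ : Γ₀) (hγ0 : γ ≠ 0) (hγ1 : γ < 1) (j m : ℤ) (hg : g = γ ^ j) (hb : v b = γ ^ m)
    (hcop : IsCoprime (n : ℤ) (2 * m)) : False := by
  have hγpos : 0 < γ := zero_lt_iff.mpr hγ0
  obtain ⟨k, hk⟩ := h6_node_torsion hS hP n hn
  have hpos : v b < g ∧ g < 1 := by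
    rcases hP with hP | hP
    · exact h6w_plus_pos hP
    · exact h6w_minus_pos hP
  rw [hg, hb, ← zpow_natCast, ← zpow_mul, ← zpow_natCast, ← zpow_mul, ← zpow_mul,
    zpow_right_inj₀ hγpos hγ1.ne] at hk
  -- `j * n = m * 2 * k`
  have hdvd : (n : ℤ) ∣ k := by
    have h1 : (n : ℤ) ∣ (2 * m) * k := ⟨j, by push_cast at hk; linarith⟩
    exact hcop.dvd_of_dvd_mul_left h1
  obtain ⟨k', rfl⟩ := hdvd
  have hn0 : (n : ℤ) ≠ 0 := by
    intro h0
    rw [h0] at hcop
    have := isCoprime_zero_left.mp hcop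
    have h2 : (2 : ℤ) ∣ 1 := by
      obtain ⟨u, hu⟩ := this
      exact ⟨m * ↑u⁻¹, by rw [← mul_assoc, ← hu, Units.mul_inv]⟩
    omega
  have hj : j = 2 * m * k' := by
    have : j * (n : ℤ) = (2 * m * k') * n := by push_cast at hk; linarith
    exact mul_right_cancel₀ hn0 this
  -- `g = γ ^ (2 m k')`, `v b = γ ^ m`, `v b < g < 1`
  rw [hg, hb, hj] at hpos
  obtain ⟨h1, h2⟩ := hpos
  rw [zpow_lt_zpow_iff_right_of_lt_one₀ hγpos hγ1] at h1
  rw [← zpow_zero γ, zpow_lt_zpow_iff_right_of_lt_one₀ hγpos hγ1] at h2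
  -- `2 m k' < m`, `0 < 2 m k'`
  have hm : 0 < m := by nlinarith
  have hk' : 0 < k' := by nlinarith
  nlinarith

end tors

end Fermat.Agent.Lib.S13
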