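import Fermat.Agent.Lib.S13.NodePlusPlus
import Fermat.Agent.Lib.S13.NodeMinusPlus

set_option autoImplicit false

namespace Fermat.Agent.Lib.S13

open WeierstrassCurve WeierstrassCurve.Affine

section T

variable {L : Type*} [Field L] {t₁ t₂ b x₁ y₁ ℓ ν x₃ y₃ : L}

theorem NodeChord.T_nu (h : NodeChord t₁ t₂ b x₁ y₁ 0 0 ℓ ν x₃ y₃) : ν = 0 := by
  have := h.line₂
  rw [mul_zero, zero_add] at this
  exact this.symm

theorem NodeChord.T_x₃ (h : NodeChord t₁ t₂ b x₁ y₁ 0 0 ℓ ν x₃ y₃) : x₁ * x₃ = b := by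
  have h2 := h.e2
  rw [h.T_nu] at h2
  linear_combination h2

theorem NodeChord.T_A₃ (h : NodeChord t₁ t₂ b x₁ y₁ 0 0 ℓ ν x₃ y₃) :
    (y₃ - t₁ * x₃) * x₁ = -(y₁ - t₂ * x₁) * x₃ := by
  have h1 := h.line₁
  rw [h.T_nu] at h1
  rw [h.A₃, h.T_nu, h1]; ring

theorem NodeChord.T_B₃ (h : NodeChord t₁ t₂ b x₁ y₁ 0 0 ℓ ν x₃ y₃) :
    (y₃ - t₂ * x₃) * x₁ = -(y₁ - t₁ * x₁) * x₃ := by
  have h1 := h.line₁
  rw [h.T_nu] at h1
  rw [h.B₃, h.T_nu, h1]; ring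

end T

section pts

variable {L : Type*} [Field L] {Γ₀ : Type*} [LinearOrderedCommGroupWithZero Γ₀]
  {v : Valuation L Γ₀} {t₁ t₂ b : L}

/-- Every point is of one of the four types. -/
theorem h6w_exhaustive (hS : NodeSetting v t₁ t₂ b) (P : (Wnode t₁ t₂ b).toAffine.Point) :
    NIdent v t₁ t₂ b P ∨ NNearT v t₁ t₂ b P ∨ (∃ g, NPlus v t₁ t₂ b P g) ∨
      ∃ g, NMinus v t₁ t₂ b P g := by
  rcases P with _ | ⟨x, y, h⟩
  · exact Or.inl (Or.inl rfl)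
  · by_cases h1 : 1 ≤ v x
    · exact Or.inl (Or.inr ⟨x, y, h, rfl, h1⟩)
    · by_cases hb : v x ≤ v b
      · exact Or.inr (Or.inl ⟨x, y, h, rfl, hb⟩)
      · rcases h6n_branch_or hS ((h6n_equation_iff t₁ t₂ b x y).mp h.1) (not_le.mp hb)
          (not_le.mp h1) with hp | hm
        · exact Or.inr (Or.inr (Or.inl ⟨v x, x, y, h, rfl, hp, rfl⟩))
        · exact Or.inr (Or.inr (Or.inr ⟨v x, x, y, h, rfl, hm, rfl⟩))

/-- Negation exchanges the two branches. -/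
theorem h6w_neg_minus {P : (Wnode t₁ t₂ b).toAffine.Point} {g : Γ₀}
    (hP : NMinus v t₁ t₂ b P g) : NPlus v t₁ t₂ b (-P) g := by
  obtain ⟨x, y, h, rfl, ⟨h1, h2, h3⟩, hg⟩ := hP
  refine ⟨x, (Wnode t₁ t₂ b).toAffine.negY x y,
    (Affine.nonsingular_neg (W' := (Wnode t₁ t₂ b).toAffine) x y).mpr h, Affine.Point.neg_some h,
    ⟨h1, h2, ?_⟩, hg⟩
  rw [h6n_negY]
  have : -y + (t₁ + t₂) * x - t₁ * x = -(y - t₂ * x) := by ring
  rw [this, Valuation.map_neg]; exact h3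

theorem h6w_neg_plus {P : (Wnode t₁ t₂ b).toAffine.Point} {g : Γ₀}
    (hP : NPlus v t₁ t₂ b P g) : NMinus v t₁ t₂ b (-P) g := by
  obtain ⟨x, y, h, rfl, ⟨h1, h2, h3⟩, hg⟩ := hP
  refine ⟨x, (Wnode t₁ t₂ b).toAffine.negY x y,
    (Affine.nonsingular_neg (W' := (Wnode t₁ t₂ b).toAffine) x y).mpr h, Affine.Point.neg_some h,
    ⟨h1, h2, ?_⟩, hg⟩
  rw [h6n_negY]
  have : -y + (t₁ + t₂) * x - t₂ * x = -(y - t₁ * x) := by ring
  rw [this, Valuation.map_neg]; exact h3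

theorem h6w_neg_ident {P : (Wnode t₁ t₂ b).toAffine.Point}
    (hP : NIdent v t₁ t₂ b P) : NIdent v t₁ t₂ b (-P) := by
  rcases hP with rfl | ⟨x, y, h, rfl, hx⟩
  · exact Or.inl Affine.Point.neg_zero
  · right
    exact ⟨x, (Wnode t₁ t₂ b).toAffine.negY x y,
      (Affine.nonsingular_neg (W' := (Wnode t₁ t₂ b).toAffine) x y).mpr h,
      Affine.Point.neg_some h, hx⟩

theorem h6w_neg_nearT {P : (Wnode t₁ t₂ b).toAffine.Point}
    (hP : NNearT v t₁ t₂ b P) : NNearT v t₁ t₂ b (-P) := by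
  obtain ⟨x, y, h, rfl, hx⟩ := hP
  exact ⟨x, (Wnode t₁ t₂ b).toAffine.negY x y,
    (Affine.nonsingular_neg (W' := (Wnode t₁ t₂ b).toAffine) x y).mpr h,
    Affine.Point.neg_some h, hx⟩

/-! ### Exclusivity of the types -/

theorem h6w_plus_pos {P : (Wnode t₁ t₂ b).toAffine.Point} {g : Γ₀}
    (hP : NPlus v t₁ t₂ b P g) : v b < g ∧ g < 1 := by
  obtain ⟨x, y, h, rfl, ⟨h1, h2, -⟩, rfl⟩ := hP
  exact ⟨h1, h2⟩

theorem h6w_minus_pos {P : (Wnode t₁ t₂ b).toAffine.Point} {g : Γ₀}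
    (hP : NMinus v t₁ t₂ b P g) : v b < g ∧ g < 1 := by
  obtain ⟨x, y, h, rfl, ⟨h1, h2, -⟩, rfl⟩ := hP
  exact ⟨h1, h2⟩

theorem h6w_not_plus_minus (hS : NodeSetting v t₁ t₂ b) {P : (Wnode t₁ t₂ b).toAffine.Point}
    {g g' : Γ₀} (hP : NPlus v t₁ t₂ b P g) (hP' : NMinus v t₁ t₂ b P g') : False := by
  obtain ⟨x, y, h, rfl, ⟨-, -, h3⟩, -⟩ := hP
  obtain ⟨x', y', h', he, ⟨-, -, h3'⟩, -⟩ := hP'
  rw [Affine.Point.some.injEq] at he
  obtain ⟨rfl, rfl⟩ := he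
  exact h6n_not_both hS h3 h3'

theorem h6w_plus_val {P : (Wnode t₁ t₂ b).toAffine.Point}
    {g g' : Γ₀} (hP : NPlus v t₁ t₂ b P g) (hP' : NPlus v t₁ t₂ b P g') : g = g' := by
  obtain ⟨x, y, h, rfl, -, rfl⟩ := hP
  obtain ⟨x', y', h', he, -, rfl⟩ := hP'
  rw [Affine.Point.some.injEq] at he
  obtain ⟨rfl, rfl⟩ := he
  rfl

theorem h6w_minus_val {P : (Wnode t₁ t₂ b).toAffine.Point}
    {g g' : Γ₀} (hP : NMinus v t₁ t₂ b P g) (hP' : NMinus v t₁ t₂ b P g') : g = g' := by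
  obtain ⟨x, y, h, rfl, -, rfl⟩ := hP
  obtain ⟨x', y', h', he, -, rfl⟩ := hP'
  rw [Affine.Point.some.injEq] at he
  obtain ⟨rfl, rfl⟩ := he
  rfl

theorem h6w_not_ident_plus {P : (Wnode t₁ t₂ b).toAffine.Point}
    {g : Γ₀} (hI : NIdent v t₁ t₂ b P) (hP : NPlus v t₁ t₂ b P g) : False := by
  obtain ⟨x, y, h, rfl, ⟨-, h2, -⟩, -⟩ := hP
  rcases hI with h0 | ⟨x', y', h', he, hx⟩
  · exact Affine.Point.some_ne_zero h h0
  · rw [Affine.Point.some.injEq] at he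
    obtain ⟨rfl, rfl⟩ := he
    exact absurd hx (not_le.mpr h2)

theorem h6w_not_ident_minus {P : (Wnode t₁ t₂ b).toAffine.Point}
    {g : Γ₀} (hI : NIdent v t₁ t₂ b P) (hP : NMinus v t₁ t₂ b P g) : False := by
  obtain ⟨x, y, h, rfl, ⟨-, h2, -⟩, -⟩ := hP
  rcases hI with h0 | ⟨x', y', h', he, hx⟩
  · exact Affine.Point.some_ne_zero h h0
  · rw [Affine.Point.some.injEq] at he
    obtain ⟨rfl, rfl⟩ := he
    exact absurd hx (not_le.mpr h2)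

theorem h6w_not_ident_nearT (hS : NodeSetting v t₁ t₂ b) {P : (Wnode t₁ t₂ b).toAffine.Point}
    (hI : NIdent v t₁ t₂ b P) (hP : NNearT v t₁ t₂ b P) : False := by
  obtain ⟨x, y, h, rfl, hxb⟩ := hP
  rcases hI with h0 | ⟨x', y', h', he, hx⟩
  · exact Affine.Point.some_ne_zero h h0
  · rw [Affine.Point.some.injEq] at he
    obtain ⟨rfl, rfl⟩ := he
    exact absurd (le_trans hx hxb) (not_le.mpr hS.vb)

theorem h6w_not_nearT_plus {P : (Wnode t₁ t₂ b).toAffine.Point}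
    {g : Γ₀} (hN : NNearT v t₁ t₂ b P) (hP : NPlus v t₁ t₂ b P g) : False := by
  obtain ⟨x, y, h, rfl, ⟨h1, -, -⟩, -⟩ := hP
  obtain ⟨x', y', h', he, hx⟩ := hN
  rw [Affine.Point.some.injEq] at he
  obtain ⟨rfl, rfl⟩ := he
  exact absurd hx (not_le.mpr h1)

theorem h6w_not_nearT_minus {P : (Wnode t₁ t₂ b).toAffine.Point}
    {g : Γ₀} (hN : NNearT v t₁ t₂ b P) (hP : NMinus v t₁ t₂ b P g) : False := by
  obtain ⟨x, y, h, rfl, ⟨h1, -, -⟩, -⟩ := hP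
  obtain ⟨x', y', h', he, hx⟩ := hN
  rw [Affine.Point.some.injEq] at he
  obtain ⟨rfl, rfl⟩ := he
  exact absurd hx (not_le.mpr h1)

end pts

section add

variable {L : Type*} [Field L] [DecidableEq L] {Γ₀ : Type*} [LinearOrderedCommGroupWithZero Γ₀]
  {v : Valuation L Γ₀} {t₁ t₂ b : L}

/-- plus + plus, point level. -/
theorem h6w_plus_plus (hS : NodeSetting v t₁ t₂ b) {P Q : (Wnode t₁ t₂ b).toAffine.Point}
    {g₁ g₂ : Γ₀} (hP : NPlus v t₁ t₂ b P g₁) (hQ : NPlus v t₁ t₂ b Q g₂) :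
    (v b < g₁ * g₂ → NPlus v t₁ t₂ b (P + Q) (g₁ * g₂)) ∧
    (g₁ * g₂ < v b → NMinus v t₁ t₂ b (P + Q) (v b ^ 2 / (g₁ * g₂))) ∧
    (g₁ * g₂ = v b → NNearT v t₁ t₂ b (P + Q)) := by
  obtain ⟨x₁, y₁, h₁, rfl, hB1, rfl⟩ := hP
  obtain ⟨x₂, y₂, h₂, rfl, hB2, rfl⟩ := hQ
  have vb0 : 0 < v b := by rw [Valuation.pos_iff]; exact hS.b0
  have vx1 : 0 < v x₁ := lt_trans vb0 hB1.1
  have vx2 : 0 < v x₂ := lt_trans vb0 hB2.1
  have hxy : ¬(x₁ = x₂ ∧ y₁ = -y₂ + (t₁ + t₂) * x₂) := by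
    rintro ⟨rfl, hy⟩
    have e : y₁ - t₁ * x₁ = -(y₂ - t₂ * x₁) := by rw [hy]; ring
    have h3 := hB1.2.2
    rw [e, Valuation.map_neg, h6n_other_branch hS hB2.2.2] at h3
    exact lt_irrefl _ h3
  obtain ⟨ℓ, ν, x₃, y₃, h₃, hadd, hc⟩ := h6n_add h₁ h₂ hxy
  obtain ⟨c1, c2, c3⟩ := h6n_plus_plus_core hS hc hB1 hB2
  rw [hadd]
  refine ⟨fun hlt => ?_, fun hlt => ?_, fun heq => ?_⟩
  · obtain ⟨hb, hv⟩ := c1 hlt
    exact ⟨x₃, y₃, h₃, rfl, hb, hv⟩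
  · obtain ⟨hb, hv⟩ := c2 hlt
    refine ⟨x₃, y₃, h₃, rfl, hb, ?_⟩
    rw [eq_div_iff (mul_pos vx1 vx2).ne']; exact hv
  · exact ⟨x₃, y₃, h₃, rfl, c3 heq⟩

/-- minus + plus, point level. -/
theorem h6w_minus_plus (hS : NodeSetting v t₁ t₂ b) {P Q : (Wnode t₁ t₂ b).toAffine.Point}
    {g₁ g₂ : Γ₀} (hP : NMinus v t₁ t₂ b P g₁) (hQ : NPlus v t₁ t₂ b Q g₂) :
    (g₂ < g₁ → NPlus v t₁ t₂ b (P + Q) (g₂ / g₁)) ∧
    (g₁ < g₂ → NMinus v t₁ t₂ b (P + Q) (g₁ / g₂)) ∧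
    (g₁ = g₂ → NIdent v t₁ t₂ b (P + Q)) := by
  obtain ⟨x₁, y₁, h₁, rfl, hB1, rfl⟩ := hP
  obtain ⟨x₂, y₂, h₂, rfl, hB2, rfl⟩ := hQ
  have vb0 : 0 < v b := by rw [Valuation.pos_iff]; exact hS.b0
  have vx1 : 0 < v x₁ := lt_trans vb0 hB1.1
  have vx2 : 0 < v x₂ := lt_trans vb0 hB2.1
  by_cases hxy : x₁ = x₂ ∧ y₁ = -y₂ + (t₁ + t₂) * x₂
  · obtain ⟨hx, hy⟩ := hxy
    rw [h6n_add_eq_zero h₁ h₂ hx hy]
    refine ⟨fun hlt => ?_, fun hlt => ?_, fun _ => Or.inl rfl⟩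
    · rw [hx] at hlt; exact absurd hlt (lt_irrefl _)
    · rw [hx] at hlt; exact absurd hlt (lt_irrefl _)
  · obtain ⟨ℓ, ν, x₃, y₃, h₃, hadd, hc⟩ := h6n_add h₁ h₂ hxy
    obtain ⟨c1, c2, c3⟩ := h6n_minus_plus_core hS hc hB1 hB2
    rw [hadd]
    refine ⟨fun hlt => ?_, fun hlt => ?_, fun heq => ?_⟩
    · obtain ⟨hb, hv⟩ := c1 hlt
      refine ⟨x₃, y₃, h₃, rfl, hb, ?_⟩
      rw [eq_div_iff vx1.ne']; exact hv
    · obtain ⟨hb, hv⟩ := c2 hlt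
      refine ⟨x₃, y₃, h₃, rfl, hb, ?_⟩
      rw [eq_div_iff vx2.ne']; exact hv
    · exact Or.inr ⟨x₃, y₃, h₃, rfl, c3 heq⟩

/-- identity type + plus, point level. -/
theorem h6w_ident_plus (hS : NodeSetting v t₁ t₂ b) {P Q : (Wnode t₁ t₂ b).toAffine.Point}
    {g : Γ₀} (hP : NIdent v t₁ t₂ b P) (hQ : NPlus v t₁ t₂ b Q g) :
    NPlus v t₁ t₂ b (P + Q) g := by
  rcases hP with rfl | ⟨x₁, y₁, h₁, rfl, hx₁⟩
  · rw [zero_add]; exact hQ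
  · obtain ⟨x₂, y₂, h₂, rfl, hB2, rfl⟩ := hQ
    have hxy : ¬(x₁ = x₂ ∧ y₁ = -y₂ + (t₁ + t₂) * x₂) := by
      rintro ⟨rfl, -⟩
      exact absurd hx₁ (not_le.mpr hB2.2.1)
    obtain ⟨ℓ, ν, x₃, y₃, h₃, hadd, hc⟩ := h6n_add h₁ h₂ hxy
    obtain ⟨hb, hv⟩ :=
      h6n_ident_plus_core hS hc ((h6n_equation_iff t₁ t₂ b x₁ y₁).mp h₁.1) hx₁ hB2
    rw [hadd]
    exact ⟨x₃, y₃, h₃, rfl, hb, hv⟩

/-- The points of identity type are closed under addition. -/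
theorem h6w_ident_add (hS : NodeSetting v t₁ t₂ b) {P Q : (Wnode t₁ t₂ b).toAffine.Point}
    (hP : NIdent v t₁ t₂ b P) (hQ : NIdent v t₁ t₂ b Q) : NIdent v t₁ t₂ b (P + Q) := by
  rcases hP with rfl | ⟨x₁, y₁, h₁, rfl, hx₁⟩
  · rw [zero_add]; exact hQ
  rcases hQ with rfl | ⟨x₂, y₂, h₂, rfl, hx₂⟩
  · rw [add_zero]; exact Or.inr ⟨x₁, y₁, h₁, rfl, hx₁⟩
  by_cases hxy : x₁ = x₂ ∧ y₁ = -y₂ + (t₁ + t₂) * x₂
  · exact Or.inl (h6n_add_eq_zero h₁ h₂ hxy.1 hxy.2)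
  · obtain ⟨ℓ, ν, x₃, y₃, h₃, hadd, hc⟩ := h6n_add h₁ h₂ hxy
    exact Or.inr ⟨x₃, y₃, h₃, hadd, h6n_ident_ident_core hS hc hx₁ hx₂⟩

/-! ### Translation by `T = (0, 0)` -/

/-- The `2`-torsion point `T = (0, 0)`. -/
noncomputable def nodeT (t₁ t₂ b : L) (hb : b ≠ 0) : (Wnode t₁ t₂ b).toAffine.Point :=
  Affine.Point.some 0 0 (h6n_nonsingular_T t₁ t₂ b hb)

theorem h6w_T_add_T (hb : b ≠ 0) : nodeT t₁ t₂ b hb + nodeT t₁ t₂ b hb = 0 :=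
  h6n_add_eq_zero _ _ rfl (by simp)

theorem h6w_add_T_add_T (hb : b ≠ 0) (P : (Wnode t₁ t₂ b).toAffine.Point) :
    P + nodeT t₁ t₂ b hb + nodeT t₁ t₂ b hb = P := by
  rw [add_assoc, h6w_T_add_T, add_zero]

omit [DecidableEq L] in
theorem h6w_T_nearT (hb : b ≠ 0) : NNearT v t₁ t₂ b (nodeT t₁ t₂ b hb) :=
  ⟨0, 0, h6n_nonsingular_T t₁ t₂ b hb, rfl, by rw [map_zero]; exact zero_le⟩

/-- `(x, y) + T = (x₃, y₃)` with `x x₃ = b` for `x ≠ 0`. -/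
theorem h6w_add_T (hb : b ≠ 0) {x y : L} (h : (Wnode t₁ t₂ b).toAffine.Nonsingular x y)
    (hx : x ≠ 0) :
    ∃ (x₃ y₃ : L) (h₃ : (Wnode t₁ t₂ b).toAffine.Nonsingular x₃ y₃),
      Affine.Point.some x y h + nodeT t₁ t₂ b hb = Affine.Point.some x₃ y₃ h₃ ∧ x * x₃ = b ∧
        (y₃ - t₁ * x₃) * x = -(y - t₂ * x) * x₃ ∧ (y₃ - t₂ * x₃) * x = -(y - t₁ * x) * x₃ := by
  have hxy : ¬(x = 0 ∧ y = -0 + (t₁ + t₂) * 0) := fun h' => hx h'.1
  obtain ⟨ℓ, ν, x₃, y₃, h₃, hadd, hc⟩ := h6n_add h (h6n_nonsingular_T t₁ t₂ b hb) hxy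
  exact ⟨x₃, y₃, h₃, hadd, hc.T_x₃, hc.T_A₃, hc.T_B₃⟩

/-- A point near `T` becomes of identity type after translation by `T`. -/
theorem h6w_nearT_add_T (hS : NodeSetting v t₁ t₂ b) {P : (Wnode t₁ t₂ b).toAffine.Point}
    (hP : NNearT v t₁ t₂ b P) : NIdent v t₁ t₂ b (P + nodeT t₁ t₂ b hS.b0) := by
  obtain ⟨x, y, h, rfl, hx⟩ := hP
  by_cases hx0 : x = 0
  · left
    have hy0 : y = 0 := by
      have := (h6n_equation_iff t₁ t₂ b x y).mp h.1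
      rw [hx0] at this
      simpa using this
    subst hx0; subst hy0
    exact h6w_T_add_T hS.b0
  · right
    obtain ⟨x₃, y₃, h₃, hadd, hx₃, -, -⟩ := h6w_add_T hS.b0 h hx0
    refine ⟨x₃, y₃, h₃, hadd, ?_⟩
    have hvx : 0 < v x := (Valuation.pos_iff v).mpr hx0
    have e : v x * v x₃ = v b := by rw [← map_mul, hx₃]
    by_contra hcon
    rw [not_le] at hcon
    have : v x * v x₃ < v x * 1 := mul_lt_mul_of_pos_left hcon hvx
    rw [e, mul_one] at this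
    exact absurd hx (not_le.mpr this)

/-- A point of identity type becomes near `T` after translation by `T`. -/
theorem h6w_ident_add_T (hS : NodeSetting v t₁ t₂ b) {P : (Wnode t₁ t₂ b).toAffine.Point}
    (hP : NIdent v t₁ t₂ b P) : NNearT v t₁ t₂ b (P + nodeT t₁ t₂ b hS.b0) := by
  rcases hP with rfl | ⟨x, y, h, rfl, hx⟩
  · rw [zero_add]; exact h6w_T_nearT hS.b0
  · have hvx : 0 < v x := lt_of_lt_of_le zero_lt_one hx
    have hx0 : x ≠ 0 := (Valuation.pos_iff v).mp hvx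
    obtain ⟨x₃, y₃, h₃, hadd, hx₃, -, -⟩ := h6w_add_T hS.b0 h hx0
    refine ⟨x₃, y₃, h₃, hadd, ?_⟩
    have e : v x * v x₃ = v b := by rw [← map_mul, hx₃]
    rw [← e]
    exact le_mul_of_one_le_left zero_le hx

/-- Translation by `T` maps the plus branch to the minus branch, `v x ↦ v b / v x`. -/
theorem h6w_plus_add_T (hS : NodeSetting v t₁ t₂ b) {P : (Wnode t₁ t₂ b).toAffine.Point}
    {g : Γ₀} (hP : NPlus v t₁ t₂ b P g) :
    NMinus v t₁ t₂ b (P + nodeT t₁ t₂ b hS.b0) (v b / g) := by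
  obtain ⟨x, y, h, rfl, ⟨h1, h2, h3⟩, rfl⟩ := hP
  have vb0 : 0 < v b := by rw [Valuation.pos_iff]; exact hS.b0
  have hvx : 0 < v x := lt_trans vb0 h1
  have hx0 : x ≠ 0 := (Valuation.pos_iff v).mp hvx
  obtain ⟨x₃, y₃, h₃, hadd, hx₃, -, hB⟩ := h6w_add_T hS.b0 h hx0
  have e : v x * v x₃ = v b := by rw [← map_mul, hx₃]
  have hvx₃ : v x₃ = v b / v x := by rw [eq_div_iff hvx.ne', mul_comm]; exact e
  have hx₃pos : 0 < v x₃ := by rw [hvx₃]; exact div_pos vb0 hvx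
  refine ⟨x₃, y₃, h₃, hadd, ⟨?_, ?_, ?_⟩, hvx₃⟩
  · calc v b = v x * v x₃ := e.symm
      _ < 1 * v x₃ := mul_lt_mul_of_pos_right h2 hx₃pos
      _ = v x₃ := one_mul _
  · by_contra hcon
    rw [not_lt] at hcon
    have : v x * 1 ≤ v x * v x₃ := mul_le_mul_right hcon _
    rw [mul_one, e] at this
    exact absurd this (not_le.mpr h1)
  · have hB' := congrArg v hB
    rw [map_mul, map_mul, Valuation.map_neg] at hB'
    have : v (y₃ - t₂ * x₃) * v x < v x₃ * v x := by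
      rw [hB', mul_comm (v x₃)]
      exact mul_lt_mul_of_pos_right h3 hx₃pos
    exact lt_of_mul_lt_mul_right this zero_le

/-! ### The walk -/

/-- `g` represents the value of the component map at `P` (modulo powers of `(v b)²`). -/
def NodeRel (v : Valuation L Γ₀) (t₁ t₂ b : L) (P : (Wnode t₁ t₂ b).toAffine.Point) (g : Γ₀) :
    Prop :=
  (NIdent v t₁ t₂ b P ∧ g = 1) ∨ (NNearT v t₁ t₂ b P ∧ g = v b) ∨ NPlus v t₁ t₂ b P g ∨
    ∃ g', NMinus v t₁ t₂ b P g' ∧ g = g'⁻¹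

omit [DecidableEq L] in
theorem h6w_rel_zero {g : Γ₀} (h : NodeRel v t₁ t₂ b 0 g) : g = 1 := by
  rcases h with ⟨-, hg⟩ | ⟨⟨x, y, h, h0, -⟩, -⟩ | ⟨x, y, h, h0, -⟩ | ⟨g', ⟨x, y, h, h0, -⟩, -⟩
  · exact hg
  · exact absurd h0.symm (Affine.Point.some_ne_zero h)
  · exact absurd h0.symm (Affine.Point.some_ne_zero h)
  · exact absurd h0.symm (Affine.Point.some_ne_zero h)

/-- The multiplicativity step: adding a plus-point multiplies the component value. -/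
theorem h6w_rel_add (hS : NodeSetting v t₁ t₂ b) {P Q : (Wnode t₁ t₂ b).toAffine.Point}
    {g h : Γ₀} (hP : NodeRel v t₁ t₂ b P g) (hQ : NPlus v t₁ t₂ b Q h) :
    ∃ k : ℤ, NodeRel v t₁ t₂ b (P + Q) (g * h * (v b ^ 2) ^ k) := by
  have hvb : v b ≠ 0 := (Valuation.ne_zero_iff v).mpr hS.b0
  have hh0 : h ≠ 0 := by
    intro h0
    have := (h6w_plus_pos hQ).1
    rw [h0] at this
    exact not_lt_zero this
  rcases hP with ⟨hI, rfl⟩ | ⟨hN, rfl⟩ | hPl | ⟨g', hMi, rfl⟩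
  · -- identity type
    refine ⟨0, Or.inr (Or.inr (Or.inl ?_))⟩
    have := h6w_ident_plus hS hI hQ
    simpa using this
  · -- near `T`
    have hI := h6w_nearT_add_T hS hN
    have h1 := h6w_ident_plus hS hI hQ
    have h2 := h6w_plus_add_T hS h1
    have e : P + nodeT t₁ t₂ b hS.b0 + Q + nodeT t₁ t₂ b hS.b0 = P + Q := by
      rw [add_right_comm P _ Q, h6w_add_T_add_T]
    rw [e] at h2
    refine ⟨-1, Or.inr (Or.inr (Or.inr ⟨_, h2, ?_⟩))⟩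
    rw [zpow_neg, zpow_one]
    field_simp
  · -- plus branch
    have hg0 : g ≠ 0 := by
      intro h0
      have := (h6w_plus_pos hPl).1
      rw [h0] at this
      exact not_lt_zero this
    obtain ⟨c1, c2, c3⟩ := h6w_plus_plus hS hPl hQ
    rcases lt_trichotomy (g * h) (v b) with hlt | heq | hgt
    · refine ⟨-1, Or.inr (Or.inr (Or.inr ⟨_, c2 hlt, ?_⟩))⟩
      rw [zpow_neg, zpow_one]
      field_simp
    · refine ⟨0, Or.inr (Or.inl ⟨c3 heq, ?_⟩)⟩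
      simp [heq]
    · refine ⟨0, Or.inr (Or.inr (Or.inl ?_))⟩
      simpa using c1 hgt
  · -- minus branch
    have hg0 : g' ≠ 0 := by
      intro h0
      have := (h6w_minus_pos hMi).1
      rw [h0] at this
      exact not_lt_zero this
    obtain ⟨c1, c2, c3⟩ := h6w_minus_plus hS hMi hQ
    rcases lt_trichotomy g' h with hlt | heq | hgt
    · refine ⟨0, Or.inr (Or.inr (Or.inr ⟨_, c2 hlt, ?_⟩))⟩
      rw [zpow_zero, mul_one, inv_div, div_eq_mul_inv, mul_comm]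
    · refine ⟨0, Or.inl ⟨c3 heq, ?_⟩⟩
      rw [zpow_zero, mul_one, heq, inv_mul_cancel₀ hh0]
    · refine ⟨0, Or.inr (Or.inr (Or.inl ?_))⟩
      have := c1 hgt
      rwa [zpow_zero, mul_one, mul_comm, ← div_eq_mul_inv]

/-- The walk: `j • P` has component value `g ^ j` for a plus-point `P` with `v x = g`. -/
theorem h6w_rel_nsmul (hS : NodeSetting v t₁ t₂ b) {P : (Wnode t₁ t₂ b).toAffine.Point}
    {g : Γ₀} (hP : NPlus v t₁ t₂ b P g) (j : ℕ) :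
    ∃ k : ℤ, NodeRel v t₁ t₂ b (j • P) (g ^ j * (v b ^ 2) ^ k) := by
  have hvb : v b ^ 2 ≠ 0 := pow_ne_zero 2 ((Valuation.ne_zero_iff v).mpr hS.b0)
  induction j with
  | zero =>
    refine ⟨0, Or.inl ⟨Or.inl (zero_nsmul P), ?_⟩⟩
    simp
  | succ j ih =>
    obtain ⟨k, hk⟩ := ih
    obtain ⟨k', hk'⟩ := h6w_rel_add hS hk hP
    refine ⟨k + k', ?_⟩
    rw [succ_nsmul]
    have e : g ^ (j + 1) * (v b ^ 2) ^ (k + k') = g ^ j * (v b ^ 2) ^ k * g * (v b ^ 2) ^ k' := by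
      rw [zpow_add₀ hvb, pow_succ]; ac_rfl
    rw [e]; exact hk'

/-- **Component torsion**: for an intermediate point `P = (x, y)` with `n • P = 0`, `(v x) ^ n` is
a power of `(v b) ^ 2`. -/
theorem h6_node_torsion (hS : NodeSetting v t₁ t₂ b) {P : (Wnode t₁ t₂ b).toAffine.Point}
    {g : Γ₀} (hP : NPlus v t₁ t₂ b P g ∨ NMinus v t₁ t₂ b P g) (n : ℕ) (hn : n • P = 0) :
    ∃ k : ℤ, g ^ n = (v b ^ 2) ^ k := by
  have hvb : v b ^ 2 ≠ 0 := pow_ne_zero 2 ((Valuation.ne_zero_iff v).mpr hS.b0)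
  have main : ∀ {P : (Wnode t₁ t₂ b).toAffine.Point}, NPlus v t₁ t₂ b P g → n • P = 0 →
      ∃ k : ℤ, g ^ n = (v b ^ 2) ^ k := by
    intro P hP hn
    obtain ⟨k, hk⟩ := h6w_rel_nsmul hS hP n
    rw [hn] at hk
    have h1 := h6w_rel_zero hk
    refine ⟨-k, ?_⟩
    rw [zpow_neg]
    exact eq_inv_of_mul_eq_one_left h1
  rcases hP with hP | hP
  · exact main hP hn
  · exact main (h6w_neg_minus hP) (by rw [smul_neg, hn, neg_zero])

/-! ### Exports for the inertia argument -/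

/-- Two points of the same intermediate type differ by a point of identity type. -/
theorem h6_node_same_type (hS : NodeSetting v t₁ t₂ b) {P Q : (Wnode t₁ t₂ b).toAffine.Point}
    {g : Γ₀} (h : (NPlus v t₁ t₂ b P g ∧ NPlus v t₁ t₂ b Q g) ∨
      (NMinus v t₁ t₂ b P g ∧ NMinus v t₁ t₂ b Q g)) : NIdent v t₁ t₂ b (P - Q) := by
  rcases h with ⟨hP, hQ⟩ | ⟨hP, hQ⟩
  · have := (h6w_minus_plus hS (h6w_neg_plus hQ) hP).2.2 rfl
    rwa [neg_add_eq_sub] at this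
  · have := (h6w_minus_plus hS hQ (h6w_neg_minus hP)).2.2 rfl
    have h2 := h6w_neg_ident this
    rwa [neg_add, neg_neg, add_comm, ← sub_eq_add_neg] at h2

/-- Two points near `T` differ by a point of identity type. -/
theorem h6_node_nearT_sub (hS : NodeSetting v t₁ t₂ b) {P Q : (Wnode t₁ t₂ b).toAffine.Point}
    (hP : NNearT v t₁ t₂ b P) (hQ : NNearT v t₁ t₂ b Q) : NIdent v t₁ t₂ b (P - Q) := by
  have h1 := h6w_nearT_add_T hS hP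
  have h2 := h6w_neg_ident (h6w_nearT_add_T hS hQ)
  have := h6w_ident_add hS h1 h2
  rwa [← sub_eq_add_neg, add_sub_add_right_eq_sub] at this

/-- Two points of identity type differ by a point of identity type. -/
theorem h6_node_ident_sub (hS : NodeSetting v t₁ t₂ b) {P Q : (Wnode t₁ t₂ b).toAffine.Point}
    (hP : NIdent v t₁ t₂ b P) (hQ : NIdent v t₁ t₂ b Q) : NIdent v t₁ t₂ b (P - Q) := by
  rw [sub_eq_add_neg]
  exact h6w_ident_add hS hP (h6w_neg_ident hQ)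

/-- RAW COORDINATE FORM: two affine points whose coordinates have the same valuations
`v x`, `v (y - t₁ x)`, `v (y - t₂ x)` differ by a point of identity type.  (Apply with
`(x', y') = (σ x, σ y)` for a `v`-preserving automorphism `σ` fixing `t₁`, `t₂`.) -/
theorem h6_node_sub_ident_of_val_eq (hS : NodeSetting v t₁ t₂ b) {x y x' y' : L}
    (h : (Wnode t₁ t₂ b).toAffine.Nonsingular x y)
    (h' : (Wnode t₁ t₂ b).toAffine.Nonsingular x' y') (hx : v x' = v x)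
    (h1 : v (y' - t₁ * x') = v (y - t₁ * x)) (h2 : v (y' - t₂ * x') = v (y - t₂ * x)) :
    NIdent v t₁ t₂ b (Affine.Point.some x' y' h' - Affine.Point.some x y h) := by
  rcases h6w_exhaustive hS (Affine.Point.some x y h) with hI | hN | ⟨g, hP⟩ | ⟨g, hM⟩
  · rcases hI with h0 | ⟨x₀, y₀, h₀, he, hx₀⟩
    · exact absurd h0 (Affine.Point.some_ne_zero h)
    · rw [Affine.Point.some.injEq] at he
      obtain ⟨rfl, rfl⟩ := he
      exact h6_node_ident_sub hS (Or.inr ⟨x', y', h', rfl, by rw [hx]; exact hx₀⟩)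
        (Or.inr ⟨x, y, h, rfl, hx₀⟩)
  · obtain ⟨x₀, y₀, h₀, he, hx₀⟩ := hN
    rw [Affine.Point.some.injEq] at he
    obtain ⟨rfl, rfl⟩ := he
    exact h6_node_nearT_sub hS ⟨x', y', h', rfl, by rw [hx]; exact hx₀⟩ ⟨x, y, h, rfl, hx₀⟩
  · obtain ⟨x₀, y₀, h₀, he, ⟨c1, c2, c3⟩, hg⟩ := hP
    rw [Affine.Point.some.injEq] at he
    obtain ⟨rfl, rfl⟩ := he
    exact h6_node_same_type hS (Or.inl ⟨⟨x', y', h', rfl,
      ⟨by rw [hx]; exact c1, by rw [hx]; exact c2, by rw [hx, h1]; exact c3⟩, by rw [hx]; exact hg⟩,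
      ⟨x, y, h, rfl, ⟨c1, c2, c3⟩, hg⟩⟩)
  · obtain ⟨x₀, y₀, h₀, he, ⟨c1, c2, c3⟩, hg⟩ := hM
    rw [Affine.Point.some.injEq] at he
    obtain ⟨rfl, rfl⟩ := he
    exact h6_node_same_type hS (Or.inr ⟨⟨x', y', h', rfl,
      ⟨by rw [hx]; exact c1, by rw [hx]; exact c2, by rw [hx, h2]; exact c3⟩, by rw [hx]; exact hg⟩,
      ⟨x, y, h, rfl, ⟨c1, c2, c3⟩, hg⟩⟩)

end add

end Fermat.Agent.Lib.S13
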