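/-
S13 project, stream (T), piece (T5) (helper9): descent of the torsion count from `ℂ` to `ℚ̄`.

* `h9d_isAlgebraic_of_finite_orbit`: a complex number whose `Aut(ℂ)`-orbit lies in a finite set is
  algebraic over `ℚ` (translation automorphisms on a transcendence basis).
* `h9d_card_torsion_complex`: from the count for short models `Y² = X³ + AX + B` over `ℂ`
  (`h9d_ShortCount`, delivered by (T3)+(T4)) to arbitrary Weierstrass curves over `ℂ` with `Δ ≠ 0`.
* `h9d_card_torsion_Qbar`: for `W` over `ℚ` with `Δ ≠ 0`: `#(W⁄ℚ̄)[n] = n²`.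
* `h9d_finrank_torsion`: `finrank (ZMod p) (W⁄ℚ̄)[p] = 2`.
-/
import Mathlib
import Fermat.Agent.Lib.S13.Defs
import Fermat.Agent.Lib.S13.OpenKernel
import Fermat.Agent.Lib.S51.VarChangePoint

set_option autoImplicit false

noncomputable section

namespace Fermat.Agent.Lib.S13

open MvPolynomial WeierstrassCurve

/-! ### Automorphisms of `ℂ` -/

/-- Generic extension lemma: an automorphism of the polynomial ring on a transcendence basis of an
algebraically closed field extends to an automorphism of the field. -/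
theorem h9d_exists_ringEquiv_extending {R K ι : Type*} [CommRing R] [Field K] [IsAlgClosed K]
    [Algebra R K] (v : ι → K) (hv : IsTranscendenceBasis R v)
    (φ : MvPolynomial ι R ≃+* MvPolynomial ι R) :
    ∃ σ : K ≃+* K, ∀ p : MvPolynomial ι R, σ (aeval v p) = aeval v (φ p) := by
  let _ := IsAlgClosed.isAlgClosure_of_transcendence_basis v hv
  let e0 : MvPolynomial ι R ≃ₐ[R] Algebra.adjoin R (Set.range v) := hv.1.aevalEquiv
  let e : Algebra.adjoin R (Set.range v) ≃+* Algebra.adjoin R (Set.range v) :=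
    e0.symm.toRingEquiv.trans (φ.trans e0.toRingEquiv)
  refine ⟨IsAlgClosure.equivOfEquiv K K e, fun p => ?_⟩
  have h1 : ∀ q : MvPolynomial ι R,
      algebraMap (Algebra.adjoin R (Set.range v)) K (e0 q) = aeval v q := fun q =>
    hv.1.algebraMap_aevalEquiv q
  rw [← h1 p, IsAlgClosure.equivOfEquiv_algebraMap, ← h1 (φ p)]
  congr 1
  simp [e]

/-- The translation automorphism `X i ↦ X i + c i` of a polynomial ring. -/
def h9d_translate {R ι : Type*} [CommRing R] (c : ι → R) :
    MvPolynomial ι R ≃ₐ[R] MvPolynomial ι R :=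
  AlgEquiv.ofAlgHom (aeval fun i => X i + C (c i)) (aeval fun i => X i - C (c i))
    (by ext i; simp) (by ext i; simp)

@[simp] theorem h9d_translate_X {R ι : Type*} [CommRing R] (c : ι → R) (i : ι) :
    h9d_translate c (X i) = X i + C (c i) := by
  simp [h9d_translate]

/-- A transcendental complex number can be translated by any rational number by an automorphism
of `ℂ`. -/
theorem h9d_exists_aut_add (z : ℂ) (hz : Transcendental ℚ z) (c : ℚ) :
    ∃ σ : ℂ ≃+* ℂ, σ z = z + c := by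
  have hs : AlgebraicIndepOn ℚ id ({z} : Set ℂ) :=
    algebraicIndependent_unique_type_iff.mpr hz
  obtain ⟨t, hzt, ht⟩ := exists_isTranscendenceBasis_superset hs
  classical
  let i0 : t := ⟨z, hzt rfl⟩
  obtain ⟨σ, hσ⟩ := h9d_exists_ringEquiv_extending (R := ℚ) (K := ℂ) ((↑) : t → ℂ) ht
    (h9d_translate (fun i => if i = i0 then c else 0)).toRingEquiv
  refine ⟨σ, ?_⟩
  have h1 := hσ (X i0)
  simp at h1
  exact h1

/-- A complex number whose orbit under `Aut(ℂ)` is contained in a finite set is algebraic. -/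
theorem h9d_isAlgebraic_of_finite_orbit (z : ℂ) (S : Set ℂ) (hS : S.Finite)
    (h : ∀ σ : ℂ ≃+* ℂ, σ z ∈ S) : IsAlgebraic ℚ z := by
  by_contra hz
  have hz' : Transcendental ℚ z := hz
  have hinj : Function.Injective (fun m : ℕ => z + ((m : ℚ) : ℂ)) := by
    intro a b hab
    have : ((a : ℚ) : ℂ) = ((b : ℚ) : ℂ) := add_left_cancel hab
    exact_mod_cast this
  have hmem : ∀ m : ℕ, z + ((m : ℚ) : ℂ) ∈ S := by
    intro m
    obtain ⟨σ, hσ⟩ := h9d_exists_aut_add z hz' (m : ℚ)
    rw [← hσ]; exact h σ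
  exact Set.infinite_of_injective_forall_mem hinj hmem hS

/-! ### The embedding `ℚ̄ → ℂ` -/

/-- A fixed embedding `ℚ̄ → ℂ`. -/
def h9d_iota : Qbar →ₐ[ℚ] ℂ :=
  haveI := lead_s13_isAlgebraic_Qbar
  IsAlgClosed.lift

theorem h9d_iota_injective : Function.Injective h9d_iota := h9d_iota.injective

/-- Every algebraic complex number is in the image of `ℚ̄`. -/
theorem h9d_mem_range_iota {z : ℂ} (hz : IsAlgebraic ℚ z) : ∃ w : Qbar, h9d_iota w = z := by
  have hsplit : ((minpoly ℚ z).map (algebraMap ℚ Qbar)).Splits := IsAlgClosed.splits _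
  have himg := hsplit.image_rootSet h9d_iota
  have hzroot : z ∈ (minpoly ℚ z).rootSet ℂ := by
    rw [Polynomial.mem_rootSet]
    exact ⟨minpoly.ne_zero hz.isIntegral, minpoly.aeval ℚ z⟩
  rw [← himg] at hzroot
  obtain ⟨w, -, hw⟩ := hzroot
  exact ⟨w, hw⟩

/-! ### Descent of torsion points -/

open WeierstrassCurve.Affine

/-- The `x`-coordinate of a point (junk value `0` at the origin). -/
def h9d_cx {F : Type*} [Field F] {W : Affine F} : W.Point → F
  | .zero => 0
  | .some x _ _ => x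

/-- The `y`-coordinate of a point (junk value `0` at the origin). -/
def h9d_cy {F : Type*} [Field F] {W : Affine F} : W.Point → F
  | .zero => 0
  | .some _ y _ => y

/-- The coordinates of the `n`-torsion points of a curve over `ℚ`, base-changed to `ℂ`, are
algebraic, provided the `n`-torsion is finite. -/
theorem h9d_torsion_coords_algebraic (W : WeierstrassCurve ℚ) (n : ℕ)
    (hfin : Finite {Q : (W⁄ℂ).Point // n • Q = 0})
    {x y : ℂ} (h : (W⁄ℂ).Nonsingular x y) (hn : n • (Point.some x y h : (W⁄ℂ).Point) = 0) :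
    IsAlgebraic ℚ x ∧ IsAlgebraic ℚ y := by
  -- automorphisms of `ℂ` preserve the torsion
  have hσ : ∀ σ : ℂ ≃+* ℂ, ∃ h' : (W⁄ℂ).Nonsingular (σ x) (σ y),
      n • (Point.some (σ x) (σ y) h' : (W⁄ℂ).Point) = 0 := by
    intro σ
    let σ' : ℂ →ₐ[ℚ] ℂ := (σ : ℂ →+* ℂ).toRatAlgHom
    have h1 : Point.map (W' := W.toAffine) σ' (Point.some x y h) = Point.some (σ' x) (σ' y) _ :=
      Point.map_some σ' h
    refine ⟨(baseChange_nonsingular (W := W.toAffine) (f := σ') σ'.injective x y).mpr h, ?_⟩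
    have h2 : n • Point.map (W' := W.toAffine) σ' (Point.some x y h) = 0 := by
      rw [← map_nsmul, hn, map_zero]
    rw [h1] at h2
    exact h2
  have hSx : (Set.range fun Q : {Q : (W⁄ℂ).Point // n • Q = 0} => h9d_cx Q.1).Finite :=
    Set.finite_range _
  have hSy : (Set.range fun Q : {Q : (W⁄ℂ).Point // n • Q = 0} => h9d_cy Q.1).Finite :=
    Set.finite_range _
  constructor
  · refine h9d_isAlgebraic_of_finite_orbit x _ hSx fun σ => ?_
    obtain ⟨h', hn'⟩ := hσ σ
    exact ⟨⟨_, hn'⟩, rfl⟩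
  · refine h9d_isAlgebraic_of_finite_orbit y _ hSy fun σ => ?_
    obtain ⟨h', hn'⟩ := hσ σ
    exact ⟨⟨_, hn'⟩, rfl⟩

/-- The statement (T3)+(T4)+(T5 i): torsion count for all Weierstrass curves over `ℂ`. -/
def h9d_ComplexCount : Prop :=
  ∀ W : WeierstrassCurve ℂ, W.Δ ≠ 0 → ∀ n : ℕ, 0 < n →
    Nat.card {P : W.toAffine.Point // n • P = 0} = n ^ 2

/-- **Descent**: for a curve over `ℚ` with `Δ ≠ 0`, `#(W⁄ℚ̄)[n] = n²`. -/
theorem h9d_card_torsion_Qbar (hC : h9d_ComplexCount) (W : WeierstrassCurve ℚ) (hΔ : W.Δ ≠ 0)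
    (n : ℕ) (hn : 0 < n) :
    Nat.card {P : (W⁄Qbar).Point // n • P = 0} = n ^ 2 := by
  have hΔC : (W.baseChange ℂ).Δ ≠ 0 := by
    rw [WeierstrassCurve.baseChange, WeierstrassCurve.map_Δ]
    exact (map_ne_zero_iff _ (algebraMap ℚ ℂ).injective).mpr hΔ
  have hcard : Nat.card {Q : (W⁄ℂ).Point // n • Q = 0} = n ^ 2 := hC _ hΔC n hn
  have hfin : Finite {Q : (W⁄ℂ).Point // n • Q = 0} := by
    apply Nat.finite_of_card_ne_zero
    rw [hcard]; exact pow_ne_zero 2 hn.ne'
  let f : (W⁄Qbar).Point →+ (W⁄ℂ).Point := Point.map (W' := W.toAffine) h9d_iota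
  have hf : Function.Injective f := Point.map_injective h9d_iota
  let g : {P : (W⁄Qbar).Point // n • P = 0} → {Q : (W⁄ℂ).Point // n • Q = 0} :=
    fun P => ⟨f P.1, by rw [← map_nsmul, P.2, map_zero]⟩
  have hg_inj : Function.Injective g := by
    intro P Q hPQ
    apply Subtype.ext
    exact hf (congrArg Subtype.val hPQ)
  have hg_surj : Function.Surjective g := by
    rintro ⟨Q, hQ⟩
    rcases Q with _ | ⟨x, y, h⟩
    · exact ⟨⟨0, nsmul_zero n⟩, Subtype.ext (map_zero f)⟩
    · obtain ⟨hx, hy⟩ := h9d_torsion_coords_algebraic W n hfin h hQ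
      obtain ⟨x', rfl⟩ := h9d_mem_range_iota hx
      obtain ⟨y', rfl⟩ := h9d_mem_range_iota hy
      have h' : (W⁄Qbar).Nonsingular x' y' :=
        (baseChange_nonsingular (W := W.toAffine) (f := h9d_iota) h9d_iota_injective x' y').mp h
      have hfP : f (Point.some x' y' h') = Point.some (h9d_iota x') (h9d_iota y') h :=
        Point.map_some h9d_iota h'
      refine ⟨⟨Point.some x' y' h', ?_⟩, Subtype.ext hfP⟩
      apply hf
      rw [map_nsmul, hfP, map_zero]
      exact hQ
  rw [Nat.card_congr (Equiv.ofBijective g ⟨hg_inj, hg_surj⟩), hcard]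

/-! ### From short models to arbitrary models over `ℂ` -/

/-- The statement (T3)+(T4): torsion count for all short Weierstrass models over `ℂ`. -/
def h9d_ShortCount : Prop :=
  ∀ A B : ℂ, 4 * A ^ 3 + 27 * B ^ 2 ≠ 0 → ∀ n : ℕ, 0 < n →
    Nat.card {P : (⟨0, 0, 0, A, B⟩ : WeierstrassCurve ℂ).toAffine.Point // n • P = 0} = n ^ 2

/-- Transport of the torsion count along an additive equivalence. -/
theorem h9d_card_torsion_congr {G H : Type*} [AddCommMonoid G] [AddCommMonoid H] (e : G ≃+ H)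
    (n : ℕ) : Nat.card {P : G // n • P = 0} = Nat.card {Q : H // n • Q = 0} := by
  refine Nat.card_congr (e.toEquiv.subtypeEquiv fun P => ?_)
  change n • P = 0 ↔ n • e P = 0
  rw [← map_nsmul, EmbeddingLike.map_eq_zero_iff]

theorem h9d_complexCount_of_short (hS : h9d_ShortCount) : h9d_ComplexCount := by
  intro W hΔ n hn
  have : Invertible (2 : ℂ) := invertibleOfNonzero two_ne_zero
  have : Invertible (3 : ℂ) := invertibleOfNonzero three_ne_zero
  obtain ⟨C, hC⟩ := W.exists_variableChange_isShortNF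
  have hform : C • W = ⟨0, 0, 0, (C • W).a₄, (C • W).a₆⟩ := by
    ext
    · exact hC.a₁
    · exact hC.a₂
    · exact hC.a₃
    · rfl
    · rfl
  have hΔ' : (C • W).Δ ≠ 0 := by
    rw [variableChange_Δ]
    exact mul_ne_zero (by simp) hΔ
  have hAB : 4 * (C • W).a₄ ^ 3 + 27 * (C • W).a₆ ^ 2 ≠ 0 := by
    intro h0
    apply hΔ'
    rw [Δ_of_isShortNF, h0, mul_zero]
  have hcount := hS _ _ hAB n hn
  rw [← hform] at hcount
  rw [← h9d_card_torsion_congr (Fermat.Agent.Lib.S51.vcPointEquiv W C) n]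
  exact hcount

/-! ### Dimension of the torsion -/

/-- `#V = p²` gives `dim V = 2` for the `p`-torsion of `W⁄ℚ̄`. -/
theorem h9d_finrank_torsion (hC : h9d_ComplexCount) (W : WeierstrassCurve ℚ) (hΔ : W.Δ ≠ 0)
    (p : ℕ) (hp : p.Prime) :
    Module.finrank (ZMod p) (Submodule.torsionBy ℤ (W⁄Qbar).Point p) = 2 := by
  have : Fact p.Prime := ⟨hp⟩
  have hcard : Nat.card (Submodule.torsionBy ℤ (W⁄Qbar).Point p) = p ^ 2 := by
    rw [← h9d_card_torsion_Qbar hC W hΔ p hp.pos]
    refine Nat.card_congr (Equiv.subtypeEquivRight fun P => ?_)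
    rw [Submodule.mem_torsionBy_iff, Nat.cast_smul_eq_nsmul]
  have : Finite (Submodule.torsionBy ℤ (W⁄Qbar).Point p) := by
    apply Nat.finite_of_card_ne_zero
    rw [hcard]; exact pow_ne_zero 2 hp.pos.ne'
  have h := Module.natCard_eq_pow_finrank (K := ZMod p)
    (V := Submodule.torsionBy ℤ (W⁄Qbar).Point p)
  rw [hcard, Nat.card_zmod] at h
  exact (Nat.pow_right_injective hp.two_le h).symm

/-! ### The Frey curve -/

theorem h9d_freyCurve_Δ (P : FreyPackage) :
    P.freyCurve.Δ = ((P.a : ℚ) ^ P.p * (P.b : ℚ) ^ P.p * (P.c : ℚ) ^ P.p) ^ 2 / 256 := by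
  have hC : (P.c : ℚ) ^ P.p = (P.a : ℚ) ^ P.p + (P.b : ℚ) ^ P.p := by
    have := P.hFLT
    exact_mod_cast this.symm
  rw [hC]
  simp only [Δ, b₂, b₄, b₆, b₈, FreyPackage.freyCurve]
  ring

theorem h9d_freyCurve_Δ_ne_zero (P : FreyPackage) : P.freyCurve.Δ ≠ 0 := by
  rw [h9d_freyCurve_Δ]
  have ha : (P.a : ℚ) ≠ 0 := by exact_mod_cast P.ha0
  have hb : (P.b : ℚ) ≠ 0 := by exact_mod_cast P.hb0
  have hc : (P.c : ℚ) ≠ 0 := by exact_mod_cast P.hc0
  positivity

/-- (T) from the complex count. -/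
theorem h9d_torsionRank_of_complexCount (hC : h9d_ComplexCount) : TorsionRankStatement :=
  fun P => h9d_finrank_torsion hC P.freyCurve (h9d_freyCurve_Δ_ne_zero P) P.p P.pp

/-- (T) from the short-model count. -/
theorem h9d_torsionRank_of_shortCount (hS : h9d_ShortCount) : TorsionRankStatement :=
  h9d_torsionRank_of_complexCount (h9d_complexCount_of_short hS)

/-! ### Interface with (T3) and (T4) -/

/-- Shape of (T3) (helper1's `h1_card_torsion`): torsion count for the curve of a lattice. -/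
def h9d_LatticeCount : Prop :=
  ∀ (L : PeriodPair) (n : ℕ), 0 < n →
    Nat.card {P : (⟨0, 0, 0, -L.g₂ / 4, -L.g₃ / 4⟩ : WeierstrassCurve ℂ).toAffine.Point //
      n • P = 0} = n ^ 2

/-- Shape of (T4) (helper3's `h3_exists_periodPair_g`): uniformisation. -/
def h9d_LatticeExists : Prop :=
  ∀ A B : ℂ, A ^ 3 - 27 * B ^ 2 ≠ 0 → ∃ L : PeriodPair, L.g₂ = A ∧ L.g₃ = B

theorem h9d_shortCount_of_lattice (h3 : h9d_LatticeExists) (h1 : h9d_LatticeCount) :
    h9d_ShortCount := by
  intro A B hAB n hn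
  have hne : (-4 * A) ^ 3 - 27 * (-4 * B) ^ 2 ≠ 0 := by
    intro h0
    apply hAB
    linear_combination (-1 / 16 : ℂ) * h0
  obtain ⟨L, hg₂, hg₃⟩ := h3 (-4 * A) (-4 * B) hne
  have h := h1 L n hn
  have hA : -L.g₂ / 4 = A := by rw [hg₂]; ring
  have hB : -L.g₃ / 4 = B := by rw [hg₃]; ring
  rw [hA, hB] at h
  exact h

/-- (T) from (T3) and (T4). -/
theorem h9d_torsionRank_of_lattice (h3 : h9d_LatticeExists) (h1 : h9d_LatticeCount) :
    TorsionRankStatement :=
  h9d_torsionRank_of_shortCount (h9d_shortCount_of_lattice h3 h1)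

end Fermat.Agent.Lib.S13
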