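/-
S13 project, stream (D) (helper2): arithmetic input at `2`.

* valuations of rational numbers for a valuation subring over `2`: residue field `𝔽₂`
  (`h2f_rat_R1`) and value group `(v 2)^ℤ` (`h2f_rat_R2`);
* the coefficients of the Frey curve at `2`: `a₂` is an integer, `v a₄ = (v 2)^M` with
  `M = p e - 4 ≥ 1`, `p ∤ M`.
-/
import Mathlib
import Fermat.Prelude.Def_FLTPrelim_FreyPackage
import Fermat.Prelude.Def_FLTPrelim_Ramification
import Fermat.Agent.Lib.S05.Assembly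

set_option autoImplicit false

namespace Fermat.Agent.Lib.S13

open Fermat.Agent.Lib.S05

section Rat

set_option linter.unusedSectionVars false

variable {L : Type*} [Field L] [CharZero L] (A : ValuationSubring L)

theorem h2f_val_two_lt (hA : A.LiesOverPrime 2) : A.valuation (2 : L) < 1 := by
  have := h9_val_q_lt_one A hA
  simpa using this

theorem h2f_val_int_odd (hA : A.LiesOverPrime 2) {m : ℤ} (hm : ¬ (2 : ℤ) ∣ m) :
    A.valuation (m : L) = 1 := by
  apply h9_val_int_of_not_dvd A hA Nat.prime_two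
  simpa using hm

theorem h2f_val_int_even (hA : A.LiesOverPrime 2) {m : ℤ} (hm : (2 : ℤ) ∣ m) :
    A.valuation (m : L) < 1 := by
  apply h9_val_int_lt_one_of_dvd A hA
  simpa using hm

/-- Value group of `ℚ`: every nonzero rational has value an integral power of `v 2`. -/
theorem h2f_rat_R2 (hA : A.LiesOverPrime 2) (r : ℚ) (hr : r ≠ 0) :
    ∃ k : ℤ, A.valuation (r : L) = A.valuation (2 : L) ^ k := by
  have hnum : r.num ≠ 0 := Rat.num_ne_zero.mpr hr
  have hden : (r.den : ℤ) ≠ 0 := by exact_mod_cast r.den_ne_zero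
  obtain ⟨e₁, he₁⟩ := h9_val_int_pow A hA Nat.prime_two hnum
  obtain ⟨e₂, he₂⟩ := h9_val_int_pow A hA Nat.prime_two hden
  have h2 : ((2 : ℕ) : L) = 2 := by norm_num
  rw [h2] at he₁ he₂
  have h20 : A.valuation (2 : L) ≠ 0 := (Valuation.ne_zero_iff _).mpr two_ne_zero
  refine ⟨(e₁ : ℤ) - e₂, ?_⟩
  have hcast : (r : L) = (r.num : L) / ((r.den : ℤ) : L) := by
    rw [Rat.cast_def]; push_cast; rfl
  rw [hcast, map_div₀, he₁, he₂, zpow_sub₀ h20, zpow_natCast, zpow_natCast]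

/-- Residue field of `ℚ` at `2`: an integral rational is `≡ 0` or `≡ 1`. -/
theorem h2f_rat_R1 (hA : A.LiesOverPrime 2) (r : ℚ) (hr : A.valuation (r : L) ≤ 1) :
    A.valuation (r : L) < 1 ∨ A.valuation ((r : L) - 1) < 1 := by
  have hden0 : ((r.den : ℤ) : L) ≠ 0 := by
    have : (r.den : ℤ) ≠ 0 := by exact_mod_cast r.den_ne_zero
    exact_mod_cast this
  have hcast : (r : L) = (r.num : L) / ((r.den : ℤ) : L) := by
    rw [Rat.cast_def]; push_cast; rfl
  -- the denominator is odd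
  have hdodd : ¬ (2 : ℤ) ∣ (r.den : ℤ) := by
    intro hd
    have hnodd : ¬ (2 : ℤ) ∣ r.num := by
      intro hn
      have hcop := r.reduced
      have h2 : (2 : ℕ) ∣ r.num.natAbs := by
        have := Int.natAbs_dvd_natAbs.mpr hn
        simpa using this
      have h3 : (2 : ℕ) ∣ r.den := by exact_mod_cast hd
      have := Nat.dvd_gcd h2 h3
      rw [hcop] at this
      omega
    have h1 := h2f_val_int_odd A hA hnodd
    have h2 := h2f_val_int_even A hA hd
    rw [hcast, map_div₀, h1, one_div] at hr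
    have hpos : 0 < A.valuation ((r.den : ℤ) : L) := (Valuation.pos_iff _).mpr hden0
    have := (one_lt_inv₀ hpos).mpr h2
    exact absurd hr (not_le.mpr this)
  have hvd : A.valuation ((r.den : ℤ) : L) = 1 := h2f_val_int_odd A hA hdodd
  by_cases hn : (2 : ℤ) ∣ r.num
  · left
    rw [hcast, map_div₀, hvd, div_one]
    exact h2f_val_int_even A hA hn
  · right
    have hsub : (2 : ℤ) ∣ r.num - r.den := by omega
    have e : (r : L) - 1 = ((r.num - r.den : ℤ) : L) / ((r.den : ℤ) : L) := by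
      rw [hcast]; push_cast; field_simp
    rw [e, map_div₀, hvd, div_one]
    exact h2f_val_int_even A hA hsub

end Rat

section Frey

variable (P : FreyPackage)

theorem h2f_two_dvd_b : (2 : ℤ) ∣ P.b := (ZMod.intCast_zmod_eq_zero_iff_dvd P.b 2).1 P.hb2

theorem h2f_not_two_dvd_a : ¬ (2 : ℤ) ∣ P.a := by
  intro h
  have h1 : (2 : ℤ) ∣ gcd P.a P.b := dvd_gcd h (h2f_two_dvd_b P)
  rw [P.hgcdab] at h1
  have := Int.le_of_dvd one_pos h1
  omega

theorem h2f_four_dvd : (4 : ℤ) ∣ P.b ^ P.p - 1 - P.a ^ P.p := by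
  have hp5 := P.hp5
  have hb4 : (4 : ℤ) ∣ P.b ^ P.p := by
    have h1 : (2 : ℤ) ^ 2 ∣ P.b ^ 2 := pow_dvd_pow_of_dvd (h2f_two_dvd_b P) 2
    have h2 : P.b ^ 2 ∣ P.b ^ P.p := pow_dvd_pow P.b (by omega)
    exact dvd_trans (by norm_num at h1 ⊢; exact h1) h2
  have ha : (4 : ℤ) ∣ P.a ^ P.p + 1 := by
    apply (ZMod.intCast_zmod_eq_zero_iff_dvd (P.a ^ P.p + 1) 4).1
    push_cast
    rw [P.ha4]
    have h3 : (3 : ZMod 4) = -1 := by decide
    rw [h3, P.hp_odd.neg_one_pow]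
    ring
  have : P.b ^ P.p - 1 - P.a ^ P.p = P.b ^ P.p - (P.a ^ P.p + 1) := by ring
  rw [this]
  exact dvd_sub hb4 ha

/-- `a₂` of the Frey curve is an integer. -/
theorem h2f_a2_int : ∃ z : ℤ, P.freyCurve.a₂ = (z : ℚ) := by
  obtain ⟨z, hz⟩ := h2f_four_dvd P
  refine ⟨z, ?_⟩
  have hz' : ((P.b : ℚ) ^ P.p - 1 - (P.a : ℚ) ^ P.p) = 4 * (z : ℚ) := by exact_mod_cast hz
  show ((P.b : ℚ) ^ P.p - 1 - (P.a : ℚ) ^ P.p) / 4 = (z : ℚ)
  rw [hz']
  ring

theorem h2f_a4_ne_zero : P.freyCurve.a₄ ≠ 0 := by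
  show -((P.a : ℚ) ^ P.p) * ((P.b : ℚ) ^ P.p) / 16 ≠ 0
  have ha : (P.a : ℚ) ≠ 0 := by exact_mod_cast P.ha0
  have hb : (P.b : ℚ) ≠ 0 := by exact_mod_cast P.hb0
  have h1 : (P.a : ℚ) ^ P.p ≠ 0 := pow_ne_zero _ ha
  have h2 : (P.b : ℚ) ^ P.p ≠ 0 := pow_ne_zero _ hb
  exact div_ne_zero (mul_ne_zero (neg_ne_zero.mpr h1) h2) (by norm_num)

variable {L : Type*} [Field L] [CharZero L] (A : ValuationSubring L)

/-- `v a₄ = (v 2)^M` with `M ≥ 1` and `p ∤ M`. -/
theorem h2f_val_a4 (hA : A.LiesOverPrime 2) :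
    ∃ M : ℕ, 1 ≤ M ∧ ¬ P.p ∣ M ∧
      A.valuation ((P.freyCurve.a₄ : ℚ) : L) = A.valuation (2 : L) ^ M := by
  have hp5 := P.hp5
  obtain ⟨e, he⟩ := h9_val_int_pow A hA Nat.prime_two P.hb0
  have h2 : ((2 : ℕ) : L) = 2 := by norm_num
  rw [h2] at he
  have hva : A.valuation ((P.a : ℤ) : L) = 1 := h2f_val_int_odd A hA (h2f_not_two_dvd_a P)
  have hvb : A.valuation ((P.b : ℤ) : L) < 1 := h2f_val_int_even A hA (h2f_two_dvd_b P)
  have he1 : 1 ≤ e := by
    rcases Nat.eq_zero_or_pos e with h0 | h0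
    · rw [h0, pow_zero] at he
      rw [he] at hvb
      exact absurd hvb (lt_irrefl _)
    · exact h0
  have h20 : A.valuation (2 : L) ≠ 0 := (Valuation.ne_zero_iff _).mpr two_ne_zero
  have hge : 4 ≤ P.p * e := by nlinarith
  refine ⟨P.p * e - 4, by
    have : 5 ≤ P.p * e := by nlinarith
    omega, ?_, ?_⟩
  · intro hd
    have h4 : P.p ∣ 4 := by
      have h1 : P.p ∣ P.p * e := dvd_mul_right _ _
      have h3 : P.p * e = (P.p * e - 4) + 4 := by omega
      rw [h3] at h1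
      exact (Nat.dvd_add_right hd).mp h1
    have := Nat.le_of_dvd (by norm_num) h4
    omega
  · have hcast : ((P.freyCurve.a₄ : ℚ) : L) =
        -(((P.a : ℤ) : L) ^ P.p) * (((P.b : ℤ) : L) ^ P.p) / 16 := by
      show ((-((P.a : ℚ) ^ P.p) * ((P.b : ℚ) ^ P.p) / 16 : ℚ) : L) = _
      push_cast
      ring
    have h16 : A.valuation (16 : L) = A.valuation (2 : L) ^ 4 := by
      rw [← map_pow]; norm_num
    rw [hcast, map_div₀, map_mul, Valuation.map_neg, map_pow, map_pow, hva, he, one_pow, one_mul,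
      h16, ← pow_mul]
    have hsplit : e * P.p = (P.p * e - 4) + 4 := by
      have : e * P.p = P.p * e := mul_comm _ _
      omega
    rw [hsplit, pow_add, mul_div_assoc, div_self (pow_ne_zero 4 h20), mul_one]

end Frey

end Fermat.Agent.Lib.S13
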