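/-
S13 project, stream (D), piece (D-R) part 2 (helper2): elementary facts about the model
`W : Y² + XY = X³ + a₂X² + a₄X` (`a₁ = 1`, `a₃ = a₆ = 0`) over a valued field `(L, v)` of residue
characteristic two (`v 2 < 1`), with `v a₂ ≤ 1`, `0 < v a₄ < 1`, and `t₁, t₂` the two roots of
`T² + T - a₂` (the tangent directions at the node `(0, 0)` of the reduction).

* equation in factored form, `negY`, integrality of `y`;
* `v t₁ ≤ 1`, `v (t₁ - t₂) = 1`;
* a point with `v x = 1` has nonsingular reduction (`v (2y + x) = 1`);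
* `T = (0, 0)`, `T + T = 0`, `x(P + T) = a₄ / x`;
* an intermediate point (`v a₄ < v x < 1`) lies on one of the two branches;
* the duplication formula `x(2P) (2y + x)² = (x² - a₄)²` and its two valuation consequences.
-/
import Mathlib

set_option autoImplicit false

open WeierstrassCurve WeierstrassCurve.Affine

namespace Fermat.Agent.Lib.S13

variable {L : Type*} [Field L] {Γ₀ : Type*} [LinearOrderedCommGroupWithZero Γ₀]

/-- The standing hypotheses of the local analysis at `2`. -/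
structure TwoSetting (v : Valuation L Γ₀) (W : WeierstrassCurve L) (t₁ t₂ : L) : Prop where
  a1 : W.a₁ = 1
  a3 : W.a₃ = 0
  a6 : W.a₆ = 0
  va2 : v W.a₂ ≤ 1
  va4 : v W.a₄ < 1
  a4 : W.a₄ ≠ 0
  v2 : v (2 : L) < 1
  hsum : t₁ + t₂ = -1
  hprod : t₁ * t₂ = -W.a₂

variable {v : Valuation L Γ₀} {W : WeierstrassCurve L} {t₁ t₂ : L}

theorem TwoSetting.symm (hS : TwoSetting v W t₁ t₂) : TwoSetting v W t₂ t₁ :=
  { hS with hsum := by rw [add_comm]; exact hS.hsum, hprod := by rw [mul_comm]; exact hS.hprod }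

theorem h2t_equation (hS : TwoSetting v W t₁ t₂) {x y : L} :
    W.toAffine.Equation x y ↔ y ^ 2 + x * y = x ^ 3 + W.a₂ * x ^ 2 + W.a₄ * x := by
  rw [Affine.equation_iff, hS.a1, hS.a3, hS.a6]
  constructor <;> intro h <;> linear_combination h

theorem h2t_equation_factored (hS : TwoSetting v W t₁ t₂) {x y : L}
    (h : W.toAffine.Equation x y) : (y - t₁ * x) * (y - t₂ * x) = x * (x ^ 2 + W.a₄) := by
  have e := (h2t_equation hS).mp h
  linear_combination e - x * y * hS.hsum + x ^ 2 * hS.hprod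

theorem h2t_negY (hS : TwoSetting v W t₁ t₂) (x y : L) : W.toAffine.negY x y = -y - x := by
  simp only [Affine.negY, hS.a1, hS.a3]; ring

theorem h2t_v_a4_pos (hS : TwoSetting v W t₁ t₂) : 0 < v W.a₄ := v.pos_iff.mpr hS.a4

theorem h2t_v_two_le (hS : TwoSetting v W t₁ t₂) : v (2 : L) ≤ 1 := hS.v2.le

theorem h2t_v_a1_le (hS : TwoSetting v W t₁ t₂) : v W.a₁ ≤ 1 := by
  rw [hS.a1, map_one]

theorem h2t_v_a3_le (hS : TwoSetting v W t₁ t₂) : v W.a₃ ≤ 1 := by
  rw [hS.a3, map_zero]; exact zero_le_one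

theorem h2t_v_a6_le (hS : TwoSetting v W t₁ t₂) : v W.a₆ ≤ 1 := by
  rw [hS.a6, map_zero]; exact zero_le_one

/-- `y` is integral when `x` is. -/
theorem h2t_v_y_le_one (hS : TwoSetting v W t₁ t₂) {x y : L} (h : W.toAffine.Equation x y)
    (hx : v x ≤ 1) : v y ≤ 1 := by
  have e := (h2t_equation hS).mp h
  by_contra hlt
  push Not at hlt
  have hrhs : v (x ^ 3 + W.a₂ * x ^ 2 + W.a₄ * x) ≤ 1 := by
    refine v.map_add_le (v.map_add_le ?_ ?_) ?_
    · rw [map_pow]; exact pow_le_one₀ zero_le hx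
    · rw [map_mul, map_pow]; exact mul_le_one₀ hS.va2 zero_le (pow_le_one₀ zero_le hx)
    · rw [map_mul]; exact mul_le_one₀ hS.va4.le zero_le hx
  have hy2 : v y < v (y ^ 2) := by
    rw [map_pow, pow_two]
    calc v y = 1 * v y := (one_mul _).symm
      _ < v y * v y := mul_lt_mul_of_pos_right hlt (lt_trans zero_lt_one hlt)
  have hxy : v (x * y) ≤ v y := by
    rw [map_mul]
    calc v x * v y ≤ 1 * v y := by gcongr
      _ = v y := one_mul _
  have hlhs : v (y ^ 2 + x * y) = v (y ^ 2) :=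
    v.map_add_eq_of_lt_left (lt_of_le_of_lt hxy hy2)
  rw [← e, hlhs] at hrhs
  exact absurd (lt_trans hlt hy2) (not_lt.mpr hrhs)

/-- The tangent slopes are integral. -/
theorem h2t_v_t_le_one (hS : TwoSetting v W t₁ t₂) : v t₁ ≤ 1 := by
  have e : t₁ ^ 2 + t₁ = W.a₂ := by
    have h1 := hS.hsum
    have h2 := hS.hprod
    have : t₂ = -1 - t₁ := by linear_combination h1
    rw [this] at h2
    linear_combination -h2
  by_contra hlt
  push Not at hlt
  have ht2 : v t₁ < v (t₁ ^ 2) := by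
    rw [map_pow, pow_two]
    calc v t₁ = 1 * v t₁ := (one_mul _).symm
      _ < v t₁ * v t₁ := mul_lt_mul_of_pos_right hlt (lt_trans zero_lt_one hlt)
  have : v (t₁ ^ 2 + t₁) = v (t₁ ^ 2) := v.map_add_eq_of_lt_left ht2
  rw [e] at this
  have h1 : 1 < v (t₁ ^ 2) := lt_trans hlt ht2
  rw [← this] at h1
  exact absurd h1 (not_lt.mpr hS.va2)

/-- The two tangent slopes are distinct modulo the maximal ideal. -/
theorem h2t_v_delta (hS : TwoSetting v W t₁ t₂) : v (t₁ - t₂) = 1 := by
  have e : (t₁ - t₂) ^ 2 = 1 + 4 * W.a₂ := by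
    have h1 := hS.hsum
    have h2 := hS.hprod
    linear_combination (t₁ + t₂ - 1) * h1 - 4 * h2
  have h4 : v (4 * W.a₂) < 1 := by
    have : (4 : L) * W.a₂ = 2 * (2 * W.a₂) := by ring
    rw [this, map_mul, map_mul]
    calc v 2 * (v 2 * v W.a₂) ≤ v 2 * (1 * 1) := by
          gcongr
          · exact hS.v2.le
          · exact hS.va2
      _ = v 2 := by rw [mul_one, mul_one]
      _ < 1 := hS.v2
  have h5 : v (1 + 4 * W.a₂) = 1 := by
    have : v (4 * W.a₂) < v (1 : L) := by rw [map_one]; exact h4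
    rw [v.map_add_eq_of_lt_left this, map_one]
  have h6 : v (t₁ - t₂) ^ 2 = 1 := by rw [← map_pow, e, h5]
  exact (pow_eq_one_iff_of_nonneg zero_le two_ne_zero).mp h6

/-- A point with `v x = 1` has nonsingular reduction. -/
theorem h2t_ns_unit (hS : TwoSetting v W t₁ t₂) {x y : L} (h : W.toAffine.Equation x y)
    (hx : v x = 1) : v (2 * y + W.a₁ * x + W.a₃) = 1 := by
  have hy := h2t_v_y_le_one hS h hx.le
  rw [hS.a1, hS.a3, add_zero, one_mul]
  have h2y : v (2 * y) < v x := by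
    rw [hx, map_mul]
    calc v 2 * v y ≤ v 2 * 1 := by gcongr
      _ = v 2 := mul_one _
      _ < 1 := hS.v2
  rw [v.map_add_eq_of_lt_right h2y, hx]

/-- An intermediate point lies on one of the two branches through the node. -/
theorem h2t_int_cases (hS : TwoSetting v W t₁ t₂) {x y : L} (h : W.toAffine.Equation x y)
    (hb : v W.a₄ < v x) (h1 : v x < 1) : v (y - t₁ * x) < v x ∨ v (y - t₂ * x) < v x := by
  have hx0 : v x ≠ 0 := fun h0 => by rw [h0] at hb; exact not_lt_zero hb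
  have hprod := h2t_equation_factored hS h
  have hlt : v (x ^ 2 + W.a₄) < v x := by
    apply Valuation.map_add_lt _ _ hb
    rw [map_pow, pow_two]
    calc v x * v x < 1 * v x := mul_lt_mul_of_pos_right h1 (zero_lt_iff.mpr hx0)
      _ = v x := one_mul _
  have hv : v (y - t₁ * x) * v (y - t₂ * x) < v x * v x := by
    rw [← map_mul, hprod, map_mul]
    exact mul_lt_mul_of_pos_left hlt (zero_lt_iff.mpr hx0)
  by_contra hcon
  push Not at hcon
  exact absurd hv (not_lt.mpr (mul_le_mul' hcon.1 hcon.2))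

/-- `T = (0, 0)` is a nonsingular point. -/
theorem h2t_nonsingular_T (hS : TwoSetting v W t₁ t₂) : W.toAffine.Nonsingular 0 0 := by
  rw [Affine.nonsingular_zero]
  exact ⟨hS.a6, Or.inr hS.a4⟩

/-- A point with `x = 0` is `T`. -/
theorem h2t_y_eq_zero (hS : TwoSetting v W t₁ t₂) {y : L} (h : W.toAffine.Equation 0 y) :
    y = 0 := by
  have e := (h2t_equation hS).mp h
  have : y ^ 2 = 0 := by linear_combination e
  exact pow_eq_zero_iff two_ne_zero |>.mp this

variable [DecidableEq L]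

theorem h2t_T_add_T (hS : TwoSetting v W t₁ t₂) :
    Point.some 0 0 (h2t_nonsingular_T hS) + Point.some 0 0 (h2t_nonsingular_T hS) = 0 :=
  Point.add_of_Y_eq rfl (by rw [h2t_negY hS]; ring)

/-- Translation by `T`: `x(P + T) = a₄ / x`. -/
theorem h2t_add_T (hS : TwoSetting v W t₁ t₂) {x y : L} (h : W.toAffine.Nonsingular x y)
    (hx : x ≠ 0) :
    ∃ (y₃ : L) (h₃ : W.toAffine.Nonsingular (W.a₄ / x) y₃),
      Point.some x y h + Point.some 0 0 (h2t_nonsingular_T hS) = Point.some (W.a₄ / x) y₃ h₃ := by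
  have hxy : ¬(x = 0 ∧ y = W.toAffine.negY 0 0) := fun hh => hx hh.1
  have hadd := Point.add_some (h₁ := h) (h₂ := h2t_nonsingular_T hS) hxy
  have e := (h2t_equation hS).mp h.1
  have hsl : W.toAffine.slope x 0 y 0 = y / x := by
    rw [Affine.slope_of_X_ne hx, sub_zero, sub_zero]
  have hX : W.toAffine.addX x 0 (W.toAffine.slope x 0 y 0) = W.a₄ / x := by
    rw [hsl]
    simp only [Affine.addX, hS.a1]
    field_simp
    linear_combination e
  have key : ∀ (x₃ : L) (_ : W.toAffine.addX x 0 (W.toAffine.slope x 0 y 0) = x₃)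
      (y₃ : L) (h₃ : W.toAffine.Nonsingular
        (W.toAffine.addX x 0 (W.toAffine.slope x 0 y 0)) y₃),
      ∃ (y₃' : L) (h₃' : W.toAffine.Nonsingular x₃ y₃'),
        Point.some (W.toAffine.addX x 0 (W.toAffine.slope x 0 y 0)) y₃ h₃ =
          Point.some x₃ y₃' h₃' := by
    intro x₃ hx₃ y₃ h₃
    subst hx₃
    exact ⟨y₃, h₃, rfl⟩
  obtain ⟨y₃', h₃', he⟩ := key _ hX _ (Affine.nonsingular_add h (h2t_nonsingular_T hS) hxy)
  exact ⟨y₃', h₃', hadd.trans he⟩

/-- The duplication formula: `P + P = 0` or `x(2P) (2y + x)² = (x² - a₄)²`. -/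
theorem h2t_double (hS : TwoSetting v W t₁ t₂) {x y : L} (h : W.toAffine.Nonsingular x y) :
    Point.some x y h + Point.some x y h = 0 ∨
      ∃ (x₃ y₃ : L) (h₃ : W.toAffine.Nonsingular x₃ y₃),
        Point.some x y h + Point.some x y h = Point.some x₃ y₃ h₃ ∧ 2 * y + x ≠ 0 ∧
          x₃ * (2 * y + x) ^ 2 = (x ^ 2 - W.a₄) ^ 2 ∧
          (2 * y + x) ^ 2 = x * (4 * x ^ 2 + (1 + 4 * W.a₂) * x + 4 * W.a₄) := by
  have e := (h2t_equation hS).mp h.1
  by_cases hy : y = W.toAffine.negY x y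
  · left
    exact Point.add_of_Y_eq rfl hy
  · right
    have hd : 2 * y + x ≠ 0 := by
      intro h0
      apply hy
      rw [h2t_negY hS]
      linear_combination h0
    refine ⟨_, _, Affine.nonsingular_add h h fun hxy => hy hxy.right,
      Point.add_self_of_Y_ne hy, hd, ?_, ?_⟩
    · have hsl : W.toAffine.slope x x y y =
          (3 * x ^ 2 + 2 * W.a₂ * x + W.a₄ - y) / (2 * y + x) := by
        rw [Affine.slope_of_Y_ne rfl hy, h2t_negY hS, hS.a1]
        congr 1 <;> ring
      rw [hsl]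
      simp only [Affine.addX, hS.a1]
      field_simp
      linear_combination (-(4 * W.a₂ + 8 * x + 1)) * e
    · linear_combination 4 * e

/-- Doubling a point with `v x = 1` gives `0` or a point with `v x = 1`. -/
theorem h2t_double_unit (hS : TwoSetting v W t₁ t₂) {x y : L} (h : W.toAffine.Nonsingular x y)
    (hx : v x = 1) :
    Point.some x y h + Point.some x y h = 0 ∨
      ∃ (x₃ y₃ : L) (h₃ : W.toAffine.Nonsingular x₃ y₃),
        Point.some x y h + Point.some x y h = Point.some x₃ y₃ h₃ ∧ v x₃ = 1 := by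
  rcases h2t_double hS h with h0 | ⟨x₃, y₃, h₃, hadd, -, hx₃, -⟩
  · exact Or.inl h0
  · right
    refine ⟨x₃, y₃, h₃, hadd, ?_⟩
    have hns := h2t_ns_unit hS h.1 hx
    rw [hS.a1, hS.a3, add_zero, one_mul] at hns
    have hnum : v (x ^ 2 - W.a₄) = 1 := by
      have : v W.a₄ < v (x ^ 2) := by rw [map_pow, hx, one_pow]; exact hS.va4
      rw [v.map_sub_eq_of_lt_left this, map_pow, hx, one_pow]
    have := congrArg v hx₃
    simpa [map_mul, map_pow, hns, hnum] using this

/-- Doubling a point near `T` (`v x ≤ v a₄`, `x ≠ 0`) gives `0` or a point with `1 ≤ v x`. -/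
theorem h2t_double_nearT (hS : TwoSetting v W t₁ t₂) {x y : L} (h : W.toAffine.Nonsingular x y)
    (hx : v x ≤ v W.a₄) :
    Point.some x y h + Point.some x y h = 0 ∨
      ∃ (x₃ y₃ : L) (h₃ : W.toAffine.Nonsingular x₃ y₃),
        Point.some x y h + Point.some x y h = Point.some x₃ y₃ h₃ ∧ 1 ≤ v x₃ := by
  rcases h2t_double hS h with h0 | ⟨x₃, y₃, h₃, hadd, hd, hx₃, hD⟩
  · exact Or.inl h0
  · right
    refine ⟨x₃, y₃, h₃, hadd, ?_⟩
    have hb := h2t_v_a4_pos hS
    have hv4 : v (4 : L) ≤ 1 := by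
      have : (4 : L) = 2 * 2 := by norm_num
      rw [this, map_mul]
      exact mul_le_one₀ hS.v2.le zero_le hS.v2.le
    have hnum : v (x ^ 2 - W.a₄) = v W.a₄ := by
      have : v (x ^ 2) < v W.a₄ := by
        rw [map_pow, pow_two]
        calc v x * v x ≤ v W.a₄ * v W.a₄ := mul_le_mul' hx hx
          _ < 1 * v W.a₄ := mul_lt_mul_of_pos_right hS.va4 hb
          _ = v W.a₄ := one_mul _
      rw [v.map_sub_eq_of_lt_right this]
    have hinner : v (4 * x ^ 2 + (1 + 4 * W.a₂) * x + 4 * W.a₄) ≤ v W.a₄ := by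
      have hx1 : v x ≤ 1 := le_trans hx hS.va4.le
      refine v.map_add_le (v.map_add_le ?_ ?_) ?_
      · rw [map_mul, map_pow, pow_two]
        calc v 4 * (v x * v x) ≤ 1 * (1 * v x) := by gcongr
          _ = v x := by rw [one_mul, one_mul]
          _ ≤ v W.a₄ := hx
      · rw [map_mul]
        have : v (1 + 4 * W.a₂) ≤ 1 := by
          refine v.map_add_le (le_of_eq v.map_one) ?_
          rw [map_mul]; exact mul_le_one₀ hv4 zero_le hS.va2
        calc v (1 + 4 * W.a₂) * v x ≤ 1 * v x := by gcongr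
          _ = v x := one_mul _
          _ ≤ v W.a₄ := hx
      · rw [map_mul]
        calc v 4 * v W.a₄ ≤ 1 * v W.a₄ := by gcongr
          _ = v W.a₄ := one_mul _
    have hDle : v ((2 * y + x) ^ 2) ≤ v W.a₄ * v W.a₄ := by
      rw [hD, map_mul]
      exact mul_le_mul' hx hinner
    have hDpos : 0 < v ((2 * y + x) ^ 2) := v.pos_iff.mpr (pow_ne_zero 2 hd)
    have hval : v x₃ * v ((2 * y + x) ^ 2) = v W.a₄ * v W.a₄ := by
      rw [← map_mul, hx₃, map_pow, hnum, pow_two]
    by_contra hlt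
    push Not at hlt
    have : v x₃ * v ((2 * y + x) ^ 2) < v W.a₄ * v W.a₄ :=
      calc v x₃ * v ((2 * y + x) ^ 2) < 1 * v ((2 * y + x) ^ 2) :=
            mul_lt_mul_of_pos_right hlt hDpos
        _ = v ((2 * y + x) ^ 2) := one_mul _
        _ ≤ v W.a₄ * v W.a₄ := hDle
    exact absurd hval (ne_of_lt this)

end Fermat.Agent.Lib.S13
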