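/-
S13 project, stream (D), piece (D-R) part 1 (helper2): the "same nonsingular reduction" lemma for a
GENERAL Weierstrass model with integral coefficients over a valued field `(L, v)`:
two integral affine points with the same reduction, nonsingular at the first one, are equal or
differ by a point of the kernel of reduction (`1 < v x`).
-/
import Mathlib

set_option autoImplicit false

open WeierstrassCurve WeierstrassCurve.Affine

namespace Fermat.Agent.Lib.S13

variable {L : Type*} [Field L] {Γ₀ : Type*} [LinearOrderedCommGroupWithZero Γ₀]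
  (v : Valuation L Γ₀) (W : WeierstrassCurve L)

/-- If `1 < v ℓ` and `a₁, a₂, x₁, x₂` are integral then `ℓ² + a₁ ℓ - a₂ - x₁ - x₂` is not
integral. -/
theorem h2_one_lt_v_addX {ℓ a₁ a₂ x₁ x₂ : L} (hℓ : 1 < v ℓ) (h1 : v a₁ ≤ 1) (h2 : v a₂ ≤ 1)
    (hx₁ : v x₁ ≤ 1) (hx₂ : v x₂ ≤ 1) : 1 < v (ℓ ^ 2 + a₁ * ℓ - a₂ - x₁ - x₂) := by
  have hℓ2 : v ℓ < v (ℓ ^ 2) := by
    rw [map_pow, pow_two]
    calc v ℓ = 1 * v ℓ := (one_mul _).symm
      _ < v ℓ * v ℓ := mul_lt_mul_of_pos_right hℓ (lt_trans zero_lt_one hℓ)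
  have h1' : 1 < v (ℓ ^ 2) := lt_trans hℓ hℓ2
  have ha : v (a₁ * ℓ) ≤ v ℓ := by
    rw [map_mul]
    calc v a₁ * v ℓ ≤ 1 * v ℓ := by gcongr
      _ = v ℓ := one_mul _
  have h3 : v (a₂ + x₁ + x₂) ≤ 1 := v.map_add_le (v.map_add_le h2 hx₁) hx₂
  have hrest : v (a₁ * ℓ - (a₂ + x₁ + x₂)) < v (ℓ ^ 2) :=
    v.map_sub_lt (lt_of_le_of_lt ha hℓ2) (lt_of_le_of_lt h3 h1')
  have e : ℓ ^ 2 + a₁ * ℓ - a₂ - x₁ - x₂ = ℓ ^ 2 + (a₁ * ℓ - (a₂ + x₁ + x₂)) := by ring
  rw [e, v.map_add_eq_of_lt_left hrest]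
  exact h1'

variable [DecidableEq L]

/-- **(K), general model.** Two integral points with the same reduction, which is nonsingular at
the first point, are equal or differ by a point of the kernel of reduction. -/
theorem h2_sub_mem_kernel_of_reduction_eq (h1 : v W.a₁ ≤ 1) (h2 : v W.a₂ ≤ 1)
    {x₁ y₁ x₂ y₂ : L} (hP : W.toAffine.Nonsingular x₁ y₁)
    (hQ : W.toAffine.Nonsingular x₂ y₂) (hx₁ : v x₁ ≤ 1) (hx₂ : v x₂ ≤ 1)
    (hx : v (x₁ - x₂) < 1) (hy : v (y₁ - y₂) < 1)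
    (hns : v (2 * y₁ + W.a₁ * x₁ + W.a₃) = 1 ∨
      v (3 * x₁ ^ 2 + 2 * W.a₂ * x₁ + W.a₄ - W.a₁ * y₁) = 1) :
    Point.some x₁ y₁ hP = Point.some x₂ y₂ hQ ∨
      ∃ (x₃ y₃ : L) (h₃ : W.toAffine.Nonsingular x₃ y₃),
        Point.some x₁ y₁ hP - Point.some x₂ y₂ hQ = Point.some x₃ y₃ h₃ ∧ 1 < v x₃ := by
  have hQ' : W.toAffine.Nonsingular x₂ (W.toAffine.negY x₂ y₂) :=
    (Affine.nonsingular_neg (W' := W.toAffine) x₂ y₂).mpr hQ
  have hnegQ : -Point.some x₂ y₂ hQ = Point.some x₂ (W.toAffine.negY x₂ y₂) hQ' :=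
    Point.neg_some hQ
  have hnegnegY : W.toAffine.negY x₂ (W.toAffine.negY x₂ y₂) = y₂ := Affine.negY_negY x₂ y₂
  have eqP := (Affine.equation_iff _ _).mp hP.1
  have eqQ := (Affine.equation_iff _ _).mp hQ.1
  have hv2 : v (2 : L) ≤ 1 := by
    have : (2 : L) = 1 + 1 := by norm_num
    rw [this]
    exact v.map_add_le (le_of_eq v.map_one) (le_of_eq v.map_one)
  by_cases hxx : x₁ = x₂
  · by_cases hyy : y₁ = y₂
    · left; subst hxx; subst hyy; rfl
    · right
      subst hxx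
      have hy1 : y₁ = W.toAffine.negY x₁ y₂ := by
        rcases Affine.Y_eq_of_X_eq hP.1 hQ.1 rfl with h | h
        · exact absurd h hyy
        · exact h
      -- `P - Q = P + P`
      have hy2 : y₂ = W.toAffine.negY x₁ y₁ := by rw [hy1, Affine.negY_negY]
      have hne : y₁ ≠ W.toAffine.negY x₁ y₁ := by rw [← hy2]; exact hyy
      have hd : y₁ - y₂ = 2 * y₁ + W.a₁ * x₁ + W.a₃ := by
        rw [hy2]; simp only [Affine.negY]; ring
      have h2y : v (2 * y₁ + W.a₁ * x₁ + W.a₃) < 1 := by rw [← hd]; exact hy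
      have hf' : v (3 * x₁ ^ 2 + 2 * W.a₂ * x₁ + W.a₄ - W.a₁ * y₁) = 1 := by
        rcases hns with h | h
        · exact absurd h (ne_of_lt h2y)
        · exact h
      have h2y0 : 2 * y₁ + W.a₁ * x₁ + W.a₃ ≠ 0 := by
        rw [← hd]; exact sub_ne_zero.mpr hyy
      refine ⟨_, _, Affine.nonsingular_add hP hP fun hxy => hne hxy.right, ?_, ?_⟩
      · rw [sub_eq_add_neg, hnegQ]
        have : Point.some x₁ (W.toAffine.negY x₁ y₂) hQ' = Point.some x₁ y₁ hP := by
          congr 1; exact hy1.symm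
        rw [this]
        exact Point.add_self_of_Y_ne hne
      · have hsl : W.toAffine.slope x₁ x₁ y₁ y₁ =
            (3 * x₁ ^ 2 + 2 * W.a₂ * x₁ + W.a₄ - W.a₁ * y₁) / (2 * y₁ + W.a₁ * x₁ + W.a₃) := by
          rw [Affine.slope_of_Y_ne rfl hne]
          congr 1
          simp only [Affine.negY]; ring
        have hℓ : 1 < v (W.toAffine.slope x₁ x₁ y₁ y₁) := by
          rw [hsl, map_div₀, hf', one_div]
          have hpos : 0 < v (2 * y₁ + W.a₁ * x₁ + W.a₃) := v.pos_iff.mpr h2y0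
          exact (one_lt_inv₀ hpos).mpr h2y
        have := h2_one_lt_v_addX v hℓ h1 h2 hx₁ hx₁
        simp only [Affine.addX]
        exact this
  · right
    have hxy : ¬ (x₁ = x₂ ∧ y₁ = W.toAffine.negY x₂ (W.toAffine.negY x₂ y₂)) := fun h => hxx h.1
    refine ⟨_, _, Affine.nonsingular_add hP hQ' hxy, ?_, ?_⟩
    · rw [sub_eq_add_neg, hnegQ]
      exact Point.add_of_X_ne hxx
    · set N := y₁ + y₂ + W.a₁ * x₂ + W.a₃ with hN
      have hsl : W.toAffine.slope x₁ x₂ y₁ (W.toAffine.negY x₂ y₂) = N / (x₁ - x₂) := by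
        rw [Affine.slope_of_X_ne hxx]
        congr 1
        simp only [Affine.negY, hN]; ring
      have hx0 : x₁ - x₂ ≠ 0 := sub_ne_zero.mpr hxx
      have hxpos : 0 < v (x₁ - x₂) := v.pos_iff.mpr hx0
      have hℓ : 1 < v (W.toAffine.slope x₁ x₂ y₁ (W.toAffine.negY x₂ y₂)) := by
        rw [hsl, map_div₀, one_lt_div₀ hxpos]
        rcases hns with h | h
        · -- `v (2 y₁ + a₁ x₁ + a₃) = 1`
          have e : N = (2 * y₁ + W.a₁ * x₁ + W.a₃) - ((y₁ - y₂) + W.a₁ * (x₁ - x₂)) := by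
            rw [hN]; ring
          have hsmall : v ((y₁ - y₂) + W.a₁ * (x₁ - x₂)) < 1 := by
            apply v.map_add_lt hy
            rw [map_mul]
            calc v W.a₁ * v (x₁ - x₂) ≤ 1 * v (x₁ - x₂) := by gcongr
              _ = v (x₁ - x₂) := one_mul _
              _ < 1 := hx
          have hlt : v ((y₁ - y₂) + W.a₁ * (x₁ - x₂)) < v (2 * y₁ + W.a₁ * x₁ + W.a₃) := by
            rw [h]; exact hsmall
          rw [e, v.map_sub_eq_of_lt_left hlt, h]
          exact hx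
        · -- `v (f_x(P)) = 1`
          set g := x₁ ^ 2 + x₁ * x₂ + x₂ ^ 2 + W.a₂ * (x₁ + x₂) + W.a₄ - W.a₁ * y₁ with hg
          have hgv : v g = 1 := by
            have e : g = (3 * x₁ ^ 2 + 2 * W.a₂ * x₁ + W.a₄ - W.a₁ * y₁) -
                (x₁ - x₂) * (x₂ + 2 * x₁ + W.a₂) := by rw [hg]; ring
            have hsmall : v ((x₁ - x₂) * (x₂ + 2 * x₁ + W.a₂)) < 1 := by
              rw [map_mul]
              have h2x : v (2 * x₁) ≤ 1 := by
                rw [map_mul]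
                calc v 2 * v x₁ ≤ 1 * 1 := mul_le_mul' hv2 hx₁
                  _ = 1 := one_mul 1
              have : v (x₂ + 2 * x₁ + W.a₂) ≤ 1 := v.map_add_le (v.map_add_le hx₂ h2x) h2
              calc v (x₁ - x₂) * v (x₂ + 2 * x₁ + W.a₂) ≤ v (x₁ - x₂) * 1 := by
                    gcongr
                _ < 1 := by rw [mul_one]; exact hx
            have hlt : v ((x₁ - x₂) * (x₂ + 2 * x₁ + W.a₂)) <
                v (3 * x₁ ^ 2 + 2 * W.a₂ * x₁ + W.a₄ - W.a₁ * y₁) := by rw [h]; exact hsmall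
            rw [e, v.map_sub_eq_of_lt_left hlt, h]
          have hprod : (y₁ - y₂) * N = (x₁ - x₂) * g := by
            rw [hg, hN]; linear_combination eqP - eqQ
          have hvprod : v (y₁ - y₂) * v N = v (x₁ - x₂) := by
            rw [← map_mul, hprod, map_mul, hgv, mul_one]
          have hpos2 : 0 < v N := by
            rcases (zero_le : 0 ≤ v N).eq_or_lt with h0 | h0
            · rw [← h0, mul_zero] at hvprod
              exact absurd hvprod.symm (ne_of_gt hxpos)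
            · exact h0
          calc v (x₁ - x₂) = v (y₁ - y₂) * v N := hvprod.symm
            _ < 1 * v N := mul_lt_mul_of_pos_right hy hpos2
            _ = v N := one_mul _
      have := h2_one_lt_v_addX v hℓ h1 h2 hx₁ hx₂
      simp only [Affine.addX]
      exact this

end Fermat.Agent.Lib.S13
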