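/-
S13 project, stream (D) (helper2): the local statement (L1) at `2`.

Setting: `F` a field, `L` an extension, `v` a valuation on `L` with `v 2 < 1`, `σ : L ≃ₐ[F] L` an
inertia-like automorphism, `W₀ : Y² + XY = X³ + a₂X² + a₄X` over `F` with `v a₂ ≤ 1`,
`0 < v a₄ < 1`, and `t₁, t₂ ∈ L` the roots of `T² + T - a₂`.

(L1)  for every point `P` of `W₀⁄L` killed by an `n` with `v n = 1`:
      `σ • (σ • P - P) = σ • P - P`.

Inputs: the kernel of reduction (helper9, `KerTorsion.lean`), the same-reduction lemma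
(`TwoReductionK.lean`), and the contract `SameBranchStatement` (component analysis, helper6):
two intermediate points on the same branch with the same `v x` differ by a point of identity type.
-/
import Mathlib
import Fermat.Prelude.Def_FLTPrelim_GaloisRep
import Fermat.Agent.Lib.S13.KerTorsion
import Fermat.Agent.Lib.S13.TwoReductionK
import Fermat.Agent.Lib.S13.TwoReduction

set_option autoImplicit false

open WeierstrassCurve WeierstrassCurve.Affine
open scoped WeierstrassCurve.Affine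

namespace Fermat.Agent.Lib.S13

section contracts

variable {L : Type*} [Field L] [DecidableEq L] {Γ₀ : Type*} [LinearOrderedCommGroupWithZero Γ₀]
  (v : Valuation L Γ₀) (W : WeierstrassCurve L)

/-- `P` is `0` or has `1 ≤ v x` (identity component). -/
def TwoIdent (P : W.toAffine.Point) : Prop :=
  P = 0 ∨ ∃ (x y : L) (h : W.toAffine.Nonsingular x y), P = .some x y h ∧ 1 ≤ v x

/-- Contract (component analysis, clause "minus + plus, same value"): two intermediate points on
the branch `Y ≈ t X` with the same `v x` differ by a point of identity type. -/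
def SameBranchStatement (t : L) : Prop :=
  ∀ {x₁ y₁ x₂ y₂ : L} (hP : W.toAffine.Nonsingular x₁ y₁) (hQ : W.toAffine.Nonsingular x₂ y₂),
    v W.a₄ < v x₁ → v x₁ < 1 → v x₂ = v x₁ → v (y₁ - t * x₁) < v x₁ → v (y₂ - t * x₂) < v x₂ →
    TwoIdent v W (Point.some x₁ y₁ hP - Point.some x₂ y₂ hQ)

/-- Contract (component analysis, (M1)): an intermediate `n`-torsion point has
`(v x)ⁿ ∈ ⟨(v a₄)²⟩`. -/
def NodeTorsionStatement : Prop :=
  ∀ {x y : L} (h : W.toAffine.Nonsingular x y), v W.a₄ < v x → v x < 1 →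
    ∀ n : ℕ, n • Point.some x y h = 0 → ∃ k : ℤ, v x ^ n = v W.a₄ ^ (2 * k)

omit [DecidableEq L] in
theorem h2l_ident_of_ker {P : W.toAffine.Point} (hP : h9k_Ker v W P) : TwoIdent v W P := by
  rcases P with _ | ⟨x, y, h⟩
  · exact Or.inl rfl
  · exact Or.inr ⟨x, y, h, rfl, le_of_lt hP⟩

end contracts

section local1

variable {F L : Type*} [Field F] [Field L] [Algebra F L] [DecidableEq L] {Γ₀ : Type*}
  [LinearOrderedCommGroupWithZero Γ₀] (v : Valuation L Γ₀) (W₀ : WeierstrassCurve F)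
  (σ : L ≃ₐ[F] L)

theorem h2l_smul_some_eq {x y : L} (h : (W₀⁄L).Nonsingular x y) :
    ∃ h' : (W₀⁄L).Nonsingular (σ x) (σ y),
      σ • (Point.some x y h : (W₀⁄L).Point) = Point.some (σ x) (σ y) h' :=
  ⟨_, rfl⟩

theorem h2l_smul_nsmul (n : ℕ) (P : (W₀⁄L).Point) : σ • (n • P) = n • (σ • P) :=
  map_nsmul (Point.map (W' := W₀) σ.toAlgHom) n P

theorem h2l_smul_sub (P Q : (W₀⁄L).Point) : σ • (P - Q) = σ • P - σ • Q :=
  map_sub (Point.map (W' := W₀) σ.toAlgHom) P Q

theorem h2l_smul_add (P Q : (W₀⁄L).Point) : σ • (P + Q) = σ • P + σ • Q :=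
  map_add (Point.map (W' := W₀) σ.toAlgHom) P Q

variable {t₁ t₂ : L}

omit [DecidableEq L] in
/-- An inertia-like automorphism fixes the tangent slopes. -/
theorem h2l_sigma_t (hσm : ∀ x, v x ≤ 1 → v (σ x - x) < 1)
    (hS : TwoSetting v (W₀.baseChange L) t₁ t₂) : σ t₁ = t₁ := by
  have ha2 : (W₀.baseChange L).a₂ = algebraMap F L W₀.a₂ := rfl
  have e : t₁ ^ 2 + t₁ = algebraMap F L W₀.a₂ := by
    have h1 := hS.hsum
    have h2 := hS.hprod
    rw [ha2] at h2
    have : t₂ = -1 - t₁ := by linear_combination h1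
    rw [this] at h2
    linear_combination -h2
  have e' : (σ t₁) ^ 2 + σ t₁ = algebraMap F L W₀.a₂ := by
    have := congrArg σ e
    rwa [map_add, map_pow, σ.commutes] at this
  have hprod : (σ t₁ - t₁) * (σ t₁ - t₂) = 0 := by
    have h1 := hS.hsum
    have h2 := hS.hprod
    rw [ha2] at h2
    linear_combination e' - (σ t₁) * h1 + h2
  rcases mul_eq_zero.mp hprod with h | h
  · exact sub_eq_zero.mp h
  · exfalso
    have h3 : σ t₁ = t₂ := sub_eq_zero.mp h
    have h4 := hσm t₁ (h2t_v_t_le_one hS)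
    rw [h3, Valuation.map_sub_swap, h2t_v_delta hS] at h4
    exact lt_irrefl _ h4

/-- A point with `v x = 1` is moved by `σ` within its class modulo the kernel of reduction. -/
theorem h2l_ker_of_unit (hσv : ∀ x, v (σ x) = v x) (hσm : ∀ x, v x ≤ 1 → v (σ x - x) < 1)
    (hS : TwoSetting v (W₀.baseChange L) t₁ t₂)
    {x y : L} (h : (W₀⁄L).Nonsingular x y) (hx : v x = 1) :
    h9k_Ker v (W₀.baseChange L)
      (σ • (Point.some x y h : (W₀⁄L).Point) - Point.some x y h) := by
  obtain ⟨h', hσP⟩ := h2l_smul_some_eq W₀ σ h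
  have hy : v y ≤ 1 := h2t_v_y_le_one hS h.1 hx.le
  have hxσ : v (x - σ x) < 1 := by rw [Valuation.map_sub_swap]; exact hσm x hx.le
  have hyσ : v (y - σ y) < 1 := by rw [Valuation.map_sub_swap]; exact hσm y hy
  have hK := h2_sub_mem_kernel_of_reduction_eq v (W₀.baseChange L) (h2t_v_a1_le hS)
    hS.va2 (x₁ := x) (y₁ := y) (x₂ := σ x) (y₂ := σ y) h h' hx.le
    (by rw [hσv]; exact hx.le) hxσ hyσ (Or.inl (h2t_ns_unit hS h.1 hx))
  rw [hσP]
  have hneg : (Point.some (σ x) (σ y) h' : (W₀⁄L).Point) - Point.some x y h =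
      -((Point.some x y h : (W₀⁄L).Point) - Point.some (σ x) (σ y) h') := by abel
  rw [hneg]
  apply h9k_Ker_neg
  rcases hK with hK | ⟨x₃, y₃, h₃, hsub, hx₃⟩
  · rw [hK, sub_self]; exact trivial
  · rw [hsub]; exact hx₃

/-- If `P` is in the kernel of reduction, so is `σ • P - P`. -/
theorem h2l_ker_of_ker (hσv : ∀ x, v (σ x) = v x)
    (hS : TwoSetting v (W₀.baseChange L) t₁ t₂)
    {P : (W₀⁄L).Point} (hP : h9k_Ker v (W₀.baseChange L) P) :
    h9k_Ker v (W₀.baseChange L) (σ • P - P) := by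
  have h1 : h9k_Ker v (W₀.baseChange L) (σ • P) := by
    rcases P with _ | ⟨x, y, h⟩
    · exact trivial
    · show 1 < v (σ x)
      rw [hσv]; exact hP
  rw [sub_eq_add_neg]
  exact h9k_ker_add v _ (h2t_v_a1_le hS) hS.va2 (h2t_v_a3_le hS) hS.va4.le (h2t_v_a6_le hS) _ _ h1
    (h9k_Ker_neg v _ _ hP)

/-- A point of identity type killed by `n`, `v n = 1`, is fixed by `σ`. -/
theorem h2l_fixed_of_ident (hσv : ∀ x, v (σ x) = v x) (hσm : ∀ x, v x ≤ 1 → v (σ x - x) < 1)
    (hS : TwoSetting v (W₀.baseChange L) t₁ t₂)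
    {P : (W₀⁄L).Point} (hP : TwoIdent v (W₀.baseChange L) P)
    (n : ℕ) (hn : v (n : L) = 1) (hnP : n • P = 0) : σ • P = P := by
  have hker : h9k_Ker v (W₀.baseChange L) (σ • P - P) := by
    rcases hP with rfl | ⟨x, y, h, rfl, hx⟩
    · rw [smul_zero, sub_zero]; exact trivial
    · rcases lt_or_eq_of_le hx with hlt | heq
      · exact h2l_ker_of_ker v W₀ σ hσv hS hlt
      · exact h2l_ker_of_unit v W₀ σ hσv hσm hS h heq.symm
  have hn0 : n • (σ • P - P) = 0 := by
    rw [nsmul_sub, ← h2l_smul_nsmul, hnP, smul_zero, sub_zero]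
  have := h9k_eq_zero_of_nsmul v _ (h2t_v_a1_le hS) hS.va2 (h2t_v_a3_le hS) hS.va4.le
    (h2t_v_a6_le hS) _ hker n hn hn0
  exact sub_eq_zero.mp this

/-- `σ • P - P` is of identity type, for every point `P`. -/
theorem h2l_ident_sub (hσv : ∀ x, v (σ x) = v x) (hσm : ∀ x, v x ≤ 1 → v (σ x - x) < 1)
    (hS : TwoSetting v (W₀.baseChange L) t₁ t₂)
    (hC1 : SameBranchStatement v (W₀.baseChange L) t₁)
    (hC2 : SameBranchStatement v (W₀.baseChange L) t₂)
    (P : (W₀⁄L).Point) : TwoIdent v (W₀.baseChange L) (σ • P - P) := by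
  have hσt₁ : σ t₁ = t₁ := h2l_sigma_t v W₀ σ hσm hS
  have hσt₂ : σ t₂ = t₂ := h2l_sigma_t v W₀ σ hσm hS.symm
  rcases P with _ | ⟨x, y, h⟩
  · left
    show σ • (0 : (W₀⁄L).Point) - 0 = 0
    rw [smul_zero, sub_zero]
  · rcases lt_trichotomy (v x) 1 with hlt | heq | hgt
    · rcases le_or_gt (v x) (v (W₀.baseChange L).a₄) with hxb | hxb
      · -- near `T`
        have hσT : σ • (Point.some 0 0 (h2t_nonsingular_T hS) : (W₀⁄L).Point) =
            Point.some 0 0 (h2t_nonsingular_T hS) := by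
          obtain ⟨h', e⟩ := h2l_smul_some_eq W₀ σ (h2t_nonsingular_T hS)
          rw [e]
          congr 1 <;> exact map_zero σ
        by_cases hx0 : x = 0
        · subst hx0
          have hy0 : y = 0 := h2t_y_eq_zero hS h.1
          subst hy0
          left
          rw [hσT, sub_self]
        · obtain ⟨y₃, h₃, hadd⟩ := h2t_add_T hS h hx0
          have hxpos : 0 < v x := v.pos_iff.mpr hx0
          have hge : 1 ≤ v ((W₀.baseChange L).a₄ / x) := by
            rw [map_div₀, one_le_div₀ hxpos]; exact hxb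
          have hsub : σ • (Point.some x y h : (W₀⁄L).Point) - Point.some x y h =
              σ • (Point.some _ y₃ h₃ : (W₀⁄L).Point) - Point.some _ y₃ h₃ := by
            rw [← hadd, h2l_smul_add, hσT]; abel
          rw [hsub]
          apply h2l_ident_of_ker
          rcases lt_or_eq_of_le hge with hlt' | heq'
          · exact h2l_ker_of_ker v W₀ σ hσv hS hlt'
          · exact h2l_ker_of_unit v W₀ σ hσv hσm hS h₃ heq'.symm
      · -- intermediate
        obtain ⟨h', hσP⟩ := h2l_smul_some_eq W₀ σ h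
        rw [hσP]
        rcases h2t_int_cases hS h.1 hxb hlt with hbr | hbr
        · refine hC1 h' h (by rw [hσv]; exact hxb) (by rw [hσv]; exact hlt) (hσv x).symm ?_ hbr
          have : σ y - t₁ * σ x = σ (y - t₁ * x) := by rw [map_sub, map_mul, hσt₁]
          rw [this, hσv, hσv]; exact hbr
        · refine hC2 h' h (by rw [hσv]; exact hxb) (by rw [hσv]; exact hlt) (hσv x).symm ?_ hbr
          have : σ y - t₂ * σ x = σ (y - t₂ * x) := by rw [map_sub, map_mul, hσt₂]
          rw [this, hσv, hσv]; exact hbr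
    · exact h2l_ident_of_ker v _ (h2l_ker_of_unit v W₀ σ hσv hσm hS h heq)
    · exact h2l_ident_of_ker v _ (h2l_ker_of_ker v W₀ σ hσv hS hgt)

/-- **(L1)** An inertia-like automorphism acts unipotently on the prime-to-`2` torsion. -/
theorem h2l_unipotent (hσv : ∀ x, v (σ x) = v x) (hσm : ∀ x, v x ≤ 1 → v (σ x - x) < 1)
    (hS : TwoSetting v (W₀.baseChange L) t₁ t₂)
    (hC1 : SameBranchStatement v (W₀.baseChange L) t₁)
    (hC2 : SameBranchStatement v (W₀.baseChange L) t₂)
    (n : ℕ) (hn : v (n : L) = 1) (P : (W₀⁄L).Point) (hnP : n • P = 0) :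
    σ • (σ • P - P) = σ • P - P := by
  apply h2l_fixed_of_ident v W₀ σ hσv hσm hS (h2l_ident_sub v W₀ σ hσv hσm hS hC1 hC2 P) n hn
  rw [nsmul_sub, ← h2l_smul_nsmul, hnP, smul_zero, sub_zero]

end local1

end Fermat.Agent.Lib.S13
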