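/-
S13 project, stream (D) (helper2): the local statement (L2) at `2`: no rational point of order `p`.

Setting of `TwoLocal.lean`, plus: the base field `F` has residue field `𝔽₂` and value group
`(v 2)^ℤ` (think `F = ℚ`, `v` above `2`), elements of `L` fixed by all `F`-automorphisms are in `F`,
`v a₄ = (v 2)^M` with `p ∤ M`, `p ≥ 5` prime.

(L2)  a point `P` of `W₀⁄L` fixed by all `σ : L ≃ₐ[F] L` with `p • P = 0` is `0`.
-/
import Mathlib
import Fermat.Prelude.Def_FLTPrelim_GaloisRep
import Fermat.Agent.Lib.S13.TwoLocal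

set_option autoImplicit false

open WeierstrassCurve WeierstrassCurve.Affine
open scoped WeierstrassCurve.Affine

namespace Fermat.Agent.Lib.S13

section local2

variable {F L : Type*} [Field F] [Field L] [Algebra F L] [DecidableEq L] {Γ₀ : Type*}
  [LinearOrderedCommGroupWithZero Γ₀] (v : Valuation L Γ₀) (W₀ : WeierstrassCurve F)

/-- A point killed by two coprime integers is `0`. -/
theorem h2r_eq_zero_of_coprime {A : Type*} [AddGroup A] {Q : A} {m n : ℕ} (hmn : Nat.Coprime m n)
    (hm : m • Q = 0) (hn : n • Q = 0) : Q = 0 := by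
  have h1 : addOrderOf Q ∣ m := addOrderOf_dvd_of_nsmul_eq_zero hm
  have h2 : addOrderOf Q ∣ n := addOrderOf_dvd_of_nsmul_eq_zero hn
  have h3 : addOrderOf Q ∣ 1 := by
    have := Nat.dvd_gcd h1 h2
    rwa [hmn] at this
  exact AddMonoid.addOrderOf_eq_one_iff.mp (Nat.dvd_one.mp h3)

/-- Coordinates of a point fixed by all automorphisms are fixed. -/
theorem h2r_coords_fixed {x y : L} (h : (W₀⁄L).Nonsingular x y)
    (hfix : ∀ σ : L ≃ₐ[F] L, σ • (Point.some x y h : (W₀⁄L).Point) = Point.some x y h)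
    (σ : L ≃ₐ[F] L) : σ x = x ∧ σ y = y := by
  obtain ⟨h', e⟩ := h2l_smul_some_eq W₀ σ h
  have := (hfix σ).symm.trans e
  simp only [Point.some.injEq] at this
  exact ⟨this.1.symm, this.2.symm⟩

variable {t₁ t₂ : L}

/-- **Step 4**: there is no rational point with `v x = 1` killed by a prime `p ≥ 5`, `v p = 1`. -/
theorem h2r_no_unit (hS : TwoSetting v (W₀.baseChange L) t₁ t₂)
    (hGal : ∀ z : L, (∀ σ : L ≃ₐ[F] L, σ z = z) → ∃ r : F, z = algebraMap F L r)
    (hR1 : ∀ r : F, v (algebraMap F L r) ≤ 1 →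
      v (algebraMap F L r) < 1 ∨ v (algebraMap F L r - 1) < 1)
    (p : ℕ) (hp : p.Prime) (hp5 : 5 ≤ p) (hvp : v (p : L) = 1)
    {x y : L} (h : (W₀⁄L).Nonsingular x y) (hx : v x = 1)
    (hfix : ∀ σ : L ≃ₐ[F] L, σ • (Point.some x y h : (W₀⁄L).Point) = Point.some x y h)
    (hpQ : p • (Point.some x y h : (W₀⁄L).Point) = 0) : False := by
  set Q : (W₀⁄L).Point := Point.some x y h with hQ
  have hQ0 : Q ≠ 0 := Point.some_ne_zero h
  have hcop2 : Nat.Coprime 2 p := by
    rw [Nat.coprime_comm]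
    exact (Nat.Prime.coprime_iff_not_dvd hp).mpr (fun hd => by
      have := (Nat.prime_dvd_prime_iff_eq hp Nat.prime_two).mp hd; omega)
  have hcop3 : Nat.Coprime 3 p := by
    rw [Nat.coprime_comm]
    exact (Nat.Prime.coprime_iff_not_dvd hp).mpr (fun hd => by
      have := (Nat.prime_dvd_prime_iff_eq hp Nat.prime_three).mp hd; omega)
  have hkerzero : ∀ R : (W₀⁄L).Point, h9k_Ker v (W₀.baseChange L) R → p • R = 0 → R = 0 :=
    fun R hR hpR => h9k_eq_zero_of_nsmul v _ (h2t_v_a1_le hS) hS.va2 (h2t_v_a3_le hS) hS.va4.le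
      (h2t_v_a6_le hS) R hR p hvp hpR
  rcases h2t_double_unit hS h hx with h0 | ⟨x', y', h', hadd, hx'⟩
  · -- `2 • Q = 0`
    apply hQ0
    exact h2r_eq_zero_of_coprime hcop2 (by rw [two_nsmul]; exact h0) hpQ
  · set D : (W₀⁄L).Point := Point.some x' y' h' with hD
    have hDQ : D = Q + Q := hadd.symm
    have hfixD : ∀ σ : L ≃ₐ[F] L, σ • D = D := by
      intro σ
      rw [hDQ, h2l_smul_add, hfix σ]
    have hpD : p • D = 0 := by rw [hDQ, nsmul_add, hpQ, add_zero]
    -- rational coordinates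
    obtain ⟨x₀, hx₀⟩ := hGal x (fun σ => (h2r_coords_fixed W₀ h hfix σ).1)
    obtain ⟨y₀, hy₀⟩ := hGal y (fun σ => (h2r_coords_fixed W₀ h hfix σ).2)
    obtain ⟨x₀', hx₀'⟩ := hGal x' (fun σ => (h2r_coords_fixed W₀ h' hfixD σ).1)
    obtain ⟨y₀', hy₀'⟩ := hGal y' (fun σ => (h2r_coords_fixed W₀ h' hfixD σ).2)
    have hy1 : v y ≤ 1 := h2t_v_y_le_one hS h.1 hx.le
    have hy1' : v y' ≤ 1 := h2t_v_y_le_one hS h'.1 hx'.le
    have hxm : v (x - 1) < 1 := by
      rcases hR1 x₀ (by rw [← hx₀]; exact hx.le) with hlt | hlt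
      · rw [← hx₀, hx] at hlt; exact absurd hlt (lt_irrefl _)
      · rw [← hx₀] at hlt; exact hlt
    have hxm' : v (x' - 1) < 1 := by
      rcases hR1 x₀' (by rw [← hx₀']; exact hx'.le) with hlt | hlt
      · rw [← hx₀', hx'] at hlt; exact absurd hlt (lt_irrefl _)
      · rw [← hx₀'] at hlt; exact hlt
    have hxx : v (x - x') < 1 := by
      have : x - x' = (x - 1) - (x' - 1) := by ring
      rw [this]; exact v.map_sub_lt hxm hxm'
    have hyy : v (y - y') < 1 ∨ v (y - y' - 1) < 1 := by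
      have hle : v (algebraMap F L (y₀ - y₀')) ≤ 1 := by
        rw [map_sub, ← hy₀, ← hy₀']
        exact le_trans (v.map_sub _ _) (max_le hy1 hy1')
      have := hR1 (y₀ - y₀') hle
      rwa [map_sub, ← hy₀, ← hy₀'] at this
    rcases hyy with hyy | hyy
    · -- same reduction: `Q - D` is in the kernel
      have hK := h2_sub_mem_kernel_of_reduction_eq v (W₀.baseChange L) (h2t_v_a1_le hS) hS.va2
        h h' hx.le hx'.le hxx hyy (Or.inl (h2t_ns_unit hS h.1 hx))
      have hker : h9k_Ker v (W₀.baseChange L) (Q - D) := by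
        rcases hK with hK | ⟨x₃, y₃, h₃, hsub, hx₃⟩
        · rw [hQ, hD, hK, sub_self]; exact trivial
        · rw [hQ, hD, hsub]; exact hx₃
      have h0 := hkerzero _ hker (by rw [nsmul_sub, hpQ, hpD, sub_zero])
      apply hQ0
      have h1 : Q = D := sub_eq_zero.mp h0
      rw [hDQ] at h1
      have h2 : Q + 0 = Q + Q := by rw [add_zero]; exact h1
      exact (add_left_cancel h2).symm
    · -- opposite reductions: `D + Q` is in the kernel
      have hnQns : (W₀⁄L).Nonsingular x ((W₀⁄L).negY x y) :=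
        (Affine.nonsingular_neg (W' := (W₀⁄L)) x y).mpr h
      have hnegQ : -Q = Point.some x ((W₀⁄L).negY x y) hnQns := Point.neg_some h
      have hnegY : (W₀⁄L).negY x y = -y - x := h2t_negY hS x y
      have hxx' : v (x' - x) < 1 := by rw [Valuation.map_sub_swap]; exact hxx
      have h2y : v (2 * y) < 1 := by
        rw [map_mul]
        calc v 2 * v y ≤ v 2 * 1 := by gcongr
          _ = v 2 := mul_one _
          _ < 1 := hS.v2
      have hyy' : v (y' - (W₀⁄L).negY x y) < 1 := by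
        have : y' - (W₀⁄L).negY x y = -(y - y' - 1) + (2 * y + (x - 1)) := by
          rw [hnegY]; ring
        rw [this]
        apply v.map_add_lt
        · rw [Valuation.map_neg]; exact hyy
        · exact v.map_add_lt h2y hxm
      have hK := h2_sub_mem_kernel_of_reduction_eq v (W₀.baseChange L) (h2t_v_a1_le hS) hS.va2
        h' hnQns hx'.le hx.le hxx' hyy' (Or.inl (h2t_ns_unit hS h'.1 hx'))
      have hker : h9k_Ker v (W₀.baseChange L) (D + Q) := by
        have e : D + Q = D - -Q := by rw [sub_neg_eq_add]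
        rcases hK with hK | ⟨x₃, y₃, h₃, hsub, hx₃⟩
        · rw [e, hD, hnegQ, hK, sub_self]; exact trivial
        · rw [e, hD, hnegQ, hsub]; exact hx₃
      have h0 := hkerzero _ hker (by rw [nsmul_add, hpQ, hpD, add_zero])
      apply hQ0
      refine h2r_eq_zero_of_coprime hcop3 ?_ hpQ
      rw [← h0, hDQ]
      abel

/-- **(L2)**: no rational point of order `p`. -/
theorem h2r_no_rational_torsion (hS : TwoSetting v (W₀.baseChange L) t₁ t₂)
    (hC4 : NodeTorsionStatement v (W₀.baseChange L))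
    (hGal : ∀ z : L, (∀ σ : L ≃ₐ[F] L, σ z = z) → ∃ r : F, z = algebraMap F L r)
    (hR1 : ∀ r : F, v (algebraMap F L r) ≤ 1 →
      v (algebraMap F L r) < 1 ∨ v (algebraMap F L r - 1) < 1)
    (hR2 : ∀ r : F, r ≠ 0 → ∃ k : ℤ, v (algebraMap F L r) = v (2 : L) ^ k)
    (h20 : (2 : L) ≠ 0)
    (p : ℕ) (hp : p.Prime) (hp5 : 5 ≤ p) (hvp : v (p : L) = 1)
    (M : ℕ) (hM : v (W₀.baseChange L).a₄ = v (2 : L) ^ M) (hpM : ¬ p ∣ M)
    (P : (W₀⁄L).Point) (hfix : ∀ σ : L ≃ₐ[F] L, σ • P = P) (hpP : p • P = 0) : P = 0 := by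
  have hcop2 : Nat.Coprime 2 p := by
    rw [Nat.coprime_comm]
    exact (Nat.Prime.coprime_iff_not_dvd hp).mpr (fun hd => by
      have := (Nat.prime_dvd_prime_iff_eq hp Nat.prime_two).mp hd; omega)
  rcases P with _ | ⟨x, y, h⟩
  · rfl
  · exfalso
    set Q : (W₀⁄L).Point := Point.some x y h with hQ
    have hQ0 : Q ≠ 0 := Point.some_ne_zero h
    rcases lt_trichotomy (v x) 1 with hlt | heq | hgt
    · rcases le_or_gt (v x) (v (W₀.baseChange L).a₄) with hxb | hxb
      · -- near `T`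
        rcases h2t_double_nearT hS h hxb with h0 | ⟨x₃, y₃, h₃, hadd, hx₃⟩
        · exact hQ0 (h2r_eq_zero_of_coprime hcop2 (by rw [two_nsmul]; exact h0) hpP)
        · have hfixD : ∀ σ : L ≃ₐ[F] L,
              σ • (Point.some x₃ y₃ h₃ : (W₀⁄L).Point) = Point.some x₃ y₃ h₃ := by
            intro σ
            rw [← hadd, h2l_smul_add, hfix σ]
          have hpD : p • (Point.some x₃ y₃ h₃ : (W₀⁄L).Point) = 0 := by
            rw [← hadd, nsmul_add, hpP, add_zero]
          rcases lt_or_eq_of_le hx₃ with hlt' | heq'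
          · exact h9k_smul_ne_zero v _ (h2t_v_a1_le hS) hS.va2 (h2t_v_a3_le hS) hS.va4.le
              (h2t_v_a6_le hS) h₃ hlt' p hvp hpD
          · exact h2r_no_unit v W₀ hS hGal hR1 p hp hp5 hvp h₃ heq'.symm hfixD hpD
      · -- intermediate
        obtain ⟨k, hk⟩ := hC4 h hxb hlt p hpP
        obtain ⟨x₀, hx₀⟩ := hGal x (fun σ => (h2r_coords_fixed W₀ h hfix σ).1)
        have hx₀0 : x₀ ≠ 0 := by
          rintro rfl
          rw [map_zero] at hx₀
          rw [hx₀, map_zero] at hxb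
          exact not_lt_zero hxb
        obtain ⟨i, hi⟩ := hR2 x₀ hx₀0
        rw [← hx₀] at hi
        have hv2pos : 0 < v (2 : L) := v.pos_iff.mpr h20
        have hv2ne : v (2 : L) ≠ 1 := ne_of_lt hS.v2
        -- `i * p = M * (2 * k)`
        have hexp : i * (p : ℤ) = (M : ℤ) * (2 * k) := by
          apply zpow_right_injective₀ hv2pos hv2ne
          show v (2 : L) ^ (i * (p : ℤ)) = v (2 : L) ^ ((M : ℤ) * (2 * k))
          calc v (2 : L) ^ (i * (p : ℤ)) = (v (2 : L) ^ i) ^ (p : ℤ) := zpow_mul _ _ _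
            _ = v x ^ p := by rw [zpow_natCast, hi]
            _ = v (W₀.baseChange L).a₄ ^ (2 * k) := hk
            _ = (v (2 : L) ^ (M : ℤ)) ^ (2 * k) := by rw [hM, zpow_natCast]
            _ = v (2 : L) ^ ((M : ℤ) * (2 * k)) := (zpow_mul _ _ _).symm
        -- `0 < i < M`
        have hi_pos : 0 < i := by
          have : v (2 : L) ^ i < v (2 : L) ^ (0 : ℤ) := by rw [← hi, zpow_zero]; exact hlt
          exact (zpow_lt_zpow_iff_right_of_lt_one₀ hv2pos hS.v2).mp this
        have hi_lt : i < M := by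
          have : v (2 : L) ^ (M : ℤ) < v (2 : L) ^ i := by
            rw [← hi, zpow_natCast, ← hM]; exact hxb
          exact (zpow_lt_zpow_iff_right_of_lt_one₀ hv2pos hS.v2).mp this
        -- `p ∣ k`
        have hpZ : Prime (p : ℤ) := Nat.prime_iff_prime_int.mp hp
        have hdvd : (p : ℤ) ∣ (M : ℤ) * (2 * k) := ⟨i, by rw [← hexp]; ring⟩
        have hpk : (p : ℤ) ∣ k := by
          rcases hpZ.dvd_or_dvd hdvd with h1 | h1
          · exact absurd (Int.natCast_dvd_natCast.mp h1) hpM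
          · rcases hpZ.dvd_or_dvd h1 with h2 | h2
            · exfalso
              have : (p : ℤ) ∣ ((2 : ℕ) : ℤ) := by simpa using h2
              have := (Nat.prime_dvd_prime_iff_eq hp Nat.prime_two).mp
                (Int.natCast_dvd_natCast.mp this)
              omega
            · exact h2
        obtain ⟨k', rfl⟩ := hpk
        have hp0 : (p : ℤ) ≠ 0 := by exact_mod_cast hp.ne_zero
        have hi2 : i = 2 * (M : ℤ) * k' := by
          have : i * (p : ℤ) = (2 * (M : ℤ) * k') * (p : ℤ) := by rw [hexp]; ring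
          exact mul_right_cancel₀ hp0 this
        have hMpos : (0 : ℤ) < M := lt_trans hi_pos hi_lt
        rcases le_or_gt k' 0 with hk' | hk'
        · have : 2 * (M : ℤ) * k' ≤ 0 :=
            mul_nonpos_of_nonneg_of_nonpos (by linarith) hk'
          linarith
        · have : 2 * (M : ℤ) * 1 ≤ 2 * (M : ℤ) * k' :=
            mul_le_mul_of_nonneg_left (by linarith) (by linarith)
          linarith
    · exact h2r_no_unit v W₀ hS hGal hR1 p hp hp5 hvp h heq hfix hpP
    · exact h9k_smul_ne_zero v _ (h2t_v_a1_le hS) hS.va2 (h2t_v_a3_le hS) hS.va4.le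
        (h2t_v_a6_le hS) h hgt p hvp hpP

end local2

end Fermat.Agent.Lib.S13
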