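/-
S13 project, stream (D) (helper2): assembly of (D1) `UnipotentAtTwoStatement` and (D2)
`NoFixedPointStatement` from the local statements (L1), (L2) and the two contracts of the component
analysis (`SameBranchContract`, `NodeTorsionContract`).
-/
import Mathlib
import Fermat.Prelude.Def_FLTPrelim_FreyPackage
import Fermat.Prelude.Def_FLTPrelim_GaloisRep
import Fermat.Prelude.Def_FLTPrelim_Ramification
import Fermat.Agent.Lib.S05.Inertia
import Fermat.Agent.Lib.S05.Assembly
import Fermat.Agent.Lib.S51.Galois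
import Fermat.Agent.Lib.S13.Defs
import Fermat.Agent.Lib.S13.ValBridge
import Fermat.Agent.Lib.S13.TwoLocal
import Fermat.Agent.Lib.S13.TwoLocalRat
import Fermat.Agent.Lib.S13.TwoFreyNum

set_option autoImplicit false

open WeierstrassCurve WeierstrassCurve.Affine WeierstrassCurve.Affine.Point

namespace Fermat.Agent.Lib.S13

open Fermat.Agent.Lib.S05 Fermat.Agent.Lib.S51

/-- Contract (helper6's component analysis, clause "same branch, same value"). -/
def SameBranchContract : Prop :=
  ∀ {L Γ₀ : Type} [Field L] [DecidableEq L] [LinearOrderedCommGroupWithZero Γ₀]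
    (v : Valuation L Γ₀) (W : WeierstrassCurve L) (t₁ t₂ : L),
    TwoSetting v W t₁ t₂ → SameBranchStatement v W t₁

/-- Contract (helper6's component analysis, (M1)). -/
def NodeTorsionContract : Prop :=
  ∀ {L Γ₀ : Type} [Field L] [DecidableEq L] [LinearOrderedCommGroupWithZero Γ₀]
    (v : Valuation L Γ₀) (W : WeierstrassCurve L) (t₁ t₂ : L),
    TwoSetting v W t₁ t₂ → NodeTorsionStatement v W

/-- The Frey curve over `ℚ̄` with a valuation above `2` is in the setting of the local analysis. -/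
theorem h2f_twoSetting (P : FreyPackage) (A : ValuationSubring Qbar) (hA : A.LiesOverPrime 2) :
    ∃ t₁ t₂ : Qbar, TwoSetting A.valuation (P.freyCurve.baseChange Qbar) t₁ t₂ := by
  obtain ⟨z, hz⟩ := h2f_a2_int P
  obtain ⟨M, hM1, -, hM⟩ := h2f_val_a4 P A hA
  have ha2 : (P.freyCurve.baseChange Qbar).a₂ = (z : Qbar) := by
    show algebraMap ℚ Qbar P.freyCurve.a₂ = (z : Qbar)
    rw [hz, map_intCast]
  have ha4 : (P.freyCurve.baseChange Qbar).a₄ = ((P.freyCurve.a₄ : ℚ) : Qbar) := by
    show algebraMap ℚ Qbar P.freyCurve.a₄ = _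
    exact eq_ratCast _ _
  obtain ⟨s, hs⟩ := IsAlgClosed.exists_pow_nat_eq (1 + 4 * (z : Qbar)) two_pos
  refine ⟨(s - 1) / 2, (-s - 1) / 2, ?_⟩
  refine
    { a1 := ?_, a3 := ?_, a6 := ?_, va2 := ?_, va4 := ?_, a4 := ?_, v2 := h2f_val_two_lt A hA,
      hsum := by ring, hprod := ?_ }
  · show algebraMap ℚ Qbar P.freyCurve.a₁ = 1
    exact map_one _
  · show algebraMap ℚ Qbar P.freyCurve.a₃ = 0
    exact map_zero _
  · show algebraMap ℚ Qbar P.freyCurve.a₆ = 0
    exact map_zero _
  · rw [ha2]; exact valuation_intCast_le_one A z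
  · rw [ha4, hM]
    exact pow_lt_one₀ zero_le (h2f_val_two_lt A hA) (by omega)
  · rw [ha4]
    exact_mod_cast h2f_a4_ne_zero P
  · rw [ha2]
    linear_combination (-1 / 4 : Qbar) * hs

/-- **(D1)** modulo the component-analysis contract. -/
theorem h2f_unipotentAtTwo_of (hC : SameBranchContract) : UnipotentAtTwoStatement := by
  intro P A hA σ hσ x
  have := h9_isAlgebraic_Qbar
  have hσdec := mem_decomposition_of_mem_inertia A hσ
  have hv1 : ∀ z, A.valuation (σ z) = A.valuation z :=
    fun z => valuation_apply_of_mem_decomposition A hσdec z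
  have hv2 : ∀ z, A.valuation z ≤ 1 → A.valuation (σ z - z) < 1 :=
    fun z hz => valuation_sub_lt_one_of_mem_inertia A hσ ((A.valuation_le_one_iff z).mp hz)
  obtain ⟨t₁, t₂, hS⟩ := h2f_twoSetting P A hA
  have hvp : A.valuation (P.p : Qbar) = 1 := by
    have hne : P.p ≠ 2 := by have := P.hp5; omega
    exact valuation_natCast_eq_one_of_prime_ne A hA Nat.prime_two P.pp hne
  apply Subtype.ext
  have hx := x.2
  rw [Submodule.mem_torsionBy_iff, natCast_zsmul] at hx
  exact h2l_unipotent A.valuation P.freyCurve σ hv1 hv2 hS (hC _ _ _ _ hS) (hC _ _ _ _ hS.symm)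
    P.p hvp x.1 hx

/-- **(D2)** modulo the component-analysis contract. -/
theorem h2f_noFixedPoint_of (hC : NodeTorsionContract) : NoFixedPointStatement := by
  intro P x hfix
  obtain ⟨A, hA⟩ := h5_exists_liesOver Qbar Nat.prime_two
  obtain ⟨t₁, t₂, hS⟩ := h2f_twoSetting P A hA
  obtain ⟨M, -, hpM, hM⟩ := h2f_val_a4 P A hA
  have hvp : A.valuation (P.p : Qbar) = 1 := by
    have hne : P.p ≠ 2 := by have := P.hp5; omega
    exact valuation_natCast_eq_one_of_prime_ne A hA Nat.prime_two P.pp hne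
  have ha4 : (P.freyCurve.baseChange Qbar).a₄ = ((P.freyCurve.a₄ : ℚ) : Qbar) := by
    show algebraMap ℚ Qbar P.freyCurve.a₄ = _
    exact eq_ratCast _ _
  have hcast : ∀ r : ℚ, algebraMap ℚ Qbar r = (r : Qbar) := fun r => eq_ratCast _ _
  apply Subtype.ext
  have hx := x.2
  rw [Submodule.mem_torsionBy_iff, natCast_zsmul] at hx
  have hfix' : ∀ σ : GQ, σ • x.1 = x.1 := fun σ => congrArg Subtype.val (hfix σ)
  exact h2r_no_rational_torsion A.valuation P.freyCurve hS (hC _ _ _ _ hS)
    (fun z hz => h9_rational_of_fixed z hz)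
    (fun r hr => by
      rw [hcast] at hr ⊢
      exact h2f_rat_R1 A hA r hr)
    (fun r hr => by
      rw [hcast]
      exact h2f_rat_R2 A hA r hr)
    two_ne_zero P.p P.pp P.hp5 hvp M (by rw [ha4]; exact hM) hpM x.1 hfix' hx

end Fermat.Agent.Lib.S13
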