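/-
S13 project, stream (D): bridge between helper2's local analysis at `2` (`TwoSetting`, contracts
`SameBranchContract`, `NodeTorsionContract`) and helper6's component analysis of the split nodal
model `Wnode t₁ t₂ b`; final statements (D1), (D2).
-/
import Mathlib
import Fermat.Agent.Lib.S13.NodeWalk
import Fermat.Agent.Lib.S13.TwoFrey

set_option autoImplicit false

open WeierstrassCurve WeierstrassCurve.Affine

namespace Fermat.Agent.Lib.S13

section bridge

variable {L Γ₀ : Type*} [Field L] [DecidableEq L] [LinearOrderedCommGroupWithZero Γ₀]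
  (v : Valuation L Γ₀)

omit [DecidableEq L] in
/-- A curve in helper2's `TwoSetting` is a split nodal model. -/
theorem h6b_eq_wnode {W : WeierstrassCurve L} {t₁ t₂ : L} (hS : TwoSetting v W t₁ t₂) :
    W = Wnode t₁ t₂ W.a₄ := by
  ext
  · show W.a₁ = -(t₁ + t₂)
    rw [hS.a1, hS.hsum, neg_neg]
  · show W.a₂ = -(t₁ * t₂)
    rw [hS.hprod, neg_neg]
  · exact hS.a3
  · rfl
  · exact hS.a6

omit [DecidableEq L] in
theorem h6b_nodeSetting {W : WeierstrassCurve L} {t₁ t₂ : L} (hS : TwoSetting v W t₁ t₂) :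
    NodeSetting v t₁ t₂ W.a₄ :=
  ⟨h2t_v_delta hS, h2t_v_t_le_one hS, h2t_v_t_le_one hS.symm, hS.va4, hS.a4⟩

theorem h6b_sameBranch_of_eq (W : WeierstrassCurve L) (t₁ t₂ b : L) (hW : W = Wnode t₁ t₂ b)
    (hS : NodeSetting v t₁ t₂ b) : SameBranchStatement v W t₁ := by
  subst hW
  intro x₁ y₁ x₂ y₂ hP hQ hb h1 hx hA1 hA2
  have hb' : v b < v x₁ := hb
  have hPl : NPlus v t₁ t₂ b (Affine.Point.some x₁ y₁ hP) (v x₁) :=
    ⟨x₁, y₁, hP, rfl, ⟨hb', h1, hA1⟩, rfl⟩
  have hQl : NPlus v t₁ t₂ b (Affine.Point.some x₂ y₂ hQ) (v x₁) :=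
    ⟨x₂, y₂, hQ, rfl, ⟨by rw [hx]; exact hb', by rw [hx]; exact h1, hA2⟩, hx⟩
  exact h6_node_same_type hS (Or.inl ⟨hPl, hQl⟩)

theorem h6b_nodeTorsion_of_eq (W : WeierstrassCurve L) (t₁ t₂ b : L) (hW : W = Wnode t₁ t₂ b)
    (hS : NodeSetting v t₁ t₂ b) : NodeTorsionStatement v W := by
  subst hW
  intro x y h hb h1 n hn
  have hb' : v b < v x := hb
  have hP : NPlus v t₁ t₂ b (Affine.Point.some x y h) (v x) ∨
      NMinus v t₁ t₂ b (Affine.Point.some x y h) (v x) := by
    rcases h6n_branch_or hS ((h6n_equation_iff t₁ t₂ b x y).mp h.1) hb' h1 with hp | hm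
    · exact Or.inl ⟨x, y, h, rfl, hp, rfl⟩
    · exact Or.inr ⟨x, y, h, rfl, hm, rfl⟩
  obtain ⟨k, hk⟩ := h6_node_torsion hS hP n hn
  refine ⟨k, ?_⟩
  show v x ^ n = v b ^ (2 * k)
  rw [hk, zpow_mul, zpow_ofNat]

end bridge

/-- helper2's contract "same branch, same value", from the component analysis. -/
theorem h6_sameBranchContract : SameBranchContract := by
  intro L Γ₀ _ _ _ v W t₁ t₂ hS
  exact h6b_sameBranch_of_eq v W t₁ t₂ W.a₄ (h6b_eq_wnode v hS) (h6b_nodeSetting v hS)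

/-- helper2's contract (M1), from the component analysis. -/
theorem h6_nodeTorsionContract : NodeTorsionContract := by
  intro L Γ₀ _ _ _ v W t₁ t₂ hS
  exact h6b_nodeTorsion_of_eq v W t₁ t₂ W.a₄ (h6b_eq_wnode v hS) (h6b_nodeSetting v hS)

/-- **(D1)** once more (the name `h2_unipotentAtTwo` lives in `TwoSameBranch.lean`). -/
theorem h6_unipotentAtTwo : UnipotentAtTwoStatement :=
  h2f_unipotentAtTwo_of h6_sameBranchContract

/-- **(D2)**: the Frey curve has no rational point of order `p`. -/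
theorem h2_noFixedPoint : NoFixedPointStatement :=
  h2f_noFixedPoint_of h6_nodeTorsionContract

end Fermat.Agent.Lib.S13
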