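/-
S13 project, stream (D) "local analysis at 2" (architect: helper2): shared definitions.

NORMAL FORM.  Every Weierstrass curve `y² + a₁xy = x³ + a₂x² + a₄x` whose reduction has a node at
`(0,0)` with tangent slopes `t₁, t₂` (`t₁ + t₂ = -a₁`, `t₁ t₂ = -a₂`, `δ = t₁ - t₂` a unit) becomes,
after the integral change of variables `(x, y) = (δ² X, δ³ Y + δ² t₁ X)`, the curve

  `Nb b : Y² + XY = X³ + bX`,   `b = a₄ / δ⁴`,

whose tangent directions at the node are `Y = 0` ("plus" branch) and `Y = -X` ("minus" branch).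
ALL the local theory of stream (D) is developed for `Nb b` over a valued field `(L, v)` with
`v b < 1`, `b ≠ 0` -- no hypothesis on the residue characteristic.

A point `(x, y)` of `Nb b` is
* in the *kernel of reduction* if `1 < v x`, of *unit type* if `v x = 1`
  (*identity type* = kernel or unit type or `0`),
* *intermediate* if `v b < v x < 1`; then exactly one of `v y < v x` (*plus*),
  `v (y + x) < v x` (*minus*) holds,
* *near `T = (0,0)`* if `v x ≤ v b`.
-/
import Mathlib

set_option autoImplicit false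

namespace Fermat.Agent.Lib.S13

open WeierstrassCurve

/-- The curve `Y² + XY = X³ + bX`. -/
def Nb {L : Type*} [CommRing L] (b : L) : WeierstrassCurve L := ⟨1, 0, 0, b, 0⟩

section

variable {L : Type*} [Field L] {Γ₀ : Type*} [LinearOrderedCommGroupWithZero Γ₀]

/-- The standing hypotheses. -/
structure NbSetting (v : Valuation L Γ₀) (b : L) : Prop where
  vb : v b < 1
  b0 : b ≠ 0

variable (v : Valuation L Γ₀) (b : L)

/-- `(x, y)` is an intermediate point on the branch `Y ≈ 0`. -/
def NIsPlus (x y : L) : Prop := v b < v x ∧ v x < 1 ∧ v y < v x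

/-- `(x, y)` is an intermediate point on the branch `Y ≈ -X`. -/
def NIsMinus (x y : L) : Prop := v b < v x ∧ v x < 1 ∧ v (y + x) < v x

/-- `P` is `0` or has `1 < v x` (kernel of reduction). -/
def NPtKer (P : (Nb b).toAffine.Point) : Prop :=
  P = 0 ∨ ∃ (x y : L) (h : (Nb b).toAffine.Nonsingular x y), P = .some x y h ∧ 1 < v x

/-- `P` is affine with `v x = 1` (nonsingular reduction, not the origin). -/
def NPtUnit (P : (Nb b).toAffine.Point) : Prop :=
  ∃ (x y : L) (h : (Nb b).toAffine.Nonsingular x y), P = .some x y h ∧ v x = 1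

/-- `P` is `0` or has `1 ≤ v x` (identity component). -/
def NPtIdent (P : (Nb b).toAffine.Point) : Prop :=
  P = 0 ∨ ∃ (x y : L) (h : (Nb b).toAffine.Nonsingular x y), P = .some x y h ∧ 1 ≤ v x

/-- `P` is intermediate, on the plus branch, with `v x = g`. -/
def NPtPlus (P : (Nb b).toAffine.Point) (g : Γ₀) : Prop :=
  ∃ (x y : L) (h : (Nb b).toAffine.Nonsingular x y),
    P = .some x y h ∧ NIsPlus v b x y ∧ v x = g

/-- `P` is intermediate, on the minus branch, with `v x = g`. -/
def NPtMinus (P : (Nb b).toAffine.Point) (g : Γ₀) : Prop :=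
  ∃ (x y : L) (h : (Nb b).toAffine.Nonsingular x y),
    P = .some x y h ∧ NIsMinus v b x y ∧ v x = g

/-- `P` is affine with `v x ≤ v b` (this includes `T = (0, 0)`). -/
def NPtNearT (P : (Nb b).toAffine.Point) : Prop :=
  ∃ (x y : L) (h : (Nb b).toAffine.Nonsingular x y), P = .some x y h ∧ v x ≤ v b

variable [DecidableEq L]

/-- Interface (N-PP): plus + plus. -/
def NPlusPlus : Prop :=
  ∀ (P Q : (Nb b).toAffine.Point) (g₁ g₂ : Γ₀), NPtPlus v b P g₁ → NPtPlus v b Q g₂ →
    (v b < g₁ * g₂ → NPtPlus v b (P + Q) (g₁ * g₂)) ∧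
    (g₁ * g₂ < v b → NPtMinus v b (P + Q) (v b ^ 2 / (g₁ * g₂))) ∧
    (g₁ * g₂ = v b → NPtNearT v b (P + Q))

/-- Interface (N-MP): minus + plus. -/
def NMinusPlus : Prop :=
  ∀ (P Q : (Nb b).toAffine.Point) (g₁ g₂ : Γ₀), NPtMinus v b P g₁ → NPtPlus v b Q g₂ →
    (g₂ < g₁ → NPtPlus v b (P + Q) (g₂ / g₁)) ∧
    (g₁ < g₂ → NPtMinus v b (P + Q) (g₁ / g₂)) ∧
    (g₁ = g₂ → NPtIdent v b (P + Q))

/-- Interface (N-IP): identity type + plus. -/
def NIdentPlus : Prop :=
  ∀ (P Q : (Nb b).toAffine.Point) (g : Γ₀), NPtIdent v b P → NPtPlus v b Q g →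
    NPtPlus v b (P + Q) g

/-- Interface (N-K): the kernel of reduction is a subgroup without torsion prime to the residue
characteristic (only `v b ≤ 1` is needed). -/
def NKernel : Prop :=
  (∀ P Q : (Nb b).toAffine.Point, NPtKer v b P → NPtKer v b Q → NPtKer v b (P + Q)) ∧
  (∀ P : (Nb b).toAffine.Point, NPtKer v b P → NPtKer v b (-P)) ∧
  (∀ P : (Nb b).toAffine.Point, NPtKer v b P → ∀ n : ℕ, v (n : L) = 1 → n • P = 0 → P = 0)

end

end Fermat.Agent.Lib.S13
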