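/-
S13 project, stream (D) (helper2): direct proof of the contract `SameBranchContract`:
on `W : Y² + XY = X³ + a₂X² + a₄X`, two intermediate points on the same branch `Y ≈ t₁ X` through
the node with the same `v x` differ by a point of identity type (`1 ≤ v x`, or `0`).
-/
import Mathlib
import Fermat.Agent.Lib.S13.TwoFrey

set_option autoImplicit false

open WeierstrassCurve WeierstrassCurve.Affine

namespace Fermat.Agent.Lib.S13

theorem h2s_sameBranch : SameBranchContract := by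
  intro L Γ₀ _ _ _ v W t₁ t₂ hS x₁ y₁ x₂ y₂ hP hQ hb h1 hx hbr₁ hbr₂
  have hQ' : W.toAffine.Nonsingular x₂ (W.toAffine.negY x₂ y₂) :=
    (Affine.nonsingular_neg (W' := W.toAffine) x₂ y₂).mpr hQ
  have hnegQ : -Point.some x₂ y₂ hQ = Point.some x₂ (W.toAffine.negY x₂ y₂) hQ' :=
    Point.neg_some hQ
  have hnegY : W.toAffine.negY x₂ y₂ = -y₂ - x₂ := h2t_negY hS x₂ y₂
  have hδ : v (t₁ - t₂) = 1 := h2t_v_delta hS
  have hsum := hS.hsum
  have hprod := hS.hprod
  have hg0 : 0 < v x₁ := lt_of_le_of_lt zero_le hb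
  rw [hx] at hbr₂
  by_cases hxx : x₁ = x₂
  · subst hxx
    rcases Affine.Y_eq_of_X_eq hP.1 hQ.1 rfl with h | h
    · left
      subst h
      exact sub_self _
    · exfalso
      rw [hnegY] at h
      have e : (t₂ - t₁) * x₁ = (y₁ - t₁ * x₁) + (y₂ - t₁ * x₁) := by
        rw [h]; linear_combination x₁ * hsum
      have hlt : v ((t₂ - t₁) * x₁) < v x₁ := by
        rw [e]; exact v.map_add_lt hbr₁ hbr₂
      rw [map_mul, Valuation.map_sub_swap, hδ, one_mul] at hlt
      exact lt_irrefl _ hlt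
  · right
    have hxy : ¬ (x₁ = x₂ ∧ y₁ = W.toAffine.negY x₂ (W.toAffine.negY x₂ y₂)) := fun h => hxx h.1
    refine ⟨_, _, Affine.nonsingular_add hP hQ' hxy, ?_, ?_⟩
    · rw [sub_eq_add_neg, hnegQ]
      exact Point.add_of_X_ne hxx
    · set ℓ := W.toAffine.slope x₁ x₂ y₁ (W.toAffine.negY x₂ y₂) with hℓ
      have hd0 : x₁ - x₂ ≠ 0 := sub_ne_zero.mpr hxx
      have hsl : ℓ = (y₁ + y₂ + x₂) / (x₁ - x₂) := by
        rw [hℓ, Affine.slope_of_X_ne hxx, hnegY]
        congr 1; ring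
      set N₁ := (y₁ - t₁ * x₁) + (y₂ - t₁ * x₂) + (t₁ - t₂) * x₂ with hN₁
      set N₂ := (y₁ - t₁ * x₁) + (y₂ - t₁ * x₂) + (t₁ - t₂) * x₁ with hN₂
      have e₁ : ℓ - t₁ = N₁ / (x₁ - x₂) := by
        rw [hsl, hN₁]; field_simp; linear_combination x₂ * hsum
      have e₂ : ℓ - t₂ = N₂ / (x₁ - x₂) := by
        rw [hsl, hN₂]; field_simp; linear_combination x₂ * hsum
      have hvN₁ : v N₁ = v x₁ := by
        have hmain : v ((t₁ - t₂) * x₂) = v x₁ := by rw [map_mul, hδ, one_mul, hx]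
        have hsmall : v ((y₁ - t₁ * x₁) + (y₂ - t₁ * x₂)) < v ((t₁ - t₂) * x₂) := by
          rw [hmain]; exact v.map_add_lt hbr₁ hbr₂
        rw [hN₁, v.map_add_eq_of_lt_right hsmall, hmain]
      have hvN₂ : v N₂ = v x₁ := by
        have hmain : v ((t₁ - t₂) * x₁) = v x₁ := by rw [map_mul, hδ, one_mul]
        have hsmall : v ((y₁ - t₁ * x₁) + (y₂ - t₁ * x₂)) < v ((t₁ - t₂) * x₁) := by
          rw [hmain]; exact v.map_add_lt hbr₁ hbr₂
        rw [hN₂, v.map_add_eq_of_lt_right hsmall, hmain]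
      have hvd : v (x₁ - x₂) ≤ v x₁ := by
        have := v.map_sub x₁ x₂
        rw [hx, max_self] at this
        exact this
      have hdpos : 0 < v (x₁ - x₂) := v.pos_iff.mpr hd0
      have hE : 1 ≤ v ((ℓ - t₁) * (ℓ - t₂)) := by
        rw [e₁, e₂, map_mul, map_div₀, map_div₀, hvN₁, hvN₂]
        have h1' : 1 ≤ v x₁ / v (x₁ - x₂) := (one_le_div₀ hdpos).mpr hvd
        calc (1 : Γ₀) = 1 * 1 := (one_mul 1).symm
          _ ≤ v x₁ / v (x₁ - x₂) * (v x₁ / v (x₁ - x₂)) := mul_le_mul' h1' h1'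
      have hX : W.toAffine.addX x₁ x₂ ℓ = (ℓ - t₁) * (ℓ - t₂) - (x₁ + x₂) := by
        simp only [Affine.addX, hS.a1]
        linear_combination ℓ * hsum - hprod
      have hsmall : v (x₁ + x₂) < v ((ℓ - t₁) * (ℓ - t₂)) := by
        have : v (x₁ + x₂) ≤ v x₁ := by
          have := v.map_add x₁ x₂
          rw [hx, max_self] at this
          exact this
        exact lt_of_lt_of_le (lt_of_le_of_lt this h1) hE
      rw [hX, v.map_sub_eq_of_lt_left hsmall]
      exact hE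

/-- **(D1)**: inertia at `2` acts unipotently on the `p`-torsion of the Frey curve. -/
theorem h2_unipotentAtTwo : UnipotentAtTwoStatement := h2f_unipotentAtTwo_of h2s_sameBranch

end Fermat.Agent.Lib.S13
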