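import Mathlib

/-!
# Project S13 (T1): basic facts on the Weierstrass `℘`-function

Owner: helper1.

* `h1_hasDerivAt_wp`, `h1_hasDerivAt_dwp`: `℘' = ℘'`, `℘'' = 6 ℘² - g₂/2` off the lattice.
* `h1_elliptic_const`: an entire `Λ`-periodic function is constant (Liouville).
* `h1_ode_unique`: uniqueness of analytic solutions of `y'' = 6 y² - c`.
* `h1_sub_mem_of_eq`, `h1_wp_eq_iff`, `h1_wp_dwp_eq_iff`: `℘ z = ℘ w ↔ z ≡ ± w mod Λ`.
* `h1_dwp_eq_zero_iff`: the zeros of `℘'` are the half periods.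
* `h1_wp_surjective`: `℘` takes every value; `h1_disc_ne_zero`: `g₂³ - 27 g₃² ≠ 0`.
-/

set_option autoImplicit false

noncomputable section

namespace Fermat.Agent.Lib.S13

open Filter Topology PeriodPair

variable (L : PeriodPair)

theorem h1_isOpen_compl_lattice : IsOpen (L.lattice : Set ℂ)ᶜ := L.isClosed_lattice.isOpen_compl

theorem h1_hasDerivAt_wp {z : ℂ} (hz : z ∉ L.lattice) : HasDerivAt ℘[L] (℘'[L] z) z := by
  have hd : DifferentiableAt ℂ ℘[L] z :=
    (L.differentiableOn_weierstrassP z hz).differentiableAt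
      ((h1_isOpen_compl_lattice L).mem_nhds hz)
  have := hd.hasDerivAt
  rwa [L.deriv_weierstrassP] at this

theorem h1_differentiableAt_dwp {z : ℂ} (hz : z ∉ L.lattice) : DifferentiableAt ℂ ℘'[L] z :=
  (L.differentiableOn_derivWeierstrassP z hz).differentiableAt
    ((h1_isOpen_compl_lattice L).mem_nhds hz)

/-- Liouville: an entire `Λ`-periodic function is constant. -/
theorem h1_elliptic_const (f : ℂ → ℂ) (hf : Differentiable ℂ f)
    (hper : ∀ z, ∀ l ∈ L.lattice, f (z + l) = f z) (z : ℂ) : f z = f 0 :=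
  hf.apply_eq_apply_of_bounded
    (IsZLattice.isCompact_range_of_periodic L.lattice f hf.continuous
      (fun z w hw => hper z w hw)).isBounded z 0

/-- The complement of the lattice is connected. -/
theorem h1_isPreconnected_compl_lattice : IsPreconnected (L.lattice : Set ℂ)ᶜ := by
  have hc : (L.lattice : Set ℂ).Countable := by
    have : Countable L.lattice := by
      have e := L.latticeEquivProd
      exact Countable.of_equiv _ e.symm.toEquiv
    exact Set.countable_coe_iff.mp this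
  have hr : 1 < Module.rank ℝ ℂ := by
    rw [Complex.rank_real_complex]
    norm_num
  exact (hc.isConnected_compl_of_one_lt_rank hr).isPreconnected

/-- `℘` is unbounded near `0`. -/
theorem h1_exists_wp_large (R : ℝ) : ∃ z, z ∉ L.lattice ∧ R < ‖℘[L] z‖ := by
  have h1 := tendsto_cobounded_of_meromorphicOrderAt_neg
    (f := ℘[L]) (x := 0) (by rw [L.order_weierstrassP 0 (zero_mem _)]; decide)
  rw [← tendsto_norm_atTop_iff_cobounded] at h1
  have h2 : ∀ᶠ z in 𝓝[≠] (0 : ℂ), R < ‖℘[L] z‖ := h1.eventually_gt_atTop R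
  have h3 : ∀ᶠ z in 𝓝[≠] (0 : ℂ), z ∉ L.lattice := by
    have := L.compl_lattice_sdiff_singleton_mem_nhds 0
    filter_upwards [mem_nhdsWithin_of_mem_nhds this, self_mem_nhdsWithin] with z hz hz0
    intro hmem
    exact hz ⟨hmem, hz0⟩
  obtain ⟨z, hz1, hz2⟩ := (h2.and h3).exists
  exact ⟨z, hz2, hz1⟩

/-- `℘'` does not vanish identically near any point off the lattice. -/
theorem h1_dwp_not_eventually_zero {z₀ : ℂ} (hz₀ : z₀ ∉ L.lattice) :
    ¬ ∀ᶠ z in 𝓝 z₀, ℘'[L] z = 0 := by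
  intro h
  have h0 : Set.EqOn ℘'[L] 0 (L.lattice : Set ℂ)ᶜ :=
    L.analyticOnNhd_derivWeierstrassP.eqOn_zero_of_preconnected_of_eventuallyEq_zero
      (h1_isPreconnected_compl_lattice L) hz₀ h
  -- then `℘` takes values among the roots of the cubic, which are bounded
  set R : ℝ := 1 + ‖L.g₂‖ + ‖L.g₃‖ with hR
  obtain ⟨z, hz, hlarge⟩ := h1_exists_wp_large L R
  have hode := L.derivWeierstrassP_sq z hz
  have hz0 : ℘'[L] z = 0 := h0 hz
  rw [hz0] at hode
  set x := ℘[L] z with hx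
  have hx1 : 1 < ‖x‖ := by
    have : (0 : ℝ) ≤ ‖L.g₂‖ + ‖L.g₃‖ := by positivity
    linarith
  have e : 4 * x ^ 3 = L.g₂ * x + L.g₃ := by linear_combination -hode
  have hn : 4 * ‖x‖ ^ 3 ≤ ‖L.g₂‖ * ‖x‖ + ‖L.g₃‖ := by
    calc 4 * ‖x‖ ^ 3 = ‖4 * x ^ 3‖ := by simp
      _ = ‖L.g₂ * x + L.g₃‖ := by rw [e]
      _ ≤ ‖L.g₂ * x‖ + ‖L.g₃‖ := norm_add_le _ _
      _ = ‖L.g₂‖ * ‖x‖ + ‖L.g₃‖ := by rw [norm_mul]
  have h2 : ‖L.g₂‖ * ‖x‖ + ‖L.g₃‖ ≤ (‖L.g₂‖ + ‖L.g₃‖) * ‖x‖ := by
    have : ‖L.g₃‖ ≤ ‖L.g₃‖ * ‖x‖ := le_mul_of_one_le_right (norm_nonneg _) hx1.le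
    nlinarith
  have h3 : (‖L.g₂‖ + ‖L.g₃‖) * ‖x‖ < ‖x‖ * ‖x‖ := by
    have : ‖L.g₂‖ + ‖L.g₃‖ < ‖x‖ := by linarith
    have hpos : 0 < ‖x‖ := by linarith
    nlinarith
  have h4 : ‖x‖ * ‖x‖ ≤ 4 * ‖x‖ ^ 3 := by
    have hpos : 0 < ‖x‖ := by linarith
    nlinarith [mul_pos hpos hpos]
  linarith

/-- The derivative of the ODE: `2 ℘' ℘'' = (12 ℘² - g₂) ℘'`. -/
theorem h1_two_dwp_mul_deriv {z : ℂ} (hz : z ∉ L.lattice) :
    2 * ℘'[L] z * deriv ℘'[L] z = (12 * ℘[L] z ^ 2 - L.g₂) * ℘'[L] z := by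
  have h1 := h1_hasDerivAt_wp L hz
  have h2 := (h1_differentiableAt_dwp L hz).hasDerivAt
  have hF : HasDerivAt (fun w => ℘'[L] w ^ 2 - (4 * ℘[L] w ^ 3 - L.g₂ * ℘[L] w - L.g₃))
      (2 * ℘'[L] z ^ 1 * deriv ℘'[L] z
        - (4 * (3 * ℘[L] z ^ 2 * ℘'[L] z) - L.g₂ * ℘'[L] z - 0)) z := by
    have a := h2.pow 2
    have b := ((h1.pow 3).const_mul 4).sub (h1.const_mul L.g₂)
    have c := b.sub (hasDerivAt_const z L.g₃)
    exact a.sub c
  have h0 : (fun w => ℘'[L] w ^ 2 - (4 * ℘[L] w ^ 3 - L.g₂ * ℘[L] w - L.g₃)) =ᶠ[𝓝 z] fun _ => 0 := by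
    filter_upwards [(h1_isOpen_compl_lattice L).mem_nhds hz] with w hw
    rw [L.derivWeierstrassP_sq w hw]
    ring
  have h3 := hF.unique (h0.symm.hasDerivAt_iff.mp (hasDerivAt_const z (0 : ℂ)))
  linear_combination h3

/-- **The second order ODE**: `℘'' = 6 ℘² - g₂ / 2`. -/
theorem h1_hasDerivAt_dwp {z : ℂ} (hz : z ∉ L.lattice) :
    HasDerivAt ℘'[L] (6 * ℘[L] z ^ 2 - L.g₂ / 2) z := by
  have h2 := (h1_differentiableAt_dwp L hz).hasDerivAt
  suffices h : deriv ℘'[L] z = 6 * ℘[L] z ^ 2 - L.g₂ / 2 by rwa [h] at h2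
  have han : AnalyticAt ℂ ℘'[L] z := L.analyticOnNhd_derivWeierstrassP z hz
  have hne : ∀ᶠ w in 𝓝[≠] z, ℘'[L] w ≠ 0 :=
    han.eventually_eq_zero_or_eventually_ne_zero.resolve_left (h1_dwp_not_eventually_zero L hz)
  have hU : ∀ᶠ w in 𝓝[≠] z, w ∉ L.lattice :=
    mem_nhdsWithin_of_mem_nhds ((h1_isOpen_compl_lattice L).mem_nhds hz)
  have heq : ∀ᶠ w in 𝓝[≠] z, deriv ℘'[L] w = 6 * ℘[L] w ^ 2 - L.g₂ / 2 := by
    filter_upwards [hne, hU] with w hw1 hw2
    have := h1_two_dwp_mul_deriv L hw2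
    have h2' : (2 * ℘'[L] w) ≠ 0 := mul_ne_zero two_ne_zero hw1
    apply mul_left_cancel₀ h2'
    linear_combination this
  have hc1 : ContinuousAt (deriv ℘'[L]) z := han.deriv.continuousAt
  have hc2 : ContinuousAt (fun w => 6 * ℘[L] w ^ 2 - L.g₂ / 2) z := by
    have : ContinuousAt ℘[L] z := (h1_hasDerivAt_wp L hz).continuousAt
    fun_prop
  have t1 : Tendsto (deriv ℘'[L]) (𝓝[≠] z) (𝓝 (deriv ℘'[L] z)) :=
    hc1.tendsto.mono_left nhdsWithin_le_nhds
  have t2 : Tendsto (fun w => 6 * ℘[L] w ^ 2 - L.g₂ / 2) (𝓝[≠] z)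
      (𝓝 (6 * ℘[L] z ^ 2 - L.g₂ / 2)) := hc2.tendsto.mono_left nhdsWithin_le_nhds
  exact tendsto_nhds_unique (t1.congr' heq) t2

/-- Analyticity from eventual differentiability. -/
theorem h1_analyticAt_of_eventually_hasDerivAt {f f' : ℂ → ℂ} {z₀ : ℂ}
    (hf : ∀ᶠ u in 𝓝 z₀, HasDerivAt f (f' u) u) : AnalyticAt ℂ f z₀ := by
  obtain ⟨s, hs, hso, hz⟩ := eventually_nhds_iff.mp hf
  have hd : DifferentiableOn ℂ f s := fun u hu => (hs u hu).differentiableAt.differentiableWithinAt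
  exact hd.analyticAt (hso.mem_nhds hz)

/-- **Uniqueness for the ODE `y'' = 6 y² - c`** (analytic solutions, same initial data). -/
theorem h1_ode_unique {f f' g g' : ℂ → ℂ} {c z₀ : ℂ}
    (hf1 : ∀ᶠ u in 𝓝 z₀, HasDerivAt f (f' u) u)
    (hf2 : ∀ᶠ u in 𝓝 z₀, HasDerivAt f' (6 * f u ^ 2 - c) u)
    (hg1 : ∀ᶠ u in 𝓝 z₀, HasDerivAt g (g' u) u)
    (hg2 : ∀ᶠ u in 𝓝 z₀, HasDerivAt g' (6 * g u ^ 2 - c) u)
    (h0 : f z₀ = g z₀) (h1 : f' z₀ = g' z₀) : f =ᶠ[𝓝 z₀] g := by
  have hfa : AnalyticAt ℂ f z₀ := h1_analyticAt_of_eventually_hasDerivAt hf1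
  have hga : AnalyticAt ℂ g z₀ := h1_analyticAt_of_eventually_hasDerivAt hg1
  have hf'a : AnalyticAt ℂ f' z₀ := h1_analyticAt_of_eventually_hasDerivAt hf2
  have hg'a : AnalyticAt ℂ g' z₀ := h1_analyticAt_of_eventually_hasDerivAt hg2
  set h : ℂ → ℂ := fun u => f u - g u with hh
  set h' : ℂ → ℂ := fun u => f' u - g' u with hh'
  have hha : AnalyticAt ℂ h z₀ := hfa.sub hga
  have hh'a : AnalyticAt ℂ h' z₀ := hf'a.sub hg'a
  have hd1 : deriv h =ᶠ[𝓝 z₀] h' := by
    filter_upwards [hf1, hg1] with u hu1 hu2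
    exact (hu1.sub hu2).deriv
  have hd2 : deriv h' =ᶠ[𝓝 z₀] fun u => (6 * (f u + g u)) * h u := by
    filter_upwards [hf2, hg2] with u hu1 hu2
    have e : deriv h' u = (6 * f u ^ 2 - c) - (6 * g u ^ 2 - c) := (hu1.sub hu2).deriv
    rw [e]
    simp only [hh]
    ring
  have hz0 : h z₀ = 0 := by simp [hh, h0]
  have hz1 : h' z₀ = 0 := by simp [hh', h1]
  -- orders
  have o1 : analyticOrderAt (deriv h) z₀ + 1 = analyticOrderAt h z₀ := by
    have := hha.analyticOrderAt_deriv_add_one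
    simpa [hz0] using this
  have o1' : analyticOrderAt h' z₀ + 1 = analyticOrderAt h z₀ := by
    rw [← analyticOrderAt_congr hd1]; exact o1
  have o2 : analyticOrderAt (deriv h') z₀ + 1 = analyticOrderAt h' z₀ := by
    have := hh'a.analyticOrderAt_deriv_add_one
    simpa [hz1] using this
  have o3 : analyticOrderAt (deriv h') z₀
      = analyticOrderAt (fun u => 6 * (f u + g u)) z₀ + analyticOrderAt h z₀ := by
    rw [analyticOrderAt_congr hd2]
    exact analyticOrderAt_mul ((analyticAt_const.mul (hfa.add hga))) hha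
  have htop : analyticOrderAt h z₀ = ⊤ := by
    by_contra hne
    obtain ⟨n, hn⟩ := ENat.ne_top_iff_exists.mp hne
    rw [← hn] at o1' o3
    rw [o3] at o2
    rw [← o2] at o1'
    generalize analyticOrderAt (fun u => 6 * (f u + g u)) z₀ = a at o1'
    cases a with
    | top => simp at o1'
    | coe m =>
      have : ((m + n + 1 + 1 : ℕ) : ℕ∞) = (n : ℕ∞) := by
        push_cast
        exact o1'
      have := ENat.natCast_inj.mp this
      omega
  have := analyticOrderAt_eq_top.mp htop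
  filter_upwards [this] with u hu
  simpa [hh, sub_eq_zero] using hu


/-- `℘` blows up at every lattice point (shifted form). -/
theorem h1_tendsto_wp_shift (w : ℂ) :
    Tendsto (fun u => ‖℘[L] (u + w)‖) (𝓝[≠] (-w)) atTop := by
  have h1 := tendsto_cobounded_of_meromorphicOrderAt_neg
    (f := ℘[L]) (x := 0) (by rw [L.order_weierstrassP 0 (zero_mem _)]; decide)
  rw [← tendsto_norm_atTop_iff_cobounded] at h1
  have h2 : Tendsto (fun u : ℂ => u + w) (𝓝[≠] (-w)) (𝓝[≠] 0) := by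
    refine tendsto_nhdsWithin_of_tendsto_nhds_of_eventually_within _ ?_ ?_
    · have : Tendsto (fun u : ℂ => u + w) (𝓝 (-w)) (𝓝 (-w + w)) :=
        (continuous_id.add continuous_const).tendsto _
      rw [neg_add_cancel] at this
      exact this.mono_left nhdsWithin_le_nhds
    · filter_upwards [self_mem_nhdsWithin] with u hu
      intro h0
      apply hu
      have : u + w = 0 := h0
      show u = -w
      linear_combination this
  exact h1.comp h2

/-- **Key injectivity statement**: equal values of `℘` and `℘'` force congruence mod `Λ`. -/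
theorem h1_sub_mem_of_eq {z₀ w : ℂ} (hz₀ : z₀ ∉ L.lattice) (hw : w ∉ L.lattice)
    (h1 : ℘[L] z₀ = ℘[L] w) (h2 : ℘'[L] z₀ = ℘'[L] w) : z₀ - w ∈ L.lattice := by
  by_contra hzw
  -- the two shifted functions agree near `0`
  have hU : ∀ a : ℂ, a ∉ L.lattice → ∀ᶠ u in 𝓝 (0 : ℂ), u + a ∉ L.lattice := by
    intro a ha
    have hc : ContinuousAt (fun u : ℂ => u + a) 0 := (continuous_id.add continuous_const).continuousAt
    have : (L.lattice : Set ℂ)ᶜ ∈ 𝓝 ((fun u : ℂ => u + a) 0) := by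
      simpa using (h1_isOpen_compl_lattice L).mem_nhds ha
    exact hc this
  have hloc : (fun u => ℘[L] (u + z₀)) =ᶠ[𝓝 0] fun u => ℘[L] (u + w) := by
    refine h1_ode_unique (f' := fun u => ℘'[L] (u + z₀)) (g' := fun u => ℘'[L] (u + w))
      (c := L.g₂ / 2) ?_ ?_ ?_ ?_ (by simpa using h1) (by simpa using h2)
    · filter_upwards [hU z₀ hz₀] with u hu
      exact (h1_hasDerivAt_wp L hu).comp_add_const u z₀
    · filter_upwards [hU z₀ hz₀] with u hu
      exact (h1_hasDerivAt_dwp L hu).comp_add_const u z₀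
    · filter_upwards [hU w hw] with u hu
      exact (h1_hasDerivAt_wp L hu).comp_add_const u w
    · filter_upwards [hU w hw] with u hu
      exact (h1_hasDerivAt_dwp L hu).comp_add_const u w
  -- propagate to the connected set `V`
  set V : Set ℂ := {u | u + z₀ ∉ L.lattice ∧ u + w ∉ L.lattice} with hV
  have hVc : Vᶜ.Countable := by
    have hc : (L.lattice : Set ℂ).Countable := by
      have : Countable L.lattice := Countable.of_equiv _ L.latticeEquivProd.symm.toEquiv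
      exact Set.countable_coe_iff.mp this
    have : Vᶜ ⊆ (fun l => l - z₀) '' (L.lattice : Set ℂ) ∪ (fun l => l - w) '' (L.lattice : Set ℂ) := by
      intro u hu
      simp only [hV, Set.mem_compl_iff, Set.mem_ofPred_eq, not_and_or, not_not] at hu
      rcases hu with hu | hu
      · exact Or.inl ⟨u + z₀, hu, by ring⟩
      · exact Or.inr ⟨u + w, hu, by ring⟩
    exact ((hc.image _).union (hc.image _)).mono this
  have hVpre : IsPreconnected V := by
    have hr : 1 < Module.rank ℝ ℂ := by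
      rw [Complex.rank_real_complex]; norm_num
    have := (hVc.isConnected_compl_of_one_lt_rank hr).isPreconnected
    rwa [compl_compl] at this
  have h0V : (0 : ℂ) ∈ V := by simp [hV, hz₀, hw]
  have hfan : AnalyticOnNhd ℂ (fun u => ℘[L] (u + z₀)) V := by
    intro u hu
    have : AnalyticAt ℂ ℘[L] (u + z₀) := L.analyticOnNhd_weierstrassP _ hu.1
    exact this.comp (f := fun u : ℂ => u + z₀) (by fun_prop)
  have hgan : AnalyticOnNhd ℂ (fun u => ℘[L] (u + w)) V := by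
    intro u hu
    have : AnalyticAt ℂ ℘[L] (u + w) := L.analyticOnNhd_weierstrassP _ hu.2
    exact this.comp (f := fun u : ℂ => u + w) (by fun_prop)
  have hEq : Set.EqOn (fun u => ℘[L] (u + z₀)) (fun u => ℘[L] (u + w)) V :=
    hfan.eqOn_of_preconnected_of_eventuallyEq hgan hVpre h0V hloc
  -- contradiction at `u₀ = -w`
  have hz' : -w + z₀ ∉ L.lattice := by
    have : -w + z₀ = z₀ - w := by ring
    rwa [this]
  have hcont : ContinuousAt (fun u => ℘[L] (u + z₀)) (-w) := by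
    have : ContinuousAt ℘[L] (-w + z₀) := (h1_hasDerivAt_wp L hz').continuousAt
    exact this.comp (f := fun u : ℂ => u + z₀) (by fun_prop)
  have hVnear : ∀ᶠ u in 𝓝[≠] (-w), u ∈ V := by
    have hA : ∀ᶠ u in 𝓝 (-w), u + z₀ ∉ L.lattice := by
      have hc : ContinuousAt (fun u : ℂ => u + z₀) (-w) := by fun_prop
      exact hc ((h1_isOpen_compl_lattice L).mem_nhds hz')
    have hB : ∀ᶠ u in 𝓝 (-w), u + w ∈ ((L.lattice : Set ℂ) \ {0})ᶜ := by
      have hc : ContinuousAt (fun u : ℂ => u + w) (-w) := by fun_prop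
      have h0 : ((fun u : ℂ => u + w) (-w)) = 0 := by simp
      have : ((L.lattice : Set ℂ) \ {0})ᶜ ∈ 𝓝 ((fun u : ℂ => u + w) (-w)) := by
        rw [h0]
        exact L.compl_lattice_sdiff_singleton_mem_nhds 0
      exact hc this
    filter_upwards [mem_nhdsWithin_of_mem_nhds hA, mem_nhdsWithin_of_mem_nhds hB,
      self_mem_nhdsWithin] with u hu1 hu2 hu3
    refine ⟨hu1, fun hmem => hu2 ⟨hmem, ?_⟩⟩
    intro h0
    apply hu3
    have : u + w = 0 := h0
    show u = -w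
    linear_combination this
  have ht1 : Tendsto (fun u => ‖℘[L] (u + z₀)‖) (𝓝[≠] (-w)) atTop := by
    refine (h1_tendsto_wp_shift L w).congr' ?_
    filter_upwards [hVnear] with u hu
    have := hEq hu
    simp only at this
    rw [this]
  have ht2 : Tendsto (fun u => ‖℘[L] (u + z₀)‖) (𝓝[≠] (-w)) (𝓝 ‖℘[L] (-w + z₀)‖) :=
    (hcont.norm.tendsto).mono_left nhdsWithin_le_nhds
  exact not_tendsto_atTop_of_tendsto_nhds ht2 ht1


theorem h1_neg_notMem {w : ℂ} (hw : w ∉ L.lattice) : -w ∉ L.lattice := fun h => hw (by simpa using neg_mem h)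

/-- **(T2)** `℘ z = ℘ w ↔ z ≡ ± w`. -/
theorem h1_wp_eq_iff {z w : ℂ} (hz : z ∉ L.lattice) (hw : w ∉ L.lattice) :
    ℘[L] z = ℘[L] w ↔ z - w ∈ L.lattice ∨ z + w ∈ L.lattice := by
  constructor
  · intro h
    have e1 := L.derivWeierstrassP_sq z hz
    have e2 := L.derivWeierstrassP_sq w hw
    have hsq : ℘'[L] z ^ 2 = ℘'[L] w ^ 2 := by rw [e1, e2, h]
    rcases sq_eq_sq_iff_eq_or_eq_neg.mp hsq with h2 | h2
    · exact Or.inl (h1_sub_mem_of_eq L hz hw h h2)
    · right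
      have := h1_sub_mem_of_eq L hz (h1_neg_notMem L hw)
        (by rw [L.weierstrassP_neg]; exact h) (by rw [L.derivWeierstrassP_neg]; exact h2)
      simpa [sub_neg_eq_add] using this
  · rintro (h | h)
    · have : z = w + (⟨z - w, h⟩ : L.lattice) := by simp
      rw [this, L.weierstrassP_add_coe]
    · have : z = -w + (⟨z + w, h⟩ : L.lattice) := by simp
      rw [this, L.weierstrassP_add_coe, L.weierstrassP_neg]

/-- Equal values of `℘` and `℘'` iff congruent. -/
theorem h1_wp_dwp_eq_iff {z w : ℂ} (hz : z ∉ L.lattice) (hw : w ∉ L.lattice) :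
    (℘[L] z = ℘[L] w ∧ ℘'[L] z = ℘'[L] w) ↔ z - w ∈ L.lattice := by
  constructor
  · rintro ⟨h1, h2⟩
    exact h1_sub_mem_of_eq L hz hw h1 h2
  · intro h
    have : z = w + (⟨z - w, h⟩ : L.lattice) := by simp
    rw [this, L.weierstrassP_add_coe, L.derivWeierstrassP_add_coe]
    exact ⟨rfl, rfl⟩

/-- The zeros of `℘'` are the half periods. -/
theorem h1_dwp_eq_zero_iff {z : ℂ} (hz : z ∉ L.lattice) : ℘'[L] z = 0 ↔ 2 * z ∈ L.lattice := by
  constructor
  · intro h
    have := h1_sub_mem_of_eq L hz (h1_neg_notMem L hz) (by rw [L.weierstrassP_neg])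
      (by rw [L.derivWeierstrassP_neg, h, neg_zero])
    have e : z - -z = 2 * z := by ring
    rwa [e] at this
  · intro h
    have e : z = -z + (⟨2 * z, h⟩ : L.lattice) := by simp; ring
    have h1 : ℘'[L] z = ℘'[L] (-z) := by
      conv_lhs => rw [e]
      rw [L.derivWeierstrassP_add_coe]
    rw [L.derivWeierstrassP_neg] at h1
    have h2 : (2 : ℂ) * ℘'[L] z = 0 := by linear_combination h1
    exact (mul_eq_zero.mp h2).resolve_left two_ne_zero



/-- `℘` blows up at every lattice point. -/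
theorem h1_tendsto_wp_lattice {l : ℂ} (hl : l ∈ L.lattice) :
    Tendsto (fun u => ‖℘[L] u‖) (𝓝[≠] l) atTop := by
  have h := h1_tendsto_wp_shift L (-l)
  rw [neg_neg] at h
  refine h.congr fun u => ?_
  have : u + -l = u - (⟨l, hl⟩ : L.lattice) := by simp [sub_eq_add_neg]
  rw [this, L.weierstrassP_sub_coe]

/-- **`℘` is surjective.** -/
theorem h1_wp_surjective (c : ℂ) : ∃ z, z ∉ L.lattice ∧ ℘[L] z = c := by
  by_contra hcon
  push Not at hcon
  classical
  set f : ℂ → ℂ := fun z => if z ∈ L.lattice then 0 else (℘[L] z - c)⁻¹ with hf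
  have hfU : ∀ z, z ∉ L.lattice → f z = (℘[L] z - c)⁻¹ := fun z hz => by simp [hf, hz]
  have hdiffU : ∀ z, z ∉ L.lattice → DifferentiableAt ℂ f z := by
    intro z hz
    have h1 : DifferentiableAt ℂ (fun w => (℘[L] w - c)⁻¹) z :=
      (((h1_hasDerivAt_wp L hz).differentiableAt).sub_const c).inv (sub_ne_zero.mpr (hcon z hz))
    refine h1.congr_of_eventuallyEq ?_
    filter_upwards [(h1_isOpen_compl_lattice L).mem_nhds hz] with w hw
    exact hfU w hw
  have hdiff : Differentiable ℂ f := by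
    intro z
    by_cases hz : z ∈ L.lattice
    · -- removable singularity
      have hs : ((L.lattice : Set ℂ) \ {z})ᶜ ∈ 𝓝 z := L.compl_lattice_sdiff_singleton_mem_nhds z
      have hd : DifferentiableOn ℂ f (((L.lattice : Set ℂ) \ {z})ᶜ \ {z}) := by
        intro w hw
        have hwU : w ∉ L.lattice := fun hmem => hw.1 ⟨hmem, hw.2⟩
        exact (hdiffU w hwU).differentiableWithinAt
      have hc : ContinuousAt f z := by
        rw [← continuousWithinAt_compl_self]
        have hfz : f z = 0 := by simp [hf, hz]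
        show Tendsto f (𝓝[{z}ᶜ] z) (𝓝 (f z))
        rw [hfz]
        have h1 := h1_tendsto_wp_lattice L hz
        have h2 : Tendsto (fun u => ‖℘[L] u - c‖) (𝓝[≠] z) atTop := by
          refine tendsto_atTop_mono (fun u => ?_) (tendsto_atTop_add_const_right _ (-‖c‖) h1)
          have := norm_sub_norm_le (℘[L] u) c
          linarith
        have h3 : Tendsto (fun u => (℘[L] u - c)⁻¹) (𝓝[≠] z) (𝓝 0) := by
          exact tendsto_inv₀_cobounded.comp (tendsto_norm_atTop_iff_cobounded.mp h2)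
        refine h3.congr' ?_
        have hU : ∀ᶠ u in 𝓝[≠] z, u ∉ L.lattice := by
          filter_upwards [mem_nhdsWithin_of_mem_nhds hs, self_mem_nhdsWithin] with u hu hu0
          exact fun hmem => hu ⟨hmem, hu0⟩
        filter_upwards [hU] with u hu
        exact (hfU u hu).symm
      exact ((Complex.differentiableOn_compl_singleton_and_continuousAt_iff hs).mp
        ⟨hd, hc⟩).differentiableAt hs
    · exact hdiffU z hz
  have hper : ∀ z, ∀ l ∈ L.lattice, f (z + l) = f z := by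
    intro z l hl
    have hiff : z + l ∈ L.lattice ↔ z ∈ L.lattice :=
      ⟨fun h => by simpa using sub_mem h hl, fun h => add_mem h hl⟩
    by_cases hz : z ∈ L.lattice
    · simp [hf, hz, hiff.mpr hz]
    · have hz' : z + l ∉ L.lattice := fun h => hz (hiff.mp h)
      rw [hfU _ hz', hfU _ hz]
      have : z + l = z + (⟨l, hl⟩ : L.lattice) := rfl
      rw [this, L.weierstrassP_add_coe]
  have hconst := h1_elliptic_const L f hdiff hper
  have h0 : f 0 = 0 := by simp [hf]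
  have hz := L.ω₁_div_two_notMem_lattice
  have := hconst (L.ω₁ / 2)
  rw [h0, hfU _ hz, inv_eq_zero, sub_eq_zero] at this
  exact hcon _ hz this


/-- A cubic `4x³ - g₂ x - g₃` with three distinct roots has non-zero discriminant. -/
theorem h1_disc_ne_zero_of_roots {g₂ g₃ a b c : ℂ} (hab : a ≠ b) (hac : a ≠ c) (hbc : b ≠ c)
    (ha : 4 * a ^ 3 - g₂ * a - g₃ = 0) (hb : 4 * b ^ 3 - g₂ * b - g₃ = 0)
    (hc : 4 * c ^ 3 - g₂ * c - g₃ = 0) : g₂ ^ 3 - 27 * g₃ ^ 2 ≠ 0 := by
  have h1 : g₂ = 4 * (a ^ 2 + a * b + b ^ 2) := by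
    have : (a - b) * (4 * (a ^ 2 + a * b + b ^ 2) - g₂) = 0 := by linear_combination ha - hb
    rcases mul_eq_zero.mp this with h | h
    · exact absurd (sub_eq_zero.mp h) hab
    · linear_combination -h
  have h2 : g₂ = 4 * (a ^ 2 + a * c + c ^ 2) := by
    have : (a - c) * (4 * (a ^ 2 + a * c + c ^ 2) - g₂) = 0 := by linear_combination ha - hc
    rcases mul_eq_zero.mp this with h | h
    · exact absurd (sub_eq_zero.mp h) hac
    · linear_combination -h
  have h3 : c = -a - b := by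
    have : (b - c) * (a + b + c) = 0 := by linear_combination (-1 / 4 : ℂ) * (h1 - h2)
    rcases mul_eq_zero.mp this with h | h
    · exact absurd (sub_eq_zero.mp h) hbc
    · linear_combination h
  have h4 : g₃ = 4 * a ^ 3 - g₂ * a := by linear_combination -ha
  have key : g₂ ^ 3 - 27 * g₃ ^ 2 = 16 * (a - b) ^ 2 * (a - c) ^ 2 * (b - c) ^ 2 := by
    rw [h4, h1, h3]; ring
  rw [key]
  have e1 : a - b ≠ 0 := sub_ne_zero.mpr hab
  have e2 : a - c ≠ 0 := sub_ne_zero.mpr hac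
  have e3 : b - c ≠ 0 := sub_ne_zero.mpr hbc
  exact mul_ne_zero (mul_ne_zero (mul_ne_zero (by norm_num) (pow_ne_zero 2 e1))
    (pow_ne_zero 2 e2)) (pow_ne_zero 2 e3)

theorem h1_half_notMem (α β : ℚ) (h : ¬ (α.den = 1 ∧ β.den = 1)) :
    (α : ℂ) * L.ω₁ + (β : ℂ) * L.ω₂ ∉ L.lattice := fun hmem =>
  h (PeriodPair.mul_ω₁_add_mul_ω₂_mem_lattice.mp hmem)

theorem h1_notMem_of_eq (α β : ℚ) (h : ¬ (α.den = 1 ∧ β.den = 1)) {x : ℂ}
    (hx : x = (α : ℂ) * L.ω₁ + (β : ℂ) * L.ω₂) : x ∉ L.lattice := by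
  rw [hx]; exact h1_half_notMem L α β h

/-- **The discriminant of a lattice is non-zero.** -/
theorem h1_disc_ne_zero : L.g₂ ^ 3 - 27 * L.g₃ ^ 2 ≠ 0 := by
  set h₁ : ℂ := L.ω₁ / 2 with hh₁
  set h₂ : ℂ := L.ω₂ / 2 with hh₂
  set h₃ : ℂ := L.ω₁ / 2 + L.ω₂ / 2 with hh₃
  have hden : (1 / 2 : ℚ).den ≠ 1 := by norm_num
  have n1 : h₁ ∉ L.lattice := L.ω₁_div_two_notMem_lattice
  have n2 : h₂ ∉ L.lattice := L.ω₂_div_two_notMem_lattice
  have n3 : h₃ ∉ L.lattice := by
    have := h1_half_notMem L (1 / 2) (1 / 2) (fun h => hden h.1)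
    have e : h₃ = ((1 / 2 : ℚ) : ℂ) * L.ω₁ + ((1 / 2 : ℚ) : ℂ) * L.ω₂ := by
      simp only [hh₃]; push_cast; ring
    rw [e]; exact this
  have m1 : 2 * h₁ ∈ L.lattice := by
    have : 2 * h₁ = L.ω₁ := by simp only [hh₁]; ring
    rw [this]; exact L.ω₁_mem_lattice
  have m2 : 2 * h₂ ∈ L.lattice := by
    have : 2 * h₂ = L.ω₂ := by simp only [hh₂]; ring
    rw [this]; exact L.ω₂_mem_lattice
  have m3 : 2 * h₃ ∈ L.lattice := by
    have : 2 * h₃ = L.ω₁ + L.ω₂ := by simp only [hh₃]; ring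
    rw [this]; exact add_mem L.ω₁_mem_lattice L.ω₂_mem_lattice
  have root : ∀ h : ℂ, h ∉ L.lattice → 2 * h ∈ L.lattice →
      4 * ℘[L] h ^ 3 - L.g₂ * ℘[L] h - L.g₃ = 0 := by
    intro h hn hm
    have h0 := (h1_dwp_eq_zero_iff L hn).mpr hm
    have := L.derivWeierstrassP_sq h hn
    rw [h0] at this
    linear_combination -this
  -- distinctness
  have d12 : ℘[L] h₁ ≠ ℘[L] h₂ := by
    intro h
    rcases (h1_wp_eq_iff L n1 n2).mp h with h | h
    · exact h1_notMem_of_eq L (1 / 2) (-1 / 2) (fun h => hden h.1)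
        (by simp only [hh₁, hh₂]; push_cast; ring) h
    · exact h1_notMem_of_eq L (1 / 2) (1 / 2) (fun h => hden h.1)
        (by simp only [hh₁, hh₂]; push_cast; ring) h
  have d13 : ℘[L] h₁ ≠ ℘[L] h₃ := by
    intro h
    rcases (h1_wp_eq_iff L n1 n3).mp h with h | h
    · exact h1_notMem_of_eq L 0 (-1 / 2) (fun h => by
        have := h.2; norm_num at this)
        (by simp only [hh₁, hh₃]; push_cast; ring) h
    · exact h1_notMem_of_eq L 1 (1 / 2) (fun h => hden h.2)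
        (by simp only [hh₁, hh₃]; push_cast; ring) h
  have d23 : ℘[L] h₂ ≠ ℘[L] h₃ := by
    intro h
    rcases (h1_wp_eq_iff L n2 n3).mp h with h | h
    · exact h1_notMem_of_eq L (-1 / 2) 0 (fun h => by
        have := h.1; norm_num at this)
        (by simp only [hh₂, hh₃]; push_cast; ring) h
    · exact h1_notMem_of_eq L (1 / 2) 1 (fun h => hden h.1)
        (by simp only [hh₂, hh₃]; push_cast; ring) h
  exact h1_disc_ne_zero_of_roots d12 d13 d23 (root h₁ n1 m1) (root h₂ n2 m2) (root h₃ n3 m3)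

end Fermat.Agent.Lib.S13
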